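import Fermat.Prelude.Def_GaloisRep_ModThreeCyclotomic
import Fermat.Agent.Gal.Basic
import Fermat.Agent.ResidualThree.Asai.Eis

/-!
# The ring of integers of `ℚ(√-3)` inside `ℚ̄`

The subfield of `ℚ̄` fixed by the kernel of the mod three cyclotomic character is `ℚ(ζ₃)`.  The
structure `EisField` records the identification of its integers with `ℤ[ω]`, compatibly with its
complex embedding and its unique infinite place; `exists_eisField` constructs it.
-/

noncomputable section

open NumberField IntermediateField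

namespace Fermat.Agent.ResidualThree.BianchiForm

local notation "Qbar" => AlgebraicClosure ℚ
local notation "Γℚ" => (AlgebraicClosure ℚ ≃ₐ[ℚ] AlgebraicClosure ℚ)

/-- The ring of integers of `K` is `ℤ[ω]`, compatibly with the unique complex place. -/
structure EisField (K : IntermediateField ℚ Qbar) [NumberField K] where
  /-- the place -/
  place : InfinitePlace K
  unique : ∀ w : InfinitePlace K, w = place
  /-- the identification -/
  e : EisRing ≃+* 𝓞 K
  embed : ∀ x, place.embedding ((e x : 𝓞 K) : K) = EisRing.emb x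
  finrank : Module.finrank ℚ K = 2

theorem chi_eq_one_iff {ζ : Qbar} (hζ : IsPrimitiveRoot ζ 3) (σ : Γℚ) :
    WeierstrassCurve.modThreeCyclotomicChar σ = 1 ↔ σ ζ = ζ := by
  have h3 : (hζ.isUnit (by norm_num)).unit ∈ rootsOfUnity 3 Qbar := by
    rw [mem_rootsOfUnity, Units.ext_iff]
    simpa using hζ.pow_eq_one
  have hspec :
      σ ζ = ζ ^ ((WeierstrassCurve.modThreeCyclotomicChar σ : (ZMod 3)ˣ) : ZMod 3).val := by
    have h := modularCyclotomicCharacter.spec (L := Qbar) (n := 3)
      (IsAlgClosed.card_rootsOfUnity_eq Qbar 3) (σ : Qbar ≃+* Qbar) h3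
    simpa using h
  constructor
  · intro h; rw [hspec, h]; simp [ZMod.val_one]
  · intro h
    rw [hspec] at h
    have h1 : ((WeierstrassCurve.modThreeCyclotomicChar σ : (ZMod 3)ˣ) : ZMod 3).val = 1 :=
      hζ.pow_inj (ZMod.val_lt _) (by norm_num) (h.trans (pow_one ζ).symm)
    refine Units.ext (ZMod.val_injective 3 ?_)
    rw [h1]; rfl

theorem eq_adjoin {K : IntermediateField ℚ Qbar}
    (hK : ∀ σ : Γℚ, σ ∈ K.fixingSubgroup ↔ WeierstrassCurve.modThreeCyclotomicChar σ = 1)
    {ζ : Qbar} (hζ : IsPrimitiveRoot ζ 3) : K = ℚ⟮ζ⟯ := by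
  rw [← InfiniteGalois.fixedField_fixingSubgroup K,
    ← InfiniteGalois.fixedField_fixingSubgroup ℚ⟮ζ⟯]
  congr 1
  ext σ
  rw [hK, chi_eq_one_iff hζ]
  constructor
  · intro h
    have hle : ℚ⟮ζ⟯ ≤ IntermediateField.fixedField (Subgroup.zpowers σ) := by
      rw [IntermediateField.adjoin_simple_le_iff]
      rintro ⟨τ, hτ⟩
      obtain ⟨n, rfl⟩ := Subgroup.mem_zpowers_iff.mp hτ
      show (σ ^ n) ζ = ζ
      exact Subgroup.zpow_mem (MulAction.stabilizer Γℚ ζ) h n
    rw [IntermediateField.mem_fixingSubgroup_iff]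
    exact fun x hx => hle hx ⟨σ, Subgroup.mem_zpowers σ⟩
  · intro h
    exact (IntermediateField.mem_fixingSubgroup_iff _ _).mp h ζ (mem_adjoin_simple_self ℚ ζ)

/-- The fixed field of the mod three cyclotomic kernel is `ℚ(√-3)`. -/
theorem exists_eisField (K : IntermediateField ℚ Qbar) [NumberField K]
    (hK : ∀ σ : Γℚ, σ ∈ K.fixingSubgroup ↔ WeierstrassCurve.modThreeCyclotomicChar σ = 1) :
    Nonempty (EisField K) := by
  obtain ⟨ζ0, hζ0⟩ := HasEnoughRootsOfUnity.exists_primitiveRoot Qbar 3
  have hKeq := eq_adjoin hK hζ0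
  have hcyc : IsCyclotomicExtension {3} ℚ K := hKeq ▸
    hζ0.intermediateField_adjoin_isCyclotomicExtension ℚ
  obtain ⟨w⟩ : Nonempty (InfinitePlace K) := inferInstance
  have hz := IsCyclotomicExtension.zeta_spec 3 ℚ K
  have root : ∀ {x : K}, IsPrimitiveRoot x 3 → x * x = -1 - x := fun {x} hx => by
    have h := hx.geom_sum_eq_zero (by norm_num)
    simp only [Finset.sum_range_succ, Finset.sum_range_zero, pow_zero, pow_one, zero_add] at h
    linear_combination h
  obtain ⟨ζ, hζ, hwζ⟩ : ∃ ζ : K, IsPrimitiveRoot ζ 3 ∧ w.embedding ζ = omegaC := by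
    set u := IsCyclotomicExtension.zeta 3 ℚ K
    have h1 : (w.embedding u - omegaC) * (w.embedding u + 1 + omegaC) = 0 := by
      have := congrArg w.embedding (root hz)
      rw [map_mul, map_sub, map_neg, map_one] at this
      linear_combination this - EisRing.omegaC_sq
    rcases mul_eq_zero.mp h1 with h | h
    · exact ⟨u, hz, sub_eq_zero.mp h⟩
    · refine ⟨u ^ 2, hz.pow_of_coprime 2 (by norm_num), ?_⟩
      rw [map_pow]
      linear_combination (w.embedding u - 1 - omegaC) * h + EisRing.omegaC_sq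
  have hsq : hζ.toInteger * hζ.toInteger = (-1 : ℤ) • (1 : 𝓞 K) + (-1 : ℤ) • hζ.toInteger := by
    apply RingOfIntegers.coe_injective
    simp only [map_mul, map_add, neg_smul, one_smul, map_neg, map_one]
    show ζ * ζ = -1 + -ζ
    linear_combination root hζ
  set e0 : EisRing →ₐ[ℤ] 𝓞 K := QuadraticAlgebra.lift ⟨hζ.toInteger, hsq⟩ with he0
  have he0apply : ∀ x : EisRing, ((e0 x : 𝓞 K) : K) = (x.re : K) + (x.im : K) * ζ := fun x => by
    show ((x.re • (1 : 𝓞 K) + x.im • hζ.toInteger : 𝓞 K) : K) = _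
    simp only [map_add, zsmul_eq_mul, map_mul, map_intCast, mul_one]
    rfl
  have hemb : ∀ x, w.embedding ((e0 x : 𝓞 K) : K) = EisRing.emb x := fun x => by
    rw [he0apply, map_add, map_mul, map_intCast, map_intCast, hwζ]
    rfl
  have hinj : Function.Injective e0 := fun x y h =>
    EisRing.emb_injective (by rw [← hemb, ← hemb, h])
  have hsurj : Function.Surjective e0 := by
    rw [← AlgHom.range_eq_top, eq_top_iff, ← hζ.integralPowerBasis.adjoin_gen_eq_top,
      Algebra.adjoin_le_iff, Set.singleton_subset_iff, IsPrimitiveRoot.integralPowerBasis_gen]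
    refine ⟨⟨0, 1⟩, ?_⟩
    apply RingOfIntegers.coe_injective
    show ((e0 ⟨0, 1⟩ : 𝓞 K) : K) = ζ
    simp [he0apply]
  refine ⟨⟨w, fun w' => ?_, RingEquiv.ofBijective e0 ⟨hinj, hsurj⟩, hemb, ?_⟩⟩
  · have hval : w'.embedding ζ = omegaC ∨ w'.embedding ζ = -1 - omegaC := by
      have h := congrArg w'.embedding (root hζ)
      rw [map_mul, map_sub, map_neg, map_one] at h
      have h1 : (w'.embedding ζ - omegaC) * (w'.embedding ζ + 1 + omegaC) = 0 := by
        linear_combination h - EisRing.omegaC_sq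
      rcases mul_eq_zero.mp h1 with h | h
      · exact Or.inl (sub_eq_zero.mp h)
      · exact Or.inr (by linear_combination h)
    have hext : ∀ φ ψ : K →+* ℂ, φ ζ = ψ ζ → φ = ψ := fun φ ψ h => by
      refine IsFractionRing.ringHom_ext (A := 𝓞 K) fun a => ?_
      obtain ⟨x, rfl⟩ := hsurj a
      rw [show algebraMap (𝓞 K) K (e0 x) = ((x.re : K) + (x.im : K) * ζ) from he0apply x]
      simp [h]
    rw [← InfinitePlace.mk_embedding w', ← InfinitePlace.mk_embedding w,
      InfinitePlace.mk_eq_iff]
    rcases hval with h | h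
    · exact Or.inl (hext _ _ (h.trans hwζ.symm))
    · refine Or.inr (hext _ _ ?_)
      rw [hwζ, ComplexEmbedding.conjugate_coe_eq, h]
      apply Complex.ext <;> simp [omegaC]
      norm_num
  · rw [IsCyclotomicExtension.finrank (n := 3) K
      (Polynomial.cyclotomic.irreducible_rat (by norm_num))]
    rfl

variable {K : IntermediateField ℚ Qbar} [NumberField K]

theorem EisField.isPrincipalIdealRing (E : EisField K) : IsPrincipalIdealRing (𝓞 K) :=
  IsPrincipalIdealRing.of_surjective E.e.toRingHom E.e.surjective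

theorem EisField.embedding_e (E : EisField K) (w : InfinitePlace K) (x : EisRing) :
    w.embedding ((E.e x : 𝓞 K) : K) = EisRing.emb x := by rw [E.unique w, E.embed]

end Fermat.Agent.ResidualThree.BianchiForm
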