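import Fermat.Agent.Gal.FiniteLevel
import Fermat.Agent.ResidualThree.BianchiForm.Field
import Fermat.Agent.ResidualThree.CubicDescent.Interfaces
import Fermat.Agent.ResidualThree.ThetaLift.Eis

/-!
# Places of `ℚ(√-3)` as prime elements, and the places of `ℚ̄` above them

The finite places correspond to the prime elements of `ℤ[ω]` up to units, with absolute norm the
norm of the element; the infinite place is complex; and valuation rings of `ℚ̄` lie over exactly
one place, compatibly with conjugation.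
-/

noncomputable section

open NumberField IsDedekindDomain
open scoped WithZero Pointwise

namespace Fermat.Agent.ResidualThree.BianchiForm

local notation "Qbar" => AlgebraicClosure ℚ
local notation "Γℚ" => (AlgebraicClosure ℚ ≃ₐ[ℚ] AlgebraicClosure ℚ)

theorem factors_of_continuous {M : Type} [MulOneClass M] [TopologicalSpace M] [DiscreteTopology M]
    (ρ : Γℚ →* M) (hρ : Continuous ρ) : GaloisFactorsThroughFiniteLevel ρ := by
  have h1 : ρ ⁻¹' {1} ∈ nhds (1 : Γℚ) :=
    ((isOpen_discrete _).preimage hρ).mem_nhds (by simp)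
  obtain ⟨L, hL, hle⟩ := (krullTopology_mem_nhds_one_iff ℚ Qbar _).mp h1
  exact ⟨L, hL, fun σ hσ => hle ((IntermediateField.mem_fixingSubgroup_iff _ _).mpr hσ)⟩

variable {K : IntermediateField ℚ Qbar} [NumberField K]

/-- The element of `ℚ̄` of an Eisenstein integer. -/
def EisField.toQbar (E : EisField K) : EisRing →+* Qbar :=
  (algebraMap K Qbar).comp ((algebraMap (𝓞 K) K).comp E.e.toRingHom)

theorem EisField.toQbar_apply (E : EisField K) (x : EisRing) :
    E.toQbar x = (((E.e x : 𝓞 K) : K) : Qbar) := rfl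

omit [NumberField K] in
theorem integral_coe (a : 𝓞 K) : IsIntegral ℤ (((a : K) : Qbar)) :=
  (RingOfIntegers.isIntegral_coe a).map (IntermediateField.val K |>.restrictScalars ℤ)

theorem exists_place {A : ValuationSubring Qbar} {q : ℕ} (hq : q.Prime)
    (hA : A.LiesOverPrime q) :
    ∃ v : FPlace K, LiesOverPlace A v ∧ (q : 𝓞 K) ∈ v.asIdeal ∧
      ∀ a : 𝓞 K, a ∈ v.asIdeal ↔ (((a : K) : Qbar)) ∈ A.nonunits := by
  let j : 𝓞 K →+* A := ((algebraMap K Qbar).comp (algebraMap (𝓞 K) K)).codRestrict A.toSubring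
    fun a => Gal.mem_of_isIntegral (integral_coe a)
  set P : Ideal (𝓞 K) := (IsLocalRing.maximalIdeal A).comap j with hP
  have hmem : ∀ a : 𝓞 K, a ∈ P ↔ (((a : K) : Qbar)) ∈ A.nonunits := fun a =>
    (ValuationSubring.coe_mem_nonunits_iff (a := j a)).symm
  have hqP : (q : 𝓞 K) ∈ P := (hmem _).mpr (by simpa [ValuationSubring.LiesOverPrime] using hA)
  have hne : P ≠ ⊥ := fun h => by
    rw [h, Ideal.mem_bot] at hqP
    exact hq.ne_zero (by exact_mod_cast hqP)
  refine ⟨⟨P, Ideal.comap_isPrime _ _, hne⟩, fun x => ?_, hqP, hmem⟩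
  set v : FPlace K := ⟨P, Ideal.comap_isPrime _ _, hne⟩
  have hle : ∀ y : K, v.valuation K y ≤ 1 → (y : Qbar) ∈ A := by
    intro y hy
    obtain ⟨n, ⟨d, hd⟩, h⟩ := v.exists_primeCompl_mul_eq_of_integer y hy
    have hdA : (((d : K)) : Qbar) ∈ A := Gal.mem_of_isIntegral (integral_coe d)
    have hnA : (((n : K)) : Qbar) ∈ A := Gal.mem_of_isIntegral (integral_coe n)
    have hdu : A.valuation (((d : K)) : Qbar) = 1 := by
      refine le_antisymm ((A.valuation_le_one_iff _).mpr hdA) (le_of_not_gt fun hlt => ?_)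
      exact hd ((hmem d).mpr (A.mem_nonunits_iff.mpr hlt))
    have h' : (y : Qbar) * ((d : K) : Qbar) = ((n : K) : Qbar) :=
      congrArg (algebraMap K Qbar) h
    have hv := congrArg A.valuation h'
    rw [map_mul, hdu, mul_one] at hv
    exact (A.valuation_le_one_iff _).mp (hv ▸ (A.valuation_le_one_iff _).mpr hnA)
  refine ⟨fun hx => le_of_not_gt fun hgt => ?_, hle x⟩
  have hx0 : x ≠ 0 := fun h => by rw [h, map_zero] at hgt; exact absurd hgt (by simp)
  have hinv : v.valuation K x⁻¹ < 1 := by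
    rw [map_inv₀]; exact inv_lt_one_of_one_lt₀ hgt
  obtain ⟨n, ⟨d, hd⟩, h⟩ := v.exists_primeCompl_mul_eq_of_integer x⁻¹ hinv.le
  have hn : v.valuation K (n : K) < 1 := by
    have hd1 : v.valuation K (d : K) ≤ 1 := v.valuation_le_one d
    rw [show ((n : 𝓞 K) : K) = x⁻¹ * (d : K) from h.symm, map_mul]
    exact lt_of_le_of_lt (mul_le_of_le_one_right' hd1) hinv
  rw [v.valuation_lt_one_iff_mem] at hn
  have h' : ((d : K) : Qbar) = (x : Qbar) * ((n : K) : Qbar) := by
    have h2 : (d : K) = x * (n : K) := by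
      rw [show ((n : 𝓞 K) : K) = x⁻¹ * (d : K) from h.symm, mul_inv_cancel_left₀ hx0]
    exact congrArg (algebraMap K Qbar) h2
  refine hd ((hmem d).mpr ?_)
  rw [h']
  exact Gal.mul_mem_nonunits hx ((hmem n).mp hn)

theorem place_unique {A : ValuationSubring Qbar} {v w : FPlace K} (hv : LiesOverPlace A v)
    (hw : LiesOverPlace A w) : v = w := by
  ext a
  rcases eq_or_ne (a : K) 0 with h | h
  · rw [show a = 0 from RingOfIntegers.coe_injective (by simpa using h)]; simp
  have e : ∀ u : FPlace K, LiesOverPlace A u →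
      (a ∈ u.asIdeal ↔ ¬ (((a : K)⁻¹ : K) : Qbar) ∈ A) := fun u hu => by
    rw [hu, map_inv₀, inv_le_one₀ (by rwa [zero_lt_iff, Valuation.ne_zero_iff]), not_le,
      u.valuation_lt_one_iff_mem]
  rw [e v hv, e w hw]

theorem liesOverPrime_of_mem {A : ValuationSubring Qbar} {v : FPlace K} (hv : LiesOverPlace A v)
    {q : ℕ} (hq0 : q ≠ 0) (hq : (q : 𝓞 K) ∈ v.asIdeal) : A.LiesOverPrime q := by
  show (q : Qbar) ∈ A.nonunits
  have hlt : v.valuation K ((q : 𝓞 K) : K) < 1 := (v.valuation_lt_one_iff_mem _).mpr hq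
  rw [A.mem_nonunits_iff]
  refine lt_of_not_ge fun hle => ?_
  have h1 : ((((q : 𝓞 K) : K)⁻¹ : K) : Qbar) ∈ A := by
    rw [← A.valuation_le_one_iff]
    simp only [map_natCast, IntermediateField.coe_inv, map_inv₀]
    rw [inv_le_one₀ (zero_lt_one.trans_le (by simpa using hle))]
    simpa using hle
  rw [hv, map_inv₀, inv_le_one₀ (by
    rw [zero_lt_iff, Valuation.ne_zero_iff]; simpa using hq0)] at h1
  exact not_le.mpr hlt h1

variable (E : EisField K)

/-- A generator of a place. -/
def EisField.primeOf (v : FPlace K) : EisRing :=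
  Submodule.IsPrincipal.generator (v.asIdeal.comap E.e.toRingHom)

theorem EisField.mem_iff (v : FPlace K) (x : EisRing) :
    E.e x ∈ v.asIdeal ↔ E.primeOf v ∣ x :=
  Submodule.IsPrincipal.mem_iff_generator_dvd (v.asIdeal.comap E.e.toRingHom) (x := x)

theorem EisField.prime_primeOf (v : FPlace K) : Prime (E.primeOf v) := by
  have : (v.asIdeal.comap E.e.toRingHom).IsPrime := Ideal.comap_isPrime _ _
  refine Submodule.IsPrincipal.prime_generator_of_isPrime _ fun h => ?_
  obtain ⟨a, ha, ha0⟩ := Submodule.exists_mem_ne_zero_of_ne_bot v.ne_bot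
  obtain ⟨x, rfl⟩ := E.e.surjective a
  have hx : x ∈ v.asIdeal.comap E.e.toRingHom := ha
  rw [h, Ideal.mem_bot] at hx
  exact ha0 (by rw [hx, map_zero])

theorem EisField.asIdeal_eq (v : FPlace K) : v.asIdeal = Ideal.span {E.e (E.primeOf v)} := by
  ext a
  obtain ⟨x, rfl⟩ := E.e.surjective a
  rw [E.mem_iff, Ideal.mem_span_singleton, map_dvd_iff]

theorem EisField.eq_of_mem {v w : FPlace K} {x : EisRing} (hx : Prime x) (hv : E.e x ∈ v.asIdeal)
    (hw : E.e x ∈ w.asIdeal) : v = w := by
  rw [E.mem_iff] at hv hw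
  have h1 := (E.prime_primeOf v).associated_of_dvd hx hv
  have h2 := (E.prime_primeOf w).associated_of_dvd hx hw
  apply HeightOneSpectrum.ext
  rw [E.asIdeal_eq, E.asIdeal_eq, Ideal.span_singleton_eq_span_singleton]
  exact (h1.trans h2.symm).map E.e

/-- The place of a prime element. -/
def EisField.placeOf (π : EisRing) (hπ : Prime π) : FPlace K where
  asIdeal := Ideal.span {E.e π}
  isPrime := (Ideal.span_singleton_prime (by simpa using hπ.ne_zero)).mpr
    ((MulEquiv.prime_iff E.e).mpr hπ)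
  ne_bot := by simpa [Ideal.span_singleton_eq_bot] using hπ.ne_zero

theorem EisField.mem_placeOf {π : EisRing} (hπ : Prime π) : E.e π ∈ (E.placeOf π hπ).asIdeal :=
  Ideal.mem_span_singleton_self _

/-- The place of `ℚ(√-3)` is complex. -/
theorem EisField.place_isComplex : E.place.IsComplex := by
  by_contra h
  rw [InfinitePlace.not_isComplex_iff_isReal] at h
  have h2 := ComplexEmbedding.isReal_iff.mp (InfinitePlace.isReal_iff.mp h)
  have h3 := RingHom.congr_fun h2 ((E.e ⟨0, 1⟩ : 𝓞 K) : K)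
  rw [ComplexEmbedding.conjugate_coe_eq, E.embed] at h3
  have h4 := congrArg Complex.im h3
  simp [EisRing.emb_im] at h4
  linarith [Real.sqrt_pos.mpr (show (0 : ℝ) < 3 by norm_num)]

theorem EisField.absNorm_span (x : EisRing) :
    Ideal.absNorm (Ideal.span {E.e x}) = (EisRing.pair x).norm := by
  have : Unique (InfinitePlace K) := ⟨⟨E.place⟩, E.unique⟩
  have hc := E.place_isComplex
  have h := InfinitePlace.prod_eq_abs_norm ((E.e x : 𝓞 K) : K)
  rw [Fintype.prod_unique, show (default : InfinitePlace K) = E.place from E.unique _,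
    InfinitePlace.mult, if_neg (InfinitePlace.not_isReal_iff_isComplex.mpr hc),
    ← InfinitePlace.norm_embedding_eq, E.embed, ← Complex.normSq_eq_norm_sq,
    EisRing.emb_apply, Eis3.normSq_toC] at h
  rw [Ideal.absNorm_span_singleton]
  have h2 : ((Algebra.norm ℤ (E.e x)).natAbs : ℚ) = |Algebra.norm ℚ ((E.e x : 𝓞 K) : K)| := by
    rw [← Algebra.coe_norm_int, Nat.cast_natAbs, Int.cast_abs]
  have h3 : ((Algebra.norm ℤ (E.e x)).natAbs : ℝ) = ((EisRing.pair x).norm : ℝ) := by
    rw [h]; exact_mod_cast congrArg (fun q : ℚ => (q : ℝ)) h2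
  exact_mod_cast h3

theorem EisField.absNorm_eq (v : FPlace K) :
    Ideal.absNorm v.asIdeal = (EisRing.pair (E.primeOf v)).norm := by
  rw [E.asIdeal_eq, E.absNorm_span]

include E in
theorem EisField.exists_prime_mem (v : FPlace K) : ∃ q : ℕ, q.Prime ∧ (q : 𝓞 K) ∈ v.asIdeal := by
  have hmem : ((EisRing.pair (E.primeOf v)).norm : 𝓞 K) ∈ v.asIdeal := by
    rw [← E.absNorm_eq]; exact Ideal.absNorm_mem _
  have hne : (EisRing.pair (E.primeOf v)).norm ≠ 0 := by
    rw [← E.absNorm_eq, Ne, Ideal.absNorm_eq_zero_iff]; exact v.ne_bot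
  generalize (EisRing.pair (E.primeOf v)).norm = n at hmem hne
  induction n using induction_on_primes with
  | zero => exact absurd rfl hne
  | one => exact absurd ((Ideal.eq_top_iff_one _).mpr (by simpa using hmem)) v.isPrime.ne_top
  | prime_mul p a hp ih =>
    rw [Nat.cast_mul] at hmem
    rcases v.isPrime.mem_or_mem hmem with h | h
    · exact ⟨p, hp, h⟩
    · exact ih h (right_ne_zero_of_mul hne)

theorem EisField.star_fix {τ : Γℚ} (hτ : WeierstrassCurve.modThreeCyclotomicChar τ ≠ 1)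
    (x : EisRing) : τ (E.toQbar x) = E.toQbar (star x) := by
  set z := E.toQbar ⟨0, 1⟩ with hz
  have hdecomp : ∀ y : EisRing, E.toQbar y = (y.re : Qbar) + (y.im : Qbar) * z := fun y => by
    conv_lhs => rw [show y = (y.re : EisRing) + (y.im : EisRing) * ⟨0, 1⟩ by
      ext <;> simp]
    rw [map_add, map_mul, map_intCast, map_intCast]
  have hroot : z * z = -1 - z := by
    rw [hz, ← map_mul, show (⟨0, 1⟩ : EisRing) * ⟨0, 1⟩ = -1 - ⟨0, 1⟩ by
      ext <;> simp [QuadraticAlgebra.re_one, QuadraticAlgebra.im_one], map_sub,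
      map_neg, map_one]
  have hprim : IsPrimitiveRoot z 3 := by
    refine IsPrimitiveRoot.iff (by norm_num) |>.mpr ⟨?_, fun l hl hl3 hzl => ?_⟩
    · linear_combination (z - 1) * hroot
    interval_cases l
    · rw [pow_one] at hzl
      rw [hzl] at hroot; norm_num at hroot
    · have : z = -2 := by linear_combination hroot - hzl
      rw [this] at hroot; norm_num at hroot
  have hne : τ z ≠ z := fun h => hτ ((chi_eq_one_iff hprim τ).mpr h)
  have hz2 : τ z = -1 - z := by
    have h := congrArg τ hroot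
    rw [map_mul, map_sub, map_neg, map_one] at h
    have : (τ z - z) * (τ z + 1 + z) = 0 := by linear_combination h - hroot
    linear_combination (mul_eq_zero.mp this).resolve_left (sub_ne_zero.mpr hne)
  rw [hdecomp, hdecomp, map_add, map_mul, map_intCast, map_intCast, hz2]
  simp
  ring

theorem exists_liesOverPlace (E : EisField K) {τ : Γℚ}
    (hτ : WeierstrassCurve.modThreeCyclotomicChar τ ≠ 1) (v : FPlace K) {q : ℕ} (hq : q.Prime)
    (hqv : (q : 𝓞 K) ∈ v.asIdeal) {A : ValuationSubring Qbar} (hA : A.LiesOverPrime q) :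
    LiesOverPlace A v ∨ LiesOverPlace (τ • A) v := by
  obtain ⟨w, hw, -, hwm⟩ := exists_place (K := K) hq (Gal.liesOverPrime_smul τ hA)
  obtain ⟨v'', hv'', hq'', hm''⟩ := exists_place (K := K) hq hA
  have hτi : WeierstrassCurve.modThreeCyclotomicChar τ⁻¹ ≠ 1 := by
    rw [map_inv]; exact fun h => hτ (inv_eq_one.mp h)
  set p := E.primeOf v
  have hp := E.prime_primeOf v
  have h1 : p ∣ (q : EisRing) := by rw [← E.mem_iff, map_natCast]; exact hqv
  have hmul : E.e p * E.e (star p) ∈ v''.asIdeal := by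
    rw [← map_mul, EisRing.mul_star_eq, map_natCast]
    obtain ⟨t, ht⟩ := h1
    have h2 : (EisRing.pair p).norm ∣ q ^ 2 := ⟨(EisRing.pair t).norm, by
      rw [← EisRing.norm_pair_natCast, ht, EisRing.norm_pair_mul]⟩
    obtain ⟨i, hi, hie⟩ := (Nat.dvd_prime_pow hq).mp h2
    rcases Nat.eq_zero_or_pos i with rfl | hpos
    · exact absurd (EisRing.isUnit_iff.mpr (by simpa using hie)) hp.not_isUnit
    · rw [hie, Nat.cast_pow]
      exact Ideal.pow_mem_of_mem _ hq'' i hpos
  rcases v''.isPrime.mem_or_mem hmul with h | h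
  · exact Or.inl (E.eq_of_mem hp (E.mem_iff v p |>.mpr dvd_rfl) h ▸ hv'')
  · refine Or.inr (E.eq_of_mem hp (E.mem_iff v p |>.mpr dvd_rfl) ?_ ▸ hw)
    rw [hwm, Gal.mem_nonunits_smul_iff, ← E.toQbar_apply, E.star_fix hτi]
    exact (hm'' _).mp h

end Fermat.Agent.ResidualThree.BianchiForm
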