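import Fermat.Agent.ResidualThree.BianchiForm.Expansion

/-!
# Fourier-type expansions on hyperbolic 3-space and classical operators on their coefficients

`IsExpansion c G` says that `G` is the sum of `c x` times the Whittaker functions indexed by
`x ∈ ℤ[ω]`.  The coefficients are unique, and we compute the effect of affine substitutions, of
sums over residue systems modulo an element `π`, and of units.  The outcome are the relations
`IsExpansion.hecke`, `IsExpansion.level` and `IsExpansion.unit` which translate Hecke eigenvalue,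
polar and unit conditions on a form over `ℚ(√-3)` into relations between its coefficients.
-/

noncomputable section

open MeasureTheory Set

namespace Fermat.Agent.ResidualThree.BianchiForm

open H3 (coshDist vol ofLog IsKernel IsDecayKernel)

/-- A Whittaker series with coefficients of linear growth. -/
structure IsExpansion (c : Eis3 → ℂ) (G : H3 → ℂ) : Prop where
  bound : ∃ C, ∀ x, ‖c x‖ ≤ C * ‖x.toC‖
  sum : ∀ p, HasSum (fun x => c x * whittaker (nuOf x) p) (G p)

/-- A periodic eigenfunction is the Whittaker series of its coefficients. -/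
theorem IsPeriodicEigen.isExpansion {G : H3 → ℂ} (hG : IsPeriodicEigen G) :
    IsExpansion (coef G) G :=
  ⟨let ⟨C, _, h⟩ := hG.exists_coef_bound; ⟨C, h⟩, hG.hasSum⟩

theorem IsExpansion.zero_apply {c : Eis3 → ℂ} {G : H3 → ℂ} (h : IsExpansion c G) : c 0 = 0 := by
  obtain ⟨C, hC⟩ := h.bound
  exact norm_le_zero_iff.mp ((hC 0).trans_eq (by simp [Eis3.toC]))

theorem IsExpansion.unique {c c' : Eis3 → ℂ} {G : H3 → ℂ} (h : IsExpansion c G)
    (h' : IsExpansion c' G) : c = c' :=
  let ⟨_, hC⟩ := h.bound; let ⟨_, hC'⟩ := h'.bound; coeff_unique hC hC' h.sum h'.sum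

/-- The similarity `(z, y) ↦ (α z + β, |α| y)`. -/
def affH (α : ℂ) (hα : α ≠ 0) (β : ℂ) (p : H3) : H3 :=
  ⟨α * p.z + β, ‖α‖ * p.y, mul_pos (norm_pos_iff.mpr hα) p.y_pos⟩

theorem whittaker_affH (ν α : ℂ) (hα : α ≠ 0) (β : ℂ) (p : H3) :
    whittaker ν (affH α hα β p) =
      (‖α‖ : ℂ) * addCharC ν β * whittaker (ν * α) p := by
  have e : addCharC ν (α * p.z) = addCharC (ν * α) p.z := by simp [addCharC, mul_assoc]
  simp only [whittaker, affH]
  rw [addCharC_add, e, norm_mul]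
  push_cast
  rw [show 4 * Real.pi * ‖ν‖ * (‖α‖ * p.y) = 4 * Real.pi * (‖ν‖ * ‖α‖) * p.y by ring]
  ring

theorem addCharC_eq_one_int (x r : Eis3) : addCharC (nuOf x) r.toC = 1 := by
  rw [show r.toC = torusPt (fun i => ((![r.1, r.2] i : ℤ) : ℝ)) by
    rw [torusPt_intCast]; simp, addCharC_nuOf, mFourier_toTorus]
  rw [Complex.exp_eq_one_iff]
  refine ⟨freqEquiv x 0 * r.1 + freqEquiv x 1 * r.2, ?_⟩
  simp only [Matrix.cons_val_zero, Matrix.cons_val_one, Matrix.cons_val_fin_one]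
  push_cast
  ring

theorem exists_int_of_addCharC {ν z : ℂ} (h : addCharC ν z = 1) :
    ∃ n : ℤ, 2 * (ν * z).re = n := by
  rw [addCharC, Complex.exp_eq_one_iff] at h
  obtain ⟨n, hn⟩ := h
  refine ⟨n, ?_⟩
  have h2 : ((2 * (ν * z).re : ℝ) : ℂ) = (n : ℂ) :=
    mul_left_cancel₀ Complex.two_pi_I_ne_zero (hn.trans (mul_comm _ _))
  exact_mod_cast h2

/-- The lattice is self-dual for the pairing. -/
theorem exists_toC_of_char {μ : ℂ}
    (h : ∀ r : Eis3, addCharC (μ / sqrtNegThree) r.toC = 1) : ∃ w : Eis3, w.toC = μ := by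
  obtain ⟨b, hb⟩ := exists_int_of_addCharC (h (1, 0))
  obtain ⟨d, hd⟩ := exists_int_of_addCharC (h (0, 1))
  rw [Eis3.toC_one, mul_one] at hb
  rw [show Eis3.toC (0, 1) = omegaC by simp [Eis3.toC]] at hd
  refine ⟨(b + d, b), ?_⟩
  have h3 := sqrtThree_mul_self
  have hs : (0 : ℝ) < Real.sqrt 3 := by positivity
  simp only [Complex.div_re, Complex.div_im, Complex.mul_re, sqrtNegThree_re, sqrtNegThree_im,
    normSq_sqrtNegThree, omegaC_re, omegaC_im] at hb hd
  apply Complex.ext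
  · rw [Eis3.toC_re]; push_cast; linear_combination -hd - hb / 2 + μ.re / 3 * h3
  · rw [Eis3.toC_im]; push_cast; linear_combination -(Real.sqrt 3 / 2) * hb + μ.im / 3 * h3

/-- A complete residue system. -/
def IsResidues (π : Eis3) (R : Finset Eis3) : Prop :=
  (∀ x, ∃! r, r ∈ R ∧ Eis3.dvd π (x - r)) ∧ (R.card : ℝ) = ‖π.toC‖ ^ 2

theorem addCharC_div_eq (π x r : Eis3) :
    addCharC (nuOf x) (r.toC / π.toC) = addCharC (x.toC / π.toC / sqrtNegThree) r.toC := by
  rw [addCharC, addCharC, nuOf]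
  congr 4
  ring_nf

theorem IsResidues.sum_char {π : Eis3} {R : Finset Eis3} (hR : IsResidues π R) (hπ : π.toC ≠ 0)
    (x : Eis3) [Decidable (Eis3.dvd π x)] :
    ∑ r ∈ R, addCharC (nuOf x) (r.toC / π.toC) =
      if Eis3.dvd π x then (R.card : ℂ) else 0 := by
  have hper : ∀ r r' : Eis3, Eis3.dvd π (r - r') →
      addCharC (nuOf x) (r.toC / π.toC) = addCharC (nuOf x) (r'.toC / π.toC) := by
    intro r r' h
    obtain ⟨z, hz⟩ := Eis3.dvd_iff_toC.mp h
    rw [Eis3.toC_sub] at hz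
    rw [show r.toC / π.toC = r'.toC / π.toC + z.toC by field_simp; linear_combination -hz,
      addCharC_add, addCharC_eq_one_int, mul_one]
  split_ifs with hx
  · obtain ⟨z, hz⟩ := Eis3.dvd_iff_toC.mp hx
    rw [Finset.sum_congr rfl fun r _ => show addCharC (nuOf x) (r.toC / π.toC) = 1 by
      rw [addCharC_div_eq, ← hz, mul_div_cancel_left₀ _ hπ]; exact addCharC_eq_one_int z r]
    simp
  · obtain ⟨r0, hr0⟩ : ∃ r0 : Eis3, addCharC (nuOf x) (r0.toC / π.toC) ≠ 1 := by
      by_contra hall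
      push Not at hall
      obtain ⟨w, hw⟩ := exists_toC_of_char (μ := x.toC / π.toC) fun r => by
        rw [← addCharC_div_eq]; exact hall r
      exact hx (Eis3.dvd_iff_toC.mpr ⟨w, by rw [hw, mul_div_cancel₀ _ hπ]⟩)
    choose rep hrep huniq using hR.1
    set S := ∑ r ∈ R, addCharC (nuOf x) (r.toC / π.toC)
    have hS : addCharC (nuOf x) (r0.toC / π.toC) * S = S := by
      rw [Finset.mul_sum]
      refine Finset.sum_nbij' (fun r => rep (r + r0)) (fun r => rep (r - r0))
        (fun r _ => (hrep _).1) (fun r _ => (hrep _).1) (fun r hr => ?_) (fun r hr => ?_)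
        (fun r _ => ?_)
      · refine (huniq _ r ⟨hr, ?_⟩).symm
        have h := (hrep (r + r0)).2
        obtain ⟨z, hz⟩ := Eis3.dvd_iff_toC.mp h
        refine Eis3.dvd_iff_toC.mpr ⟨-z, ?_⟩
        simp only [Eis3.toC_sub, Eis3.toC_add, Eis3.toC_neg] at hz ⊢
        linear_combination -hz
      · refine (huniq _ r ⟨hr, ?_⟩).symm
        have h := (hrep (r - r0)).2
        obtain ⟨z, hz⟩ := Eis3.dvd_iff_toC.mp h
        refine Eis3.dvd_iff_toC.mpr ⟨-z, ?_⟩
        simp only [Eis3.toC_sub, Eis3.toC_add, Eis3.toC_neg] at hz ⊢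
        linear_combination -hz
      · rw [← addCharC_add, ← add_div, ← Eis3.toC_add, add_comm r0 r]
        exact hper _ _ (hrep _).2
    exact (mul_eq_zero.mp (show (addCharC (nuOf x) (r0.toC / π.toC) - 1) * S = 0 by
      rw [sub_mul, hS, one_mul, sub_self])).resolve_left (sub_ne_zero.mpr hr0)

theorem mul_left_injective {π : Eis3} (hπ : π.toC ≠ 0) : Function.Injective (Eis3.mul π) :=
  fun _a _b h => Eis3.mul_left_cancel (fun h0 => hπ (Eis3.toC_eq_zero.mpr h0)) h

open Classical in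
/-- The coefficient at `x / π`, zero if that is not integral. -/
def lowerCoef (π : Eis3) (c : Eis3 → ℂ) (x : Eis3) : ℂ :=
  if h : Eis3.dvd π x then c h.choose else 0

theorem lowerCoef_mul {π : Eis3} (hπ : π.toC ≠ 0) (c : Eis3 → ℂ) (x : Eis3) :
    lowerCoef π c (Eis3.mul π x) = c x := by
  have h : Eis3.dvd π (Eis3.mul π x) := ⟨x, rfl⟩
  rw [lowerCoef, dif_pos h, mul_left_injective hπ h.choose_spec]

theorem lowerCoef_of_not_dvd {π x : Eis3} (c : Eis3 → ℂ) (h : ¬ Eis3.dvd π x) :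
    lowerCoef π c x = 0 := by rw [lowerCoef, dif_neg h]

theorem nuOf_mul (π x : Eis3) : nuOf (Eis3.mul π x) = nuOf x * π.toC := by
  rw [nuOf, nuOf, Eis3.toC_mul]; ring

variable {c : Eis3 → ℂ} {G : H3 → ℂ}

theorem IsExpansion.smul (h : IsExpansion c G) (a : ℂ) :
    IsExpansion (fun x => a * c x) (fun p => a * G p) := by
  obtain ⟨C, hC⟩ := h.bound
  refine ⟨⟨‖a‖ * C, fun x => ?_⟩, fun p => by simpa [mul_assoc] using (h.sum p).mul_left a⟩
  rw [norm_mul, mul_assoc]
  exact mul_le_mul_of_nonneg_left (hC x) (norm_nonneg _)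

theorem IsExpansion.add {c' : Eis3 → ℂ} {G' : H3 → ℂ} (h : IsExpansion c G)
    (h' : IsExpansion c' G') : IsExpansion (fun x => c x + c' x) (fun p => G p + G' p) := by
  obtain ⟨C, hC⟩ := h.bound
  obtain ⟨C', hC'⟩ := h'.bound
  refine ⟨⟨C + C', fun x => ?_⟩, fun p => by simpa [add_mul] using (h.sum p).add (h'.sum p)⟩
  rw [add_mul]
  exact (norm_add_le _ _).trans (add_le_add (hC x) (hC' x))

theorem IsExpansion.comp_mul (h : IsExpansion c G) (π : Eis3) (hπ : π.toC ≠ 0) :
    IsExpansion (fun x => (‖π.toC‖ : ℂ) * lowerCoef π c x) (fun p => G (affH π.toC hπ 0 p)) := by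
  obtain ⟨C, hC⟩ := h.bound
  refine ⟨⟨max C 0, fun x => ?_⟩, fun p => ?_⟩
  · by_cases hd : Eis3.dvd π x
    · obtain ⟨z, rfl⟩ := hd
      rw [lowerCoef_mul hπ, norm_mul, Eis3.toC_mul, norm_mul, Complex.norm_real, norm_norm,
        mul_left_comm]
      exact mul_le_mul_of_nonneg_left
        ((hC z).trans (mul_le_mul_of_nonneg_right (le_max_left _ _) (norm_nonneg _)))
          (norm_nonneg _)
    · rw [lowerCoef_of_not_dvd c hd, mul_zero, norm_zero]; positivity
  · refine ((mul_left_injective hπ).hasSum_iff fun x hx => ?_).mp ?_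
    · rw [lowerCoef_of_not_dvd c fun ⟨z, hz⟩ => hx ⟨z, hz⟩, mul_zero, zero_mul]
    · convert! h.sum (affH π.toC hπ 0 p) using 1
      funext z
      rw [Function.comp_apply, lowerCoef_mul hπ, whittaker_affH, nuOf_mul, addCharC_zero_right]
      ring

theorem IsExpansion.sum_residues (h : IsExpansion c G) {π : Eis3} (hπ : π.toC ≠ 0)
    {R : Finset Eis3} (hR : IsResidues π R) {α : ℂ} (hα : α ≠ 0) (p : H3) :
    HasSum (fun x => (‖α‖ * ‖π.toC‖ ^ 2 : ℂ) * c (Eis3.mul π x) *
        whittaker (nuOf x * (π.toC * α)) p)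
      (∑ r ∈ R, G (affH α hα (r.toC / π.toC) p)) := by
  classical
  have h1 := hasSum_sum (s := R) fun r _ => h.sum (affH α hα (r.toC / π.toC) p)
  have h2 : HasSum (fun x => (‖α‖ : ℂ) * c x * (if Eis3.dvd π x then (R.card : ℂ) else 0) *
      whittaker (nuOf x * α) p) (∑ r ∈ R, G (affH α hα (r.toC / π.toC) p)) := by
    convert! h1 using 1
    funext x
    rw [← hR.sum_char hπ x, Finset.mul_sum, Finset.sum_mul]
    refine Finset.sum_congr rfl fun r _ => ?_
    rw [whittaker_affH]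
    ring
  have h3 := ((mul_left_injective hπ).hasSum_iff fun x hx => by
    rw [if_neg fun ⟨z, hz⟩ => hx ⟨z, hz⟩, mul_zero, zero_mul]).mpr h2
  convert! h3 using 1
  funext x
  rw [Function.comp_apply, if_pos ⟨x, rfl⟩, nuOf_mul, mul_assoc (nuOf x),
    show ((R.card : ℕ) : ℂ) = (‖π.toC‖ : ℂ) ^ 2 by exact_mod_cast hR.2]
  ring

theorem IsExpansion.bound_comp_mul (h : IsExpansion c G) (π : Eis3) :
    ∃ C, ∀ x, ‖c (Eis3.mul π x)‖ ≤ C * ‖x.toC‖ :=
  let ⟨C, hC⟩ := h.bound
  ⟨C * ‖π.toC‖, fun x => by rw [mul_assoc, ← norm_mul, ← Eis3.toC_mul]; exact hC _⟩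

/-- The Hecke relation. -/
theorem IsExpansion.hecke (h : IsExpansion c G) {π : Eis3} (hπ : π.toC ≠ 0) {R : Finset Eis3}
    (hR : IsResidues π R) (a : ℂ)
    (heq : ∀ p, ∑ r ∈ R, G (affH π.toC⁻¹ (inv_ne_zero hπ) (r.toC / π.toC) p) +
      G (affH π.toC hπ 0 p) = (‖π.toC‖ : ℂ) * a * G p) (x : Eis3) :
    a * c x = c (Eis3.mul π x) + lowerCoef π c x := by
  obtain ⟨C, hC⟩ := h.bound_comp_mul π
  have h1 : IsExpansion (fun x => (‖π.toC‖ : ℂ) * c (Eis3.mul π x))
      (fun p => ∑ r ∈ R, G (affH π.toC⁻¹ (inv_ne_zero hπ) (r.toC / π.toC) p)) := by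
    refine ⟨⟨‖π.toC‖ * C, fun x => ?_⟩, fun p => ?_⟩
    · rw [norm_mul, Complex.norm_real, norm_norm, mul_assoc]
      exact mul_le_mul_of_nonneg_left (hC x) (norm_nonneg _)
    · convert! h.sum_residues hπ hR (inv_ne_zero hπ) p using 1
      funext x
      rw [mul_inv_cancel₀ hπ, mul_one, norm_inv]
      have : (‖π.toC‖ : ℂ) ≠ 0 := by simpa using hπ
      push_cast
      field_simp
  have h2 := h1.add (h.comp_mul π hπ)
  have h3 : IsExpansion (fun x => (‖π.toC‖ : ℂ) * a * c x)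
      (fun p => ∑ r ∈ R, G (affH π.toC⁻¹ (inv_ne_zero hπ) (r.toC / π.toC) p) +
        G (affH π.toC hπ 0 p)) := by
    rw [funext heq]; exact h.smul _
  have e := congrFun (h3.unique h2) x
  have : (‖π.toC‖ : ℂ) ≠ 0 := by simpa using hπ
  refine mul_left_cancel₀ this ?_
  linear_combination e

/-- Vanishing at the level. -/
theorem IsExpansion.level (h : IsExpansion c G) {π : Eis3} (hπ : π.toC ≠ 0) {R : Finset Eis3}
    (hR : IsResidues π R) (heq : ∀ p, ∑ r ∈ R, G (affH 1 one_ne_zero (r.toC / π.toC) p) = 0)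
    (x : Eis3) : c (Eis3.mul π x) = 0 := by
  classical
  obtain ⟨C, hC⟩ := h.bound
  have hn : ((‖π.toC‖ : ℂ)) ^ 2 ≠ 0 := by simpa using hπ
  set c' : Eis3 → ℂ := fun y => if Eis3.dvd π y then c y else 0 with hc'
  have h1 : IsExpansion c' fun _ => 0 := by
    refine ⟨⟨max C 0, fun y => ?_⟩, fun p => ?_⟩
    · simp only [hc']
      split_ifs
      · exact (hC y).trans (mul_le_mul_of_nonneg_right (le_max_left _ _) (norm_nonneg _))
      · simp; positivity
    · have h2 := h.sum_residues hπ hR one_ne_zero p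
      rw [heq] at h2
      refine ((mul_left_injective hπ).hasSum_iff fun y hy => ?_).mp ?_
      · simp only [hc']
        rw [if_neg fun ⟨z, hz⟩ => hy ⟨z, hz⟩, zero_mul]
      · have h3 := h2.mul_left ((‖π.toC‖ : ℂ) ^ 2)⁻¹
        rw [mul_zero] at h3
        convert! h3 using 1
        funext z
        simp only [Function.comp_apply, hc', norm_one, Complex.ofReal_one, one_mul, mul_one]
        rw [if_pos ⟨z, rfl⟩, nuOf_mul, ← mul_assoc, ← mul_assoc, inv_mul_cancel₀ hn, one_mul]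
  have h0 : IsExpansion (fun _ => 0) fun _ : H3 => (0 : ℂ) :=
    ⟨⟨0, fun y => by simp⟩, fun p => by simp⟩
  simpa [hc', show Eis3.dvd π (Eis3.mul π x) from ⟨x, rfl⟩] using
    congrFun (h1.unique h0) (Eis3.mul π x)

/-- Invariance under a unit. -/
theorem IsExpansion.unit (h : IsExpansion c G) {u : Eis3} (hu : u.norm = 1) (hu0 : u.toC ≠ 0)
    (heq : ∀ p, G (affH u.toC hu0 0 p) = G p) (x : Eis3) : c (Eis3.mul u x) = c x := by
  have hn : ‖u.toC‖ = 1 := by rw [Complex.norm_def, Eis3.normSq_toC, hu]; simp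
  have h2 := h.comp_mul u hu0
  rw [funext heq] at h2
  have e := congrFun (h.unique h2) (Eis3.mul u x)
  rw [e, lowerCoef_mul hu0, hn, Complex.ofReal_one, one_mul]

end Fermat.Agent.ResidualThree.BianchiForm
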