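import Fermat.Agent.ResidualThree.Asai.Eis
import Fermat.Agent.ResidualThree.BianchiForm.Classical

/-!
# Integrality and multiplicativity of coefficients obeying Hecke relations

A nonzero coefficient function on `ℤ[ω]` with the unit, Hecke and level relations of `HeckeCoeffs`
is an integral multiple of its value at one, and the normalised integral coefficients are
multiplicative (`HeckeCoeffs.exists_int`).  This supplies the coefficient axioms of the Bianchi
datum of a form over `ℚ(√-3)`.
-/

noncomputable section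

namespace Fermat.Agent.ResidualThree.BianchiForm

/-- The unit, Hecke and level relations of the coefficients of an eigenform with eigenvalues `a` at
the primes which are not `bad`. -/
structure HeckeCoeffs (c : Eis3 → ℂ) (bad : Eis3 → Prop) (a : Eis3 → ℤ) : Prop where
  zero : c (0, 0) = 0
  unit : ∀ u x : Eis3, u.norm = 1 → c (Eis3.mul u x) = c x
  level : ∀ π : Eis3, π.IsPrimeElt → bad π → ∀ x, c (Eis3.mul π x) = 0
  abs_le : ∀ π, (a π).natAbs ≤ 2
  good : ∀ π : Eis3, π.IsPrimeElt → ¬ bad π → ∀ x,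
    (a π : ℂ) * c x = c (Eis3.mul π x) + lowerCoef π c x

theorem IsPrimeElt.not_dvd_one {π : Eis3} (h : π.IsPrimeElt) : ¬ Eis3.dvd π (1, 0) := fun hd => by
  have h1 := Eis3.norm_dvd_norm hd
  rw [show Eis3.norm (1, 0) = 1 from rfl, Nat.dvd_one] at h1
  exact absurd h.1 (by omega)

theorem IsPrimeElt.toC_ne_zero {π : Eis3} (h : π.IsPrimeElt) : π.toC ≠ 0 := fun h0 => by
  rw [Eis3.toC_eq_zero] at h0
  have := h.1
  rw [h0] at this
  exact absurd this (by decide)

theorem exists_prime_factor {x : Eis3} (hx : 1 < x.norm) :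
    ∃ π y : Eis3, π.IsPrimeElt ∧ x = Eis3.mul π y ∧ y.norm < x.norm := by
  obtain ⟨x, rfl⟩ := EisRing.pair_surjective x
  have h0 : x ≠ 0 := fun h => by rw [h] at hx; exact absurd hx (by decide)
  have hu : ¬ IsUnit x := fun h => by rw [EisRing.isUnit_iff] at h; omega
  obtain ⟨π, hπ, y, rfl⟩ := WfDvdMonoid.exists_irreducible_factor hu h0
  have hπ' : (EisRing.pair π).IsPrimeElt := EisRing.isPrimeElt_iff.mpr hπ.prime
  refine ⟨EisRing.pair π, EisRing.pair y, hπ', EisRing.pair_mul π y, ?_⟩
  rw [EisRing.norm_pair_mul]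
  have h1 := hπ'.1
  have h2 : 0 < (EisRing.pair y).norm := Nat.pos_of_ne_zero fun h => by
    rw [EisRing.norm_pair_mul, h, mul_zero] at hx; omega
  exact lt_mul_of_one_lt_left h2 h1

namespace HeckeCoeffs

variable {c : Eis3 → ℂ} {bad : Eis3 → Prop} {a : Eis3 → ℤ} (h : HeckeCoeffs c bad a)

include h

theorem apply_eq_apply_one {x : Eis3} (hx : x.norm = 1) : c x = c (1, 0) := by
  conv_lhs => rw [← Eis3.mul_one x]
  exact h.unit x _ hx

theorem exists_int_mul (x : Eis3) : ∃ n : ℤ, c x = n * c (1, 0) := by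
  induction hN : x.norm using Nat.strong_induction_on generalizing x with
  | _ N ih =>
    subst hN
    rcases Nat.lt_trichotomy x.norm 1 with hx | hx | hx
    · refine ⟨0, ?_⟩
      rw [Eis3.norm_eq_zero.mp (by omega : x.norm = 0), h.zero]
      simp
    · exact ⟨1, by simp [h.apply_eq_apply_one hx]⟩
    · obtain ⟨π, y, hπ, rfl, hy⟩ := exists_prime_factor hx
      by_cases hb : bad π
      · exact ⟨0, by simp [h.level π hπ hb]⟩
      · obtain ⟨n, hn⟩ := ih _ hy y rfl
        have hg := h.good π hπ hb y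
        by_cases hd : Eis3.dvd π y
        · obtain ⟨z, rfl⟩ := hd
          rw [lowerCoef_mul (IsPrimeElt.toC_ne_zero hπ)] at hg
          have hz : z.norm < (Eis3.mul π (Eis3.mul π z)).norm := by
            refine lt_of_le_of_lt ?_ hy
            rw [Eis3.norm_mul]
            exact Nat.le_mul_of_pos_left _ (by have := hπ.1; omega)
          obtain ⟨m, hm⟩ := ih _ hz z rfl
          refine ⟨a π * n - m, ?_⟩
          push_cast
          linear_combination -hg + (a π : ℂ) * hn - hm
        · rw [lowerCoef_of_not_dvd c hd] at hg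
          refine ⟨a π * n, ?_⟩
          push_cast
          linear_combination -hg + (a π : ℂ) * hn

theorem apply_one_ne_zero (hne : ∃ x, c x ≠ 0) : c (1, 0) ≠ 0 := fun h1 => by
  obtain ⟨x, hx⟩ := hne
  obtain ⟨n, hn⟩ := h.exists_int_mul x
  exact hx (by rw [hn, h1, mul_zero])

end HeckeCoeffs

/-- The relations of the normalised integral coefficients of such an eigenform. -/
structure IntCoeffs (bad : Eis3 → Prop) (a : Eis3 → ℤ) (C : Eis3 → ℤ) : Prop where
  zero : C (0, 0) = 0
  one : C (1, 0) = 1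
  unit : ∀ u x : Eis3, u.norm = 1 → C (Eis3.mul u x) = C x
  level : ∀ π x : Eis3, π.IsPrimeElt → bad π → C (Eis3.mul π x) = 0
  recur : ∀ π x : Eis3, π.IsPrimeElt → ¬ bad π →
    C (Eis3.mul π (Eis3.mul π x)) = C π * C (Eis3.mul π x) - C x
  prime_mul : ∀ π x : Eis3, π.IsPrimeElt → ¬ bad π → ¬ Eis3.dvd π x →
    C (Eis3.mul π x) = C π * C x
  at_prime : ∀ π : Eis3, π.IsPrimeElt → ¬ bad π → C π = a π
  bound : ∀ π : Eis3, π.IsPrimeElt → (C π).natAbs ≤ 2

theorem IntCoeffs.mul {bad : Eis3 → Prop} {a C : Eis3 → ℤ} (h : IntCoeffs bad a C) (x y : Eis3)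
    (hxy : Nat.Coprime x.norm y.norm) : C (Eis3.mul x y) = C x * C y := by
  induction hN : x.norm using Nat.strong_induction_on generalizing x with
  | _ N ih =>
    subst hN
    rcases Nat.lt_trichotomy x.norm 1 with hx | hx | hx
    · have hy : y.norm = 1 := by
        rwa [show x.norm = 0 by omega, Nat.coprime_zero_left] at hxy
      have hu : C y = 1 := by rw [← Eis3.mul_one y, h.unit y _ hy, h.one]
      rw [Eis3.mul_comm, h.unit y x hy, hu, _root_.mul_one]
    · have hu : C x = 1 := by rw [← Eis3.mul_one x, h.unit x _ hx, h.one]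
      rw [h.unit x y hx, hu, _root_.one_mul]
    · obtain ⟨π, z, hπ, rfl, hz⟩ := exists_prime_factor hx
      have hzy : Nat.Coprime z.norm y.norm :=
        hxy.coprime_dvd_left (Dvd.intro_left _ (Eis3.norm_mul π z).symm)
      have hπy : ¬ Eis3.dvd π y := fun hd => by
        have h1 : π.norm ∣ 1 := by
          rw [← hxy.gcd_eq_one]
          exact Nat.dvd_gcd (Dvd.intro _ (Eis3.norm_mul π z).symm) (Eis3.norm_dvd_norm hd)
        have := hπ.1
        rw [Nat.dvd_one] at h1
        omega
      rw [Eis3.mul_assoc]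
      by_cases hb : bad π
      · rw [h.level π _ hπ hb, h.level π _ hπ hb, zero_mul]
      by_cases hd : Eis3.dvd π z
      · obtain ⟨w, rfl⟩ := hd
        have hw : w.norm < (Eis3.mul π (Eis3.mul π w)).norm := by
          refine lt_of_le_of_lt ?_ hz
          rw [Eis3.norm_mul]
          exact Nat.le_mul_of_pos_left _ (by have := hπ.1; omega)
        have hwy : Nat.Coprime w.norm y.norm :=
          hzy.coprime_dvd_left (Dvd.intro_left _ (Eis3.norm_mul π w).symm)
        have i1 := ih _ hw w hwy rfl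
        have i2 := ih _ hz _ hzy rfl
        rw [Eis3.mul_assoc] at i2 ⊢
        rw [h.recur π _ hπ hb, h.recur π _ hπ hb, i1, i2]
        ring
      · have i1 := ih _ hz z hzy rfl
        rw [h.prime_mul π _ hπ hb fun hd' => (hπ.2 z y hd').elim hd hπy,
          h.prime_mul π z hπ hb hd, i1]
        ring

/-- Coefficients with Hecke relations are an integral multiple of the one at `1`, with `IntCoeffs`
holding for the multiples. -/
theorem HeckeCoeffs.exists_int {c : Eis3 → ℂ} {bad : Eis3 → Prop} {a : Eis3 → ℤ}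
    (h : HeckeCoeffs c bad a) (hne : ∃ x, c x ≠ 0) :
    c (1, 0) ≠ 0 ∧ ∃ C : Eis3 → ℤ, (∀ x, c x = (C x : ℂ) * c (1, 0)) ∧ IntCoeffs bad a C := by
  have h1 := h.apply_one_ne_zero hne
  choose C hC using h.exists_int_mul
  have inj : ∀ {m n : ℤ}, (m : ℂ) * c (1, 0) = (n : ℂ) * c (1, 0) → m = n := fun e =>
    by exact_mod_cast mul_right_cancel₀ h1 e
  have hone : C (1, 0) = 1 := inj (by rw [← hC, Int.cast_one, _root_.one_mul])
  have hgood : ∀ π x : Eis3, π.IsPrimeElt → ¬ bad π → Eis3.dvd π x → ∀ y, x = Eis3.mul π y →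
      a π * C x = C (Eis3.mul π x) + C y := fun π x hπ hb _ y hy => inj (by
    have hg := h.good π hπ hb x
    subst hy
    rw [lowerCoef_mul (IsPrimeElt.toC_ne_zero hπ)] at hg
    push_cast
    linear_combination hg + hC (Eis3.mul π (Eis3.mul π y)) + hC y - (a π : ℂ) * hC (Eis3.mul π y))
  have hnd : ∀ π x : Eis3, π.IsPrimeElt → ¬ bad π → ¬ Eis3.dvd π x →
      a π * C x = C (Eis3.mul π x) := fun π x hπ hb hd => inj (by
    have hg := h.good π hπ hb x
    rw [lowerCoef_of_not_dvd c hd] at hg
    push_cast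
    linear_combination hg + hC (Eis3.mul π x) - (a π : ℂ) * hC x)
  have hprime : ∀ π : Eis3, π.IsPrimeElt → ¬ bad π → C π = a π := fun π hπ hb => by
    have := hnd π (1, 0) hπ hb (IsPrimeElt.not_dvd_one hπ)
    rw [hone, Eis3.mul_one, _root_.mul_one] at this
    exact this.symm
  have hlev : ∀ π x : Eis3, π.IsPrimeElt → bad π → C (Eis3.mul π x) = 0 := fun π x hπ hb =>
    inj (by rw [← hC, h.level π hπ hb, Int.cast_zero, zero_mul])
  refine ⟨h1, C, hC,
    { zero := inj (by rw [← hC, h.zero, Int.cast_zero, zero_mul])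
      one := hone
      unit := fun u x hu => inj (by rw [← hC, ← hC, h.unit u x hu])
      level := hlev
      recur := fun π x hπ hb => ?_
      prime_mul := fun π x hπ hb hd => ?_
      at_prime := hprime
      bound := fun π hπ => ?_ }⟩
  · have := hgood π _ hπ hb ⟨x, rfl⟩ x rfl
    rw [hprime π hπ hb]
    omega
  · rw [hprime π hπ hb]
    exact (hnd π x hπ hb hd).symm
  · by_cases hb : bad π
    · rw [← Eis3.mul_one π, hlev π _ hπ hb]; norm_num
    · rw [hprime π hπ hb]; exact h.abs_le π

end Fermat.Agent.ResidualThree.BianchiForm
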