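import Fermat.Agent.ResidualThree.BianchiForm.LocalGroup

/-!
# A vector of level `Γ₀(p^(2m))` killed by the average over `n(p⁻¹/O)`

If a vector of principal level `p^m` is moved by some `n(z)` with `z ∈ p^(m-1)`, its projection
to a character of `n(O/p^m)` nontrivial on `p^(m-1)`, averaged over the unit torus and translated
by `diag(p^-m, 1)`, is such a vector (`exists_newVector`).
-/

noncomputable section

open IsDedekindDomain NumberField
open scoped WithZero

namespace Fermat.Agent.ResidualThree.BianchiForm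

open Fermat.Agent.ResidualThree.Tree (intGL diagGL swapGL)

variable {F : Type} [Field F] [NumberField F] (v : FPlace F) (m : ℕ)

/-- The valuation ring of the completion. -/
abbrev Ov : ValuationSubring (v.adicCompletion F) := (valv v).valuationSubring

/-- The `m`-th power of the maximal ideal. -/
def pmIdeal : Ideal (Ov v) where
  carrier := {z | valv v (z : v.adicCompletion F) ≤ WithZero.exp (-(m : ℤ))}
  zero_mem' := by simp
  add_mem' {a b} ha hb := (valv v).map_add_le ha hb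
  smul_mem' c {a} ha := by
    show valv v ((c : v.adicCompletion F) * (a : v.adicCompletion F)) ≤ _
    rw [map_mul]
    exact (mul_le_of_le_one_left' c.2).trans ha

/-- The integers modulo `p^m`. -/
abbrev ResM : Type := Ov v ⧸ pmIdeal v m

theorem finite_resM : Finite (ResM v m) := by
  obtain ⟨R, hR, hR'⟩ := exists_finite_reps v m
  have := hR.to_subtype
  choose r hr hrv using hR'
  refine Finite.of_injective
    (fun a : ResM v m => (⟨r _ a.out.2, hr _ _⟩ : R)) fun a b hab => ?_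
  simp only [Subtype.mk.injEq] at hab
  rw [← Ideal.Quotient.mk_out a, ← Ideal.Quotient.mk_out b, Ideal.Quotient.eq]
  show valv v ((a.out : v.adicCompletion F) - (b.out : v.adicCompletion F)) ≤ _
  have ha := hrv _ a.out.2
  rw [hab] at ha
  have hb := hrv _ b.out.2
  rw [Valuation.map_sub_swap] at hb
  simpa using (valv v).map_add_le ha hb

variable {v} {m}

/-- The class of an integral element. -/
def resMk (z : v.adicCompletion F) (hz : valv v z ≤ 1) : ResM v m :=
  Ideal.Quotient.mk _ ⟨z, hz⟩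

theorem mk_eq_iff {a b : Ov v} : (Ideal.Quotient.mk (pmIdeal v m) a) = Ideal.Quotient.mk _ b ↔
    valv v ((a : v.adicCompletion F) - (b : v.adicCompletion F)) ≤ WithZero.exp (-(m : ℤ)) := by
  rw [Ideal.Quotient.eq]; rfl

theorem out_resMk_sub (z : v.adicCompletion F) (hz : valv v z ≤ 1) :
    valv v (((resMk (m := m) z hz).out : v.adicCompletion F) - z) ≤ WithZero.exp (-(m : ℤ)) :=
  (mk_eq_iff (b := ⟨z, hz⟩)).mp (Ideal.Quotient.mk_out _)

theorem unipHom_mem_intGL {z : v.adicCompletion F} (hz : valv v z ≤ 1) :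
    unipHom (v.adicCompletion F) z ∈ intGL (valv v) := isIntGL_unipHom v hz

theorem trAt_unip_eq (hm : 1 ≤ m) {ψ : Gf F → Hyp F → ℂ} (hψ : congSubgroup v m ≤ fixer v ψ)
    {z z' : v.adicCompletion F} (hz' : valv v z' ≤ 1)
    (h : valv v (z - z') ≤ WithZero.exp (-(m : ℤ))) :
    trAt (unipHom (v.adicCompletion F) z) ψ = trAt (unipHom (v.adicCompletion F) z') ψ := by
  refine trAt_eq_of_inv_mul_mem (hψ (inv_mul_mem_congSubgroup hm (unipHom_mem_intGL hz') ?_))
  intro i j
  fin_cases i <;> fin_cases j <;> simp [coe_unipHom, h, -WithZero.exp_neg]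

/-- The translation by the unipotent of a representative of the class `a`. -/
def nOp (a : ResM v m) : (Gf F → Hyp F → ℂ) →ₗ[ℂ] (Gf F → Hyp F → ℂ) :=
  trAt (unipHom (v.adicCompletion F) (a.out : v.adicCompletion F))

theorem nOp_resMk (hm : 1 ≤ m) {ψ : Gf F → Hyp F → ℂ} (hψ : congSubgroup v m ≤ fixer v ψ)
    (z : v.adicCompletion F) (hz : valv v z ≤ 1) :
    nOp (resMk (m := m) z hz) ψ = trAt (unipHom (v.adicCompletion F) z) ψ :=
  trAt_unip_eq hm hψ hz (out_resMk_sub z hz)

theorem nOp_add (hm : 1 ≤ m) {ψ : Gf F → Hyp F → ℂ} (hψ : congSubgroup v m ≤ fixer v ψ)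
    (a b : ResM v m) : nOp a (nOp b ψ) = nOp (a + b) ψ := by
  have hs : valv v ((a.out : v.adicCompletion F) + (b.out : v.adicCompletion F)) ≤ 1 :=
    (valv v).map_add_le a.out.2 b.out.2
  rw [nOp, nOp, ← trAt_mul, ← unipHom_add, ← nOp_resMk hm hψ _ hs]
  congr 2
  show Ideal.Quotient.mk (pmIdeal v m) (a.out + b.out) = _
  rw [map_add, Ideal.Quotient.mk_out, Ideal.Quotient.mk_out]

theorem nOp_fixed {φ₀ : Gf F → Hyp F → ℂ} (hψ : congSubgroup v m ≤ fixer v φ₀) (a : ResM v m) :
    congSubgroup v m ≤ fixer v (nOp a φ₀) := fun _ hj =>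
  mem_fixer_rightTr.mpr (hψ (conj_mem_congSubgroup (unipHom_mem_intGL a.out.2) hj))

/-- The projection (unnormalised) to the component of the character `χ` of `O/p^m`. -/
def eComp [Fintype (ResM v m)] (χ : AddChar (ResM v m) ℂ) (ψ : Gf F → Hyp F → ℂ) :
    Gf F → Hyp F → ℂ :=
  ∑ a, χ (-a) • nOp a ψ

theorem nOp_eComp [Fintype (ResM v m)] (hm : 1 ≤ m) {ψ : Gf F → Hyp F → ℂ}
    (hψ : congSubgroup v m ≤ fixer v ψ) (χ : AddChar (ResM v m) ℂ) (b : ResM v m) :
    nOp b (eComp χ ψ) = χ b • eComp χ ψ := by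
  simp only [eComp, map_sum, map_smul, Finset.smul_sum, smul_smul, nOp_add hm hψ]
  refine Fintype.sum_equiv (Equiv.addLeft b) _ _ fun a => ?_
  rw [Equiv.coe_addLeft, ← AddChar.map_add_eq_mul]
  congr 2
  ring

theorem exists_eComp_ne [Fintype (ResM v m)] (hm : 1 ≤ m) {ψ : Gf F → Hyp F → ℂ}
    (hψ : congSubgroup v m ≤ fixer v ψ) {z : ResM v m} (hz : nOp z ψ ≠ ψ) :
    ∃ χ : AddChar (ResM v m) ℂ, χ z ≠ 1 ∧ eComp χ ψ ≠ 0 := by
  classical
  by_contra! H
  refine hz ?_
  have hsum : ∑ χ : AddChar (ResM v m) ℂ, eComp χ ψ = (Fintype.card (ResM v m) : ℂ) • ψ := by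
    simp only [eComp]
    rw [Finset.sum_comm]
    simp only [← Finset.sum_smul, AddChar.sum_apply_eq_ite, neg_eq_zero, ite_smul, zero_smul,
      Finset.sum_ite_eq', Finset.mem_univ, if_true]
    congr 1
    show trAt _ ψ = ψ
    refine trAt_eq_of_mem (hψ (mem_congSubgroup hm fun i j => ?_))
    have h0 := out_resMk_sub (v := v) (m := m) 0 (by simp)
    have e : resMk (v := v) (m := m) 0 (by simp) = 0 := map_zero (Ideal.Quotient.mk _)
    rw [e, sub_zero] at h0
    fin_cases i <;> fin_cases j <;> simp [coe_unipHom, h0, -WithZero.exp_neg]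
  have hfix : nOp z (∑ χ : AddChar (ResM v m) ℂ, eComp χ ψ) =
      ∑ χ : AddChar (ResM v m) ℂ, eComp χ ψ := by
    rw [map_sum]
    refine Finset.sum_congr rfl fun χ _ => ?_
    rw [nOp_eComp hm hψ]
    rcases eq_or_ne (χ z) 1 with h | h
    · rw [h, one_smul]
    · rw [H χ h, smul_zero]
  rw [hsum, map_smul] at hfix
  exact (smul_right_injective _ (Nat.cast_ne_zero.mpr Fintype.card_ne_zero)) hfix

/-- The unit of the completion lifting a unit class. -/
def unitLift (hm : 1 ≤ m) (u : (ResM v m)ˣ) : (v.adicCompletion F)ˣ :=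
  Units.mk0 ((u : ResM v m).out : v.adicCompletion F) fun h => by
    have hu : (u : ResM v m) = 0 := by
      rw [← Ideal.Quotient.mk_out (u : ResM v m), ← map_zero (Ideal.Quotient.mk (pmIdeal v m)),
        mk_eq_iff]
      simp [h]
    have : Nontrivial (ResM v m) := ⟨⟨1, 0, fun e => by
      rw [← map_one (Ideal.Quotient.mk (pmIdeal v m)),
        ← map_zero (Ideal.Quotient.mk (pmIdeal v m)), mk_eq_iff] at e
      simp only [OneMemClass.coe_one, ZeroMemClass.coe_zero, sub_zero, map_one] at e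
      exact (exp_neg_lt_one hm).not_ge e⟩⟩
    exact u.ne_zero hu

theorem coe_unitLift (hm : 1 ≤ m) (u : (ResM v m)ˣ) :
    (unitLift hm u : v.adicCompletion F) = ((u : ResM v m).out : v.adicCompletion F) := rfl

theorem valv_unitLift (hm : 1 ≤ m) (u : (ResM v m)ˣ) :
    valv v (unitLift hm u : v.adicCompletion F) = 1 := by
  refine le_antisymm (u : ResM v m).out.2 (le_of_not_gt fun hlt => ?_)
  have hlt' : valv v ((u : ResM v m).out : v.adicCompletion F) < 1 := hlt
  have h1 : Ideal.Quotient.mk (pmIdeal v m) ((u : ResM v m).out * (↑u⁻¹ : ResM v m).out) =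
      Ideal.Quotient.mk _ 1 := by
    rw [map_mul, Ideal.Quotient.mk_out, Ideal.Quotient.mk_out, Units.mul_inv, map_one]
  rw [mk_eq_iff] at h1
  simp only [MulMemClass.coe_mul, OneMemClass.coe_one] at h1
  have hw : valv v (((u : ResM v m).out : v.adicCompletion F) *
      ((↑u⁻¹ : ResM v m).out : v.adicCompletion F)) < 1 := by
    rw [map_mul]; exact lt_of_le_of_lt (mul_le_of_le_one_right' (↑u⁻¹ : ResM v m).out.2) hlt'
  have h2 := (valv v).map_one_add_of_lt (h1.trans_lt (exp_neg_lt_one hm))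
  rw [add_sub_cancel] at h2
  exact hw.ne h2

/-- The translation by `diag(u, 1)`. -/
def dOp (hm : 1 ≤ m) (u : (ResM v m)ˣ) : (Gf F → Hyp F → ℂ) →ₗ[ℂ] (Gf F → Hyp F → ℂ) :=
  trAt (torusGL (unitLift hm u))

theorem torusGL_mem_intGL {u : (v.adicCompletion F)ˣ} (hu : valv v (u : v.adicCompletion F) = 1) :
    torusGL u ∈ intGL (valv v) := isIntGL_torusGL v hu

theorem trAt_torus_eq (hm : 1 ≤ m) {ψ : Gf F → Hyp F → ℂ} (hψ : congSubgroup v m ≤ fixer v ψ)
    {u u' : (v.adicCompletion F)ˣ} (hu' : valv v (u' : v.adicCompletion F) = 1)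
    (h : valv v ((u : v.adicCompletion F) - u') ≤ WithZero.exp (-(m : ℤ))) :
    trAt (torusGL u) ψ = trAt (torusGL u') ψ := by
  refine trAt_eq_of_inv_mul_mem (hψ (inv_mul_mem_congSubgroup hm (torusGL_mem_intGL hu') ?_))
  intro i j
  fin_cases i <;> fin_cases j <;> simp [coe_torusGL, h, -WithZero.exp_neg]

theorem trAt_torus_dOp (hm : 1 ≤ m) {ψ : Gf F → Hyp F → ℂ} (hψ : congSubgroup v m ≤ fixer v ψ)
    {a : (v.adicCompletion F)ˣ} {ua : (ResM v m)ˣ}
    (ha : valv v (a : v.adicCompletion F) = 1)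
    (hua : valv v ((a : v.adicCompletion F) - ((ua : ResM v m).out : v.adicCompletion F)) ≤
      WithZero.exp (-(m : ℤ)))
    (u : (ResM v m)ˣ) : trAt (torusGL a) (dOp hm u ψ) = dOp hm (ua * u) ψ := by
  rw [dOp, ← trAt_mul, ← torusGL_mul]
  refine trAt_torus_eq hm hψ (valv_unitLift hm _) ?_
  rw [Units.val_mul, coe_unitLift, coe_unitLift]
  set aO : Ov v := ⟨(a : v.adicCompletion F), ha.le⟩
  have hua' : Ideal.Quotient.mk (pmIdeal v m) aO = (ua : ResM v m) := by
    have e : Ideal.Quotient.mk (pmIdeal v m) (ua : ResM v m).out = (ua : ResM v m) :=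
      Ideal.Quotient.mk_out _
    rw [← e]
    exact (mk_eq_iff (a := aO) (b := (ua : ResM v m).out)).mpr hua
  have key : Ideal.Quotient.mk (pmIdeal v m) (aO * (u : ResM v m).out) =
      Ideal.Quotient.mk (pmIdeal v m) (((ua * u : (ResM v m)ˣ) : ResM v m).out) := by
    rw [map_mul, hua', Ideal.Quotient.mk_out, Ideal.Quotient.mk_out, Units.val_mul]
  have key' := (mk_eq_iff (a := aO * (u : ResM v m).out)
    (b := ((ua * u : (ResM v m)ˣ) : ResM v m).out)).mp key
  rwa [MulMemClass.coe_mul] at key'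

theorem dOp_fixed (hm : 1 ≤ m) {ψ : Gf F → Hyp F → ℂ} (hψ : congSubgroup v m ≤ fixer v ψ)
    (u : (ResM v m)ˣ) : congSubgroup v m ≤ fixer v (dOp hm u ψ) := fun _ hj =>
  mem_fixer_rightTr.mpr (hψ (conj_mem_congSubgroup (torusGL_mem_intGL (valv_unitLift hm u)) hj))

theorem nOp_dOp (hm : 1 ≤ m) {ψ : Gf F → Hyp F → ℂ} (hψ : congSubgroup v m ≤ fixer v ψ)
    (u : (ResM v m)ˣ) (y : ResM v m) :
    nOp y (dOp hm u ψ) = dOp hm u (nOp ((↑u⁻¹ : ResM v m) * y) ψ) := by
  set U := unitLift hm u with hU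
  have hval : valv v ((U⁻¹ : (v.adicCompletion F)ˣ) * (y.out : v.adicCompletion F)) ≤ 1 := by
    rw [map_mul, Units.val_inv_eq_inv_val, map_inv₀, valv_unitLift hm u, inv_one, one_mul]
    exact y.out.2
  have e : unipHom (v.adicCompletion F) (y.out : v.adicCompletion F) * torusGL U =
      torusGL U * unipHom (v.adicCompletion F)
        ((U⁻¹ : (v.adicCompletion F)ˣ) * (y.out : v.adicCompletion F)) := by
    refine Units.ext ?_
    ext i j
    fin_cases i <;> fin_cases j <;>
      simp [coe_torusGL, coe_unipHom, Matrix.mul_apply, Fin.sum_univ_two]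
  rw [nOp, dOp, ← hU, ← trAt_mul, e, trAt_mul, nOp]
  congr 1
  refine trAt_unip_eq hm hψ ((↑u⁻¹ : ResM v m) * y).out.2 ?_
  refine (mk_eq_iff (a := ⟨_, hval⟩)).mp ?_
  rw [Ideal.Quotient.mk_out]
  refine (Units.mul_right_inj u).mp ?_
  rw [Units.mul_inv_cancel_left]
  conv_lhs => rw [← Ideal.Quotient.mk_out (u : ResM v m), ← map_mul]
  conv_rhs => rw [← Ideal.Quotient.mk_out y]
  congr 1
  exact Subtype.ext (by
    show (U : v.adicCompletion F) *
      ((U⁻¹ : (v.adicCompletion F)ˣ) * (y.out : v.adicCompletion F)) = _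
    rw [Units.mul_inv_cancel_left])

open Classical in
/-- A torus-invariant vector made of character components of `n(O/p^m)`. -/
theorem exists_torus_vector [Fintype (ResM v m)] (hm : 1 ≤ m)
    (V : Submodule ℂ (Gf F → Hyp F → ℂ)) (hV : ∀ (g : GLv v), ∀ ψ ∈ V, trAt g ψ ∈ V)
    {ψ : Gf F → Hyp F → ℂ} (hψV : ψ ∈ V) (hψ : congSubgroup v m ≤ fixer v ψ)
    {z : v.adicCompletion F} (hz : valv v z ≤ WithZero.exp (-((m - 1 : ℕ) : ℤ)))
    (hne : unipHom (v.adicCompletion F) z ∉ fixer v ψ) :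
    ∃ φ ∈ V, φ ≠ 0 ∧ congSubgroup v m ≤ fixer v φ ∧
      (∀ a : (v.adicCompletion F)ˣ, valv v (a : v.adicCompletion F) = 1 →
        torusGL a ∈ fixer v φ) ∧
      ∃ comp : (ResM v m)ˣ → (Gf F → Hyp F → ℂ), φ = ∑ u, comp u ∧
        ∀ u, ∃ χ : AddChar (ResM v m) ℂ,
          (∃ z0 : v.adicCompletion F, ∃ hz0 : valv v z0 ≤ 1,
            valv v z0 ≤ WithZero.exp (-((m - 1 : ℕ) : ℤ)) ∧ χ (resMk z0 hz0) ≠ 1) ∧
          ∀ y, nOp y (comp u) = χ y • comp u := by
  classical
  have hz1 : valv v z ≤ 1 := hz.trans (exp_neg_le_one _)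
  have hzne : nOp (resMk (m := m) z hz1) ψ ≠ ψ := by
    rw [nOp_resMk hm hψ]; exact fun h => hne (mem_fixer.mpr h)
  obtain ⟨χ, hχ, hne0⟩ := exists_eComp_ne hm hψ hzne
  set ψc := eComp χ ψ with hψc
  have hψcfix : congSubgroup v m ≤ fixer v ψc := fun j hj =>
    fixer_sum _ _ fun a _ => fixer_smul _ _ (nOp_fixed hψ a hj)
  have hψcV : ψc ∈ V := sum_mem fun a _ => V.smul_mem _ (hV _ _ hψV)
  set comp : (ResM v m)ˣ → (Gf F → Hyp F → ℂ) := fun u => dOp hm u ψc
  have hchar : ∀ u y, nOp y (comp u) = χ ((↑u⁻¹ : ResM v m) * y) • comp u := fun u y => by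
    simp only [comp]
    rw [nOp_dOp hm hψcfix, nOp_eComp hm hψ, map_smul]
  refine ⟨∑ u, comp u, sum_mem fun u _ => hV _ _ hψcV, ?_, fun j hj =>
    fixer_sum _ _ fun u _ => dOp_fixed hm hψcfix u hj, ?_, comp, rfl, fun u => ?_⟩
  · intro h0
    -- project back to the character `χ`
    have hproj : ∀ u : (ResM v m)ˣ, u ≠ 1 → ∑ y, χ (-y) * χ ((↑u⁻¹ : ResM v m) * y) = 0 := by
      intro u hu
      set η : AddChar (ResM v m) ℂ := χ.compAddMonoidHom
        (AddMonoidHom.mulLeft ((↑u⁻¹ : ResM v m) - 1))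
      have hη : ∀ y, χ (-y) * χ ((↑u⁻¹ : ResM v m) * y) = η y := fun y => by
        rw [← AddChar.map_add_eq_mul]
        show _ = χ (((↑u⁻¹ : ResM v m) - 1) * y)
        congr 1
        ring
      simp only [hη]
      refine AddChar.sum_eq_zero_of_ne_one fun h1 => hu ?_
      have hd : (↑u⁻¹ : ResM v m) - 1 = 0 := by
        by_contra hd
        set d : Ov v := ((↑u⁻¹ : ResM v m) - 1).out with hd'
        have hdv : WithZero.exp (-(m : ℤ)) < valv v (d : v.adicCompletion F) := by
          refine lt_of_not_ge fun hle => hd ?_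
          rw [← Ideal.Quotient.mk_out ((↑u⁻¹ : ResM v m) - 1),
            ← map_zero (Ideal.Quotient.mk (pmIdeal v m)), mk_eq_iff]
          simpa using hle
        have hd0 : (d : v.adicCompletion F) ≠ 0 := fun h => by simp [h] at hdv
        have hdle : WithZero.exp (-((m - 1 : ℕ) : ℤ)) ≤ valv v (d : v.adicCompletion F) := by
          have h0 := (valv v).ne_zero_iff.mpr hd0
          rw [← WithZero.exp_log h0] at hdv ⊢
          rw [WithZero.exp_lt_exp] at hdv
          rw [WithZero.exp_le_exp]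
          omega
        have hy : valv v ((d : v.adicCompletion F)⁻¹ * z) ≤ 1 := by
          rw [map_mul, map_inv₀,
            inv_mul_le_one₀ (zero_lt_iff.mpr ((valv v).ne_zero_iff.mpr hd0))]
          exact hz.trans hdle
        have h2 := DFunLike.congr_fun h1 (resMk (m := m) _ hy)
        rw [AddChar.one_apply] at h2
        refine hχ (Eq.trans ?_ h2)
        show χ _ = χ (((↑u⁻¹ : ResM v m) - 1) * _)
        congr 1
        conv_rhs => rw [← Ideal.Quotient.mk_out ((↑u⁻¹ : ResM v m) - 1)]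
        rw [resMk, resMk, ← map_mul]
        congr 1
        exact Subtype.ext (by
          show z = (d : v.adicCompletion F) * ((d : v.adicCompletion F)⁻¹ * z)
          rw [mul_inv_cancel_left₀ hd0])
      have : u⁻¹ = 1 := Units.ext (sub_eq_zero.mp hd)
      exact inv_eq_one.mp this
    have h3 : ∑ y, χ (-y) • nOp y (∑ u, comp u) = (Fintype.card (ResM v m) : ℂ) • comp 1 := by
      simp only [map_sum, Finset.smul_sum, hchar, smul_smul]
      rw [Finset.sum_comm]
      simp only [← Finset.sum_smul]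
      rw [Finset.sum_eq_single 1 (fun u _ hu => by rw [hproj u hu, zero_smul]) (by simp)]
      congr 1
      simp [← AddChar.map_add_eq_mul]
    rw [h0] at h3
    simp only [map_zero, smul_zero, Finset.sum_const_zero] at h3
    rcases smul_eq_zero.mp h3.symm with h | h
    · exact Nat.cast_ne_zero.mpr Fintype.card_ne_zero h
    · exact hne0 (trAt_injective _ (h.trans (map_zero _).symm))
  · intro a ha
    refine mem_fixer.mpr ?_
    show trAt (torusGL a) (∑ u, comp u) = _
    have hunit : IsUnit (resMk (m := m) (a : v.adicCompletion F) ha.le) := by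
      have hinv : valv v ((a⁻¹ : (v.adicCompletion F)ˣ) : v.adicCompletion F) ≤ 1 := by
        rw [Units.val_inv_eq_inv_val, map_inv₀, ha, inv_one]
      refine IsUnit.of_mul_eq_one (resMk _ hinv) ?_
      rw [resMk, resMk, ← map_mul]
      refine Eq.trans ?_ (map_one (Ideal.Quotient.mk (pmIdeal v m)))
      congr 1
      exact Subtype.ext (Units.mul_inv a)
    have hua : valv v ((a : v.adicCompletion F) -
        ((hunit.unit : ResM v m).out : v.adicCompletion F)) ≤ WithZero.exp (-(m : ℤ)) := by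
      rw [Valuation.map_sub_swap, IsUnit.unit_spec]; exact out_resMk_sub _ _
    rw [map_sum]
    simp only [comp, trAt_torus_dOp hm hψcfix ha hua]
    exact Fintype.sum_equiv (Equiv.mulLeft hunit.unit) _ _ fun u => rfl
  · refine ⟨χ.compAddMonoidHom (AddMonoidHom.mulLeft (↑u⁻¹ : ResM v m)), ?_, hchar u⟩
    set U := unitLift hm u
    have h0 : valv v ((U : v.adicCompletion F) * z) = valv v z := by
      rw [map_mul, valv_unitLift, one_mul]
    refine ⟨(U : v.adicCompletion F) * z, h0 ▸ hz1, h0 ▸ hz, ?_⟩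
    show χ ((↑u⁻¹ : ResM v m) * _) ≠ 1
    have e : resMk (m := m) ((U : v.adicCompletion F) * z) (h0 ▸ hz1) =
        (u : ResM v m) * resMk z hz1 := by
      conv_rhs => rw [← Ideal.Quotient.mk_out (u : ResM v m)]
      rw [resMk, resMk, ← map_mul]
      rfl
    rwa [e, Units.inv_mul_cancel_left]

/-- Representatives of `p⁻¹ / O`. -/
def IsPolarReps (R : Finset (v.adicCompletion F)) : Prop :=
  (∀ b ∈ R, valv v b ≤ WithZero.exp (1 : ℤ)) ∧
    ∀ b, valv v b ≤ WithZero.exp (1 : ℤ) → ∃! r, r ∈ R ∧ valv v (b - r) ≤ 1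

/-- A vector of level `p^m` fixed by the unit torus has level `Γ₀(p^(2m))` after translation by
`diag(P⁻¹, 1)`, where `P` generates `p^m`. -/
theorem gammaSub_le_fixer_torusGL (hm : 1 ≤ m) {φ : Gf F → Hyp F → ℂ}
    (hφfix : congSubgroup v m ≤ fixer v φ)
    (htor : ∀ a : (v.adicCompletion F)ˣ, valv v (a : v.adicCompletion F) = 1 →
      torusGL a ∈ fixer v φ)
    {P : (v.adicCompletion F)ˣ}
    (hϖm : valv v (P : v.adicCompletion F) = WithZero.exp (-(m : ℤ))) :
    gammaSub v (2 * m) ≤ fixer v (trAt (torusGL P⁻¹) φ) := by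
  set h : GLv v := torusGL P⁻¹ with hh
  refine (Subgroup.closure_le _).2 ?_
  rintro g (⟨hg, hg10⟩ | hg)
  · refine mem_fixer_rightTr.mpr ?_
    set M := (g : Matrix (Fin 2) (Fin 2) (v.adicCompletion F)) with hM
    have h2m : WithZero.exp (-((2 * m : ℕ) : ℤ)) < (1 : ℤᵐ⁰) := exp_neg_lt_one (by omega)
    have hbc : valv v (M 0 1 * M 1 0) < 1 := by
      rw [map_mul]; exact lt_of_le_of_lt ((mul_le_of_le_one_left' (hg.1 0 1)).trans hg10) h2m
    have had : valv v (M 0 0 * M 1 1) = 1 := by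
      have hdet := hg.2
      rw [Matrix.det_fin_two, ← hM] at hdet
      calc valv v (M 0 0 * M 1 1)
          = valv v ((M 0 0 * M 1 1 - M 0 1 * M 1 0) + M 0 1 * M 1 0) := by rw [sub_add_cancel]
        _ = 1 := by rw [(valv v).map_add_eq_of_lt_left (by rwa [hdet]), hdet]
    have ha : valv v (M 0 0) = 1 := le_antisymm (hg.1 0 0) (by
      rw [← had, map_mul]; exact mul_le_of_le_one_right' (hg.1 1 1))
    have hd : valv v (M 1 1) = 1 := le_antisymm (hg.1 1 1) (by
      rw [← had, map_mul]; exact mul_le_of_le_one_left' (hg.1 0 0))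
    set A : (v.adicCompletion F)ˣ := Units.mk0 (M 0 0) (fun e => by simp [e] at ha)
    set D : (v.adicCompletion F)ˣ := Units.mk0 (M 1 1) (fun e => by simp [e] at hd)
    have hAD : valv v ((A * D⁻¹ : (v.adicCompletion F)ˣ) : v.adicCompletion F) = 1 := by
      simp [A, D, ha, hd]
    have hdiag : diagGL A D ∈ fixer v φ := by
      rw [show diagGL A D = diagGL D D * torusGL (A * D⁻¹) by
        rw [torusGL, Tree.diagGL_mul, mul_inv_cancel_comm_assoc, mul_one]]
      exact mul_mem (hφfix (center_le_congSubgroup m (scalar_mem_center' D))) (htor _ hAD)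
    suffices hq : (diagGL A D)⁻¹ * (h⁻¹ * g * h) ∈ congSubgroup v m by
      simpa using mul_mem hdiag (hφfix hq)
    refine inv_mul_mem_congSubgroup hm (isIntGL_diagGL ha hd) fun i j => ?_
    have hm2 : WithZero.exp (m : ℤ) * WithZero.exp (-((2 * m : ℕ) : ℤ)) =
        WithZero.exp (-(m : ℤ)) := by
      rw [← WithZero.exp_add]; congr 1; push_cast; ring
    have hPi : valv v ((P⁻¹ : (v.adicCompletion F)ˣ) : v.adicCompletion F) =
        WithZero.exp (m : ℤ) := by
      rw [Units.val_inv_eq_inv_val, map_inv₀, hϖm, ← WithZero.exp_neg, neg_neg]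
    have e : ((h⁻¹ * g * h : GLv v) : Matrix (Fin 2) (Fin 2) (v.adicCompletion F)) =
        !![M 0 0, (P : v.adicCompletion F) * M 0 1;
          ((P⁻¹ : (v.adicCompletion F)ˣ) : v.adicCompletion F) * M 1 0, M 1 1] := by
      rw [hh, show (torusGL P⁻¹)⁻¹ = torusGL P from inv_eq_of_mul_eq_one_left (by
        rw [← torusGL_mul, mul_inv_cancel, torusGL_one])]
      rw [Units.val_mul, Units.val_mul, coe_torusGL, coe_torusGL, ← hM, Matrix.eta_fin_two M,
        Matrix.mul_fin_two, Matrix.mul_fin_two]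
      ext i j
      fin_cases i <;> fin_cases j <;> simp [mul_comm]
    rw [e]
    fin_cases i <;> fin_cases j
    · simp [A]
    · simp only [Fin.zero_eta, Fin.mk_one, Matrix.sub_apply, Tree.coe_diagGL, Matrix.of_apply,
        Matrix.cons_val', Matrix.cons_val_zero, Matrix.cons_val_one, Matrix.cons_val_fin_one,
        sub_zero]
      rw [map_mul, hϖm]
      exact mul_le_of_le_one_right' (hg.1 0 1)
    · simp only [Fin.zero_eta, Fin.mk_one, Matrix.sub_apply, Tree.coe_diagGL, Matrix.of_apply,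
        Matrix.cons_val', Matrix.cons_val_zero, Matrix.cons_val_one, Matrix.cons_val_fin_one,
        sub_zero]
      rw [map_mul, hPi, ← hm2]
      exact mul_le_mul_right hg10 _
    · simp [D]
  · refine mem_fixer_rightTr.mpr ?_
    rw [mul_assoc, ← Subgroup.mem_center_iff.1 hg h, inv_mul_cancel_left]
    exact hφfix (center_le_congSubgroup m hg)

open Classical in
/-- A sum of eigenvectors of `n(O/p^m)` with characters nontrivial on `p^(m-1)` is killed, after
translation by `diag(P⁻¹, 1)`, by the sum over the translations by `p⁻¹/O`. -/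
theorem sum_polarReps_eq_zero [Fintype (ResM v m)] (hm : 1 ≤ m)
    {comp : (ResM v m)ˣ → Gf F → Hyp F → ℂ}
    (hφfix : congSubgroup v m ≤ fixer v (∑ u, comp u))
    (hcomp : ∀ u, ∃ χ : AddChar (ResM v m) ℂ,
      (∃ z0 : v.adicCompletion F, ∃ hz0 : valv v z0 ≤ 1,
        valv v z0 ≤ WithZero.exp (-((m - 1 : ℕ) : ℤ)) ∧ χ (resMk z0 hz0) ≠ 1) ∧
      ∀ y, nOp y (comp u) = χ y • comp u)
    {P : (v.adicCompletion F)ˣ}
    (hϖm : valv v (P : v.adicCompletion F) = WithZero.exp (-(m : ℤ)))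
    {R : Finset (v.adicCompletion F)} (hR : IsPolarReps R) :
    ∑ b ∈ R, trAt (unipHom (v.adicCompletion F) b)
      (trAt (torusGL P⁻¹) (∑ u, comp u)) = 0 := by
  classical
  set h : GLv v := torusGL P⁻¹ with hh
  set φ := ∑ u, comp u with hsum
  have hb : ∀ b, valv v b ≤ WithZero.exp (1 : ℤ) →
      valv v ((P : v.adicCompletion F) * b) ≤ WithZero.exp (-((m - 1 : ℕ) : ℤ)) := by
    intro b hb
    rw [map_mul, hϖm]
    refine (mul_le_mul_right hb _).trans ?_
    rw [← WithZero.exp_add, WithZero.exp_le_exp]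
    omega
  have hb1 : ∀ b, valv v b ≤ WithZero.exp (1 : ℤ) → valv v ((P : v.adicCompletion F) * b) ≤ 1 :=
    fun b h' => (hb b h').trans (exp_neg_le_one _)
  have hconj : ∀ b, unipHom (v.adicCompletion F) b * h =
      h * unipHom (v.adicCompletion F) ((P : v.adicCompletion F) * b) := by
    intro b
    refine Units.ext ?_
    ext i j
    fin_cases i <;> fin_cases j <;>
      simp [hh, coe_torusGL, coe_unipHom, Matrix.mul_apply, Fin.sum_univ_two]
  rw [Finset.sum_congr rfl fun b (_ : b ∈ R) => show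
    trAt (unipHom (v.adicCompletion F) b) (trAt h φ) =
      trAt h (trAt (unipHom (v.adicCompletion F) ((P : v.adicCompletion F) * b)) φ) by
    rw [← trAt_mul, hconj, trAt_mul], ← map_sum]
  refine Eq.trans (congrArg _ ?_) (map_zero _)
  set F' : v.adicCompletion F → ResM v m := fun b =>
    if h' : valv v ((P : v.adicCompletion F) * b) ≤ 1 then resMk _ h' else 0
  have hF' : ∀ b, valv v b ≤ WithZero.exp (1 : ℤ) → ∀ h',
      F' b = resMk ((P : v.adicCompletion F) * b) h' := fun b h1 h' => dif_pos _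
  rw [Finset.sum_congr rfl fun b hbR => show
    trAt (unipHom (v.adicCompletion F) ((P : v.adicCompletion F) * b)) φ = nOp (F' b) φ by
    rw [hF' b (hR.1 b hbR) (hb1 b (hR.1 b hbR)), nOp_resMk hm hφfix]]
  simp only [hsum, map_sum]
  rw [Finset.sum_comm]
  refine Finset.sum_eq_zero fun u _ => ?_
  obtain ⟨χ, ⟨z0, hz0, hz0m, hχ⟩, hχu⟩ := hcomp u
  simp only [hχu, ← Finset.sum_smul]
  convert! zero_smul ℂ (comp u)
  set b0 := ((P⁻¹ : (v.adicCompletion F)ˣ) : v.adicCompletion F) * z0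
  have hb0 : valv v b0 ≤ WithZero.exp (1 : ℤ) := by
    simp only [b0, map_mul, Units.val_inv_eq_inv_val, map_inv₀, hϖm, ← WithZero.exp_neg, neg_neg]
    refine (mul_le_mul_right hz0m _).trans ?_
    rw [← WithZero.exp_add, WithZero.exp_le_exp]
    omega
  have hz1 : (1 : ℤᵐ⁰) ≤ WithZero.exp (1 : ℤ) := by
    rw [← WithZero.exp_zero, WithZero.exp_le_exp]; norm_num
  have hcongr : ∀ b b', valv v b ≤ WithZero.exp (1 : ℤ) → valv v b' ≤ WithZero.exp (1 : ℤ) →
      valv v (b - b') ≤ 1 → F' b = F' b' := by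
    intro b b' h1 h2 h3
    rw [hF' b h1 (hb1 b h1), hF' b' h2 (hb1 b' h2), resMk, resMk, mk_eq_iff]
    show valv v ((P : v.adicCompletion F) * b - (P : v.adicCompletion F) * b') ≤ _
    rw [← mul_sub, map_mul, hϖm]
    exact mul_le_of_le_one_right' h3
  choose rep hrep huniq using hR.2
  set S := ∑ b ∈ R, χ (F' b)
  have hS : χ (resMk z0 hz0) * S = S := by
    rw [Finset.mul_sum]
    refine Finset.sum_bij' (fun b hbR => rep (b + b0) ((valv v).map_add_le (hR.1 b hbR) hb0))
      (fun b hbR => rep (b - b0) ((valv v).map_sub_le (hR.1 b hbR) hb0))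
      (fun b _ => (hrep _ _).1) (fun b _ => (hrep _ _).1) (fun b hbR => ?_) (fun b hbR => ?_)
      (fun b hbR => ?_)
    · refine (huniq _ _ b ⟨hbR, ?_⟩).symm
      set r := rep (b + b0) ((valv v).map_add_le (hR.1 b hbR) hb0) with hr
      have h1 : valv v (b + b0 - r) ≤ 1 := (hrep _ _).2
      rwa [show r - b0 - b = -(b + b0 - r) by ring, Valuation.map_neg]
    · refine (huniq _ _ b ⟨hbR, ?_⟩).symm
      set r := rep (b - b0) ((valv v).map_sub_le (hR.1 b hbR) hb0) with hr
      have h1 : valv v (b - b0 - r) ≤ 1 := (hrep _ _).2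
      rwa [show r + b0 - b = -(b - b0 - r) by ring, Valuation.map_neg]
    · have h1 := hrep (b + b0) ((valv v).map_add_le (hR.1 b hbR) hb0)
      rw [← hcongr _ _ ((valv v).map_add_le (hR.1 b hbR) hb0) (hR.1 _ h1.1) h1.2,
        ← AddChar.map_add_eq_mul]
      congr 1
      rw [hF' b (hR.1 b hbR) (hb1 b (hR.1 b hbR)),
        hF' (b + b0) ((valv v).map_add_le (hR.1 b hbR) hb0)
          (hb1 _ ((valv v).map_add_le (hR.1 b hbR) hb0)), resMk, resMk, resMk,
        ← map_add]
      congr 1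
      refine Subtype.ext ?_
      show z0 + (P : v.adicCompletion F) * b = (P : v.adicCompletion F) * (b + b0)
      rw [mul_add, Units.mul_inv_cancel_left, add_comm]
  exact (mul_eq_zero.mp (show (χ (resMk z0 hz0) - 1) * S = 0 by
    rw [sub_mul, hS, one_mul, sub_self])).resolve_left (sub_ne_zero.mpr hχ)

/-- A vector of level `p^m` moved by `n(p^(m-1))` gives a nonzero one of level `Γ₀(p^(2m))` killed
by the sum over the translations by `p⁻¹/O`. -/
theorem exists_newVector (hm : 1 ≤ m)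
    (V : Submodule ℂ (Gf F → Hyp F → ℂ)) (hV : ∀ (g : GLv v), ∀ ψ ∈ V, trAt g ψ ∈ V)
    {ψ : Gf F → Hyp F → ℂ} (hψV : ψ ∈ V) (hψ : congSubgroup v m ≤ fixer v ψ)
    {z : v.adicCompletion F} (hz : valv v z ≤ WithZero.exp (-((m - 1 : ℕ) : ℤ)))
    (hne : unipHom (v.adicCompletion F) z ∉ fixer v ψ) :
    ∃ φ ∈ V, φ ≠ 0 ∧ gammaSub v (2 * m) ≤ fixer v φ ∧
      ∀ R : Finset (v.adicCompletion F), IsPolarReps R →
        ∑ b ∈ R, trAt (unipHom (v.adicCompletion F) b) φ = 0 := by
  classical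
  have := finite_resM v m
  have := Fintype.ofFinite (ResM v m)
  obtain ⟨φ, hφV, hφ0, hφfix, htor, comp, hsum, hcomp⟩ :=
    exists_torus_vector hm V hV hψV hψ hz hne
  obtain ⟨π, hπ⟩ := v.valuation_exists_uniformizer F
  have hπv : valv v (algebraMap F (v.adicCompletion F) π) = WithZero.exp (-1 : ℤ) := by
    rw [valv_algebraMap]; exact hπ
  have hπ0 : algebraMap F (v.adicCompletion F) π ≠ 0 := fun h => by
    rw [h, map_zero] at hπv; exact (WithZero.exp_ne_zero hπv.symm)
  set ϖ : (v.adicCompletion F)ˣ := Units.mk0 _ hπ0 with hϖ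
  have hϖm : valv v (((ϖ ^ m : (v.adicCompletion F)ˣ)) : v.adicCompletion F) =
      WithZero.exp (-(m : ℤ)) := by
    rw [Units.val_pow_eq_pow_val, map_pow, hϖ, Units.val_mk0, hπv, ← WithZero.exp_nsmul]
    simp
  set P : (v.adicCompletion F)ˣ := ϖ ^ m
  subst hsum
  exact ⟨trAt (torusGL P⁻¹) _, hV _ _ hφV,
    fun h0 => hφ0 (trAt_injective _ (h0.trans (map_zero _).symm)),
    gammaSub_le_fixer_torusGL hm hφfix htor hϖm,
    fun R hR => sum_polarReps_eq_zero hm hφfix hcomp hϖm hR⟩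

end Fermat.Agent.ResidualThree.BianchiForm
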