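import Fermat.Agent.ResidualThree.BianchiForm.LocalGroup
import Fermat.Agent.ResidualThree.BianchiForm.Places

/-!
# `GL₂` of the finite adeles of `ℚ(√-3)` is `GL₂(K)` times any level of type `Γ₀`

As the class number is one and units and integers are dense in the relevant quotients, every
finite adelic element is a rational one times an element of prescribed deep `Γ₀` level at a
finite set of places and maximal elsewhere (`exists_global_mul`).
-/

noncomputable section

open IsDedekindDomain NumberField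
open scoped WithZero

namespace Fermat.Agent.ResidualThree.BianchiForm

open Fermat.Agent.ResidualThree.Tree (intGL diagGL)

local notation "Qbar" => AlgebraicClosure ℚ

variable {K : IntermediateField ℚ Qbar} [NumberField K] (E : EisField K)

theorem EisField.valuation_primeOf (v : FPlace K) :
    v.valuation K ((E.e (E.primeOf v) : 𝓞 K) : K) = WithZero.exp (-1 : ℤ) := by
  refine (HeightOneSpectrum.valuation_of_algebraMap v _).trans ?_
  exact v.intValuation_singleton (by simpa using (E.prime_primeOf v).ne_zero) (E.asIdeal_eq v)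

theorem EisField.valuation_primeOf_ne {v w : FPlace K} (h : w ≠ v) :
    w.valuation K ((E.e (E.primeOf v) : 𝓞 K) : K) = 1 := by
  refine le_antisymm (w.valuation_le_one _) (le_of_not_gt fun hlt => h ?_)
  rw [HeightOneSpectrum.valuation_lt_one_iff_mem] at hlt
  exact E.eq_of_mem (E.prime_primeOf v) hlt ((E.mem_iff v _).mpr dvd_rfl)

include E in
theorem EisField.exists_valuation_eq (e : FPlace K → ℤ) (he : ∀ᶠ v in Filter.cofinite, e v = 0) :
    ∃ l : Kˣ, ∀ v : FPlace K, v.valuation K (l : K) = WithZero.exp (e v) := by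
  classical
  have hfin := Filter.eventually_cofinite.mp he
  set g : FPlace K → K := fun v => ((E.e (E.primeOf v) : 𝓞 K) : K)
  have hg : ∀ v, g v ≠ 0 := fun v => by
    simpa [g] using (E.prime_primeOf v).ne_zero
  refine ⟨Units.mk0 (∏ v ∈ hfin.toFinset, g v ^ (-e v))
    (Finset.prod_ne_zero_iff.mpr fun v _ => zpow_ne_zero _ (hg v)), fun w => ?_⟩
  rw [Units.val_mk0, map_prod]
  have h1 : ∀ v, w.valuation K (g v ^ (-e v)) = if v = w then WithZero.exp (e v) else 1 := by
    intro v
    rw [map_zpow₀]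
    split_ifs with h
    · subst h; rw [E.valuation_primeOf, ← WithZero.exp_zsmul]; simp
    · rw [E.valuation_primeOf_ne (Ne.symm h), one_zpow]
  simp only [h1, Finset.prod_ite_eq']
  split_ifs with h
  · rfl
  · simp only [Set.Finite.mem_toFinset, Set.mem_ofPred_eq, not_not] at h
    rw [h, WithZero.exp_zero]

theorem exists_integer_congr (S : Finset (FPlace K)) (b : ∀ v : FPlace K, v.adicCompletion K)
    (hb : ∀ v ∈ S, valv v (b v) ≤ 1) (n : FPlace K → ℕ) :
    ∃ a : 𝓞 K, ∀ v ∈ S, valv v (algebraMap K (v.adicCompletion K) (a : K) - b v) ≤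
      WithZero.exp (-(n v : ℤ)) := by
  classical
  have hex : ∀ v : FPlace K, ∃ r : 𝓞 K, v ∈ S →
      valv v (algebraMap K (v.adicCompletion K) (r : K) - b v) ≤ WithZero.exp (-(n v : ℤ)) :=
    fun v =>
    if h : v ∈ S then (exists_integer_sub_le v (b v) (hb v h) (n v)).imp fun r hr _ => hr
    else ⟨0, fun h' => absurd h' h⟩
  choose r hr using hex
  obtain ⟨y, hy⟩ := IsDedekindDomain.exists_forall_sub_mem_ideal (s := S)
    (fun v : FPlace K => v.asIdeal) n (fun v _ => v.prime)
    (fun v _ w _ h e => h (HeightOneSpectrum.ext e)) (fun v => r v.1)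
  refine ⟨y, fun v hv => ?_⟩
  have h1 := hy v hv
  rw [← HeightOneSpectrum.intValuation_le_pow_iff_mem] at h1
  rw [show algebraMap K (v.adicCompletion K) (y : K) - b v =
    algebraMap K (v.adicCompletion K) ((y - r v : 𝓞 K) : K) +
      (algebraMap K (v.adicCompletion K) (r v : K) - b v) by simp only [map_sub]; ring]
  refine (valv v).map_add_le ?_ (hr v hv)
  rw [valv_algebraMap]
  exact (HeightOneSpectrum.valuation_of_algebraMap v _).trans_le h1

include E in
theorem exists_global_kmax {k : Gf K} (hk : k ∈ kmax K) (T : Finset (FPlace K)) (n : FPlace K → ℕ) :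
    ∃ γ : GL (Fin 2) K, ∀ v, (toLocal v γ)⁻¹ * (k : ∀ v, GLv v) v ∈ maxSubgroup v ∧
      (v ∈ T → (toLocal v γ)⁻¹ * (k : ∀ v, GLv v) v ∈ gammaSub v (n v)) := by
  classical
  have := E.isPrincipalIdealRing
  have hdec : ∀ v : FPlace K, ∃ (s : (v.adicCompletion K)ˣ) (k' : GLv v), k' ∈ intGL (valv v) ∧
      (k : ∀ v, GLv v) v = Matrix.GeneralLinearGroup.scalar (Fin 2) s * k' := fun v =>
    Tree.mul_mem_vertexSubgroup_iff.mp (hk v)
  choose s k' hk' hs using hdec
  set M := fun v => (k' v : Matrix (Fin 2) (Fin 2) (v.adicCompletion K)) with hM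
  set N : FPlace K → ℕ := fun v => max (n v) 1 with hN
  obtain ⟨c0, hc0⟩ := exists_integer_congr T (fun v => M v 1 0) (fun v _ => (hk' v).1 1 0) N
  obtain ⟨P, hP0, hPv⟩ : ∃ P : 𝓞 K, P ≠ 0 ∧ ∀ v ∈ T, v.valuation K (P : K) ≤
      WithZero.exp (-(N v : ℤ)) := by
    refine ⟨∏ v ∈ T, E.e (E.primeOf v) ^ N v, Finset.prod_ne_zero_iff.mpr fun v _ =>
      pow_ne_zero _ (by simpa using (E.prime_primeOf v).ne_zero), fun v hv => ?_⟩
    rw [← Finset.mul_prod_erase T _ hv, RingOfIntegers.coe_eq_algebraMap,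
      map_mul (algebraMap (𝓞 K) K), map_mul, map_pow (algebraMap (𝓞 K) K), map_pow,
      ← RingOfIntegers.coe_eq_algebraMap, E.valuation_primeOf, ← WithZero.exp_nsmul]
    exact (mul_le_of_le_one_right' (v.valuation_le_one (K := K) _)).trans_eq (by simp)
  obtain ⟨c, hcne, hc⟩ : ∃ c : 𝓞 K, c ≠ 0 ∧ ∀ v ∈ T,
      valv v (algebraMap K (v.adicCompletion K) (c : K) - M v 1 0) ≤ WithZero.exp (-(N v : ℤ)) := by
    rcases eq_or_ne c0 0 with h | h
    · refine ⟨P, hP0, fun v hv => ?_⟩
      have := hc0 v hv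
      rw [h, show ((0 : 𝓞 K) : K) = 0 from map_zero _, map_zero, zero_sub] at this
      rw [sub_eq_add_neg]
      exact (valv v).map_add_le (by rw [valv_algebraMap]; exact hPv v hv) this
    · exact ⟨c0, h, hc0⟩
  have hfin : {v : FPlace K | c ∈ v.asIdeal}.Finite := by
    refine (Ideal.finite_factors (I := Ideal.span {c})
      (by simpa [Ideal.zero_eq_bot] using hcne)).subset
      fun v hv => ?_
    exact Ideal.dvd_iff_le.mpr ((Ideal.span_singleton_le_iff_mem _).mpr hv)
  set U := T ∪ hfin.toFinset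
  obtain ⟨a, ha⟩ := exists_integer_congr U (fun v => if v ∈ T then M v 0 0 else 1)
    (fun v _ => by split_ifs; exacts [(hk' v).1 0 0, by simp]) N
  have hcop : IsCoprime a c := by
    refine isCoprime_of_prime_dvd (fun h => hcne h.2) fun p hp hpa hpc => ?_
    set w : FPlace K := ⟨Ideal.span {p}, (Ideal.span_singleton_prime hp.ne_zero).mpr hp,
      by simpa [Ideal.span_singleton_eq_bot] using hp.ne_zero⟩
    have hwc : c ∈ w.asIdeal := Ideal.mem_span_singleton.mpr hpc
    have hwa : a ∈ w.asIdeal := Ideal.mem_span_singleton.mpr hpa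
    have hwU : w ∈ U := Finset.mem_union_right _ (hfin.mem_toFinset.mpr hwc)
    have hN1 : WithZero.exp (-(N w : ℤ)) < (1 : ℤᵐ⁰) := exp_neg_lt_one (le_max_right _ _)
    have hlt : ∀ (z : 𝓞 K) (b : w.adicCompletion K), z ∈ w.asIdeal →
        valv w (algebraMap K (w.adicCompletion K) (z : K) - b) ≤ WithZero.exp (-(N w : ℤ)) →
        valv w b < 1 := fun z b hz h => by
      have hz1 : valv w (algebraMap K (w.adicCompletion K) (z : K)) < 1 := by
        rw [valv_algebraMap]; exact (w.valuation_lt_one_iff_mem z).mpr hz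
      rw [show b = algebraMap K (w.adicCompletion K) (z : K) -
        (algebraMap K (w.adicCompletion K) (z : K) - b) by ring]
      exact lt_of_le_of_lt ((valv w).map_sub _ _) (max_lt hz1 (h.trans_lt hN1))
    have h1 := hlt a _ hwa (ha w hwU)
    split_ifs at h1 with hwT
    · have h2 := hlt c _ hwc (hc w hwT)
      have hdet := (hk' w).2
      rw [Matrix.det_fin_two] at hdet
      refine absurd hdet (ne_of_lt (lt_of_le_of_lt ((valv w).map_sub _ _) (max_lt ?_ ?_)))
      · rw [map_mul]; exact lt_of_le_of_lt (mul_le_of_le_one_right' ((hk' w).1 1 1)) h1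
      · rw [map_mul]; exact lt_of_le_of_lt (mul_le_of_le_one_left' ((hk' w).1 0 1)) h2
    · simp at h1
  obtain ⟨u, w, huw⟩ := hcop
  have huwK : (u : K) * (a : K) + (w : K) * (c : K) = 1 := by
    have h := congrArg (algebraMap (𝓞 K) K) huw
    simpa using h
  set γ : GL (Fin 2) K := Matrix.GeneralLinearGroup.mkOfDetNeZero
    !![(a : K), -(w : K); (c : K), (u : K)] (by
      rw [Matrix.det_fin_two]; simp
      rw [show (a : K) * u + w * c = 1 by linear_combination huwK]; exact one_ne_zero) with hγ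
  have hint : ∀ v, toLocal v γ ∈ intGL (valv v) := fun v => by
    refine ⟨fun i j => ?_, ?_⟩
    · rw [valv_toLocal_apply]
      fin_cases i <;> fin_cases j <;> simp [hγ, Valuation.map_neg, v.valuation_le_one]
    · have hd : (γ : Matrix (Fin 2) (Fin 2) K).det = 1 := by
        simp [hγ, Matrix.det_fin_two]; linear_combination huwK
      show valv v ((RingHom.mapMatrix (algebraMap K (v.adicCompletion K)))
        (γ : Matrix (Fin 2) (Fin 2) K)).det = 1
      rw [← RingHom.map_det, hd, map_one, map_one]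
  refine ⟨γ, fun v => ⟨mul_mem (intGL_le_maxSubgroup v (inv_mem (hint v))) (hk v), fun hv => ?_⟩⟩
  rw [hs v, ← mul_assoc, Subgroup.mem_center_iff.1 (Tree.scalar_mem_center (s v)) (toLocal v γ)⁻¹,
    mul_assoc]
  refine mul_mem (Subgroup.subset_closure (Or.inr (Tree.scalar_mem_center _)))
    (mem_gammaSub (mul_mem (inv_mem (hint v)) (hk' v)) ?_)
  have e : (((toLocal v γ)⁻¹ * k' v : GLv v) : Matrix (Fin 2) (Fin 2) (v.adicCompletion K)) 1 0 =
      algebraMap K (v.adicCompletion K) (a : K) * M v 1 0 -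
        algebraMap K (v.adicCompletion K) (c : K) * M v 0 0 := by
    rw [← map_inv]
    have hinv : ((γ⁻¹ : GL (Fin 2) K) : Matrix (Fin 2) (Fin 2) K) =
        !![(u : K), (w : K); -(c : K), (a : K)] := by
      rw [Matrix.coe_units_inv]
      refine Matrix.inv_eq_left_inv ?_
      rw [hγ, Matrix.GeneralLinearGroup.val_mkOfDetNeZero, Matrix.mul_fin_two, Matrix.one_fin_two]
      refine Matrix.ext fun i j => ?_
      fin_cases i <;> fin_cases j <;> simp <;> first | ring1 | linear_combination huwK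
    rw [Units.val_mul, Matrix.mul_apply, Fin.sum_univ_two]
    simp only [toLocal, Units.coe_map, RingHom.toMonoidHom_eq_coe, MonoidHom.coe_coe,
      RingHom.mapMatrix_apply, Matrix.map_apply, hinv, hM]
    simp only [Matrix.of_apply, Matrix.cons_val', Matrix.cons_val_zero, Matrix.cons_val_one,
      Matrix.cons_val_fin_one, map_neg]
    ring
  rw [e]
  have h1 := ha v (Finset.mem_union_left _ hv)
  rw [if_pos hv] at h1
  have hle : WithZero.exp (-(N v : ℤ)) ≤ WithZero.exp (-(n v : ℤ)) := by
    rw [WithZero.exp_le_exp]; simp only [hN]; omega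
  rw [show algebraMap K (v.adicCompletion K) (a : K) * M v 1 0 -
      algebraMap K (v.adicCompletion K) (c : K) * M v 0 0 =
      (algebraMap K (v.adicCompletion K) (a : K) - M v 0 0) * M v 1 0 -
        (algebraMap K (v.adicCompletion K) (c : K) - M v 1 0) * M v 0 0 by ring]
  refine (valv v).map_sub_le ?_ ?_ <;> rw [map_mul]
  · exact ((mul_le_of_le_one_right' ((hk' v).1 1 0)).trans h1).trans hle
  · exact ((mul_le_of_le_one_right' ((hk' v).1 0 0)).trans (hc v hv)).trans hle

include E in
/-- Strong approximation for the class number one field. -/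
theorem exists_global_mul (x : Gf K) (T : Finset (FPlace K)) (n : FPlace K → ℕ) :
    ∃ γ : GL (Fin 2) K, ∀ v, (toLocal v γ)⁻¹ * (x : ∀ v, GLv v) v ∈ maxSubgroup v ∧
      (v ∈ T → (toLocal v γ)⁻¹ * (x : ∀ v, GLv v) v ∈ gammaSub v (n v)) := by
  classical
  obtain ⟨b, k, hb, hk, rfl⟩ := exists_iwasawa x
  choose a t hat using hb
  have hev : ∀ᶠ v : FPlace K in Filter.cofinite,
      valv v (a v : v.adicCompletion K) = 1 ∧ valv v (t v) ≤ 1 := by
    have hbev : ∀ᶠ v : FPlace K in Filter.cofinite, (b : ∀ v, GLv v) v ∈ maxSubgroup v := b.2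
    exact hbev.mono fun v h => by
      rw [show (b : ∀ v, GLv v) v = upGL (a v) 1 (t v) from hat v] at h
      exact upGL_mem_maxSubgroup_iff.mp h
  set e : FPlace K → ℤ := fun v => WithZero.log (valv v (a v : v.adicCompletion K)) with he
  have hev0 : ∀ᶠ v in Filter.cofinite, e v = 0 :=
    hev.mono fun v h => by simp only [he, h.1, WithZero.log_one]
  obtain ⟨l, hl⟩ := E.exists_valuation_eq e hev0
  obtain ⟨s, hs⟩ := exists_algebraMap_approx t (hev.mono fun v h => h.2) (fun v => -e v)
    (hev0.mono fun v h => by rw [h, neg_zero])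
  set γ₁ : GL (Fin 2) K := upGL l 1 s
  have hk₁ : ∀ v, (toLocal v γ₁)⁻¹ * (b : ∀ v, GLv v) v ∈ maxSubgroup v := fun v => by
    rw [show (toLocal v γ₁) = upGL (Units.map (algebraMap K (v.adicCompletion K)).toMonoidHom l) 1
        (algebraMap K _ s) by rw [toLocal_upGL, map_one], upGL_inv, hat v, upGL_mul, inv_one,
        mul_one, upGL_mem_maxSubgroup_iff]
    have hla : valv v (((Units.map (algebraMap K (v.adicCompletion K)).toMonoidHom l)⁻¹ :
        (v.adicCompletion K)ˣ) : v.adicCompletion K) = WithZero.exp (-e v) := by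
      rw [Units.val_inv_eq_inv_val, map_inv₀, Units.coe_map]
      show (valv v (algebraMap K (v.adicCompletion K) (l : K)))⁻¹ = _
      rw [valv_algebraMap, hl, WithZero.exp_neg]
    refine ⟨?_, ?_⟩
    · rw [Units.val_mul, map_mul, hla]
      simp only [he]
      rw [WithZero.exp_neg, WithZero.exp_log ((valv v).ne_zero_iff.mpr (a v).ne_zero),
        inv_mul_cancel₀ ((valv v).ne_zero_iff.mpr (a v).ne_zero)]
    · simp only [Units.val_one, mul_one]
      rw [show ∀ A T S : v.adicCompletion K, A * T + -A * S = A * (T - S) from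
        fun A T S => by ring, map_mul, hla, WithZero.exp_neg]
      have h := hs v
      rw [neg_neg] at h
      exact inv_mul_le_one_of_le₀ h zero_le
  set k₂ : Gf K := (diag K γ₁)⁻¹ * (b * k)
  have hk₂ : k₂ ∈ kmax K := fun v => by
    show (toLocal v γ₁)⁻¹ * ((b : ∀ v, GLv v) v * (k : ∀ v, GLv v) v) ∈ maxSubgroup v
    rw [← mul_assoc]
    exact mul_mem (hk₁ v) (hk v)
  obtain ⟨γ₂, hγ₂⟩ := exists_global_kmax E hk₂ T n
  refine ⟨γ₁ * γ₂, fun v => ?_⟩
  have e : (toLocal v (γ₁ * γ₂))⁻¹ * ((b * k : Gf K) : ∀ v, GLv v) v =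
      (toLocal v γ₂)⁻¹ * (k₂ : ∀ v, GLv v) v := by
    show _ = (toLocal v γ₂)⁻¹ * ((toLocal v γ₁)⁻¹ * ((b * k : Gf K) : ∀ v, GLv v) v)
    rw [map_mul, mul_inv_rev, mul_assoc]
  rw [e]
  exact hγ₂ v

end Fermat.Agent.ResidualThree.BianchiForm
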