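import Fermat.Agent.ResidualThree.Automorphic.Mean
import Fermat.Agent.ResidualThree.Spherical.Whittaker
import Fermat.Agent.ResidualThree.ThetaLift.Eis

/-!
# Coordinates on the torus `ℂ / ℤ[ω]` and its characters

The frequencies of the torus are `x / √-3` for `x ∈ ℤ[ω]`; the characters match the Fourier
monomials of `UnitAddTorus (Fin 2)`, and we record the elementary estimates and the computation of
Fourier coefficients of absolutely convergent series needed for the Whittaker expansion.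
-/

noncomputable section

open MeasureTheory Real

namespace Fermat.Agent.ResidualThree.BianchiForm

/-- Coordinates in the basis `1, ω`. -/
def torusPt (t : Fin 2 → ℝ) : ℂ := (t 0 : ℂ) + (t 1 : ℂ) * omegaC

theorem continuous_torusPt : Continuous torusPt := by unfold torusPt; fun_prop

theorem torusPt_add (s t : Fin 2 → ℝ) : torusPt (s + t) = torusPt s + torusPt t := by
  simp only [torusPt, Pi.add_apply]; push_cast; ring

theorem torusPt_intCast (n : Fin 2 → ℤ) :
    torusPt (fun i => (n i : ℝ)) = Eis3.toC (n 0, n 1) := by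
  simp [torusPt, Eis3.toC]

theorem exists_torusPt (z : ℂ) : ∃ t, torusPt t = z := by
  refine ⟨![z.re + z.im / Real.sqrt 3, 2 * z.im / Real.sqrt 3], ?_⟩
  have h : Real.sqrt 3 ≠ 0 := by positivity
  apply Complex.ext
  · simp [torusPt, omegaC_re, omegaC_im]; ring
  · simp [torusPt, omegaC_re, omegaC_im]; field_simp

/-- The frequency of the index `x`. -/
def freqEquiv : Eis3 ≃ (Fin 2 → ℤ) where
  toFun x := ![x.2, x.1 - x.2]
  invFun n := (n 0 + n 1, n 0)
  left_inv x := by simp
  right_inv n := by funext i; fin_cases i <;> simp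

/-- The frequency vector in `ℂ`. -/
def nuOf (x : Eis3) : ℂ := x.toC / sqrtNegThree

theorem nuOf_eq_zero {x : Eis3} : nuOf x = 0 ↔ x = 0 := by
  rw [nuOf, div_eq_zero_iff, or_iff_left sqrtNegThree_ne_zero, Eis3.toC_eq_zero]; rfl

theorem norm_sqrtNegThree : ‖sqrtNegThree‖ = Real.sqrt 3 := by
  rw [Complex.norm_def, normSq_sqrtNegThree]

theorem norm_nuOf (x : Eis3) : ‖nuOf x‖ = ‖x.toC‖ / Real.sqrt 3 := by
  rw [nuOf, norm_div, norm_sqrtNegThree]

theorem mFourier_toTorus (n : Fin 2 → ℤ) (t : Fin 2 → ℝ) :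
    UnitAddTorus.mFourier n (toTorus t) =
      Complex.exp (2 * (π : ℂ) * Complex.I * ((n 0 * t 0 + n 1 * t 1 : ℝ) : ℂ)) := by
  show ∏ i, fourier (n i) (toTorus t i) = _
  rw [Fin.prod_univ_two]
  simp only [toTorus]
  rw [fourier_coe_apply, fourier_coe_apply]
  rw [← Complex.exp_add]
  congr 1
  push_cast
  ring

theorem addCharC_nuOf (x : Eis3) (t : Fin 2 → ℝ) :
    addCharC (nuOf x) (torusPt t) = UnitAddTorus.mFourier (freqEquiv x) (toTorus t) := by
  rw [mFourier_toTorus, addCharC]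
  congr 3
  have h2 := Eis3.div_sqrtNegThree_re (Eis3.mul x (0, 1))
  rw [Eis3.toC_mul, show Eis3.toC (0, 1) = omegaC by simp [Eis3.toC], mul_div_right_comm] at h2
  have h1 := Eis3.div_sqrtNegThree_re x
  have e : ((Eis3.mul x (0, 1)).2 : ℝ) = (x.1 : ℝ) - x.2 := by simp [Eis3.mul]
  rw [e] at h2
  show (2 * (nuOf x * torusPt t).re : ℝ) =
    ((![x.2, x.1 - x.2] : Fin 2 → ℤ) 0 : ℝ) * t 0 + ((![x.2, x.1 - x.2] : Fin 2 → ℤ) 1 : ℝ) * t 1
  rw [nuOf, torusPt, mul_add, Complex.add_re, Complex.re_mul_ofReal,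
    show x.toC / sqrtNegThree * ((t 1 : ℂ) * omegaC) =
      x.toC / sqrtNegThree * omegaC * (t 1 : ℂ) by ring, Complex.re_mul_ofReal]
  simp only [Matrix.cons_val_zero, Matrix.cons_val_one, Matrix.cons_val_fin_one]
  push_cast
  linear_combination t 0 * h1 + t 1 * h2

theorem half_abs_le_norm (x : Eis3) :
    ((|x.1| : ℝ) + |(x.2 : ℝ)|) / 2 ≤ ‖x.toC‖ := by
  rw [Complex.norm_def]
  refine Real.le_sqrt_of_sq_le ?_
  rw [Complex.normSq_apply, Eis3.toC_re, Eis3.toC_im]
  have h3 := sqrtThree_mul_self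
  have key : ∀ a b : ℝ, ((|a| + |b|) / 2) ^ 2 ≤ a ^ 2 - a * b + b ^ 2 := fun a b => by
    nlinarith [sq_abs a, sq_abs b, abs_mul a b, le_abs_self (a * b), sq_nonneg (|a| - |b|)]
  refine (key _ _).trans_eq ?_
  linear_combination (-(x.2 : ℝ) ^ 2 / 4) * h3

theorem one_le_abs_add {x : Eis3} (hx : x ≠ 0) : (1 : ℝ) ≤ |(x.1 : ℝ)| + |(x.2 : ℝ)| := by
  have : (1 : ℤ) ≤ |x.1| + |x.2| := by
    rcases eq_or_ne x.1 0 with h | h
    · rcases eq_or_ne x.2 0 with h' | h'
      · exact absurd (Prod.ext h h') hx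
      · linarith [abs_nonneg x.1, Int.one_le_abs h']
    · linarith [abs_nonneg x.2, Int.one_le_abs h]
  exact_mod_cast this

theorem summable_exp_abs {κ : ℝ} (hκ : 0 < κ) :
    Summable fun x : Eis3 => Real.exp (-(κ * (|(x.1 : ℝ)| + |(x.2 : ℝ)|))) := by
  have hn : Summable fun n : ℕ => Real.exp (-(κ * n)) := by
    simpa [← Real.exp_nat_mul, mul_comm] using
      summable_geometric_of_lt_one (Real.exp_pos (-κ)).le (Real.exp_lt_one_iff.mpr (by linarith))
  have hz : Summable fun a : ℤ => Real.exp (-(κ * |(a : ℝ)|)) :=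
    Summable.of_nat_of_neg (by simpa using hn) (by simpa using hn)
  refine ((hz.mul_of_nonneg hz (fun _ => (Real.exp_pos _).le) fun _ => (Real.exp_pos _).le)).congr
    fun x => ?_
  rw [← Real.exp_add]
  congr 1
  ring

section

/-- The normalisation of the measure used for Fourier series on the torus. -/
local instance : MeasureSpace UnitAddCircle := ⟨AddCircle.haarAddCircle⟩

local instance : IsProbabilityMeasure (volume : Measure UnitAddCircle) :=
  inferInstanceAs (IsProbabilityMeasure AddCircle.haarAddCircle)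

theorem mFourierCoeff_of_hasSum (n : Fin 2 → ℤ) (d : (Fin 2 → ℤ) → ℂ)
    {f : C(UnitAddTorus (Fin 2), ℂ)} (h : HasSum (fun m => d m • UnitAddTorus.mFourier m) f) :
    UnitAddTorus.mFourierCoeff f n = d n := by
  classical
  have h2 := (ContinuousMap.toLp (E := ℂ) 2 volume ℂ).hasSum h
  simp only [map_smul] at h2
  have h3 : HasSum (fun m => inner ℂ (UnitAddTorus.mFourierLp (d := Fin 2) 2 n)
      (d m • UnitAddTorus.mFourierLp (d := Fin 2) 2 m))
      (inner ℂ (UnitAddTorus.mFourierLp (d := Fin 2) 2 n)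
        (ContinuousMap.toLp (E := ℂ) 2 volume ℂ f)) :=
    (innerSL ℂ (UnitAddTorus.mFourierLp (d := Fin 2) 2 n)).hasSum h2
  simp only [inner_smul_right,
    orthonormal_iff_ite.mp UnitAddTorus.orthonormal_mFourier] at h3
  rw [← UnitAddTorus.mFourierCoeff_toLp, ← UnitAddTorus.mFourierBasis_repr,
    HilbertBasis.repr_apply_apply, UnitAddTorus.coe_mFourierBasis, ← h3.tsum_eq]
  simp

end

end Fermat.Agent.ResidualThree.BianchiForm
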