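import Fermat.Agent.ResidualThree.BianchiForm.NewVector

/-!
# Moving a vector by a small unipotent after a diagonal translation

A vector of level `p^m`, `m ≥ 1`, which is moved by some unipotent is moved, after a diagonal
translation, by `n(p^(m-1))` and keeps level `p^m`; this works in any residue characteristic.
-/

noncomputable section

open IsDedekindDomain NumberField
open scoped WithZero

namespace Fermat.Agent.ResidualThree.BianchiForm

open Fermat.Agent.ResidualThree.Tree (intGL)

variable {F : Type} [Field F] [NumberField F] {v : FPlace F}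

/-- A vector of level `p^m` is fixed by `n(p^m)`. -/
theorem unip_mem_fixer_of_small {m : ℕ} (hm : 1 ≤ m) {ψ : Gf F → Hyp F → ℂ}
    (hψ : congSubgroup v m ≤ fixer v ψ) {z : v.adicCompletion F}
    (hz : valv v z ≤ WithZero.exp (-(m : ℤ))) : unipHom (v.adicCompletion F) z ∈ fixer v ψ :=
  hψ (mem_congSubgroup hm fun i j => by
    fin_cases i <;> fin_cases j <;> simp [coe_unipHom, hz, -WithZero.exp_neg])

/-- A diagonal translate has level `p^m` and is moved by `n(p^(m-1))`. -/
theorem exists_torus_moved {m : ℕ} (hm : 1 ≤ m) {ψ : Gf F → Hyp F → ℂ}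
    (hψ : congSubgroup v m ≤ fixer v ψ) {z : v.adicCompletion F}
    (hz : unipHom (v.adicCompletion F) z ∉ fixer v ψ) :
    ∃ (d : GLv v) (z' : v.adicCompletion F),
      valv v z' ≤ WithZero.exp (-((m - 1 : ℕ) : ℤ)) ∧ congSubgroup v m ≤ fixer v (trAt d ψ) ∧
        unipHom (v.adicCompletion F) z' ∉ fixer v (trAt d ψ) := by
  classical
  have hz0 : valv v z ≠ 0 := fun h => hz (unip_mem_fixer_of_small hm hψ (by rw [h]; exact zero_le))
  have hex : ∃ j : ℕ, ∃ y, valv v y ≤ WithZero.exp ((j : ℤ) - m) ∧
      unipHom (v.adicCompletion F) y ∉ fixer v ψ := by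
    refine ⟨(WithZero.log (valv v z)).toNat + m, z, ?_, hz⟩
    nth_rewrite 1 [← WithZero.exp_log hz0]
    rw [WithZero.exp_le_exp]
    have := Int.self_le_toNat (WithZero.log (valv v z))
    push_cast
    omega
  obtain ⟨y, hy, hyne⟩ := Nat.find_spec hex
  have h1 : 1 ≤ Nat.find hex := by
    by_contra h
    have h0 : Nat.find hex = 0 := by omega
    rw [h0, Nat.cast_zero, zero_sub] at hy
    exact hyne (unip_mem_fixer_of_small hm hψ hy)
  obtain ⟨k, hk⟩ : ∃ k, Nat.find hex = k + 1 := ⟨Nat.find hex - 1, by omega⟩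
  rw [hk] at hy
  have hsmall : ∀ t, valv v t ≤ WithZero.exp ((k : ℤ) - m) →
      unipHom (v.adicCompletion F) t ∈ fixer v ψ := fun t ht => by
    by_contra hne
    exact Nat.find_min hex (by omega : k < Nat.find hex) ⟨t, ht, hne⟩
  obtain ⟨π, hπ⟩ := v.valuation_exists_uniformizer F
  have hπv : valv v (algebraMap F (v.adicCompletion F) π) = WithZero.exp (-1 : ℤ) := by
    rw [valv_algebraMap]; exact hπ
  have hπ0 : algebraMap F (v.adicCompletion F) π ≠ 0 := fun h => by
    rw [h, map_zero] at hπv; exact (WithZero.exp_ne_zero hπv.symm)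
  set P : (v.adicCompletion F)ˣ := (Units.mk0 _ hπ0) ^ k with hP
  have hPv : valv v (P : v.adicCompletion F) = WithZero.exp (-(k : ℤ)) := by
    rw [hP, Units.val_pow_eq_pow_val, map_pow, Units.val_mk0, hπv, ← WithZero.exp_nsmul]
    simp
  have hPi : valv v ((P⁻¹ : (v.adicCompletion F)ˣ) : v.adicCompletion F) =
      WithZero.exp (k : ℤ) := by
    rw [Units.val_inv_eq_inv_val, map_inv₀, hPv, ← WithZero.exp_neg, neg_neg]
  have hd : (torusGL P : GLv v)⁻¹ = torusGL P⁻¹ := inv_eq_of_mul_eq_one_left (by
    rw [← torusGL_mul, inv_mul_cancel, torusGL_one])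
  refine ⟨torusGL P, (P : v.adicCompletion F) * y, ?_, congSubgroup_le_of
    (fun g hg => mem_fixer_rightTr.mpr ?_) (fun g hg hsm => mem_fixer_rightTr.mpr ?_),
    fun h => hyne ?_⟩
  · rw [map_mul, hPv]
    refine (mul_le_mul_right hy _).trans ?_
    rw [← WithZero.exp_add, WithZero.exp_le_exp]
    omega
  · rw [mul_assoc, ← Subgroup.mem_center_iff.1 hg (torusGL P), inv_mul_cancel_left]
    exact hψ (center_le_congSubgroup m hg)
  · set N := (g : Matrix (Fin 2) (Fin 2) (v.adicCompletion F)) with hN
    have h00 : valv v (N 0 0 - 1) ≤ WithZero.exp (-(m : ℤ)) := by simpa using hsm 0 0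
    have h11 : valv v (N 1 1 - 1) ≤ WithZero.exp (-(m : ℤ)) := by simpa using hsm 1 1
    have h01 : valv v (N 0 1) ≤ WithZero.exp (-(m : ℤ)) := by simpa using hsm 0 1
    have h10 : valv v (N 1 0) ≤ WithZero.exp (-(m : ℤ)) := by simpa using hsm 1 0
    have he : valv v (N 1 1) = 1 := by
      have := (valv v).map_one_add_of_lt (h11.trans_lt (exp_neg_lt_one hm))
      rwa [add_sub_cancel] at this
    have he0 : N 1 1 ≠ 0 := fun h => by simp [h] at he
    set t := ((P⁻¹ : (v.adicCompletion F)ˣ) : v.adicCompletion F) * N 0 1 / N 1 1 with ht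
    have htv : valv v t ≤ WithZero.exp ((k : ℤ) - m) := by
      rw [ht, map_div₀, map_mul, hPi, he, div_one]
      refine (mul_le_mul_right h01 _).trans ?_
      rw [← WithZero.exp_add, ← sub_eq_add_neg]
    suffices hq : (unipHom (v.adicCompletion F) t)⁻¹ * ((torusGL P)⁻¹ * g * torusGL P) ∈
        congSubgroup v m by
      simpa using mul_mem (hsmall t htv) (hψ hq)
    refine mem_congSubgroup hm fun i j => ?_
    have hc : ((P⁻¹ : (v.adicCompletion F)ˣ) : v.adicCompletion F) * P = 1 := Units.inv_mul P
    have e : (((unipHom (v.adicCompletion F) t)⁻¹ * ((torusGL P)⁻¹ * g * torusGL P) : GLv v) :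
        Matrix (Fin 2) (Fin 2) (v.adicCompletion F)) =
        !![N 0 0 - N 0 1 * N 1 0 / N 1 1, 0; (P : v.adicCompletion F) * N 1 0, N 1 1] := by
      rw [show (unipHom (v.adicCompletion F) t)⁻¹ = unipHom (v.adicCompletion F) (-t) from
          inv_eq_of_mul_eq_one_left (by rw [← unipHom_add, neg_add_cancel, unipHom_zero]),
        hd, Units.val_mul, Units.val_mul, Units.val_mul, coe_unipHom, coe_torusGL, coe_torusGL,
        ← hN, Matrix.eta_fin_two N, Matrix.mul_fin_two, Matrix.mul_fin_two, Matrix.mul_fin_two]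
      refine Matrix.ext fun i j => ?_
      fin_cases i <;> fin_cases j <;>
        simp only [Fin.zero_eta, Fin.mk_one, Matrix.of_apply, Matrix.cons_val',
          Matrix.cons_val_zero, Matrix.cons_val_one, Matrix.cons_val_fin_one, ht,
          Units.val_inv_eq_inv_val] <;>
        field_simp <;> ring
    rw [e]
    fin_cases i <;> fin_cases j <;>
      simp only [Fin.zero_eta, Fin.mk_one, Matrix.of_apply, Matrix.cons_val', Matrix.cons_val_zero,
        Matrix.cons_val_one, Matrix.cons_val_fin_one, Matrix.one_apply_eq]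
    · rw [sub_right_comm]
      refine (valv v).map_sub_le h00 ?_
      rw [map_div₀, map_mul, he, div_one]
      exact (mul_le_of_le_one_left' (h01.trans (exp_neg_le_one m))).trans h10
    · rw [Matrix.one_apply_ne (by decide), sub_zero, map_zero]
      exact zero_le
    · rw [Matrix.one_apply_ne (by decide), sub_zero, map_mul]
      exact (mul_le_of_le_one_left' (hPv ▸ exp_neg_le_one k)).trans h10
    · exact h11
  · have h2 := mem_fixer_rightTr.mp h
    rwa [show (torusGL P)⁻¹ * unipHom (v.adicCompletion F) ((P : v.adicCompletion F) * y) *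
      torusGL P = unipHom (v.adicCompletion F) y by
        rw [mul_assoc, inv_mul_eq_iff_eq_mul]
        refine Units.ext (Matrix.ext fun i j => ?_)
        fin_cases i <;> fin_cases j <;>
          simp [coe_torusGL, coe_unipHom, Matrix.mul_apply, Fin.sum_univ_two]] at h2

end Fermat.Agent.ResidualThree.BianchiForm
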