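import Fermat.Agent.ResidualThree.BianchiForm.LocalGroup

/-!
# Horospherical invariance from invariance under all unipotents at one place

If every conjugate of every unipotent at one place `v` fixes an automorphic `φ`, then the
archimedean horospherical translation by a field element which is small at the other places fixes
the corresponding translate of `φ` (`horoShift_eq_of_fixed`).  Such elements are dense, which
contradicts cuspidality (`eq_zero_of_unip_fixed`).
-/

noncomputable section

open IsDedekindDomain NumberField MeasureTheory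
open scoped WithZero

namespace Fermat.Agent.ResidualThree.BianchiForm

open Fermat.Agent.ResidualThree.Tree (intGL diagGL swapGL nrm)

variable {F : Type} [Field F] [NumberField F] {v : FPlace F}

/-- If all conjugates of unipotents at `v` fix `φ`, then the horospherical translation by a field
element near zero at the other places fixes `φ x`. -/
theorem horoShift_eq_of_fixed {U : Level F} {φ : Gf F → Hyp F → ℂ} (hφ : IsAutomorphic U φ)
    (hfix : ∀ k ∈ intGL (valv v), ∀ z, k⁻¹ * unipHom (v.adicCompletion F) z * k ∈ fixer v φ)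
    {x : Gf F} {N : FPlace F →₀ ℕ} (hN : IsSmallAt U x N) {β : F}
    (hβ : ∀ w, w ≠ v → w.valuation F β ≤ WithZero.exp (-(N w : ℤ))) (p : Hyp F) :
    φ x (horoShift (archVec β) p) = φ x p := by
  classical
  set j : Gf F := x⁻¹ * diag F (unipHom F β) * x with hj
  set gv : GLv v := (j : ∀ w, GLv w) v with hgv
  have hmem : ∀ w, ((j * (single v gv)⁻¹ : Gf F) : ∀ w, GLv w) w ∈ U.J w := fun w => by
    show (j : ∀ w, GLv w) w * (((single v gv : Gf F) : ∀ w, GLv w) w)⁻¹ ∈ U.J w
    by_cases hw : w = v
    · subst hw; rw [single_apply_same, mul_inv_cancel]; exact one_mem _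
    · rw [single_apply_ne hw, inv_one, mul_one]
      show ((x : ∀ v, GLv v) w)⁻¹ * toLocal w (unipHom F β) * (x : ∀ v, GLv v) w ∈ U.J w
      rw [toLocal_unipHom]
      exact hN w _ (by rw [valv_algebraMap]; exact hβ w hw)
  have hgvmem : gv ∈ fixer v φ := by
    obtain ⟨k, hk, hu⟩ := exists_upper_mul_intGL (valv v) ((x : ∀ v, GLv v) v)
    set B : GLv v := (x : ∀ v, GLv v) v * k with hB
    set N' := ((B⁻¹ * unipHom (v.adicCompletion F) (algebraMap F _ β) * B : GLv v) :
      Matrix (Fin 2) (Fin 2) (v.adicCompletion F))
    have e : B⁻¹ * unipHom (v.adicCompletion F) (algebraMap F _ β) * B =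
        unipHom (v.adicCompletion F) (algebraMap F _ β *
          (B : Matrix (Fin 2) (Fin 2) (v.adicCompletion F)) 1 1 /
          (B : Matrix (Fin 2) (Fin 2) (v.adicCompletion F)) 0 0) := by
      have h00 : (B : Matrix (Fin 2) (Fin 2) (v.adicCompletion F)) 0 0 ≠ 0 := fun h => by
        have := B.det_ne_zero
        rw [Matrix.det_fin_two, h, hu] at this
        simp at this
      rw [mul_assoc, inv_mul_eq_iff_eq_mul]
      refine Units.ext ?_
      refine Matrix.ext fun i j => ?_
      fin_cases i <;> fin_cases j <;>
        simp [coe_unipHom, Matrix.mul_apply, Fin.sum_univ_two, hu]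
      field_simp
      ring
    have hx : gv = k⁻¹⁻¹ * (B⁻¹ * unipHom (v.adicCompletion F) (algebraMap F _ β) * B) * k⁻¹ := by
      show ((x : ∀ v, GLv v) v)⁻¹ * toLocal v (unipHom F β) * (x : ∀ v, GLv v) v = _
      rw [toLocal_unipHom, hB]; group
    rw [hx, e]
    exact hfix _ (inv_mem hk) _
  have h1 := hφ.left (unipHom F β) x (x * j) (fun w => by
    show ((x * j : Gf F) : ∀ v, GLv v) w = _
    rw [hj, mul_assoc x⁻¹, mul_inv_cancel_left]
    rfl) p
  rw [show x * j = x * (j * (single v gv)⁻¹) * single v gv by
    rw [mul_assoc, inv_mul_cancel_right], hgvmem, hφ.right _ _ hmem, unipHom_smul_hyp] at h1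
  exact h1

end Fermat.Agent.ResidualThree.BianchiForm
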