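import Fermat.Agent.ResidualThree.BianchiForm.Galois
import Fermat.Agent.ResidualThree.BianchiForm.NewVector
import Fermat.Agent.ResidualThree.BianchiForm.StrongApprox
import Fermat.Agent.ResidualThree.BianchiForm.Torus
import Fermat.Agent.ResidualThree.BianchiForm.TorusMoved
import Fermat.Agent.ResidualThree.BianchiForm.UnipFixed

/-!
# A form of level `Γ₀`, killed by the averages at the ramified places

From an eigenform with the eigenvalues of `ρ` we pass, one ramified place at a time, to a nonzero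
eigenform of level `Γ₀(p^(2m))` at each such place which is killed there by the average over the
translations by `p⁻¹/O` (`exists_newAt`, `exists_allNew`).  Such a form, with its eigenvalues
(`exists_eigenData`), is a `PreparedForm`; when `m = 1` at the places prime to three it is a
`NewForm`.
-/

noncomputable section

open IsDedekindDomain NumberField MeasureTheory Filter Topology
open scoped WithZero Pointwise

namespace Fermat.Agent.ResidualThree.BianchiForm

open Fermat.Agent.ResidualThree.Tree (intGL)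

local notation "Qbar" => AlgebraicClosure ℚ
local notation "Γℚ" => (AlgebraicClosure ℚ ≃ₐ[ℚ] AlgebraicClosure ℚ)
local notation "χ" => WeierstrassCurve.modThreeCyclotomicChar

variable {K : IntermediateField ℚ Qbar} [NumberField K] [IsTotallyComplex K] (E : EisField K)

theorem trAt_comm {F : Type} [Field F] [NumberField F] {v w : FPlace F} (h : w ≠ v) (g : GLv v)
    (g' : GLv w) (ψ : Gf F → Hyp F → ℂ) : trAt g' (trAt g ψ) = trAt g (trAt g' ψ) := by
  rw [trAt_apply, trAt_apply, trAt_apply, trAt_apply, ← rightTr_mul, ← rightTr_mul,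
    (commute_single (single_apply_ne h.symm g') g).eq]

/-- Fixed by `Γ₀(p^(2m))` and killed by the averages over `p⁻¹/O`. -/
structure IsNewAt (v : FPlace K) (m : ℕ) (ψ : Gf K → Hyp K → ℂ) : Prop where
  fixed : gammaSub v (2 * m) ≤ fixer v ψ
  polar : ∀ R : Finset (v.adicCompletion K), IsPolarReps R →
    ∑ b ∈ R, trAt (unipHom (v.adicCompletion K) b) ψ = 0

/-- The eigenforms away from `S` of level `p^(m w)` at the places of `A` and new with exponent
`m w` at the places of `B`. -/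
def condForms (S : Set (FPlace K)) (a : FPlace K → ℂ) (A B : Set (FPlace K)) (m : FPlace K → ℕ) :
    Submodule ℂ (Gf K → Hyp K → ℂ) where
  carrier := {ψ | IsEigenForm S a ψ ∧ (∀ w ∈ A, congSubgroup w (m w) ≤ fixer w ψ) ∧
    ∀ w ∈ B, IsNewAt w (m w) ψ}
  add_mem' {x y} hx hy := by
    refine ⟨hx.1.add hy.1, fun w hw h hh z => ?_, fun w hw => ⟨fun h hh z => ?_, fun R hR => ?_⟩⟩
    · simp only [Pi.add_apply]; rw [hx.2.1 w hw hh z, hy.2.1 w hw hh z]
    · simp only [Pi.add_apply]; rw [(hx.2.2 w hw).fixed hh z, (hy.2.2 w hw).fixed hh z]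
    · simp only [map_add, Finset.sum_add_distrib, (hx.2.2 w hw).polar R hR,
        (hy.2.2 w hw).polar R hR, add_zero]
  zero_mem' := ⟨isEigenForm_zero, fun w _ h _ z => rfl,
    fun w _ => ⟨fun h _ z => rfl, fun R _ => by simp⟩⟩
  smul_mem' c x hx := ⟨hx.1.smul c, fun w hw => (hx.2.1 w hw).trans (fixer_smul x c),
    fun w hw => ⟨(hx.2.2 w hw).fixed.trans (fixer_smul x c), fun R hR => by
      simp only [map_smul, ← Finset.smul_sum, (hx.2.2 w hw).polar R hR, smul_zero]⟩⟩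

theorem condForms_trAt {S : Set (FPlace K)} {a : FPlace K → ℂ} {A B : Set (FPlace K)}
    {m : FPlace K → ℕ} {v : FPlace K} (hv : v ∈ S) (hA : v ∉ A) (hB : v ∉ B) (g : GLv v)
    {ψ : Gf K → Hyp K → ℂ} (hψ : ψ ∈ condForms S a A B m) : trAt g ψ ∈ condForms S a A B m := by
  refine ⟨hψ.1.rightTr fun w hw => single_apply_ne (fun h : w = v => hw (h ▸ hv)) g,
    fun w hw => (hψ.2.1 w hw).trans (fixer_le_rightTr_of_ne (fun h : w = v => hA (h ▸ hw)) ψ g),
    fun w hw => ?_⟩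
  have hwv : w ≠ v := fun h => hB (h ▸ hw)
  refine ⟨(hψ.2.2 w hw).fixed.trans (fixer_le_rightTr_of_ne hwv ψ g), fun R hR => ?_⟩
  simp only [trAt_comm hwv g]
  rw [← map_sum, (hψ.2.2 w hw).polar R hR, map_zero]

omit [IsTotallyComplex K] in
include E in
/-- A cusp form fixed by all conjugates of unipotents at one place vanishes. -/
theorem eq_zero_of_unip_fixed {U : Level K} {φ : Gf K → Hyp K → ℂ} (hφ : IsAutomorphic U φ)
    (hc : IsCuspidal φ) {v : FPlace K}
    (hfix : ∀ k ∈ intGL (valv v), ∀ z, k⁻¹ * unipHom (v.adicCompletion K) z * k ∈ fixer v φ) :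
    φ = 0 := by
  funext x p
  obtain ⟨N, hN⟩ := exists_smallAt U x
  obtain ⟨M, hM, hMN⟩ := exists_nat_le_exp N
  set π := E.primeOf v with hπdef
  set t : K := ((E.e π : 𝓞 K) : K) with ht
  have ht0 : t ≠ 0 := by simpa [t] using (E.prime_primeOf v).ne_zero
  have hconst : ∀ b : InfinitePlace K → ℂ, φ x (horoShift b p) = φ x p := by
    intro b
    set ζ := b E.place
    have hb : b = fun _ => ζ := funext fun w => by rw [E.unique w]
    have hnorm : 1 < ‖EisRing.emb π‖ := by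
      have h2 : 2 ≤ (EisRing.pair π).norm := (EisRing.isPrimeElt_iff.mpr (E.prime_primeOf v)).1
      rw [EisRing.emb_apply, Complex.norm_def, Eis3.normSq_toC,
        Real.lt_sqrt zero_le_one, one_pow]
      exact_mod_cast h2
    have hex : ∀ k : ℕ, ∃ β : K,
        (∀ w, w ≠ v → w.valuation K β ≤ WithZero.exp (-(N w : ℤ))) ∧
        ∀ w : InfinitePlace K, ‖w.embedding β - ζ‖ ≤ 2 * (M : ℝ) / ‖EisRing.emb π‖ ^ k := by
      intro k
      obtain ⟨s, hs⟩ := exists_torusPt (ζ * EisRing.emb π ^ k / (M : ℂ))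
      set r : EisRing := ⟨⌊s 0⌋, ⌊s 1⌋⟩
      refine ⟨(M : K) * ((E.e r : 𝓞 K) : K) / t ^ k, fun w hw => ?_, fun w => ?_⟩
      · rw [map_div₀, map_mul, map_pow, ht, E.valuation_primeOf_ne hw, one_pow, div_one]
        exact (mul_le_of_le_one_right' (w.valuation_le_one _)).trans (hMN w)
      · have hp0 : EisRing.emb π ^ k ≠ 0 := pow_ne_zero _ fun h => by
          rw [h, norm_zero] at hnorm; linarith
        have hM0 : (M : ℂ) ≠ 0 := Nat.cast_ne_zero.mpr hM.ne'
        have hemb : w.embedding ((M : K) * ((E.e r : 𝓞 K) : K) / t ^ k) - ζ =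
            (M : ℂ) * (EisRing.emb r - torusPt s) / EisRing.emb π ^ k := by
          rw [map_div₀, map_mul, map_natCast, map_pow, ht, E.embedding_e, E.embedding_e, hs]
          field_simp
        rw [hemb, norm_div, norm_mul, norm_pow, Complex.norm_natCast, mul_comm 2 (M : ℝ)]
        gcongr
        have hdiff : EisRing.emb r - torusPt s =
            -((Int.fract (s 0) : ℝ) : ℂ) - ((Int.fract (s 1) : ℝ) : ℂ) * omegaC := by
          simp only [EisRing.emb_apply, EisRing.pair, Eis3.toC, torusPt, r, Int.fract]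
          push_cast
          ring
        rw [hdiff]
        refine (norm_sub_le _ _).trans ?_
        have hω : ‖omegaC‖ = 1 := by
          rw [Complex.norm_def, Real.sqrt_eq_one, Complex.normSq_apply, omegaC_re, omegaC_im]
          linear_combination sqrtThree_mul_self / 4
        rw [norm_neg, norm_mul, hω, mul_one, Complex.norm_real, Complex.norm_real,
          Real.norm_eq_abs, Real.norm_eq_abs, Int.abs_fract, Int.abs_fract]
        linarith [Int.fract_lt_one (s 0), Int.fract_lt_one (s 1)]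
    choose β hβv hβ using hex
    have hlim : Tendsto (fun k => archVec (β k) : ℕ → InfinitePlace K → ℂ) atTop (𝓝 b) := by
      rw [hb]
      refine tendsto_pi_nhds.mpr fun w => ?_
      refine tendsto_iff_norm_sub_tendsto_zero.mpr (squeeze_zero (fun k => norm_nonneg _)
        (fun k => hβ k w) ?_)
      have h := (tendsto_pow_atTop_nhds_zero_of_lt_one (inv_nonneg.mpr (norm_nonneg _))
        (inv_lt_one_of_one_lt₀ hnorm)).const_mul (2 * (M : ℝ))
      simpa [div_eq_mul_inv, inv_pow] using h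
    have hcont : Continuous fun b : InfinitePlace K → ℂ => φ x (horoShift b p) :=
      (hφ.continuous x).comp (continuous_horoShift.comp (continuous_id.prodMk continuous_const))
    exact tendsto_nhds_unique (hcont.continuousAt.tendsto.comp hlim) (by
      simp only [Function.comp_def, horoShift_eq_of_fixed hφ hfix hN (hβv _)]
      exact tendsto_const_nhds)
  obtain ⟨m, hm, hper⟩ := hφ.exists_period x
  have h := hc x p m hm hper
  simp only [hconst, setIntegral_const, smul_eq_zero] at h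
  refine h.resolve_left fun h0 => ?_
  rw [measureReal_def, Real.volume_Icc_pi] at h0
  simp at h0

include E in
/-- A form of level `p^m` gives one new at `v` with exponent `m`, inside any space stable under the
translations at `v`. -/
theorem exists_newAt {S : Set (FPlace K)} {a : FPlace K → ℂ} {A B : Set (FPlace K)}
    {mf : FPlace K → ℕ} {v : FPlace K} (hv : v ∈ S) (hA : v ∉ A) (hB : v ∉ B)
    {W : Submodule ℂ (Gf K → Hyp K → ℂ)} (hW : ∀ g : GLv v, ∀ φ ∈ W, trAt g φ ∈ W) {m : ℕ}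
    (hm : 1 ≤ m) {ψ : Gf K → Hyp K → ℂ} (hψ : ψ ∈ condForms S a A B mf ⊓ W) (hψ0 : ψ ≠ 0)
    (hfix : congSubgroup v m ≤ fixer v ψ) :
    ∃ φ ∈ condForms S a A B mf ⊓ W, φ ≠ 0 ∧ IsNewAt v m φ := by
  have hV : ∀ (g : GLv v), ∀ φ ∈ condForms S a A B mf ⊓ W, trAt g φ ∈ condForms S a A B mf ⊓ W :=
    fun g φ h => ⟨condForms_trAt hv hA hB g h.1, hW g φ h.2⟩
  obtain ⟨U, hU, -⟩ := hψ.1.1.exists_level
  obtain ⟨g, hg, z, hz⟩ : ∃ g ∈ intGL (valv v), ∃ z : v.adicCompletion K,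
      g⁻¹ * unipHom (v.adicCompletion K) z * g ∉ fixer v ψ := by
    by_contra h
    push Not at h
    exact hψ0 (eq_zero_of_unip_fixed E hU hψ.1.1.cuspidal h)
  have hz' : unipHom (v.adicCompletion K) z ∉ fixer v (trAt g ψ) :=
    fun h => hz (mem_fixer_rightTr.mp h)
  obtain ⟨d, z', hz1, hfixd, hne⟩ := exists_torus_moved hm
    (fun j hj => mem_fixer_rightTr.mpr (hfix (conj_mem_congSubgroup hg hj))) hz'
  obtain ⟨φ, hφV, hφ0, hnew, hpolar⟩ :=
    exists_newVector hm _ hV (hV d _ (hV g ψ hψ)) hfixd hz1 hne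
  exact ⟨φ, hφV, hφ0, hnew, hpolar⟩

include E in
/-- An eigenform has a companion which is new at every place of a finite set. -/
theorem exists_allNew {S : Set (FPlace K)} {a : FPlace K → ℂ} (T : Finset (FPlace K))
    (hT : ↑T ⊆ S) (m : FPlace K → ℕ) (hm : ∀ v ∈ T, 1 ≤ m v)
    {ψ : Gf K → Hyp K → ℂ} (hψ : IsEigenForm S a ψ) (hψ0 : ψ ≠ 0)
    (hfix : ∀ v ∈ T, congSubgroup v (m v) ≤ fixer v ψ) {W : Submodule ℂ (Gf K → Hyp K → ℂ)}
    (hW : ∀ v ∈ T, ∀ g : GLv v, ∀ φ ∈ W, trAt g φ ∈ W) (hψW : ψ ∈ W)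
    (P : Finset (FPlace K)) (hP : P ⊆ T) :
    ∃ φ ∈ condForms S a ((T : Set (FPlace K)) \ P) P m, φ ∈ W ∧ φ ≠ 0 := by
  classical
  induction P using Finset.induction_on with
  | empty => exact ⟨ψ, ⟨hψ, fun w hw => hfix w hw.1, fun w hw => by simp at hw⟩, hψW, hψ0⟩
  | insert v P hvP ih =>
    obtain ⟨φ, hφ, hφW, hφ0⟩ := ih fun w hw => hP (Finset.mem_insert_of_mem hw)
    have hvT : v ∈ T := hP (Finset.mem_insert_self v P)
    have hφ' : φ ∈ condForms S a ((T : Set (FPlace K)) \ ↑(insert v P)) P m :=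
      ⟨hφ.1, fun w hw => hφ.2.1 w ⟨hw.1, fun h => hw.2 (Finset.mem_insert_of_mem h)⟩, hφ.2.2⟩
    obtain ⟨φ', ⟨hφ'V, hφ'W⟩, hφ'0, hnew⟩ := exists_newAt E
      (A := (T : Set (FPlace K)) \ ↑(insert v P)) (B := (P : Set (FPlace K))) (hT hvT)
      (fun h => h.2 (Finset.mem_insert_self v P)) (Finset.mem_coe.not.mpr hvP) (hW v hvT)
      (hm v hvT) ⟨hφ', hφW⟩ hφ0 (hφ.2.1 v ⟨hvT, Finset.mem_coe.not.mpr hvP⟩)
    refine ⟨φ', ⟨hφ'V.1, hφ'V.2.1, fun w hw => ?_⟩, hφ'W, hφ'0⟩
    rcases Finset.mem_insert.mp hw with rfl | hwP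
    · exact hnew
    · exact hφ'V.2.2 w hwP

omit [IsTotallyComplex K] in
theorem finite_setOf_mem (n : ℕ) (hn : n ≠ 0) : {v : FPlace K | (n : 𝓞 K) ∈ v.asIdeal}.Finite := by
  refine (Ideal.finite_factors (I := Ideal.span {(n : 𝓞 K)})
    (by simpa [Ideal.zero_eq_bot] using hn)).subset fun v hv => ?_
  exact Ideal.dvd_iff_le.mpr ((Ideal.span_singleton_le_iff_mem _).mpr hv)

/-- A prepared form: new at the ramified places with some exponents, eigen at all others. -/
structure PreparedForm (ρ : Γℚ →* GL (Fin 2) (ZMod 3)) (K : IntermediateField ℚ Qbar)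
    [NumberField K] where
  /-- the ramified places -/
  T : Finset (FPlace K)
  mem_T : ∀ v, v ∈ T ↔ ¬ IsGoodPlace ρ v
  /-- the exponents -/
  m : FPlace K → ℕ
  one_le : ∀ v ∈ T, 1 ≤ m v
  /-- the eigenvalues -/
  a : FPlace K → ℤ
  abs_le : ∀ v, (a v).natAbs ≤ 2
  trace : ∀ v ∉ T, ∀ A : ValuationSubring Qbar, LiesOverPlace A v → ∀ σ ∈ K.fixingSubgroup,
    A.IsFrobeniusAt σ (Ideal.absNorm v.asIdeal) →
      ((a v : ℤ) : ZMod 3) = (ρ σ : Matrix (Fin 2) (Fin 2) (ZMod 3)).trace ∧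
      (ρ σ ^ 4 = 1 → a v = quatTrace (ρ σ)) ∧ (ρ σ ^ 4 ≠ 1 → a v ≠ 0)
  /-- the form -/
  φ : Gf K → Hyp K → ℂ
  isEigen : IsEigenForm (T : Set (FPlace K)) (fun v => (a v : ℂ)) φ
  isNew : ∀ v ∈ T, IsNewAt v (m v) φ
  nonzero : φ ≠ 0

/-- A prepared form with exponent one at the tame places. -/
structure NewForm (ρ : Γℚ →* GL (Fin 2) (ZMod 3)) (K : IntermediateField ℚ Qbar)
    [NumberField K] extends PreparedForm ρ K where
  tame : ∀ v ∈ T, (3 : 𝓞 K) ∉ v.asIdeal → m v = 1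

omit [IsTotallyComplex K] in
/-- The eigenvalues of a form attached to `ρ|K` are small integers with the Galois properties. -/
theorem exists_eigenData {ρ : Γℚ →* GL (Fin 2) (ZMod 3)} (hρ : Continuous ρ) {τ : Γℚ}
    (hτ : χ τ ≠ 1) (hK : ∀ σ : Γℚ, σ ∈ K.fixingSubgroup ↔ χ σ = 1) (E : EisField K) {U : Level K}
    {φ : Gf K → Hyp K → ℂ} (hauto : IsAutomorphic U φ) (hcusp : IsCuspidal φ)
    (hspec : IsSpectralZero φ) (hbdd : ∃ C, ∀ x p, ‖φ x p‖ ≤ C)
    (hφ : ∀ v : FPlace K,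
      (∀ A : ValuationSubring Qbar, LiesOverPlace A v →
        ∀ σ ∈ A.inertiaSubgroupIn ℚ, σ ∈ K.fixingSubgroup → ρ σ = 1) →
      U.J v = maxSubgroup v ∧ ∃ a : ℤ, a.natAbs ≤ 2 ∧ HasEigenvalue v (a : ℂ) φ ∧
        ∀ A : ValuationSubring Qbar, LiesOverPlace A v → ∀ σ ∈ K.fixingSubgroup,
          A.IsFrobeniusAt σ (Ideal.absNorm v.asIdeal) →
            ((a : ℤ) : ZMod 3) = (ρ σ : Matrix (Fin 2) (Fin 2) (ZMod 3)).trace ∧
            (ρ σ ^ 4 = 1 → a = quatTrace (ρ σ)) ∧ (ρ σ ^ 4 ≠ 1 → a ≠ 0)) :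
    ∃ (T : Finset (FPlace K)) (a : FPlace K → ℤ), (∀ v, v ∈ T ↔ ¬ IsGoodPlace ρ v) ∧
      (∀ v, (a v).natAbs ≤ 2) ∧
      (∀ v ∉ T, ∀ A : ValuationSubring Qbar, LiesOverPlace A v → ∀ σ ∈ K.fixingSubgroup,
        A.IsFrobeniusAt σ (Ideal.absNorm v.asIdeal) →
          ((a v : ℤ) : ZMod 3) = (ρ σ : Matrix (Fin 2) (Fin 2) (ZMod 3)).trace ∧
          (ρ σ ^ 4 = 1 → a v = quatTrace (ρ σ)) ∧ (ρ σ ^ 4 ≠ 1 → a v ≠ 0)) ∧
      IsEigenForm (T : Set (FPlace K)) (fun v => (a v : ℂ)) φ := by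
  classical
  obtain ⟨Sb, hSb⟩ := exists_badFinset ρ hρ
  have hfin : {v : FPlace K | ¬ IsGoodPlace ρ v}.Finite := by
    refine ((insert 3 Sb).finite_toSet.biUnion
      (t := fun q => {v : FPlace K | (q : 𝓞 K) ∈ v.asIdeal}) fun q hq => ?_).subset fun v hv => ?_
    · refine finite_setOf_mem q ?_
      rcases Finset.mem_insert.mp hq with rfl | h
      · norm_num
      · exact ((hSb q).mp h).1.ne_zero
    · obtain ⟨q, hq, hqv⟩ := E.exists_prime_mem v
      refine Set.mem_biUnion (Finset.mem_coe.mpr ?_) hqv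
      by_cases h3 : q = 3
      · simp [h3]
      · exact Finset.mem_insert_of_mem ((hSb q).mpr
          ⟨hq, h3, not_not.mp fun h => hv ((isGoodPlace_iff ρ hK E hτ hq h3 hqv).mpr h)⟩)
  set T := hfin.toFinset with hTdef
  have hT : ∀ v, v ∈ T ↔ ¬ IsGoodPlace ρ v := fun v => Set.Finite.mem_toFinset _
  have hgood : ∀ v ∉ T, IsGoodPlace ρ v := fun v hv => not_not.mp fun h => hv ((hT v).mpr h)
  have hex : ∀ v, ∃ a : ℤ, a.natAbs ≤ 2 ∧ (v ∉ T → HasEigenvalue v (a : ℂ) φ ∧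
      ∀ A : ValuationSubring Qbar, LiesOverPlace A v → ∀ σ ∈ K.fixingSubgroup,
        A.IsFrobeniusAt σ (Ideal.absNorm v.asIdeal) →
          ((a : ℤ) : ZMod 3) = (ρ σ : Matrix (Fin 2) (Fin 2) (ZMod 3)).trace ∧
          (ρ σ ^ 4 = 1 → a = quatTrace (ρ σ)) ∧ (ρ σ ^ 4 ≠ 1 → a ≠ 0)) := fun v =>
    if hv : v ∈ T then ⟨0, by simp, fun h => absurd hv h⟩ else
      let ⟨_, a, ha, h1, h2⟩ := hφ v (hgood v hv); ⟨a, ha, fun _ => ⟨h1, h2⟩⟩
  choose a ha haT using hex
  have hψ : IsEigenForm (T : Set (FPlace K)) (fun v => (a v : ℂ)) φ :=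
    ⟨⟨U, hauto, fun v hv => (hφ v (hgood v (Finset.mem_coe.not.mp hv))).1⟩,
      hcusp, hspec, hbdd, fun v hv => (haT v (Finset.mem_coe.not.mp hv)).1⟩
  exact ⟨T, a, hT, ha, fun v hv => (haT v hv).2, hψ⟩

end Fermat.Agent.ResidualThree.BianchiForm
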