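import Fermat.Agent.ResidualThree.BianchiForm.Expansion
import Fermat.Agent.ResidualThree.BianchiForm.NewForm

/-!
# The functions on hyperbolic 3-space attached to a form on `ℚ(√-3)`

Since `ℚ(√-3)` has one infinite place, the restriction of a form to a class of the finite adeles
is a function on hyperbolic 3-space.  For a bounded cuspidal automorphic eigenform of spectral
parameter zero this function is periodic, bounded, has vanishing mean over the period torus and
is an eigenfunction of the radial kernels (`EisField.isPeriodicEigen`).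
-/

noncomputable section

open IsDedekindDomain NumberField MeasureTheory
open scoped WithZero

namespace Fermat.Agent.ResidualThree.BianchiForm

local notation "Qbar" => AlgebraicClosure ℚ

variable {K : IntermediateField ℚ Qbar} [NumberField K] (E : EisField K)

/-- A point at the unique infinite place. -/
def constP (p : H3) : Hyp K := fun _ => p

theorem EisField.eq_constP (P : Hyp K) : P = constP (P E.place) := funext fun w => by
  rw [E.unique w]; rfl

theorem EisField.smul_constP (γ : GL (Fin 2) K) (p : H3) :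
    γ • (constP p : Hyp K) = constP (toComplex E.place γ • p) := funext fun w => by
  show toComplex w γ • p = toComplex E.place γ • p
  rw [E.unique w]

omit [NumberField K] in
theorem continuous_constP : Continuous (constP (K := K)) := continuous_pi fun _ => continuous_id

theorem EisField.update_constP [DecidableEq (InfinitePlace K)] (p q : H3) :
    Function.update (constP p : Hyp K) E.place q = constP q := funext fun w => by
  rw [E.unique w, Function.update_self]; rfl

/-- The dilation by a positive integer. -/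
def natScale (M : ℕ) (hM : M ≠ 0) : GL (Fin 2) ℂ :=
  Matrix.GeneralLinearGroup.mkOfDetNeZero !![(M : ℂ), 0; 0, 1] (by simp [hM])

theorem natScale_smul (M : ℕ) (hM : M ≠ 0) (p : H3) :
    natScale M hM • p = ⟨(M : ℂ) * p.z, (M : ℝ) * p.y,
      mul_pos (Nat.cast_pos.mpr (Nat.pos_of_ne_zero hM)) p.y_pos⟩ := by
  have h : ((natScale M hM : GL (Fin 2) ℂ) : Matrix (Fin 2) (Fin 2) ℂ) 1 0 = 0 := by simp [natScale]
  refine H3.ext ?_ ?_
  · rw [H3.smul_z_of_upper h]; simp [natScale]
  · rw [H3.smul_y_of_upper h]; simp [natScale]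

theorem natScale_smul_shift (M : ℕ) (hM : M ≠ 0) (b : ℂ) (p : H3) :
    natScale M hM • shiftH b p = shiftH ((M : ℂ) * b) (natScale M hM • p) := by
  rw [natScale_smul, natScale_smul]
  exact H3.ext (by simp [shiftH]; ring) rfl

omit [NumberField K] in
theorem constP_shiftH (b : ℂ) (p : H3) :
    (constP (shiftH b p) : Hyp K) = horoShift (fun _ => b) (constP p) := rfl

theorem cubeMean_comp_equiv {ι κ : Type} [Fintype ι] [Fintype κ] (e : ι ≃ κ) (g : (κ → ℝ) → ℂ) :
    cubeMean (fun t : ι → ℝ => g (fun k => t (e.symm k))) = cubeMean g := by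
  have hm := volume_measurePreserving_piCongrLeft (fun _ : κ => ℝ) e
  rw [cubeMean, cubeMean, ← hm.setIntegral_preimage_emb (MeasurableEquiv.measurableEmbedding _)]
  have hc : ∀ t : ι → ℝ,
      (MeasurableEquiv.piCongrLeft (fun _ : κ => ℝ) e) t = fun k => t (e.symm k) :=
    fun t => funext fun k => by
      obtain ⟨i, rfl⟩ := e.surjective k
      rw [MeasurableEquiv.piCongrLeft_apply_apply, Equiv.symm_apply_apply]
  simp only [hc]
  congr 2
  ext t
  simp only [Set.mem_preimage, Set.mem_ofPred_eq, hc]
  exact ⟨fun h k => h (e.symm k), fun h i => by simpa using h (e i)⟩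

include E in
theorem EisField.cubeMean_eq_zero {φ : Gf K → Hyp K → ℂ} (hc : IsCuspidal φ) {x : Gf K}
    (hcont : Continuous (φ x)) {M : ℕ} (hM : 0 < M) (hper : IsPeriodAt φ x M) (p : H3) :
    cubeMean (fun t => φ x (constP (natScale M hM.ne' • shiftH (torusPt t) p))) = 0 := by
  classical
  set ι := Module.Free.ChooseBasisIndex ℤ (𝓞 K)
  have hcard : Fintype.card ι = 2 := by
    rw [← Module.finrank_eq_card_chooseBasisIndex, RingOfIntegers.rank, E.finrank]
  set e : ι ≃ Fin 2 := Fintype.equivFinOfCardEq hcard
  set bas : Module.Basis (Fin 2) ℤ (𝓞 K) := (RingOfIntegers.basis K).reindex e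
  set std : Module.Basis (Fin 2) ℤ (𝓞 K) := Module.Basis.ofEquivFun
    ({ toFun := fun a => ![(E.e.symm a).re, (E.e.symm a).im]
       invFun := fun f => E.e ⟨f 0, f 1⟩
       map_add' := fun a b => by simp
       map_smul' := fun n a => by
        simp [zsmul_eq_mul]
       left_inv := fun a => by simp
       right_inv := fun f => by funext i; fin_cases i <;> simp } : 𝓞 K ≃ₗ[ℤ] (Fin 2 → ℤ))
  set A : Matrix (Fin 2) (Fin 2) ℤ := std.toMatrix bas with hA
  have hdet : A.det ≠ 0 := fun h => by
    have h1 := congrArg Matrix.det (std.toMatrix_mul_toMatrix_flip bas)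
    rw [Matrix.det_mul, ← hA, h, zero_mul, Matrix.det_one] at h1
    exact zero_ne_one h1
  set g : (Fin 2 → ℝ) → ℂ := fun t =>
    φ x (constP (natScale M hM.ne' • shiftH (torusPt t) p)) with hg
  have hgper : IsZPeriodic g := by
    intro n t
    simp only [g]
    rw [natScale_smul_shift, natScale_smul_shift, torusPt_add, torusPt_intCast, mul_add, add_comm,
      shiftH_add, constP_shiftH]
    refine Eq.trans ?_ (hper (E.e ⟨n 0, n 1⟩)
      (constP (shiftH ((M : ℂ) * torusPt t) (natScale M hM.ne' • p))))
    congr 2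
    funext w
    rw [E.embedding_e, EisRing.emb_apply]
    rfl
  have hgc : Continuous g := hcont.comp (continuous_constP.comp
    ((H3.continuous_smul_gl _).comp (continuous_shiftH.comp
      (continuous_torusPt.prodMk continuous_const))))
  show cubeMean g = 0
  rw [← cubeMean_comp_mulVec hgper hgc A hdet,
    ← cubeMean_comp_equiv e (fun t => g ((A.map (Int.castRingHom ℝ)).mulVec t)),
    ← hc x (constP (natScale M hM.ne' • p)) M hM hper, cubeMean]
  have hset : {t : ι → ℝ | ∀ i, t i ∈ Set.Ioc (0 : ℝ) 1} =ᵐ[volume] Set.Icc (0 : ι → ℝ) 1 := by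
    rw [show {t : ι → ℝ | ∀ i, t i ∈ Set.Ioc (0 : ℝ) 1} =
      Set.univ.pi fun _ : ι => Set.Ioc (0 : ℝ) 1 by ext t; simp, volume_pi]
    exact Measure.univ_pi_Ioc_ae_eq_Icc (f := fun _ => (0 : ℝ)) (g := fun _ => 1)
  rw [setIntegral_congr_set hset]
  refine integral_congr_ae (Filter.Eventually.of_forall fun t => ?_)
  simp only [g]
  rw [natScale_smul_shift, constP_shiftH]
  congr 2
  funext w
  have hcol : ∀ j, torusPt (fun i => ((A i j : ℤ) : ℝ)) = w.embedding ((bas j : 𝓞 K) : K) := by
    intro j
    obtain ⟨r, hr⟩ := E.e.surjective (bas j)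
    rw [torusPt_intCast, ← hr, E.embedding_e, EisRing.emb_apply]
    congr 1
    simp [hA, Module.Basis.toMatrix_apply, std, ← hr, EisRing.pair]
  have hlin : torusPt ((A.map (Int.castRingHom ℝ)).mulVec fun k => t (e.symm k)) =
      ∑ j, (t (e.symm j) : ℂ) * torusPt (fun i => ((A i j : ℤ) : ℝ)) := by
    simp [torusPt, Matrix.mulVec, dotProduct, Fin.sum_univ_two]
    ring
  rw [hlin, Finset.mul_sum]
  simp only [hcol]
  refine Fintype.sum_equiv e.symm _ _ fun j => ?_
  simp only [bas, Module.Basis.reindex_apply]
  ring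

include E in
/-- A translate of a cusp form, rescaled to period `ℤ[ω]`. -/
theorem EisField.isPeriodicEigen {U : Level K} {φ : Gf K → Hyp K → ℂ} (hφ : IsAutomorphic U φ)
    (hc : IsCuspidal φ) (hs : IsSpectralZero φ) (hb : ∃ C, ∀ x p, ‖φ x p‖ ≤ C) (x : Gf K) {M : ℕ}
    (hM : 0 < M) (hper : IsPeriodAt φ x M) :
    IsPeriodicEigen fun p => φ x (constP (natScale M hM.ne' • p)) := by
  classical
  refine ⟨(hφ.continuous x).comp (continuous_constP.comp (H3.continuous_smul_gl _)),
    let ⟨C, hC⟩ := hb; ⟨C, fun p => hC _ _⟩, fun b p => ?_, fun k hk p => ?_,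
    E.cubeMean_eq_zero hc (hφ.continuous x) hM hper⟩
  · show φ x (constP (natScale M hM.ne' • shiftH b.toC p)) = _
    rw [natScale_smul_shift, constP_shiftH]
    refine Eq.trans ?_ (hper (E.e ⟨b.1, b.2⟩) _)
    congr 2
    funext w
    rw [E.embedding_e, EisRing.emb_apply]
    rfl
  · have h1 := hs x E.place k hk.cont hk.compact (constP (natScale M hM.ne' • p))
    simp only [E.update_constP] at h1
    show _ = sphZero k * φ x (constP (natScale M hM.ne' • p))
    rw [← h1]
    refine Eq.trans (integral_congr_ae (Filter.Eventually.of_forall fun q => ?_))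
      (H3.integral_smul_gl (natScale M hM.ne') fun q =>
        k (H3.coshDist (natScale M hM.ne' • p) q) * φ x (constP q))
    show _ = k (H3.coshDist (natScale M hM.ne' • p) (natScale M hM.ne' • q)) * _
    rw [H3.coshDist_smul]

end Fermat.Agent.ResidualThree.BianchiForm
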