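import Fermat.Agent.ResidualThree.Automorphic.Periods
import Fermat.Agent.ResidualThree.Spherical.Decay

/-!
# One-dimensionality of the eigenfunctions with a given horospherical character

A bounded continuous function `φ(y) e(2 Re νz)` which is an eigenfunction of the radial kernels at
parameter zero is a multiple of `y K₀(4π|ν|y)`: the kernels `exp(-λ cosh d)` at the heights `y₁, y₂`
turn into the same integral transform when the parameters are matched.
-/

noncomputable section

open MeasureTheory Real Set
open scoped RealInnerProductSpace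

namespace Fermat.Agent.ResidualThree.BianchiForm

open H3 (coshDist vol ofLog IsKernel IsDecayKernel)

/-- The point over the origin at logarithmic height `s`. -/
def axisPt (s : ℝ) : H3 := ofLog (0, s)

/-- An eigenfunction transforming by the character `ν` along horospheres. -/
structure IsCharEigen (ν : ℂ) (g : H3 → ℂ) : Prop where
  continuous : Continuous g
  bounded : ∃ B, ∀ q, ‖g q‖ ≤ B
  eigen : ∀ k : ℝ → ℂ, IsKernel k → ∀ p,
    ∫ q, k (coshDist p q) * g q ∂vol = sphZero k * g p
  char : ∀ z s, g (ofLog (z, s)) = g (axisPt s) * addCharC ν z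

theorem addCharC_zero_right (ν : ℂ) : addCharC ν 0 = 1 := by simp [addCharC]

theorem isCharEigen_whittaker {ν : ℂ} (hν : ν ≠ 0) : IsCharEigen ν (whittaker ν) := by
  refine ⟨H3.continuous_whittaker ν hν, ⟨_, H3.norm_whittaker_le ν hν⟩,
    fun k hk p => H3.integral_whittaker hk ν hν p, fun z s => ?_⟩
  simp [whittaker, axisPt, ofLog, addCharC_zero_right]

/-- The exponential kernel. -/
def expKernel (l c : ℝ) : ℂ := ((Real.exp (-(l * c)) : ℝ) : ℂ)

theorem isDecayKernel_expKernel {l : ℝ} (hl : 0 < l) : IsDecayKernel (expKernel l) :=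
  IsDecayKernel.of_exp_bound (by unfold expKernel; fun_prop) hl (C := 1) fun c _ => by
    rw [expKernel, Complex.norm_real, Real.norm_eq_abs, abs_of_pos (Real.exp_pos _), one_mul]

theorem sphZero_expKernel_ne {l : ℝ} (hl : 0 < l) : sphZero (expKernel l) ≠ 0 := by
  have hab : ∀ s, abelTransform (expKernel l) s =
      ((2 * π / l * Real.exp (-(l * Real.cosh s)) : ℝ) : ℂ) := fun s => by
    have h := integral_exp_mul_Ioi (show -l < 0 by linarith) (Real.cosh s)
    simp only [neg_mul] at h
    rw [abelTransform, show (fun u => expKernel l u) = fun u => ((Real.exp (-(l * u)) : ℝ) : ℂ)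
      from rfl, integral_complex_ofReal, h]
    push_cast
    field_simp
  have hi : Integrable fun s : ℝ => Real.exp (-(l * Real.cosh s)) := by
    refine (integrable_exp_neg_mul_sq (show 0 < l / 4 by positivity)).mono'
      (Continuous.aestronglyMeasurable (by fun_prop)) (Filter.Eventually.of_forall fun s => ?_)
    rw [Real.norm_eq_abs, abs_of_pos (Real.exp_pos _), Real.exp_le_exp]
    have := one_add_sq_le_cosh (abs_nonneg s)
    rw [sq_abs, Real.cosh_abs] at this
    nlinarith
  rw [sphZero, funext hab, integral_complex_ofReal, Ne, Complex.ofReal_eq_zero, integral_const_mul]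
  exact mul_ne_zero (by positivity) (integral_exp_pos hi).ne'

theorem integral_gauss_addCharC (ν : ℂ) {b : ℝ} (hb : 0 < b) :
    ∫ z : ℂ, ((Real.exp (-(b * Complex.normSq z)) : ℝ) : ℂ) * addCharC ν z =
      ((π / b * Real.exp (-(4 * π ^ 2 * ‖ν‖ ^ 2 / b)) : ℝ) : ℂ) := by
  have h := GaussianFourier.integral_cexp_neg_mul_sq_norm_add (V := ℂ) (b := (b : ℂ))
    (by simpa using hb) Complex.I ((4 * π : ℝ) • (starRingEnd ℂ) ν)
  rw [Complex.finrank_real_complex] at h
  have e : ∀ z : ℂ, ((Real.exp (-(b * Complex.normSq z)) : ℝ) : ℂ) * addCharC ν z =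
      Complex.exp (-(b : ℂ) * (‖z‖ : ℂ) ^ 2 +
        Complex.I * (⟪(4 * π : ℝ) • (starRingEnd ℂ) ν, z⟫ : ℂ)) := fun z => by
    rw [addCharC_eq_inner, Complex.exp_add, Complex.ofReal_exp, Complex.normSq_eq_norm_sq]
    push_cast
    ring_nf
  rw [funext e, h, norm_smul, Complex.norm_conj, Real.norm_eq_abs,
    abs_of_pos (show 0 < 4 * π by positivity), Complex.I_sq]
  norm_num
  left
  congr 1
  field_simp

/-- The transform `g ↦ ∫ e^(-s) exp(-(P e^s + Q e^(-s))) g(0, e^s) ds` to which the kernels
`exp(-λ cosh d)` at all heights reduce. -/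
def transH (g : H3 → ℂ) (P Q : ℝ) : ℂ :=
  ∫ s : ℝ, ((Real.exp (-s) * Real.exp (-(P * Real.exp s + Q * Real.exp (-s))) : ℝ) : ℂ) *
    g (axisPt s)

variable {ν : ℂ} {g : H3 → ℂ}

/-- The eigen equation for `exp(-l cosh d)` at height `e^a`, in terms of `transH`. -/
theorem IsCharEigen.transH_eq (hg : IsCharEigen ν g) {l : ℝ} (hl : 0 < l) (a : ℝ) :
    ((2 * π * Real.exp a / l : ℝ) : ℂ) *
        transH g (l / (2 * Real.exp a) + 8 * π ^ 2 * ‖ν‖ ^ 2 * Real.exp a / l)
          (l * Real.exp a / 2) =
      sphZero (expKernel l) * g (axisPt a) := by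
  obtain ⟨B, hB⟩ := hg.bounded
  rw [← H3.integral_decayKernel_mul hg.continuous hB (axisPt a) (fun k hk => hg.eigen k hk _)
      (isDecayKernel_expKernel hl),
    H3.integral_slices ((isDecayKernel_expKernel hl).integrable_mul _ hg.continuous hB),
    transH, ← integral_const_mul]
  refine integral_congr_ae (Filter.Eventually.of_forall fun s => ?_)
  have hb : 0 < l / (2 * Real.exp a * Real.exp s) := by positivity
  have e : ∀ z : ℂ, expKernel l (coshDist (axisPt a) (ofLog (z, s))) * g (ofLog (z, s)) =
      ((Real.exp (-(l * (Real.exp a ^ 2 + Real.exp s ^ 2) / (2 * Real.exp a * Real.exp s))) :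
        ℝ) : ℂ)
        * g (axisPt s) *
      (((Real.exp (-(l / (2 * Real.exp a * Real.exp s) * Complex.normSq z)) : ℝ) : ℂ) *
        addCharC ν z) := fun z => by
    rw [hg.char, expKernel, coshDist]
    simp only [axisPt, ofLog, zero_sub, Complex.normSq_neg]
    rw [show Real.exp (-(l * ((Complex.normSq z + Real.exp a ^ 2 + Real.exp s ^ 2) /
        (2 * Real.exp a * Real.exp s)))) =
      Real.exp (-(l * (Real.exp a ^ 2 + Real.exp s ^ 2) / (2 * Real.exp a * Real.exp s))) *
        Real.exp (-(l / (2 * Real.exp a * Real.exp s) * Complex.normSq z)) by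
      rw [← Real.exp_add]; congr 1; field_simp; ring]
    push_cast
    ring
  beta_reduce
  rw [funext e, integral_const_mul, integral_gauss_addCharC ν hb, Complex.real_smul]
  have h2 : Real.exp (-(2 * s)) = Real.exp (-s) * Real.exp (-s) := by
    rw [← Real.exp_add]; ring_nf
  have h1 : Real.exp (-s) = (Real.exp s)⁻¹ := Real.exp_neg s
  have hs := Real.exp_pos s
  have ha := Real.exp_pos a
  have h3 : Real.exp (-(l * (Real.exp a ^ 2 + Real.exp s ^ 2) / (2 * Real.exp a * Real.exp s))) *
        Real.exp (-(4 * π ^ 2 * ‖ν‖ ^ 2 / (l / (2 * Real.exp a * Real.exp s)))) =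
      Real.exp (-((l / (2 * Real.exp a) + 8 * π ^ 2 * ‖ν‖ ^ 2 * Real.exp a / l) * Real.exp s +
        l * Real.exp a / 2 * Real.exp (-s))) := by
    rw [← Real.exp_add, h1]
    congr 1
    field_simp
    ring
  rw [← h3, h2]
  have h4 : π / (l / (2 * Real.exp a * Real.exp s)) * Real.exp (-s) =
      2 * π * Real.exp a / l := by rw [h1]; field_simp
  rw [← h4]
  push_cast
  ring

/-- An eigenfunction with horospherical character is a multiple of the Whittaker function: the
cross products on the axis agree. -/
theorem IsCharEigen.apply_mul_whittaker_comm (hν : ν ≠ 0) (hg : IsCharEigen ν g) (a b : ℝ) :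
    g (axisPt a) * whittaker ν (axisPt b) = g (axisPt b) * whittaker ν (axisPt a) := by
  have hW := isCharEigen_whittaker hν
  have hn : 0 < ‖ν‖ := norm_pos_iff.mpr hν
  set Q := 2 * π * ‖ν‖ * Real.exp a * Real.exp b with hQ
  have hQ0 : 0 < Q := by positivity
  set la := 2 * Q / Real.exp a with hla
  set lb := 2 * Q / Real.exp b with hlb
  have eP : la / (2 * Real.exp a) + 8 * π ^ 2 * ‖ν‖ ^ 2 * Real.exp a / la =
      lb / (2 * Real.exp b) + 8 * π ^ 2 * ‖ν‖ ^ 2 * Real.exp b / lb := by
    rw [hla, hlb, hQ]; field_simp; ring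
  have eQa : la * Real.exp a / 2 = Q := by rw [hla]; field_simp
  have eQb : lb * Real.exp b / 2 = Q := by rw [hlb]; field_simp
  have ga := hg.transH_eq (show 0 < la by positivity) a
  have gb := hg.transH_eq (show 0 < lb by positivity) b
  have wa := hW.transH_eq (show 0 < la by positivity) a
  have wb := hW.transH_eq (show 0 < lb by positivity) b
  rw [eP, eQa] at ga wa
  rw [eQb] at gb wb
  have hSa := sphZero_expKernel_ne (show 0 < la by positivity)
  have hSb := sphZero_expKernel_ne (show 0 < lb by positivity)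
  refine mul_left_cancel₀ (mul_ne_zero hSa hSb) ?_
  calc sphZero (expKernel la) * sphZero (expKernel lb) * (g (axisPt a) * whittaker ν (axisPt b))
      = (sphZero (expKernel la) * g (axisPt a)) * (sphZero (expKernel lb) *
        whittaker ν (axisPt b)) :=
        by ring
    _ = (sphZero (expKernel lb) * g (axisPt b)) *
        (sphZero (expKernel la) * whittaker ν (axisPt a)) := by rw [← ga, ← gb, ← wa, ← wb]; ring
    _ = _ := by ring

end Fermat.Agent.ResidualThree.BianchiForm
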