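import Fermat.Agent.ResidualThree.BianchiForm.Torus
import Fermat.Agent.ResidualThree.BianchiForm.Uniq

/-!
# Whittaker expansion of periodic eigenfunctions on hyperbolic 3-space

A bounded continuous `ℤ[ω]`-periodic eigenfunction of the radial kernels at parameter zero whose
constant term vanishes is the absolutely convergent sum of its Whittaker terms
(`IsPeriodicEigen.hasSum`), decays at the cusp (`IsPeriodicEigen.decay`), and determines its
coefficients (`coeff_unique`).  The terms are found by harmonic analysis on the torus together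
with the uniqueness of eigenfunctions with a given horospherical character.
-/

noncomputable section

open MeasureTheory Real Set

namespace Fermat.Agent.ResidualThree.BianchiForm

open H3 (coshDist vol ofLog IsKernel IsDecayKernel)

/-- Translation along the horospheres. -/
def shiftH (b : ℂ) (p : H3) : H3 := ⟨p.z + b, p.y, p.y_pos⟩

theorem shiftH_eq_smul (b : ℂ) (p : H3) : shiftH b p = unipHom ℂ b • p :=
  (unipHom_smul_H3 b p).symm

theorem shiftH_add (a b : ℂ) (p : H3) : shiftH (a + b) p = shiftH a (shiftH b p) :=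
  H3.ext (by simp [shiftH]; ring) rfl

theorem ofLog_eq_shiftH (z : ℂ) (s : ℝ) : ofLog (z, s) = shiftH z (axisPt s) :=
  H3.ext (by simp [shiftH, axisPt, ofLog]) rfl

theorem eq_shiftH_axisPt (p : H3) : p = shiftH p.z (axisPt (Real.log p.y)) :=
  H3.ext (by simp [shiftH, axisPt, ofLog]) (by simp [shiftH, axisPt, ofLog, Real.exp_log p.y_pos])

theorem continuous_shiftH : Continuous fun q : ℂ × H3 => shiftH q.1 q.2 :=
  H3.continuous_iff.mpr ⟨(H3.continuous_z.comp continuous_snd).add continuous_fst,
    (H3.continuous_y.comp (continuous_snd (X := ℂ) (Y := H3)) :)⟩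

/-- A bounded periodic eigenfunction without constant term. -/
structure IsPeriodicEigen (G : H3 → ℂ) : Prop where
  continuous : Continuous G
  bounded : ∃ B, ∀ p, ‖G p‖ ≤ B
  periodic : ∀ (x : Eis3) (p : H3), G (shiftH x.toC p) = G p
  eigen : ∀ k : ℝ → ℂ, IsKernel k → ∀ p,
    ∫ q, k (coshDist p q) * G q ∂vol = sphZero k * G p
  mean : ∀ p, cubeMean (fun t => G (shiftH (torusPt t) p)) = 0

/-- The component of frequency `x`. -/
def charPart (x : Eis3) (G : H3 → ℂ) (p : H3) : ℂ :=
  cubeMean fun t => UnitAddTorus.mFourier (-freqEquiv x) (toTorus t) * G (shiftH (torusPt t) p)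

theorem toTorus_add_int (n : Fin 2 → ℤ) (t : Fin 2 → ℝ) :
    toTorus (t + fun i => (n i : ℝ)) = toTorus t := by
  funext i
  simp [toTorus]

theorem continuous_toTorus : Continuous (toTorus (ι := Fin 2)) := by unfold toTorus; fun_prop

theorem cube_eq : {t : Fin 2 → ℝ | ∀ i, t i ∈ Ioc (0 : ℝ) 1} =
    Set.univ.pi fun _ => Ioc (0 : ℝ) 1 := by ext t; simp

theorem volume_cube : volume {t : Fin 2 → ℝ | ∀ i, t i ∈ Ioc (0 : ℝ) 1} = 1 := by
  rw [cube_eq, volume_pi_pi]; simp

variable {G : H3 → ℂ}

theorem IsPeriodicEigen.periodic_integrand (hG : IsPeriodicEigen G) (n : Fin 2 → ℤ) (p : H3) :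
    IsZPeriodic fun t => UnitAddTorus.mFourier n (toTorus t) * G (shiftH (torusPt t) p) := by
  intro m t
  simp only [toTorus_add_int]
  rw [torusPt_add, torusPt_intCast, add_comm, shiftH_add, hG.periodic]

theorem IsPeriodicEigen.continuous_integrand (hG : IsPeriodicEigen G) (n : Fin 2 → ℤ) (p : H3) :
    Continuous fun t => UnitAddTorus.mFourier n (toTorus t) * G (shiftH (torusPt t) p) :=
  ((UnitAddTorus.mFourier n).continuous.comp continuous_toTorus).mul
    (hG.continuous.comp (continuous_shiftH.comp (continuous_torusPt.prodMk continuous_const)))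

theorem norm_mFourier_apply (n : Fin 2 → ℤ) (x : UnitAddTorus (Fin 2)) :
    ‖UnitAddTorus.mFourier n x‖ = 1 := by
  show ‖∏ i, fourier (n i) (x i)‖ = 1
  simp [fourier_apply]

theorem IsPeriodicEigen.charPart_shift (hG : IsPeriodicEigen G) (x : Eis3) (a : Fin 2 → ℝ)
    (p : H3) :
    charPart x G (shiftH (torusPt a) p) =
      UnitAddTorus.mFourier (freqEquiv x) (toTorus a) * charPart x G p := by
  have h := cubeMean_add_right (hG.periodic_integrand (-freqEquiv x) p)
    (hG.continuous_integrand (-freqEquiv x) p) a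
  show cubeMean _ = _ * cubeMean _
  rw [← h, cubeMean, cubeMean, ← integral_const_mul]
  refine integral_congr_ae (Filter.Eventually.of_forall fun t => ?_)
  beta_reduce
  rw [← shiftH_add, ← torusPt_add, ← mul_assoc]
  congr 1
  simp only [mFourier_toTorus, ← Complex.exp_add, Pi.neg_apply, Pi.add_apply]
  congr 1
  push_cast
  ring

theorem norm_charPart_le {B : ℝ} (hB : ∀ p, ‖G p‖ ≤ B)
    (x : Eis3) (p : H3) : ‖charPart x G p‖ ≤ B := by
  have h := norm_setIntegral_le_of_norm_le_const (μ := (volume : Measure (Fin 2 → ℝ)))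
    (s := {t : Fin 2 → ℝ | ∀ i, t i ∈ Ioc (0 : ℝ) 1}) (C := B) (by rw [volume_cube]; simp)
    (f := fun t => UnitAddTorus.mFourier (-freqEquiv x) (toTorus t) * G (shiftH (torusPt t) p))
    fun t _ => by rw [norm_mul, norm_mFourier_apply, one_mul]; exact hB _
  simp only [measureReal_def, volume_cube, ENNReal.toReal_one, mul_one] at h
  exact h

theorem IsPeriodicEigen.isCharEigen_charPart (hG : IsPeriodicEigen G) (x : Eis3) :
    IsCharEigen (nuOf x) (charPart x G) := by
  obtain ⟨B, hB⟩ := hG.bounded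
  have hfin : IsFiniteMeasure
      (volume.restrict {t : Fin 2 → ℝ | ∀ i, t i ∈ Ioc (0 : ℝ) 1}) :=
    ⟨by rw [Measure.restrict_apply_univ, volume_cube]; simp⟩
  refine ⟨?_, ⟨B, norm_charPart_le hB x⟩, fun k hk p => ?_, fun z s => ?_⟩
  · refine continuous_of_dominated (F := fun p t =>
      UnitAddTorus.mFourier (-freqEquiv x) (toTorus t) * G (shiftH (torusPt t) p))
      (bound := fun _ => B) (fun p => (hG.continuous_integrand _ p).aestronglyMeasurable)
      (fun p => Filter.Eventually.of_forall fun t => by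
        rw [norm_mul, norm_mFourier_apply, one_mul]; exact hB _) (integrable_const B)
      (Filter.Eventually.of_forall fun t => continuous_const.mul
        (hG.continuous.comp (continuous_shiftH.comp (continuous_const.prodMk continuous_id))))
  · have hkp := hk.integrable p
    show ∫ q, k (coshDist p q) * cubeMean _ ∂vol = sphZero k * cubeMean _
    simp only [cubeMean, ← integral_const_mul]
    rw [integral_integral_swap]
    · refine integral_congr_ae (Filter.Eventually.of_forall fun t => ?_)
      beta_reduce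
      set e := UnitAddTorus.mFourier (-freqEquiv x) (toTorus t)
      rw [show (fun q => k (coshDist p q) * (e * G (shiftH (torusPt t) q))) =
        fun q => e * (k (coshDist p q) * G (shiftH (torusPt t) q)) by funext q; ring,
        integral_const_mul]
      have h : ∫ q, k (coshDist p q) * G (shiftH (torusPt t) q) ∂vol =
          sphZero k * G (shiftH (torusPt t) p) := by
        have h2 := H3.integral_smul_gl (unipHom ℂ (torusPt t))
          (fun q => k (coshDist (shiftH (torusPt t) p) q) * G q)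
        rw [hG.eigen k hk] at h2
        refine Eq.trans (integral_congr_ae (Filter.Eventually.of_forall fun q => ?_)) h2
        beta_reduce
        rw [shiftH_eq_smul, shiftH_eq_smul, H3.coshDist_smul]
      rw [h]
      ring
    · refine Integrable.mono' (g := fun q : H3 × (Fin 2 → ℝ) => ‖k (coshDist p q.1)‖ * B)
        ((hkp.norm.mul_prod (integrable_const B)))
        (Continuous.aestronglyMeasurable ?_) (Filter.Eventually.of_forall fun q => ?_)
      · exact ((H3.continuous_kernel hk.cont p).comp continuous_fst).mul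
          (((UnitAddTorus.mFourier _).continuous.comp (continuous_toTorus.comp continuous_snd)).mul
            (hG.continuous.comp (continuous_shiftH.comp
              ((continuous_torusPt.comp continuous_snd).prodMk continuous_fst))))
      · simp only [Function.uncurry, norm_mul, norm_mFourier_apply, one_mul]
        gcongr
        exact hB _
  · obtain ⟨a, rfl⟩ := exists_torusPt z
    rw [ofLog_eq_shiftH, hG.charPart_shift, addCharC_nuOf, mul_comm]

theorem IsPeriodicEigen.charPart_zero (hG : IsPeriodicEigen G) (p : H3) : charPart 0 G p = 0 := by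
  have h : freqEquiv (0 : Eis3) = 0 := by funext i; fin_cases i <;> rfl
  rw [charPart]
  simp only [h, neg_zero, UnitAddTorus.mFourier_zero, ContinuousMap.one_apply, one_mul]
  exact hG.mean p

theorem whittaker_axisPt (ν : ℂ) (s : ℝ) : whittaker ν (axisPt s) =
    ((Real.exp s * besselK0 (4 * π * ‖ν‖ * Real.exp s) : ℝ) : ℂ) := by
  simp [whittaker, axisPt, ofLog, addCharC_zero_right]

theorem whittaker_axisPt_ne {ν : ℂ} (hν : ν ≠ 0) (s : ℝ) : whittaker ν (axisPt s) ≠ 0 := by
  have := norm_pos_iff.mpr hν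
  rw [whittaker_axisPt, Complex.ofReal_ne_zero]
  exact mul_ne_zero (Real.exp_pos s).ne' (besselK0_pos (by positivity)).ne'

/-- The expansion coefficient at `x`. -/
def coef (G : H3 → ℂ) (x : Eis3) : ℂ :=
  if x = 0 then 0 else charPart x G (axisPt (-Real.log ‖nuOf x‖)) /
    whittaker (nuOf x) (axisPt (-Real.log ‖nuOf x‖))

theorem coef_zero (G : H3 → ℂ) : coef G 0 = 0 := by simp [coef]

theorem IsPeriodicEigen.charPart_eq (hG : IsPeriodicEigen G) (x : Eis3) (s : ℝ) :
    charPart x G (axisPt s) = coef G x * whittaker (nuOf x) (axisPt s) := by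
  rcases eq_or_ne x 0 with rfl | hx
  · rw [hG.charPart_zero, coef_zero, zero_mul]
  · have hν : nuOf x ≠ 0 := fun h => hx (nuOf_eq_zero.mp h)
    have h := (hG.isCharEigen_charPart x).apply_mul_whittaker_comm hν s (-Real.log ‖nuOf x‖)
    rw [coef, if_neg hx, div_mul_eq_mul_div, eq_div_iff (whittaker_axisPt_ne hν _)]
    exact h

theorem IsPeriodicEigen.exists_coef_bound (hG : IsPeriodicEigen G) :
    ∃ C, 0 ≤ C ∧ ∀ x, ‖coef G x‖ ≤ C * ‖x.toC‖ := by
  obtain ⟨B, hB⟩ := hG.bounded
  have hB0 : 0 ≤ B := (norm_nonneg _).trans (hB H3.base)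
  have hK := besselK0_pos (show 0 < 4 * π by positivity)
  refine ⟨B / besselK0 (4 * π), by positivity, fun x => ?_⟩
  rcases eq_or_ne x 0 with rfl | hx
  · rw [coef_zero]; simp; positivity
  have hν : nuOf x ≠ 0 := fun h => hx (nuOf_eq_zero.mp h)
  have hn : 0 < ‖nuOf x‖ := norm_pos_iff.mpr hν
  have hle : ‖nuOf x‖ ≤ ‖x.toC‖ := by
    rw [norm_nuOf]
    exact div_le_self (norm_nonneg _) (Real.one_le_sqrt.mpr (by norm_num))
  have hW : ‖whittaker (nuOf x) (axisPt (-Real.log ‖nuOf x‖))‖ = besselK0 (4 * π) / ‖nuOf x‖ := by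
    rw [whittaker_axisPt, Complex.norm_real, Real.exp_neg, Real.exp_log hn,
      mul_inv_cancel_right₀ hn.ne', Real.norm_eq_abs, abs_of_pos (by positivity)]
    ring
  rw [coef, if_neg hx, norm_div, hW, div_div_eq_mul_div]
  calc ‖charPart x G (axisPt (-Real.log ‖nuOf x‖))‖ * ‖nuOf x‖ / besselK0 (4 * π)
      ≤ B * ‖x.toC‖ / besselK0 (4 * π) := by gcongr; exact norm_charPart_le hB _ _
    _ = _ := by ring

theorem norm_term_le {C : ℝ} (hC : 0 ≤ C) {x : Eis3} {c : ℂ} (hc : ‖c‖ ≤ C * ‖x.toC‖) (p : H3) :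
    ‖c * whittaker (nuOf x) p‖ ≤ 10 * C * Real.exp (-(p.y * (|(x.1 : ℝ)| + |(x.2 : ℝ)|))) := by
  rcases eq_or_ne x 0 with rfl | hx
  · have : c = 0 := norm_le_zero_iff.mp (hc.trans_eq (by simp [Eis3.toC]))
    subst this
    simp; positivity
  have hν : nuOf x ≠ 0 := fun h => hx (nuOf_eq_zero.mp h)
  have hn : 0 < ‖nuOf x‖ := norm_pos_iff.mpr hν
  have hy := p.y_pos
  set T := 4 * π * ‖nuOf x‖ * p.y with hT
  have hT0 : 0 < T := by positivity
  have hK : T * besselK0 T ≤ 10 * Real.exp (-(T / 2)) := by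
    have h1 := besselK0_le_exp_mul (half_pos hT0) (half_le_self hT0.le)
    have h2 := mul_besselK0_le (half_pos hT0)
    calc T * besselK0 T ≤ T * (Real.exp (-(T - T / 2)) * besselK0 (T / 2)) := by gcongr
      _ = 2 * Real.exp (-(T / 2)) * (T / 2 * besselK0 (T / 2)) := by ring_nf
      _ ≤ 2 * Real.exp (-(T / 2)) * 5 := by gcongr
      _ = _ := by ring
  have hs3 : Real.sqrt 3 ≤ 2 := by rw [Real.sqrt_le_iff]; norm_num
  have hxn : ‖x.toC‖ = Real.sqrt 3 * ‖nuOf x‖ := by rw [norm_nuOf]; field_simp
  have hexp : p.y * (|(x.1 : ℝ)| + |(x.2 : ℝ)|) ≤ T / 2 := by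
    have h := half_abs_le_norm x
    rw [hxn] at h
    have h3 : |(x.1 : ℝ)| + |(x.2 : ℝ)| ≤ 2 * π * ‖nuOf x‖ := by
      nlinarith [Real.pi_gt_three]
    rw [hT]; nlinarith
  rw [norm_mul, whittaker, norm_mul, norm_addCharC, mul_one, Complex.norm_real, Real.norm_eq_abs,
    abs_of_nonneg (mul_nonneg hy.le (besselK0_nonneg _))]
  calc ‖c‖ * (p.y * besselK0 T) ≤ C * ‖x.toC‖ * (p.y * besselK0 T) :=
        mul_le_mul_of_nonneg_right hc (mul_nonneg hy.le (besselK0_nonneg _))
    _ = C * (Real.sqrt 3 / (4 * π)) * (T * besselK0 T) := by rw [hxn, hT]; field_simp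
    _ ≤ C * 1 * (10 * Real.exp (-(T / 2))) := by
        refine mul_le_mul ?_ hK (mul_nonneg hT0.le (besselK0_nonneg _)) (by positivity)
        refine mul_le_mul_of_nonneg_left ?_ hC
        rw [div_le_one (by positivity)]; nlinarith [Real.pi_gt_three]
    _ ≤ _ := by
        rw [mul_one]
        calc C * (10 * Real.exp (-(T / 2))) = 10 * C * Real.exp (-(T / 2)) := by ring
          _ ≤ _ := by gcongr

theorem summable_term {C : ℝ} (hC : 0 ≤ C) {c : Eis3 → ℂ} (hc : ∀ x, ‖c x‖ ≤ C * ‖x.toC‖)
    (p : H3) : Summable fun x => ‖c x * whittaker (nuOf x) p‖ :=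
  Summable.of_nonneg_of_le (fun _x => norm_nonneg _) (fun x => norm_term_le hC (hc x) p)
    ((summable_exp_abs p.y_pos).mul_left _)

theorem whittaker_shiftH (x : Eis3) (a : Fin 2 → ℝ) (s : ℝ) :
    whittaker (nuOf x) (shiftH (torusPt a) (axisPt s)) =
      whittaker (nuOf x) (axisPt s) * UnitAddTorus.mFourier (freqEquiv x) (toTorus a) := by
  rw [← addCharC_nuOf]
  simp [whittaker, shiftH, axisPt, ofLog, addCharC_zero_right]

/-- The Whittaker expansion. -/
theorem IsPeriodicEigen.hasSum (hG : IsPeriodicEigen G) (p : H3) :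
    HasSum (fun x => coef G x * whittaker (nuOf x) p) (G p) := by
  obtain ⟨C, hC, hCb⟩ := hG.exists_coef_bound
  obtain ⟨a, ha⟩ := exists_torusPt p.z
  set s := Real.log p.y
  have hp : p = shiftH (torusPt a) (axisPt s) := by rw [ha]; exact eq_shiftH_axisPt p
  set g : (Fin 2 → ℝ) → ℂ := fun t => G (shiftH (torusPt t) (axisPt s)) with hg
  have hper : IsZPeriodic g := fun m t => by
    simp only [g]
    rw [torusPt_add, torusPt_intCast, add_comm, shiftH_add, hG.periodic]
  have hcont : Continuous g :=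
    hG.continuous.comp (continuous_shiftH.comp (continuous_torusPt.prodMk continuous_const))
  let f : C(UnitAddTorus (Fin 2), ℂ) := ⟨descend g, continuous_descend hper hcont⟩
  have hcoeff : ∀ x, UnitAddTorus.mFourierCoeff f (freqEquiv x) =
      coef G x * whittaker (nuOf x) (axisPt s) := fun x => by
    rw [UnitAddTorus.mFourierCoeff_eq_integral _ _ 0, ← hG.charPart_eq]
    simp only [Pi.zero_apply, zero_add, smul_eq_mul]
    refine integral_congr_ae (Filter.Eventually.of_forall fun t => ?_)
    show UnitAddTorus.mFourier _ (toTorus t) * descend g (toTorus t) = _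
    rw [descend_toTorus hper]
  have hsum : Summable (UnitAddTorus.mFourierCoeff f) := by
    refine freqEquiv.summable_iff.mp ?_
    simp only [Function.comp_def, hcoeff]
    exact (summable_term hC hCb _).of_norm
  have h := freqEquiv.hasSum_iff.mpr
    (UnitAddTorus.hasSum_mFourier_series_apply_of_summable hsum (toTorus a))
  have hf : f (toTorus a) = G p := (descend_toTorus hper a).trans (by rw [hp])
  rw [hf] at h
  convert! h using 1
  funext x
  simp only [Function.comp_def, hcoeff, smul_eq_mul]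
  rw [hp, whittaker_shiftH, mul_assoc]

theorem exp_neg_le_div_pow (A : ℕ) {y : ℝ} (hy : 0 < y) :
    Real.exp (-y) ≤ (A.factorial : ℝ) / y ^ A := by
  have h := Real.pow_div_factorial_le_exp y hy.le A
  rw [div_le_iff₀ (by positivity)] at h
  rw [Real.exp_neg, inv_le_iff_one_le_mul₀ (Real.exp_pos _), div_mul_eq_mul_div,
    one_le_div (by positivity)]
  linarith

/-- A periodic eigenfunction decays faster than every power of the height. -/
theorem IsPeriodicEigen.decay (hG : IsPeriodicEigen G) (A : ℕ) :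
    ∃ C, ∀ p : H3, 1 ≤ p.y → ‖G p‖ ≤ C / p.y ^ A := by
  obtain ⟨C, hC, hCb⟩ := hG.exists_coef_bound
  set S := ∑' x : Eis3, Real.exp (-(1 * (|(x.1 : ℝ)| + |(x.2 : ℝ)|)))
  have hS0 : 0 ≤ S := tsum_nonneg fun x => (Real.exp_pos _).le
  refine ⟨10 * C * Real.exp 1 * S * A.factorial, fun p hp => ?_⟩
  have hsum := hG.hasSum p
  rw [← hsum.tsum_eq]
  refine (norm_tsum_le_tsum_norm (summable_term hC hCb p)).trans ?_
  have hle : ∀ x : Eis3, ‖coef G x * whittaker (nuOf x) p‖ ≤ 10 * C * Real.exp 1 *
      Real.exp (-p.y) * Real.exp (-(1 * (|(x.1 : ℝ)| + |(x.2 : ℝ)|))) := fun x => by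
    rcases eq_or_ne x 0 with rfl | hx
    · rw [coef_zero, zero_mul, norm_zero]; positivity
    refine (norm_term_le hC (hCb x) p).trans ?_
    rw [mul_assoc (10 * C) (Real.exp 1), mul_assoc (10 * C), ← Real.exp_add, ← Real.exp_add]
    gcongr
    nlinarith [one_le_abs_add hx]
  refine (Summable.tsum_le_tsum hle (summable_term hC hCb p)
    ((summable_exp_abs one_pos).mul_left _)).trans ?_
  rw [tsum_mul_left]
  calc 10 * C * Real.exp 1 * Real.exp (-p.y) * S
      ≤ 10 * C * Real.exp 1 * ((A.factorial : ℝ) / p.y ^ A) * S := by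
        gcongr; exact exp_neg_le_div_pow A p.y_pos
    _ = _ := by ring

/-- Coefficients are determined by the sum. -/
theorem coeff_unique {c c' : Eis3 → ℂ} {C C' : ℝ} (hc : ∀ x, ‖c x‖ ≤ C * ‖x.toC‖)
    (hc' : ∀ x, ‖c' x‖ ≤ C' * ‖x.toC‖) {G : H3 → ℂ}
    (h : ∀ p, HasSum (fun x => c x * whittaker (nuOf x) p) (G p))
    (h' : ∀ p, HasSum (fun x => c' x * whittaker (nuOf x) p) (G p)) : c = c' := by
  set d := fun x => c x - c' x with hd
  have hdb : ∀ x, ‖d x‖ ≤ max (C + C') 0 * ‖x.toC‖ := fun x => by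
    refine (norm_sub_le _ _).trans ((add_le_add (hc x) (hc' x)).trans ?_)
    rw [← add_mul]
    gcongr
    exact le_max_left _ _
  have hd0 : ∀ p, HasSum (fun x => d x * whittaker (nuOf x) p) 0 := fun p => by
    have h2 := (h p).sub (h' p)
    simpa [d, sub_mul] using h2
  set e : (Fin 2 → ℤ) → ℂ := fun n =>
    d (freqEquiv.symm n) * whittaker (nuOf (freqEquiv.symm n)) (axisPt 0) with he
  have hsn : Summable fun n => ‖e n • UnitAddTorus.mFourier n‖ := by
    simp only [norm_smul, UnitAddTorus.mFourier_norm, mul_one]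
    have h3 := (summable_term (le_max_right _ _) hdb (axisPt 0)).comp_injective
      freqEquiv.symm.injective
    exact h3
  have hf : ∑' n, e n • UnitAddTorus.mFourier n = 0 := by
    ext t
    obtain ⟨a, rfl⟩ := isOpenQuotientMap_toTorus.surjective t
    have h1 := (ContinuousMap.evalCLM ℂ (toTorus a)).hasSum hsn.of_norm.hasSum
    have h2 := freqEquiv.symm.hasSum_iff.mpr (hd0 (shiftH (torusPt a) (axisPt 0)))
    refine h1.unique ?_
    convert! h2 using 1
    funext n
    simp [e, whittaker_shiftH, mul_assoc]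
  funext x
  have hx := mFourierCoeff_of_hasSum (freqEquiv x) e (hf ▸ hsn.of_norm.hasSum)
  have hzero : UnitAddTorus.mFourierCoeff
      (⇑(0 : C(UnitAddTorus (Fin 2), ℂ))) (freqEquiv x) = 0 := by
    simp [UnitAddTorus.mFourierCoeff]
  rw [hzero] at hx
  simp only [e, Equiv.symm_apply_apply] at hx
  refine sub_eq_zero.mp ?_
  show d x = 0
  rcases eq_or_ne x 0 with rfl | hne
  · exact norm_le_zero_iff.mp ((hdb 0).trans_eq (by simp [Eis3.toC]))
  · exact (mul_eq_zero.mp hx.symm).resolve_right
      (whittaker_axisPt_ne (fun h => hne (nuOf_eq_zero.mp h)) 0)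

end Fermat.Agent.ResidualThree.BianchiForm
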