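import Fermat.Agent.ResidualThree.BianchiForm.Places

/-!
# Unramified places and Frobenius traces of `ρ` restricted to `ℚ(√-3)`

For a mod three representation `ρ` we compare the good places of `ℚ(√-3)` with the good rational
primes, show that the bad primes are finite, and express the trace condition at a place through
the Frobenius elements of the prime below (split and inert case).
-/

noncomputable section

open NumberField IsDedekindDomain
open scoped WithZero Pointwise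

namespace Fermat.Agent.ResidualThree.BianchiForm

local notation "Qbar" => AlgebraicClosure ℚ
local notation "Γℚ" => (AlgebraicClosure ℚ ≃ₐ[ℚ] AlgebraicClosure ℚ)
local notation "χ" => WeierstrassCurve.modThreeCyclotomicChar

theorem chi_mul_self (σ : Γℚ) : χ σ * χ σ = 1 := by
  generalize χ σ = u
  revert u; decide

theorem chi_frobenius {p : ℕ} (hp : p.Prime) (h3 : p ≠ 3) {A : ValuationSubring Qbar}
    (hA : A.LiesOverPrime p) {σ : Γℚ} (hσ : A.IsFrobeniusAt σ p) :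
    ((χ σ : (ZMod 3)ˣ) : ZMod 3) = p := by
  obtain ⟨ζ, hζ⟩ := HasEnoughRootsOfUnity.exists_primitiveRoot Qbar 3
  have hnd : ¬ p ∣ 3 := fun h => h3 ((Nat.prime_dvd_prime_iff_eq hp Nat.prime_three).mp h)
  have h := Gal.isFrobeniusAt_rootOfUnity hp hA hσ hnd hζ.pow_eq_one
  have h3m : (hζ.isUnit (by norm_num)).unit ∈ rootsOfUnity 3 Qbar := by
    rw [mem_rootsOfUnity, Units.ext_iff]
    simpa using hζ.pow_eq_one
  have hspec := modularCyclotomicCharacter.spec (L := Qbar) (n := 3)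
    (IsAlgClosed.card_rootsOfUnity_eq Qbar 3) (σ : Qbar ≃+* Qbar) h3m
  have hs : σ ζ = ζ ^ ((χ σ : (ZMod 3)ˣ) : ZMod 3).val := by simpa using hspec
  rw [hs, ← pow_mod_orderOf ζ p, ← hζ.eq_orderOf] at h
  have h1 := hζ.pow_inj (ZMod.val_lt _) (Nat.mod_lt _ (by norm_num)) h
  rw [← ZMod.natCast_zmod_val ((χ σ : (ZMod 3)ˣ) : ZMod 3), h1, ZMod.natCast_mod]

theorem isFrobeniusAt_sq {p : ℕ} {A : ValuationSubring Qbar}
    {σ : Γℚ} (hσ : A.IsFrobeniusAt σ p) :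
    A.IsFrobeniusAt (σ ^ 2) (p ^ 2) := by
  rw [Gal.isFrobeniusAt_iff] at *
  refine ⟨pow_mem hσ.1 2, fun x hx => ?_⟩
  have hσA : σ x ∈ A := (Gal.mem_decomposition_iff.mp hσ.1 x).mpr hx
  rw [pow_two σ, AlgEquiv.mul_apply, pow_two p, pow_mul]
  have h1 := hσ.2 (σ x) hσA
  obtain ⟨t, ht, hte⟩ : ∃ t ∈ A, σ x ^ p - (x ^ p) ^ p = t * (σ x - x ^ p) := by
    refine ⟨∑ i ∈ Finset.range p, σ x ^ i * (x ^ p) ^ (p - 1 - i), ?_,
      (geom_sum₂_mul (σ x) (x ^ p) p).symm⟩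
    exact sum_mem fun i _ => mul_mem (pow_mem hσA i) (pow_mem (pow_mem hx p) _)
  have h2 : σ x ^ p - (x ^ p) ^ p ∈ A.nonunits := hte ▸ Gal.mul_mem_nonunits ht (hσ.2 x hx)
  rw [← sub_add_sub_cancel (σ (σ x)) (σ x ^ p) ((x ^ p) ^ p)]
  rw [A.mem_nonunits_iff] at *
  exact lt_of_le_of_lt (A.valuation.map_add _ _) (max_lt h1 h2)

theorem inertia_mem_fixing {K : IntermediateField ℚ Qbar}
    (hK : ∀ σ : Γℚ, σ ∈ K.fixingSubgroup ↔ χ σ = 1) {q : ℕ} (hq : q.Prime) (h3 : q ≠ 3)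
    {A : ValuationSubring Qbar} (hA : A.LiesOverPrime q) {σ : Γℚ}
    (hσ : σ ∈ A.inertiaSubgroupIn ℚ) : σ ∈ K.fixingSubgroup := by
  obtain ⟨ζ, hζ⟩ := HasEnoughRootsOfUnity.exists_primitiveRoot Qbar 3
  rw [hK, chi_eq_one_iff hζ]
  exact Gal.inertia_rootOfUnity hq hA hσ
    (fun h => h3 ((Nat.prime_dvd_prime_iff_eq hq Nat.prime_three).mp h)) hζ.pow_eq_one

theorem pow_eight_eq_one {M : Matrix (Fin 2) (Fin 2) (ZMod 3)} (h : M.det = -1) : M ^ 8 = 1 := by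
  revert h M; decide +kernel

variable (ρ : Γℚ →* GL (Fin 2) (ZMod 3)) {K : IntermediateField ℚ Qbar} [NumberField K]

/-- `ρ|K` is unramified at `v`. -/
def IsGoodPlace (v : FPlace K) : Prop :=
  ∀ A : ValuationSubring Qbar, LiesOverPlace A v →
    ∀ σ ∈ A.inertiaSubgroupIn ℚ, σ ∈ K.fixingSubgroup → ρ σ = 1

/-- `ρ` is ramified at `q`. -/
def IsBadPrime (q : ℕ) : Prop :=
  ∃ A : ValuationSubring Qbar, A.LiesOverPrime q ∧ ∃ σ ∈ A.inertiaSubgroupIn ℚ, ρ σ ≠ 1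

theorem isGoodPlace_iff (hK : ∀ σ : Γℚ, σ ∈ K.fixingSubgroup ↔ χ σ = 1) (E : EisField K)
    {τ : Γℚ} (hτ : χ τ ≠ 1) {q : ℕ} (hq : q.Prime) (h3 : q ≠ 3) {v : FPlace K}
    (hv : (q : 𝓞 K) ∈ v.asIdeal) : IsGoodPlace ρ v ↔ ¬ IsBadPrime ρ q := by
  constructor
  · rintro h ⟨A, hA, σ, hσ, hne⟩
    rcases exists_liesOverPlace E hτ v hq hv hA with h' | h'
    · exact hne (h A h' σ hσ (inertia_mem_fixing hK hq h3 hA hσ))
    · have hσ' := Gal.conj_mem_inertia hσ τ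
      have h2 := h (τ • A) h' _ hσ' (inertia_mem_fixing hK hq h3 (Gal.liesOverPrime_smul τ hA) hσ')
      simp only [map_mul, map_inv, conj_eq_one_iff] at h2
      exact hne h2
  · intro h A hA σ hσ _
    by_contra hne
    exact h ⟨A, liesOverPrime_of_mem hA hq.ne_zero hv, σ, hσ, hne⟩

/-- Only finitely many rational primes are bad. -/
theorem exists_badFinset (hρ : Continuous ρ) :
    ∃ S : Finset ℕ, ∀ q : ℕ, q ∈ S ↔ q.Prime ∧ q ≠ 3 ∧ IsBadPrime ρ q := by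
  classical
  obtain ⟨S, hS⟩ := Gal.exists_finset_unramified ρ (factors_of_continuous ρ hρ)
  refine ⟨S.filter fun q => q.Prime ∧ q ≠ 3 ∧ IsBadPrime ρ q, fun q => ?_⟩
  rw [Finset.mem_filter, and_iff_right_iff_imp]
  rintro ⟨hq, -, A, hA, σ, hσ, hne⟩
  by_contra hqS
  exact hne (hS q hq hqS A hA σ hσ)

theorem eq_of_three_mem (E : EisField K) {v w : FPlace K} (hv : (3 : 𝓞 K) ∈ v.asIdeal)
    (hw : (3 : 𝓞 K) ∈ w.asIdeal) : v = w := by
  have hs : Prime (⟨1, 2⟩ : EisRing) := EisRing.prime_of_norm_prime (by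
    rw [show (EisRing.pair ⟨1, 2⟩).norm = 3 from rfl]; exact Nat.prime_three)
  have hsq : (3 : EisRing) = -(⟨1, 2⟩ * ⟨1, 2⟩) := by ext <;> simp [QuadraticAlgebra.re_ofNat,
    QuadraticAlgebra.im_ofNat]
  have key : ∀ u : FPlace K, (3 : 𝓞 K) ∈ u.asIdeal → E.e ⟨1, 2⟩ ∈ u.asIdeal := fun u hu => by
    rw [show (3 : 𝓞 K) = E.e 3 by simp [map_ofNat], hsq, map_neg, map_mul, neg_mem_iff] at hu
    exact (u.isPrime.mem_or_mem hu).elim id id
  exact E.eq_of_mem hs (key v hv) (key w hw)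

theorem isGoodPlace_three_iff (hK : ∀ σ : Γℚ, σ ∈ K.fixingSubgroup ↔ χ σ = 1) (E : EisField K)
    {v : FPlace K} (hv : (3 : 𝓞 K) ∈ v.asIdeal) :
    IsGoodPlace ρ v ↔ IsUnramifiedThreeOverK ρ := by
  constructor
  · intro h A hA σ hσ h1
    obtain ⟨w, hw, h3w, -⟩ := exists_place (K := K) Nat.prime_three hA
    rw [eq_of_three_mem E hv (w := w) (by exact_mod_cast h3w)] at h
    exact h A hw σ hσ ((hK σ).mpr h1)
  · intro h A hA σ hσ hfix
    exact h A (liesOverPrime_of_mem hA (q := 3) (by norm_num) (by exact_mod_cast hv)) σ hσ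
      ((hK σ).mp hfix)

theorem quatTrace_conj (g h : GL (Fin 2) (ZMod 3)) : quatTrace (g * h * g⁻¹) = quatTrace h := by
  have hm : ((g * h * g⁻¹ : GL (Fin 2) (ZMod 3)) : Matrix (Fin 2) (Fin 2) (ZMod 3)) = -1 ↔
      (h : Matrix (Fin 2) (Fin 2) (ZMod 3)) = -1 := by
    rw [show (-1 : Matrix (Fin 2) (Fin 2) (ZMod 3)) =
      ((-1 : GL (Fin 2) (ZMod 3)) : Matrix (Fin 2) (Fin 2) (ZMod 3)) from rfl, Units.val_inj,
      Units.val_inj, mul_inv_eq_iff_eq_mul, (Commute.neg_one_left g).eq, mul_left_cancel_iff]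
  simp only [quatTrace, conj_eq_one_iff, hm]

/-- For `p ≡ 1 (mod 3)`, what is known of `a` at Frobenius elements over one place above `p` holds
at every Frobenius element at `p`. -/
theorem trace_of_liesOver (hK : ∀ σ : Γℚ, σ ∈ K.fixingSubgroup ↔ χ σ = 1) (E : EisField K)
    {τ : Γℚ} (hτ : χ τ ≠ 1) {p : ℕ} (hp : p.Prime) (h1 : p % 3 = 1) {v : FPlace K}
    (hv : (p : 𝓞 K) ∈ v.asIdeal) {a : ℤ}
    (ha : ∀ A : ValuationSubring Qbar, LiesOverPlace A v → ∀ σ ∈ K.fixingSubgroup,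
      A.IsFrobeniusAt σ p →
        ((a : ℤ) : ZMod 3) = (ρ σ : Matrix (Fin 2) (Fin 2) (ZMod 3)).trace ∧
        (ρ σ ^ 4 = 1 → a = quatTrace (ρ σ)) ∧ (ρ σ ^ 4 ≠ 1 → a ≠ 0))
    {A : ValuationSubring Qbar} (hA : A.LiesOverPrime p) {σ : Γℚ} (hσ : A.IsFrobeniusAt σ p) :
    ((a : ℤ) : ZMod 3) = (ρ σ : Matrix (Fin 2) (Fin 2) (ZMod 3)).trace ∧
      (ρ σ ^ 4 = 1 → a = quatTrace (ρ σ)) ∧ (ρ σ ^ 4 ≠ 1 → a ≠ 0) := by
  have h3 : p ≠ 3 := by omega
  have hfix : ∀ B : ValuationSubring Qbar, B.LiesOverPrime p → ∀ s, B.IsFrobeniusAt s p →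
      s ∈ K.fixingSubgroup := fun B hB s hs => by
    rw [hK, Units.ext_iff, chi_frobenius hp h3 hB hs, ← ZMod.natCast_mod, h1]
    rfl
  rcases exists_liesOverPlace E hτ v hp hv hA with h | h
  · exact ha A h σ (hfix A hA σ hσ) hσ
  · have hσ' := Gal.isFrobeniusAt_conj hσ τ
    have := ha (τ • A) h _ (hfix _ (Gal.liesOverPrime_smul τ hA) _ hσ') hσ'
    rwa [map_mul, map_mul, map_inv, quatTrace_conj, conj_pow, conj_eq_one_iff, Units.val_mul,
      Units.val_mul, Matrix.trace_mul_cycle, ← Units.val_mul, inv_mul_cancel, Units.val_one,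
      one_mul, ne_eq, conj_eq_one_iff] at this

/-- For `p ≡ 2 (mod 3)`, the value of `a` at the Frobenius elements over the place `(p)` gives it
as `quatTrace` of the square of a Frobenius element at `p`. -/
theorem inert_trace (hdet : ∀ σ : Γℚ, Matrix.GeneralLinearGroup.det (ρ σ) = χ σ)
    (hK : ∀ σ : Γℚ, σ ∈ K.fixingSubgroup ↔ χ σ = 1) (E : EisField K)
    {p : ℕ} (hp : p.Prime) (h2 : p % 3 = 2) {v : FPlace K}
    (hv : (p : 𝓞 K) ∈ v.asIdeal) {a : ℤ}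
    (ha : ∀ A : ValuationSubring Qbar, LiesOverPlace A v → ∀ σ ∈ K.fixingSubgroup,
      A.IsFrobeniusAt σ (p ^ 2) → ρ σ ^ 4 = 1 → a = quatTrace (ρ σ))
    {A : ValuationSubring Qbar} (hA : A.LiesOverPrime p) {σ : Γℚ} (hσ : A.IsFrobeniusAt σ p) :
    a = quatTrace (ρ σ ^ 2) := by
  have h3 : p ≠ 3 := by omega
  obtain ⟨w, hw, hpw, -⟩ := exists_place (K := K) hp hA
  have hwv : w = v := E.eq_of_mem (EisRing.prime_natCast_of_inert hp h2)
    (by rw [map_natCast]; exact hpw) (by rw [map_natCast]; exact hv)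
  subst hwv
  have hfix : σ ^ 2 ∈ K.fixingSubgroup := by rw [hK, map_pow, pow_two, chi_mul_self]
  rw [← map_pow]
  refine ha A hw _ hfix (isFrobeniusAt_sq hσ) ?_
  rw [map_pow, ← pow_mul]
  refine Units.ext ?_
  rw [Units.val_pow_eq_pow_val, Units.val_one]
  refine pow_eight_eq_one ?_
  have h := congrArg Units.val (hdet σ)
  rw [Matrix.GeneralLinearGroup.val_det_apply, chi_frobenius hp h3 hA hσ,
    ← ZMod.natCast_mod, h2] at h
  rw [h]; rfl

end Fermat.Agent.ResidualThree.BianchiForm
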