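import Fermat.Agent.ResidualThree.BianchiForm.Level

/-!
# The relations between the coefficients of a prepared form

For a form prepared as in `NewForm` the Whittaker coefficients of its classical function satisfy
the Hecke relation at the good places, the vanishing relation at the ramified ones and invariance
under units; these are the adelic eigen, level and symmetry conditions read on expansions.
-/

noncomputable section

open IsDedekindDomain NumberField
open scoped WithZero

namespace Fermat.Agent.ResidualThree.BianchiForm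

open Fermat.Agent.ResidualThree.Tree (diagGL stepGL)

local notation "Qbar" => AlgebraicClosure ℚ
local notation "Γℚ" => (AlgebraicClosure ℚ ≃ₐ[ℚ] AlgebraicClosure ℚ)

variable {K : IntermediateField ℚ Qbar} [NumberField K] {ρ : Γℚ →* GL (Fin 2) (ZMod 3)}

theorem dvd_sub_neg {π x r : Eis3} : Eis3.dvd π (x - -r) ↔ Eis3.dvd π (-x - r) := by
  constructor <;>
  · intro h
    obtain ⟨z, hz⟩ := Eis3.dvd_iff_toC.mp h
    refine Eis3.dvd_iff_toC.mpr ⟨-z, ?_⟩
    simp only [Eis3.toC_sub, Eis3.toC_neg] at hz ⊢
    linear_combination -hz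

theorem IsResidues.neg {π : Eis3} {R : Finset Eis3} (hR : IsResidues π R) :
    IsResidues π (R.image Neg.neg) := by
  refine ⟨fun x => ?_, by rw [Finset.card_image_of_injective _ neg_injective]; exact hR.2⟩
  obtain ⟨r, ⟨hr, hd⟩, hu⟩ := hR.1 (-x)
  refine ⟨-r, ⟨Finset.mem_image_of_mem _ hr, dvd_sub_neg.mpr hd⟩, ?_⟩
  rintro r' ⟨hr', hd'⟩
  obtain ⟨r₀, hr₀, rfl⟩ := Finset.mem_image.mp hr'
  rw [hu r₀ ⟨hr₀, dvd_sub_neg.mp hd'⟩]

variable (E : EisField K)

theorem EisField.toK_ne_zero {x : Eis3} (hx : x.toC ≠ 0) : E.toK x ≠ 0 := fun h => hx <| by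
  rw [← E.embedding_toK E.place, h, map_zero]

theorem EisField.toC_primeOf_ne_zero (v : FPlace K) : (EisRing.pair (E.primeOf v)).toC ≠ 0 :=
  fun h => (E.prime_primeOf v).ne_zero (EisRing.emb_injective (by
    rw [EisRing.emb_apply, h, map_zero]))

theorem EisField.valuation_toK_primeOf_ne {v w : FPlace K} (h : w ≠ v) :
    w.valuation K (E.toK (EisRing.pair (E.primeOf v))) = 1 := E.valuation_primeOf_ne h

namespace PreparedForm

variable (N : PreparedForm ρ K)

theorem inLevel_upper {γ : GL (Fin 2) K} {v : FPlace K}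
    (h : ∀ i j, v.valuation K ((γ : Matrix (Fin 2) (Fin 2) K) i j) ≤ 1)
    (hdet : v.valuation K (γ : Matrix (Fin 2) (Fin 2) K).det = 1)
    (hc : (γ : Matrix (Fin 2) (Fin 2) K) 1 0 = 0) : N.InLevel v (toLocal v γ) :=
  N.inLevel_intGL h hdet fun _ => by rw [hc, map_zero]; exact zero_le

theorem apply_single_eq (v : FPlace K) (γ : GL (Fin 2) K)
    (h : ∀ w, w ≠ v → N.InLevel w (toLocal w γ)) (p : H3) :
    N.φ (single v (toLocal v γ)) (constP p) = N.F ((toComplex E.place γ)⁻¹ • p) := by
  refine N.apply_eq_F E _ γ (fun w => ?_) p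
  by_cases hw : w = v
  · subst hw; rw [single_apply_same, inv_mul_cancel]; exact N.inLevel_one w
  · rw [single_apply_ne hw, mul_one]; exact N.inLevel_inv (h w hw)

/-- The Whittaker coefficients of the classical function of a prepared form. -/
def coefF : Eis3 → ℂ := coef N.F

include E in
theorem isExpansion_F : IsExpansion N.coefF N.F := (N.isPeriodicEigen_F E).isExpansion

/-- The Hecke relation between the coefficients at a good place. -/
theorem hecke_relation {v : FPlace K} (hv : v ∉ N.T) (x : Eis3) :
    (N.a v : ℂ) * N.coefF x = N.coefF (Eis3.mul (EisRing.pair (E.primeOf v)) x) +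
      lowerCoef (EisRing.pair (E.primeOf v)) N.coefF x := by
  classical
  obtain ⟨R, hR, -, hsum⟩ := E.exists_residues v
  set π := EisRing.pair (E.primeOf v) with hπdef
  have hπ : π.toC ≠ 0 := E.toC_primeOf_ne_zero v
  set πu : Kˣ := Units.mk0 (E.toK π) (E.toK_ne_zero hπ) with hπu
  refine (N.isExpansion_F E).hecke hπ hR.neg _ (fun p => ?_) x
  have h1 := hsum (N.isEigen.sphericalAt (Finset.mem_coe.not.mpr hv))
    (N.isEigen.eigen v (Finset.mem_coe.not.mpr hv)) 1 (constP p)
  simp only [one_mul] at h1
  have hn : Tree.csqrtN (Ideal.absNorm v.asIdeal) = (‖π.toC‖ : ℂ) := by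
    rw [Tree.csqrtN, E.absNorm_eq, Complex.norm_def, Eis3.normSq_toC]
  have estep : ∀ r : Eis3, stepGL (E.unif v) (algebraMap K (v.adicCompletion K) (E.toK r)) =
      toLocal v (stepGL πu (E.toK r)) := fun r => by
    refine Units.ext (Matrix.ext fun i j => ?_)
    fin_cases i <;> fin_cases j <;> simp [toLocal, πu, hπdef, E.coe_unif]
  have ediag : diagGL 1 (E.unif v) = toLocal v (diagGL 1 πu) := by
    refine Units.ext (Matrix.ext fun i j => ?_)
    fin_cases i <;> fin_cases j <;> simp [toLocal, πu, hπdef, E.coe_unif]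
  have hval : ∀ w, w ≠ v → w.valuation K (E.toK π) = 1 := fun w hw =>
    E.valuation_toK_primeOf_ne hw
  have hs : ∀ r ∈ R, N.φ (single v (stepGL (E.unif v) (algebraMap K _ (E.toK r)))) (constP p) =
      N.F (affH π.toC⁻¹ (inv_ne_zero hπ) ((-r).toC / π.toC) p) := fun r _ => by
    rw [estep, N.apply_single_eq E v _ fun w hw => N.inLevel_upper (fun i j => ?_) ?_ ?_]
    · congr 1
      rw [inv_smul_eq_iff]
      have h10 : ((toComplex E.place (stepGL πu (E.toK r)) : GL (Fin 2) ℂ) :
          Matrix (Fin 2) (Fin 2) ℂ) 1 0 = 0 := by simp [toComplex]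
      refine H3.ext ?_ ?_
      · rw [H3.smul_z_of_upper h10]
        simp [toComplex, πu, affH, E.embedding_toK, Eis3.toC_neg]
        field_simp
        ring
      · rw [H3.smul_y_of_upper h10]
        simp [toComplex, πu, affH, E.embedding_toK]
        field_simp
    · fin_cases i <;> fin_cases j <;>
        simp [πu, (hval w hw).le, E.valuation_toK_le_one w r]
    · simp [πu, Matrix.det_fin_two, hval w hw]
    · simp
  have hd : N.φ (single v (diagGL 1 (E.unif v))) (constP p) = N.F (affH π.toC hπ 0 p) := by
    rw [ediag, N.apply_single_eq E v _ fun w hw => N.inLevel_upper (fun i j => ?_) ?_ ?_]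
    · congr 1
      rw [inv_smul_eq_iff]
      have h10 : ((toComplex E.place (diagGL 1 πu) : GL (Fin 2) ℂ) :
          Matrix (Fin 2) (Fin 2) ℂ) 1 0 = 0 := by simp [toComplex]
      refine H3.ext ?_ ?_
      · rw [H3.smul_z_of_upper h10]
        simp [toComplex, πu, affH, E.embedding_toK, hπ]
      · rw [H3.smul_y_of_upper h10]
        simp [toComplex, πu, affH, E.embedding_toK]
        field_simp
    · fin_cases i <;> fin_cases j <;> simp [πu, (hval w hw).le]
    · simp [πu, Matrix.det_fin_two, hval w hw]
    · simp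
  rw [Finset.sum_congr rfl hs, hd, hn] at h1
  rw [Finset.sum_image fun a _ b _ h => neg_injective h]
  exact h1

/-- The vanishing relation between the coefficients at a ramified place. -/
theorem level_relation {v : FPlace K} (hv : v ∈ N.T) (x : Eis3) :
    N.coefF (Eis3.mul (EisRing.pair (E.primeOf v)) x) = 0 := by
  classical
  obtain ⟨R, hR, hpolar, -⟩ := E.exists_residues v
  set π := EisRing.pair (E.primeOf v) with hπdef
  have hπ : π.toC ≠ 0 := E.toC_primeOf_ne_zero v
  refine (N.isExpansion_F E).level hπ hR.neg (fun p => ?_) x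
  have h1 := congrFun (congrFun ((N.isNew v hv).polar _ hpolar) 1) (constP p)
  rw [Finset.sum_image fun a _ b _ h => ?_] at h1
  · rw [Finset.sum_image fun a _ b _ h => neg_injective h]
    refine Eq.trans (Finset.sum_congr rfl fun r _ => ?_)
      ((by simpa only [Finset.sum_apply, Pi.zero_apply] using h1))
    have eunip : unipHom (v.adicCompletion K) (algebraMap K _ (E.toK r / E.toK π)) =
        toLocal v (unipHom K (E.toK r / E.toK π)) := by
      refine Units.ext (Matrix.ext fun i j => ?_)
      fin_cases i <;> fin_cases j <;> simp [toLocal, coe_unipHom]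
    show _ = N.φ (1 * single v _) (constP p)
    rw [one_mul, eunip, N.apply_single_eq E v _ fun w hw => N.inLevel_upper (fun i j => ?_) ?_ ?_]
    · congr 1
      symm
      rw [inv_smul_eq_iff]
      have h10 : ((toComplex E.place (unipHom K (E.toK r / E.toK π)) : GL (Fin 2) ℂ) :
          Matrix (Fin 2) (Fin 2) ℂ) 1 0 = 0 := by simp [toComplex, coe_unipHom]
      refine H3.ext ?_ ?_
      · rw [H3.smul_z_of_upper h10]
        simp [toComplex, coe_unipHom, affH, E.embedding_toK, Eis3.toC_neg]
        ring
      · rw [H3.smul_y_of_upper h10]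
        simp [toComplex, coe_unipHom, affH]
    · fin_cases i <;> fin_cases j <;> simp [coe_unipHom, π, E.valuation_toK_primeOf_ne hw,
        E.valuation_toK_le_one w r]
    · simp [coe_unipHom, Matrix.det_fin_two]
    · simp [coe_unipHom]
  · have h' : E.toK a / E.toK π = E.toK b / E.toK π := (algebraMap K _).injective h
    have h'' : E.toK a = E.toK b := by
      field_simp [E.toK_ne_zero hπ] at h'
      exact h'
    exact Eis3.toC_injective (by rw [← E.embedding_toK E.place, h'', E.embedding_toK])

include E in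
/-- The coefficients are invariant under units. -/
theorem unit_relation {u : Eis3} (hu : u.norm = 1) (x : Eis3) :
    N.coefF (Eis3.mul u x) = N.coefF x := by
  have hu0 : u.toC ≠ 0 := fun h => by
    rw [Eis3.toC_eq_zero] at h; rw [h] at hu; simp [Eis3.norm] at hu
  set uK : Kˣ := Units.mk0 (E.toK u) (E.toK_ne_zero hu0) with huK
  have hval : ∀ w : FPlace K, w.valuation K (E.toK u) = 1 := fun w => by
    obtain ⟨z, hz⟩ := (EisRing.isUnit_iff (x := (⟨u.1, u.2⟩ : EisRing))).mpr hu
    refine le_antisymm (E.valuation_toK_le_one w u) ?_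
    have h1 : E.toK u * E.toK (EisRing.pair (↑z⁻¹ : EisRing)) = 1 := by
      rw [show u = EisRing.pair (↑z : EisRing) by rw [hz]; rfl, E.toK_pair, E.toK_pair,
        ← map_mul (algebraMap (𝓞 K) K), ← map_mul E.e, Units.mul_inv, map_one, map_one]
    have h2 := congrArg (w.valuation K) h1
    rw [map_mul, map_one] at h2
    rw [← h2]
    exact mul_le_of_le_one_right' (E.valuation_toK_le_one w _)
  refine (N.isExpansion_F E).unit hu hu0 (fun p => ?_) x
  have h := N.F_smul E (diagGL uK 1) (fun w => N.inLevel_upper (fun i j => by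
      fin_cases i <;> fin_cases j <;> simp [uK, (hval w).le])
    (by simp [uK, Matrix.det_fin_two, hval w]) (by simp)) p
  rw [← h]
  congr 1
  have h10 : ((toComplex E.place (diagGL uK 1) : GL (Fin 2) ℂ) :
      Matrix (Fin 2) (Fin 2) ℂ) 1 0 = 0 := by simp [toComplex]
  refine H3.ext ?_ ?_
  · rw [H3.smul_z_of_upper h10]
    simp [toComplex, uK, affH, E.embedding_toK]
  · rw [H3.smul_y_of_upper h10]
    simp [toComplex, uK, affH, E.embedding_toK]

end PreparedForm

end Fermat.Agent.ResidualThree.BianchiForm
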