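import Fermat.Agent.ResidualThree.BianchiForm.Cusp

/-!
# The classical function of a prepared form

By strong approximation a prepared form is determined by its restriction `F` to the class of
one.  This function is continuous, nonzero, periodic, a kernel eigenfunction, decays at all cusps
and transforms trivially under the rational points of the level.
-/

noncomputable section

open IsDedekindDomain NumberField
open scoped WithZero

namespace Fermat.Agent.ResidualThree.BianchiForm

open Fermat.Agent.ResidualThree.Tree (intGL)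

local notation "Qbar" => AlgebraicClosure ℚ
local notation "Γℚ" => (AlgebraicClosure ℚ ≃ₐ[ℚ] AlgebraicClosure ℚ)

variable {K : IntermediateField ℚ Qbar} [NumberField K]
  {ρ : Γℚ →* GL (Fin 2) (ZMod 3)}

/-- An element which fixes `φ` at the places of `T` and lies in the level at the others fixes
`φ`. -/
theorem apply_mul_eq_of_forall_mem {F : Type} [Field F] [NumberField F] {U : Level F}
    {φ : Gf F → Hyp F → ℂ} (hφ : IsAutomorphic U φ) (T : Finset (FPlace F)) :
    ∀ (x j : Gf F), (∀ v ∈ T, (j : ∀ v, GLv v) v ∈ fixer v φ) →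
      (∀ v ∉ T, (j : ∀ v, GLv v) v ∈ U.J v) → φ (x * j) = φ x := by
  classical
  induction T using Finset.induction_on with
  | empty => exact fun x j _ h => hφ.right x j fun v => h v (Finset.notMem_empty v)
  | insert v T hvT ih =>
    intro x j hT hU
    set g := (j : ∀ v, GLv v) v
    have hj' : ∀ w, ((j * (single v g)⁻¹ : Gf F) : ∀ v, GLv v) w =
        if w = v then 1 else (j : ∀ v, GLv v) w := fun w => by
      show (j : ∀ v, GLv v) w * (((single v g : Gf F) : ∀ v, GLv v) w)⁻¹ = _
      by_cases h : w = v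
      · subst h; rw [if_pos rfl, single_apply_same, mul_inv_cancel]
      · rw [if_neg h, single_apply_ne h, inv_one, mul_one]
    rw [show x * j = x * (j * (single v g)⁻¹) * single v g by rw [mul_assoc, inv_mul_cancel_right],
      hT v (Finset.mem_insert_self v T) _]
    refine ih _ _ (fun w hw => ?_) fun w hw => ?_
    · rw [hj', if_neg (fun h : w = v => hvT (h ▸ hw))]
      exact hT w (Finset.mem_insert_of_mem hw)
    · rw [hj']
      split_ifs with h
      · exact one_mem _
      · exact hU w fun hmem => (Finset.mem_insert.mp hmem).elim h hw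

section
variable {S : Set (FPlace K)} {a : FPlace K → ℂ} {φ : Gf K → Hyp K → ℂ} (E : EisField K)

/-- The classical function moved by a field element. -/
theorem apply_diag_inv {U : Level K} (hU : IsAutomorphic U φ) (γ : GL (Fin 2) K) (p : H3) :
    φ (diag K γ⁻¹) (constP p) = φ 1 (constP (toComplex E.place γ • p)) := by
  have h := hU.left γ⁻¹ 1 (diag K γ⁻¹) (fun v => (mul_one _).symm)
    (constP (toComplex E.place γ • p))
  rw [E.smul_constP, map_inv (toComplex E.place), inv_smul_smul] at h
  exact h

include E in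
theorem isPeriodicEigen_classical (hφ : IsEigenForm S a φ) (hper : IsPeriodAt φ 1 1) :
    IsPeriodicEigen fun p => φ 1 (constP p) := by
  obtain ⟨U, hU, -⟩ := hφ.exists_level
  have h := E.isPeriodicEigen hU hφ.cuspidal hφ.spectral hφ.bounded 1 one_pos hper
  have e : (fun p => φ 1 (constP (natScale 1 one_pos.ne' • p))) = fun p => φ 1 (constP p) :=
    funext fun p => by
      rw [natScale_smul]
      congr 2
      exact H3.ext (by simp) (by simp)
  rwa [e] at h

theorem decay_classical (hφ : IsEigenForm S a φ) (γ : GL (Fin 2) K) (A : ℕ) :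
    ∃ C : ℝ, ∀ p : H3, 1 ≤ p.y →
      ‖φ 1 (constP (toComplex E.place γ • p))‖ ≤ C / p.y ^ A := by
  obtain ⟨U, hU, -⟩ := hφ.exists_level
  obtain ⟨M, hM, hper⟩ := hU.exists_period (diag K γ⁻¹)
  have hG := E.isPeriodicEigen hU hφ.cuspidal hφ.spectral hφ.bounded _ hM hper
  obtain ⟨C, hC⟩ := hG.decay A
  obtain ⟨B, hB⟩ := hφ.bounded
  have hB0 : 0 ≤ B := (norm_nonneg _).trans (hB 1 (constP H3.base))
  have hM' : (1 : ℝ) ≤ M := Nat.one_le_cast.mpr hM
  refine ⟨(max C 0 + B) * (M : ℝ) ^ A, fun p hp => ?_⟩
  have hy := p.y_pos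
  have hMc : (M : ℂ) ≠ 0 := Nat.cast_ne_zero.mpr hM.ne'
  rw [← apply_diag_inv E hU]
  rcases le_or_gt (M : ℝ) p.y with h | h
  · set q : H3 := ⟨p.z / M, p.y / M, by positivity⟩ with hq
    have e : natScale M hM.ne' • q = p := by
      rw [natScale_smul]
      exact H3.ext (by rw [hq]; field_simp) (by rw [hq]; field_simp)
    have h1 := hC q (by rw [hq]; exact (one_le_div (by positivity)).mpr h)
    simp only [e] at h1
    refine h1.trans ?_
    rw [hq, div_pow, div_div_eq_mul_div]
    gcongr
    exact (le_max_left _ _).trans (le_add_of_nonneg_right hB0)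
  · refine (hB _ _).trans ?_
    rw [le_div_iff₀ (by positivity)]
    exact mul_le_mul (le_add_of_nonneg_left (le_max_right _ _)) (by gcongr) (by positivity)
      (by positivity)

end

namespace PreparedForm

variable (N : PreparedForm ρ K) (E : EisField K)

/-- The local level of the prepared form. -/
def InLevel (v : FPlace K) (g : GLv v) : Prop :=
  g ∈ maxSubgroup v ∧ (v ∈ N.T → g ∈ gammaSub v (2 * N.m v))

theorem inLevel_inv {v : FPlace K} {g : GLv v} (h : N.InLevel v g) : N.InLevel v g⁻¹ :=
  ⟨inv_mem h.1, fun hv => inv_mem (h.2 hv)⟩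

theorem inLevel_one (v : FPlace K) : N.InLevel v 1 := ⟨one_mem _, fun _ => one_mem _⟩

theorem inLevel_intGL {γ : GL (Fin 2) K} {v : FPlace K}
    (h : ∀ i j, v.valuation K ((γ : Matrix (Fin 2) (Fin 2) K) i j) ≤ 1)
    (hdet : v.valuation K (γ : Matrix (Fin 2) (Fin 2) K).det = 1)
    (hc : v ∈ N.T → v.valuation K ((γ : Matrix (Fin 2) (Fin 2) K) 1 0) ≤
      WithZero.exp (-((2 * N.m v : ℕ) : ℤ))) : N.InLevel v (toLocal v γ) := by
  have hint : IsIntGL (valv v) (toLocal v γ) := by
    refine ⟨fun i j => by rw [valv_toLocal_apply]; exact h i j, ?_⟩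
    show valv v ((RingHom.mapMatrix (algebraMap K (v.adicCompletion K)))
      (γ : Matrix (Fin 2) (Fin 2) K)).det = 1
    rw [← RingHom.map_det, valv_algebraMap, hdet]
  exact ⟨intGL_le_maxSubgroup v hint,
    fun hv => mem_gammaSub hint (by rw [valv_toLocal_apply]; exact hc hv)⟩

theorem apply_mul_eq (x j : Gf K) (hj : ∀ v, N.InLevel v ((j : ∀ v, GLv v) v)) :
    N.φ (x * j) = N.φ x := by
  obtain ⟨U, hU, hJ⟩ := N.isEigen.exists_level
  exact apply_mul_eq_of_forall_mem hU N.T x j (fun v hv => (N.isNew v hv).fixed ((hj v).2 hv))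
    fun v hv => by rw [hJ v (Finset.mem_coe.not.mpr hv)]; exact (hj v).1

/-- The classical function of the prepared form on hyperbolic 3-space: its restriction to the
identity component. -/
def F (p : H3) : ℂ := N.φ 1 (constP p)

theorem apply_eq_F (x : Gf K) (γ : GL (Fin 2) K)
    (h : ∀ v, N.InLevel v ((toLocal v γ)⁻¹ * (x : ∀ v, GLv v) v)) (p : H3) :
    N.φ x (constP p) = N.F ((toComplex E.place γ)⁻¹ • p) := by
  obtain ⟨U, hU, -⟩ := N.isEigen.exists_level
  have h1 := hU.left γ 1 (diag K γ) (fun v => (mul_one _).symm)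
    (constP ((toComplex E.place γ)⁻¹ • p))
  rw [E.smul_constP, smul_inv_smul] at h1
  show N.φ x (constP p) = N.φ 1 _
  rw [← h1, show x = diag K γ * ((diag K γ)⁻¹ * x) by rw [mul_inv_cancel_left],
    N.apply_mul_eq _ _ fun v => h v]

/-- The classical function is invariant under the global points of the level. -/
theorem F_smul (γ : GL (Fin 2) K) (h : ∀ v, N.InLevel v (toLocal v γ)) (p : H3) :
    N.F (toComplex E.place γ • p) = N.F p := by
  have h2 := N.apply_eq_F E 1 γ⁻¹ (fun v => by
    show N.InLevel v ((toLocal v γ⁻¹)⁻¹ * 1)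
    rw [map_inv, inv_inv, mul_one]; exact h v) p
  rw [map_inv, inv_inv] at h2
  exact h2.symm

include E in
/-- The classical function of a prepared form is nonzero. -/
theorem exists_F_ne : ∃ p, N.F p ≠ 0 := by
  by_contra hall
  push Not at hall
  refine N.nonzero (funext fun x => funext fun P => ?_)
  obtain ⟨γ, hγ⟩ := exists_global_mul E x N.T fun v => 2 * N.m v
  rw [E.eq_constP P, N.apply_eq_F E x γ fun v => ⟨(hγ v).1, (hγ v).2⟩, hall]
  rfl

include E in
theorem isPeriodAt_one : IsPeriodAt N.φ 1 1 := by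
  intro b q
  rw [E.eq_constP q, show (fun w : InfinitePlace K => ((1 : ℕ) : ℂ) * w.embedding (b : K)) =
    fun _ => E.place.embedding (b : K) by funext w; rw [E.unique w]; simp]
  rw [← constP_shiftH]
  show N.F (shiftH (E.place.embedding (b : K)) (q E.place)) = N.F (q E.place)
  rw [shiftH_eq_smul, ← toComplex_unipHom]
  refine N.F_smul E _ (fun v => N.inLevel_intGL (fun i j => ?_) ?_ fun _ => ?_) _
  · fin_cases i <;> fin_cases j <;> simp [coe_unipHom, v.valuation_le_one]
  · simp [coe_unipHom, Matrix.det_fin_two]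
  · simp [coe_unipHom]

theorem continuous_F : Continuous N.F :=
  (N.isEigen.continuous 1).comp continuous_constP

include E in
theorem isPeriodicEigen_F : IsPeriodicEigen N.F :=
  isPeriodicEigen_classical E N.isEigen (N.isPeriodAt_one E)

include E in
theorem eigen_F (k : ℝ → ℂ) (hk : Continuous k) (hk' : HasCompactSupport k) (p : H3) :
    (∫ q, k (H3.coshDist p q) * N.F q ∂H3.vol) = sphZero k * N.F p :=
  (N.isPeriodicEigen_F E).eigen k ⟨hk, hk'⟩ p

include E in
theorem decay_F (γ : GL (Fin 2) K) (A : ℕ) :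
    ∃ C : ℝ, ∀ p : H3, 1 ≤ p.y → ‖N.F (toComplex E.place γ • p)‖ ≤ C / p.y ^ A :=
  decay_classical E N.isEigen γ A

end PreparedForm

end Fermat.Agent.ResidualThree.BianchiForm
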