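import Fermat.Agent.ResidualThree.BianchiForm.Residues
import Fermat.Agent.ResidualThree.BianchiForm.Restrict

/-!
# The level of a prepared form and its classical invariance

The level is `3^e` times the squares of the bad rational primes.  It is cube free away from
three, prime to three when `ρ` is unramified at three over the field, and the classical function
is invariant under `Γ₀` of any level deep enough at the ramified places (`F_invariant_of_le`).
-/

noncomputable section

open IsDedekindDomain NumberField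
open scoped WithZero

namespace Fermat.Agent.ResidualThree.BianchiForm

local notation "Qbar" => AlgebraicClosure ℚ
local notation "Γℚ" => (AlgebraicClosure ℚ ≃ₐ[ℚ] AlgebraicClosure ℚ)
local notation "χ" => WeierstrassCurve.modThreeCyclotomicChar

variable {K : IntermediateField ℚ Qbar} [NumberField K] {ρ : Γℚ →* GL (Fin 2) (ZMod 3)}

theorem valuation_natCast_le_exp {v : FPlace K} {q k : ℕ} (hq : (q : 𝓞 K) ∈ v.asIdeal) :
    v.valuation K ((q ^ k : ℕ) : K) ≤ WithZero.exp (-(k : ℤ)) := by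
  rw [← map_natCast (algebraMap (𝓞 K) K), HeightOneSpectrum.valuation_of_algebraMap,
    HeightOneSpectrum.intValuation_le_pow_iff_mem, Nat.cast_pow]
  exact Ideal.pow_mem_pow hq k

theorem EisField.exists_gamma (E : EisField K) {g : GL (Fin 2) ℂ} {e : Fin 2 → Fin 2 → Eis3}
    (he : ∀ i j, (g : Matrix (Fin 2) (Fin 2) ℂ) i j = (e i j).toC)
    (hdet : ‖(g : Matrix (Fin 2) (Fin 2) ℂ).det‖ = 1) :
    ∃ γ : GL (Fin 2) K, toComplex E.place γ = g ∧
      (∀ i j, (γ : Matrix (Fin 2) (Fin 2) K) i j = E.toK (e i j)) ∧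
      ∀ v : FPlace K, v.valuation K (γ : Matrix (Fin 2) (Fin 2) K).det = 1 := by
  set M : Matrix (Fin 2) (Fin 2) K := Matrix.of fun i j => E.toK (e i j) with hM
  have hMC : M.map E.place.embedding = (g : Matrix (Fin 2) (Fin 2) ℂ) := Matrix.ext fun i j => by
    rw [Matrix.map_apply, hM, Matrix.of_apply, E.embedding_toK, he]
  set D : EisRing := (⟨(e 0 0).1, (e 0 0).2⟩ : EisRing) * ⟨(e 1 1).1, (e 1 1).2⟩ -
    ⟨(e 0 1).1, (e 0 1).2⟩ * ⟨(e 1 0).1, (e 1 0).2⟩ with hD
  have hMdet : M.det = ((E.e D : 𝓞 K) : K) := by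
    rw [Matrix.det_fin_two, hD, map_sub, map_mul, map_mul]
    simp only [hM, Matrix.of_apply, EisField.toK, RingOfIntegers.coe_eq_algebraMap, map_sub,
      map_mul]
  have hDC : EisRing.emb D = (g : Matrix (Fin 2) (Fin 2) ℂ).det := by
    rw [← hMC, ← E.embed, ← hMdet, RingHom.map_det]; rfl
  have hunit : IsUnit D := by
    rw [EisRing.isUnit_iff]
    have h1 : ((EisRing.pair D).norm : ℝ) = 1 := by
      rw [← Eis3.normSq_toC, ← EisRing.emb_apply, hDC, Complex.normSq_eq_norm_sq, hdet, one_pow]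
    exact_mod_cast h1
  have hval : ∀ v : FPlace K, v.valuation K M.det = 1 := fun v => by
    rw [hMdet]
    obtain ⟨u, hu⟩ := hunit.map E.e
    refine le_antisymm (v.valuation_le_one _) ?_
    have h1 : v.valuation K ((u : 𝓞 K) : K) * v.valuation K (((↑u⁻¹ : 𝓞 K)) : K) = 1 := by
      rw [← map_mul, ← map_mul (algebraMap (𝓞 K) K), Units.mul_inv, map_one, map_one]
    rw [← hu, ← h1]
    exact mul_le_of_le_one_right' (v.valuation_le_one _)
  have hne : M.det ≠ 0 := fun h => by
    apply g.det_ne_zero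
    rw [← hMC, ← RingHom.mapMatrix_apply, ← RingHom.map_det, h, map_zero]
  exact ⟨Matrix.GeneralLinearGroup.mkOfDetNeZero M hne, Units.ext hMC, fun i j => rfl, hval⟩

namespace PreparedForm

/-- The classical function is invariant under `Γ₀(L)` if `L` is deep enough at the ramified
places. -/
theorem F_invariant_of_le (N : PreparedForm ρ K) (E : EisField K) {L : ℕ}
    (hL : ∀ v ∈ N.T, v.valuation K (L : K) ≤ WithZero.exp (-((2 * N.m v : ℕ) : ℤ)))
    (g : GL (Fin 2) ℂ) (hg : IsBianchiGamma0 L g) (p : H3) : N.F (g • p) = N.F p := by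
  obtain ⟨e, he, hdet, hdvd⟩ := hg
  obtain ⟨γ, rfl, hγe, hval⟩ := E.exists_gamma he hdet
  refine N.F_smul E γ (fun v => N.inLevel_intGL (fun i j => by
    rw [hγe]; exact E.valuation_toK_le_one v _) (hval v) fun hv => ?_) p
  obtain ⟨z, hz⟩ := hdvd
  rw [hγe]
  have hz' : E.toK (e 1 0) = (L : K) * E.toK z := by
    apply E.place.embedding.injective
    rw [map_mul, E.embedding_toK, E.embedding_toK, map_natCast, ← hz, Eis3.toC_mul,
      Eis3.toC_intCast]
    simp
  rw [hz', map_mul]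
  exact (mul_le_of_le_one_right' (E.valuation_toK_le_one v z)).trans (hL v hv)

/-- A level deep enough at a ramified place lies in its prime. -/
theorem mem_of_valuation_le (N : PreparedForm ρ K) {L : ℕ} {v : FPlace K} (hv : v ∈ N.T)
    (hL : v.valuation K (L : K) ≤ WithZero.exp (-((2 * N.m v : ℕ) : ℤ))) :
    ((L : ℕ) : 𝓞 K) ∈ v.asIdeal := by
  have h1 : v.valuation K (L : K) < 1 := by
    refine hL.trans_lt (exp_neg_lt_one ?_)
    have := N.one_le v hv
    omega
  rw [← map_natCast (algebraMap (𝓞 K) K)] at h1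
  exact (v.valuation_lt_one_iff_mem _).mp h1

end PreparedForm

namespace NewForm

variable (N : NewForm ρ K) (E : EisField K)

open Classical in
/-- The exponent of `3` in the level. -/
def threeExp : ℕ := ∑ v ∈ N.T.filter (fun v => (3 : 𝓞 K) ∈ v.asIdeal), 2 * N.m v

/-- The level, for a set `B` of ramified primes. -/
def levelN (B : Finset ℕ) : ℕ := 3 ^ N.threeExp * ∏ q ∈ B, q ^ 2

variable {B : Finset ℕ} (hB : ∀ q : ℕ, q ∈ B ↔ q.Prime ∧ q ≠ 3 ∧ IsBadPrime ρ q)

include hB in
theorem levelN_pos : 0 < N.levelN B :=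
  Nat.mul_pos (pow_pos (by norm_num) _)
    (Finset.prod_pos fun q hq => pow_pos ((hB q).mp hq).1.pos _)

include hB in
theorem levelN_cubeFree (q : ℕ) (hq : q.Prime) (h3 : q ≠ 3) : ¬ q ^ 3 ∣ N.levelN B := by
  classical
  intro h
  have h' : q ^ 3 ∣ ∏ p ∈ B, p ^ 2 :=
    (Nat.Coprime.pow _ _ ((Nat.coprime_primes hq Nat.prime_three).mpr h3)).dvd_of_dvd_mul_left h
  have hcop : ∀ S : Finset ℕ, S ⊆ B → q ∉ S → Nat.Coprime (q ^ 3) (∏ p ∈ S, p ^ 2) :=
    fun S hS hqS =>
    Nat.Coprime.prod_right fun p hp => Nat.Coprime.pow _ _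
      ((Nat.coprime_primes hq ((hB p).mp (hS hp)).1).mpr fun e => hqS (e ▸ hp))
  by_cases hqB : q ∈ B
  · rw [← Finset.mul_prod_erase B _ hqB] at h'
    have h2 := (hcop _ (Finset.erase_subset _ _) (Finset.notMem_erase q B)).dvd_of_dvd_mul_right h'
    exact absurd ((Nat.pow_dvd_pow_iff_le_right hq.one_lt).mp h2) (by norm_num)
  · have h2 := Nat.eq_one_of_dvd_coprimes (hcop B subset_rfl hqB) dvd_rfl h'
    exact absurd h2 (Nat.one_lt_pow (by norm_num) hq.one_lt).ne'

include hB E in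
theorem levelN_not_three (hK : ∀ σ : Γℚ, σ ∈ K.fixingSubgroup ↔ χ σ = 1)
    (hu : IsUnramifiedThreeOverK ρ) : ¬ 3 ∣ N.levelN B := by
  classical
  have h0 : N.threeExp = 0 := by
    refine Finset.sum_eq_zero fun v hv => ?_
    rw [Finset.mem_filter] at hv
    exact absurd ((isGoodPlace_three_iff ρ hK E hv.2).mpr hu) ((N.mem_T v).mp hv.1)
  intro h
  rw [levelN, h0, pow_zero, one_mul] at h
  obtain ⟨p, hp, hd⟩ := (Nat.prime_three.prime.dvd_finsetProd_iff _).mp h
  exact ((hB p).mp hp).2.1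
    (((Nat.prime_dvd_prime_iff_eq Nat.prime_three ((hB p).mp hp).1).mp
      (Nat.prime_three.dvd_of_dvd_pow hd)).symm)

include hB E in
theorem valuation_levelN_le (hK : ∀ σ : Γℚ, σ ∈ K.fixingSubgroup ↔ χ σ = 1) {τ : Γℚ}
    (hτ : χ τ ≠ 1) {v : FPlace K} (hv : v ∈ N.T) :
    v.valuation K (N.levelN B : K) ≤ WithZero.exp (-((2 * N.m v : ℕ) : ℤ)) := by
  classical
  have hle : ∀ n : ℕ, v.valuation K (n : K) ≤ 1 := fun n => by
    rw [← map_natCast (algebraMap (𝓞 K) K)]; exact v.valuation_le_one _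
  rw [levelN, Nat.cast_mul, map_mul]
  by_cases h3 : (3 : 𝓞 K) ∈ v.asIdeal
  · refine (mul_le_of_le_one_right' (hle _)).trans
      ((valuation_natCast_le_exp (q := 3) (by exact_mod_cast h3)).trans ?_)
    rw [WithZero.exp_le_exp]
    have := Finset.single_le_sum (f := fun w => 2 * N.m w) (fun w _ => Nat.zero_le _)
      (Finset.mem_filter.mpr ⟨hv, h3⟩ : v ∈ N.T.filter (fun v => (3 : 𝓞 K) ∈ v.asIdeal))
    simp only [threeExp]
    omega
  · obtain ⟨q, hq, hqv⟩ := E.exists_prime_mem v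
    have hq3 : q ≠ 3 := fun h => h3 (by subst h; exact_mod_cast hqv)
    have hqB : q ∈ B := (hB q).mpr ⟨hq, hq3,
      not_not.mp fun h => (N.mem_T v).mp hv ((isGoodPlace_iff ρ hK E hτ hq hq3 hqv).mpr h)⟩
    refine (mul_le_of_le_one_left' (hle _)).trans ?_
    rw [N.tame v hv h3, ← Finset.mul_prod_erase B _ hqB, Nat.cast_mul, map_mul]
    exact (mul_le_of_le_one_right' (hle _)).trans (valuation_natCast_le_exp hqv)

include hB E in
theorem mem_T_iff (hK : ∀ σ : Γℚ, σ ∈ K.fixingSubgroup ↔ χ σ = 1) {τ : Γℚ} (hτ : χ τ ≠ 1)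
    (v : FPlace K) : v ∈ N.T ↔ ((N.levelN B : ℕ) : 𝓞 K) ∈ v.asIdeal := by
  classical
  constructor
  · exact fun hv => N.mem_of_valuation_le hv (N.valuation_levelN_le E hB hK hτ hv)
  · intro h
    rw [levelN, Nat.cast_mul, Nat.cast_pow, Nat.cast_prod] at h
    rcases v.isPrime.mem_or_mem h with h | h
    · have h3 : (3 : 𝓞 K) ∈ v.asIdeal := by
        rcases Nat.eq_zero_or_pos N.threeExp with he | he
        · rw [he, pow_zero] at h
          exact absurd ((Ideal.eq_top_iff_one _).mpr h) v.isPrime.ne_top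
        · exact_mod_cast v.isPrime.mem_of_pow_mem _ h
      rcases Nat.eq_zero_or_pos N.threeExp with he | he
      · rw [he, pow_zero] at h
        exact absurd ((Ideal.eq_top_iff_one _).mpr h) v.isPrime.ne_top
      · obtain ⟨w, hw⟩ := Finset.nonempty_of_sum_ne_zero
          (show ∑ w ∈ N.T.filter (fun v => (3 : 𝓞 K) ∈ v.asIdeal), 2 * N.m w ≠ 0 from he.ne')
        rw [Finset.mem_filter] at hw
        rw [eq_of_three_mem E h3 hw.2]
        exact hw.1
    · obtain ⟨q, hq, hqm⟩ := (v.isPrime.prod_mem_iff).mp h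
      rw [Nat.cast_pow] at hqm
      obtain ⟨hqp, hq3, hbad⟩ := (hB q).mp hq
      exact (N.mem_T v).mpr fun hgood =>
        (isGoodPlace_iff ρ hK E hτ hqp hq3 (v.isPrime.mem_of_pow_mem _ hqm)).mp hgood hbad

end NewForm

end Fermat.Agent.ResidualThree.BianchiForm
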