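import Fermat.Agent.ResidualThree.Automorphic.Torus

/-!
# Subgroups of `GL₂` at one place and the vectors they fix

Right translation `trAt` by the group of one place on functions on the adelic space, the
stabiliser `fixer` of a function, and the congruence subgroups together with the subgroup
`gammaSub` of type `Γ₀(pⁿ)`, used to move forms between local levels.
-/

noncomputable section

open IsDedekindDomain NumberField
open scoped WithZero

namespace Fermat.Agent.ResidualThree.BianchiForm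

open Fermat.Agent.ResidualThree.Tree (intGL diagGL swapGL)

variable {F : Type} [Field F] [NumberField F] (v : FPlace F)

/-- The elements at `v` fixing `φ` by right translation. -/
def fixer (φ : Gf F → Hyp F → ℂ) : Subgroup (GLv v) where
  carrier := {h | ∀ x, φ (x * single v h) = φ x}
  one_mem' x := by rw [single_one, mul_one]
  mul_mem' {a b} ha hb x := by rw [single_mul, ← mul_assoc, hb, ha]
  inv_mem' {a} ha x := by
    rw [← ha (x * single v a⁻¹), mul_assoc, ← single_mul, inv_mul_cancel, single_one, mul_one]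

variable {v}

theorem mem_fixer {φ : Gf F → Hyp F → ℂ} {h : GLv v} :
    h ∈ fixer v φ ↔ rightTr (single v h) φ = φ := by
  constructor
  · intro H; funext x p; exact congrFun (H x) p
  · intro H x; funext p; exact congrFun (congrFun H x) p

theorem mem_fixer_rightTr {φ : Gf F → Hyp F → ℂ} {g h : GLv v} :
    h ∈ fixer v (rightTr (single v g) φ) ↔ g⁻¹ * h * g ∈ fixer v φ := by
  constructor
  · intro H x
    funext p
    have := congrFun (H (x * single v g⁻¹)) p
    simp only [rightTr, mul_assoc, ← single_mul, inv_mul_cancel, single_one, mul_one] at this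
    simpa [mul_assoc] using this
  · intro H x
    funext p
    have := congrFun (H (x * single v g)) p
    simp only [rightTr, mul_assoc, ← single_mul, mul_inv_cancel_left] at this ⊢
    exact this

theorem fixer_le_rightTr_of_ne {w : FPlace F} (hw : w ≠ v) (φ : Gf F → Hyp F → ℂ) (g : GLv v) :
    fixer w φ ≤ fixer w (rightTr (single v g) φ) := by
  intro h hh x
  funext p
  show φ (x * single w h * single v g) p = φ (x * single v g) p
  rw [mul_assoc, (commute_single (single_apply_ne hw.symm h) g).eq, ← mul_assoc, hh]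

theorem fixer_smul (φ : Gf F → Hyp F → ℂ) (c : ℂ) : fixer v φ ≤ fixer v (c • φ) :=
  fun h hh x => by simp only [Pi.smul_apply]; rw [hh x]

theorem fixer_sum {ι : Type*} (s : Finset ι) (f : ι → Gf F → Hyp F → ℂ) {h : GLv v}
    (hh : ∀ i ∈ s, h ∈ fixer v (f i)) : h ∈ fixer v (∑ i ∈ s, f i) := fun x => by
  simp only [Finset.sum_apply]
  exact Finset.sum_congr rfl fun i hi => hh i hi x

/-- Right translation by an element at `v`, as a linear map. -/
def trAt (g : GLv v) : (Gf F → Hyp F → ℂ) →ₗ[ℂ] (Gf F → Hyp F → ℂ) where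
  toFun := rightTr (single v g)
  map_add' _ _ := rfl
  map_smul' _ _ := rfl

theorem trAt_apply (g : GLv v) (φ : Gf F → Hyp F → ℂ) : trAt g φ = rightTr (single v g) φ := rfl

theorem trAt_mul (g h : GLv v) (φ : Gf F → Hyp F → ℂ) : trAt (g * h) φ = trAt g (trAt h φ) := by
  rw [trAt_apply, trAt_apply, trAt_apply, single_mul, rightTr_mul]

theorem trAt_one (φ : Gf F → Hyp F → ℂ) : trAt (1 : GLv v) φ = φ := by
  rw [trAt_apply, single_one, rightTr_one]

theorem trAt_injective (g : GLv v) : Function.Injective (trAt (F := F) g) := fun a b h => by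
  simpa [← trAt_mul, trAt_one] using congrArg (trAt g⁻¹) h

theorem trAt_eq_of_mem {g : GLv v} {φ : Gf F → Hyp F → ℂ} (h : g ∈ fixer v φ) : trAt g φ = φ :=
  mem_fixer.mp h

theorem trAt_eq_of_inv_mul_mem {g h : GLv v} {φ : Gf F → Hyp F → ℂ}
    (hg : g⁻¹ * h ∈ fixer v φ) : trAt h φ = trAt g φ := by
  rw [← mul_inv_cancel_left g h, trAt_mul, trAt_eq_of_mem hg]

/-! ### Congruence subgroups -/

theorem exp_neg_le_one (m : ℕ) : WithZero.exp (-(m : ℤ)) ≤ (1 : ℤᵐ⁰) := by
  rw [← WithZero.exp_zero, WithZero.exp_le_exp]; omega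

theorem exp_neg_lt_one {m : ℕ} (hm : 1 ≤ m) : WithZero.exp (-(m : ℤ)) < (1 : ℤᵐ⁰) := by
  rw [← WithZero.exp_zero, WithZero.exp_lt_exp]; omega

theorem mem_congSubgroup {m : ℕ} (hm : 1 ≤ m) {g : GLv v}
    (h : ∀ i j, valv v ((g : Matrix (Fin 2) (Fin 2) (v.adicCompletion F)) i j -
      (1 : Matrix (Fin 2) (Fin 2) (v.adicCompletion F)) i j) ≤ WithZero.exp (-(m : ℤ))) :
    g ∈ congSubgroup v m := by
  have hint : ∀ i j, valv v ((g : Matrix (Fin 2) (Fin 2) (v.adicCompletion F)) i j) ≤ 1 := by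
    intro i j
    rw [← sub_add_cancel ((g : Matrix (Fin 2) (Fin 2) (v.adicCompletion F)) i j)
      ((1 : Matrix (Fin 2) (Fin 2) (v.adicCompletion F)) i j)]
    refine (valv v).map_add_le ((h i j).trans (exp_neg_le_one m)) ?_
    rw [Matrix.one_apply]; split_ifs <;> simp
  refine Subgroup.subset_closure (Or.inl ⟨⟨hint, ?_⟩, h⟩)
  have hlt := exp_neg_lt_one hm
  have h00 := h 0 0
  have h11 := h 1 1
  have h01 := h 0 1
  simp only [Matrix.one_apply_eq, Matrix.one_apply_ne (show (0 : Fin 2) ≠ 1 by decide),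
    sub_zero] at h00 h11 h01
  rw [Matrix.det_fin_two]
  generalize (g : Matrix (Fin 2) (Fin 2) (v.adicCompletion F)) = M at hint h00 h11 h01 ⊢
  have key : valv v (M 0 0 * M 1 1 - M 0 1 * M 1 0 - 1) < 1 := by
    rw [show M 0 0 * M 1 1 - M 0 1 * M 1 0 - 1 =
      (M 0 0 - 1) * M 1 1 + (M 1 1 - 1) - M 0 1 * M 1 0 by ring]
    refine lt_of_le_of_lt ((valv v).map_sub_le ((valv v).map_add_le ?_ h11) ?_) hlt
    · rw [map_mul]; exact (mul_le_of_le_one_right' (hint 1 1)).trans h00
    · rw [map_mul]; exact (mul_le_of_le_one_right' (hint 1 0)).trans h01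
  have h1 := (valv v).map_one_add_of_lt key
  rwa [add_sub_cancel] at h1

theorem center_le_congSubgroup (m : ℕ) : Subgroup.center (GLv v) ≤ congSubgroup v m :=
  fun _ h => Subgroup.subset_closure (Or.inr h)

theorem congSubgroup_le_of {m : ℕ} {H : Subgroup (GLv v)}
    (hc : Subgroup.center (GLv v) ≤ H)
    (h : ∀ g : GLv v, IsIntGL (valv v) g → (∀ i j,
      valv v ((g : Matrix (Fin 2) (Fin 2) (v.adicCompletion F)) i j -
        (1 : Matrix (Fin 2) (Fin 2) (v.adicCompletion F)) i j) ≤ WithZero.exp (-(m : ℤ))) → g ∈ H) :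
    congSubgroup v m ≤ H := by
  refine (Subgroup.closure_le _).2 ?_
  rintro g (⟨h1, h2⟩ | h1)
  · exact h g h1 h2
  · exact hc h1

theorem inv_mul_mem_congSubgroup {m : ℕ} (hm : 1 ≤ m) {g h : GLv v} (hg : g ∈ intGL (valv v))
    (hd : ∀ i j, valv v (((h : Matrix (Fin 2) (Fin 2) (v.adicCompletion F)) -
      (g : Matrix (Fin 2) (Fin 2) (v.adicCompletion F))) i j) ≤ WithZero.exp (-(m : ℤ))) :
    g⁻¹ * h ∈ congSubgroup v m := by
  refine mem_congSubgroup hm fun i j => ?_
  rw [← Matrix.sub_apply]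
  refine Tree.nrm_le_iff.1 ?_ i j
  rw [Units.val_mul, show ((g⁻¹ : GLv v) : Matrix (Fin 2) (Fin 2) (v.adicCompletion F)) *
      (h : Matrix (Fin 2) (Fin 2) (v.adicCompletion F)) - 1 =
      ((g⁻¹ : GLv v) : Matrix (Fin 2) (Fin 2) (v.adicCompletion F)) *
        ((h : Matrix (Fin 2) (Fin 2) (v.adicCompletion F)) -
          (g : Matrix (Fin 2) (Fin 2) (v.adicCompletion F))) by
    rw [Matrix.mul_sub, ← Units.val_mul g⁻¹ g, inv_mul_cancel, Units.val_one],
    Tree.nrm_mul_left (inv_mem hg)]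
  exact Tree.nrm_le_iff.2 hd

theorem conj_mem_congSubgroup {m : ℕ} {k j : GLv v} (hk : k ∈ intGL (valv v))
    (hj : j ∈ congSubgroup v m) : k⁻¹ * j * k ∈ congSubgroup v m := by
  have hle : congSubgroup v m ≤ (congSubgroup v m).comap (MulAut.conj k⁻¹).toMonoidHom := by
    refine congSubgroup_le_of (fun c hc => Subgroup.mem_comap.2 ?_) fun g hg h =>
      Subgroup.mem_comap.2 ?_
    · simp only [MulEquiv.toMonoidHom_eq_coe, MonoidHom.coe_coe, MulAut.conj_apply, inv_inv]
      rw [mul_assoc, ← Subgroup.mem_center_iff.1 hc k, inv_mul_cancel_left]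
      exact center_le_congSubgroup m hc
    · simp only [MulEquiv.toMonoidHom_eq_coe, MonoidHom.coe_coe, MulAut.conj_apply, inv_inv]
      refine Subgroup.subset_closure (Or.inl ⟨mul_mem (mul_mem (inv_mem hk) hg) hk, fun i j => ?_⟩)
      rw [← Matrix.sub_apply]
      refine Tree.nrm_le_iff.1 ?_ i j
      rw [show ((k⁻¹ * g * k : GLv v) : Matrix (Fin 2) (Fin 2) (v.adicCompletion F)) - 1 =
          ((k⁻¹ : GLv v) : Matrix (Fin 2) (Fin 2) (v.adicCompletion F)) *
            (((g : Matrix (Fin 2) (Fin 2) (v.adicCompletion F)) - 1) *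
              (k : Matrix (Fin 2) (Fin 2) (v.adicCompletion F))) by
        rw [Matrix.sub_mul, Matrix.one_mul, Matrix.mul_sub, ← Units.val_mul k⁻¹ k,
          inv_mul_cancel, Units.val_one, ← Matrix.mul_assoc, Units.val_mul, Units.val_mul],
        Tree.nrm_mul_left (inv_mem hk), Tree.nrm_mul_right hk]
      exact Tree.nrm_le_iff.2 fun i j => by simpa using h i j
  simpa using Subgroup.mem_comap.1 (hle hj)

theorem scalar_mem_center' (s : (v.adicCompletion F)ˣ) : diagGL s s ∈ Subgroup.center (GLv v) :=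
  Subgroup.mem_center_iff.2 fun g => Units.ext (by
    ext i j
    fin_cases i <;> fin_cases j <;> simp [Matrix.mul_apply, Fin.sum_univ_two, mul_comm])

theorem isIntGL_diagGL {a d : (v.adicCompletion F)ˣ}
    (ha : valv v (a : v.adicCompletion F) = 1) (hd : valv v (d : v.adicCompletion F) = 1) :
    IsIntGL (valv v) (diagGL a d) := by
  refine ⟨fun i j => ?_, by simp [Matrix.det_fin_two, ha, hd]⟩
  fin_cases i <;> fin_cases j <;> simp [ha, hd]

variable (v) in
/-- Scalars times integral matrices with lower left entry divisible by `p^n`. -/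
def gammaSub (n : ℕ) : Subgroup (GLv v) :=
  Subgroup.closure {g | (IsIntGL (valv v) g ∧
    valv v ((g : Matrix (Fin 2) (Fin 2) (v.adicCompletion F)) 1 0) ≤ WithZero.exp (-(n : ℤ))) ∨
    g ∈ Subgroup.center (GLv v)}

theorem mem_gammaSub {n : ℕ} {g : GLv v} (hg : IsIntGL (valv v) g)
    (h : valv v ((g : Matrix (Fin 2) (Fin 2) (v.adicCompletion F)) 1 0) ≤ WithZero.exp (-(n : ℤ))) :
    g ∈ gammaSub v n :=
  Subgroup.subset_closure (Or.inl ⟨hg, h⟩)

end Fermat.Agent.ResidualThree.BianchiForm
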