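import Fermat.Agent.ResidualThree.BianchiForm.Coefficients
import Fermat.Agent.ResidualThree.BianchiForm.Hecke

/-!
# From a prepared form over `ℚ(√-3)` to the Bianchi datum

Collecting the expansion, coefficient, level and Hecke statements of this directory:
`exists_datum_of_preparedForm` turns a prepared form with the eigenvalues of `ρ` into a
`BianchiDatum`, which for a `NewForm` has cube free level away from three
(`exists_datum_of_newForm`).
-/

noncomputable section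

open IsDedekindDomain NumberField MeasureTheory
open scoped WithZero

namespace Fermat.Agent.ResidualThree.BianchiForm

local notation "Qbar" => AlgebraicClosure ℚ
local notation "Γℚ" => (AlgebraicClosure ℚ ≃ₐ[ℚ] AlgebraicClosure ℚ)
local notation "χ" => WeierstrassCurve.modThreeCyclotomicChar

variable {K : IntermediateField ℚ Qbar} [NumberField K] {ρ : Γℚ →* GL (Fin 2) (ZMod 3)}

theorem EisField.isTotallyComplex (E : EisField K) : IsTotallyComplex K :=
  ⟨fun w => E.unique w ▸ E.place_isComplex⟩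

theorem exists_chi_ne_one (hs : Function.Surjective ρ)
    (hd : ∀ σ : Γℚ, Matrix.GeneralLinearGroup.det (ρ σ) = χ σ) : ∃ τ : Γℚ, χ τ ≠ 1 := by
  obtain ⟨σ, hσ⟩ := hs (Matrix.GeneralLinearGroup.mkOfDetNeZero !![(-1 : ZMod 3), 0; 0, 1]
    (by simp [Matrix.det_fin_two]))
  refine ⟨σ, fun h => ?_⟩
  have h2 := congrArg Units.val ((hd σ).trans h)
  rw [hσ, Matrix.GeneralLinearGroup.val_det_apply] at h2
  simp [Matrix.det_fin_two] at h2
  exact absurd h2 (by decide)

theorem whittaker_nuOf (x : Eis3) (p : H3) :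
    whittaker (nuOf x) p =
      ((p.y * besselK0 (4 * Real.pi * ‖x.toC‖ * p.y / Real.sqrt 3) : ℝ) : ℂ) *
      Complex.exp (2 * (Real.pi : ℂ) * Complex.I *
        ((2 * (x.toC * p.z / sqrtNegThree).re : ℝ) : ℂ)) := by
  rw [whittaker, norm_nuOf, addCharC, nuOf, div_mul_eq_mul_div,
    show 4 * Real.pi * (‖x.toC‖ / Real.sqrt 3) * p.y = 4 * Real.pi * ‖x.toC‖ * p.y / Real.sqrt 3 by
      ring]

namespace PreparedForm

variable (N : PreparedForm ρ K) (E : EisField K)

include E in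
theorem exists_coef_ne : ∃ x, N.coefF x ≠ 0 := by
  by_contra hall
  push Not at hall
  obtain ⟨p, hp⟩ := N.exists_F_ne E
  refine hp ?_
  have h := (N.isExpansion_F E).sum p
  simp only [hall, zero_mul] at h
  exact h.unique hasSum_zero

open Classical in
/-- The eigenvalue at the place of a prime element (zero at other elements). -/
def primeEig (π : Eis3) : ℤ :=
  if h : π.IsPrimeElt then
    N.a (E.placeOf ⟨π.1, π.2⟩ (EisRing.isPrimeElt_iff.mp h))
  else 0

theorem primeEig_of {π : Eis3} (h : π.IsPrimeElt) :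
    N.primeEig E π = N.a (E.placeOf ⟨π.1, π.2⟩ (EisRing.isPrimeElt_iff.mp h)) := by
  rw [primeEig, dif_pos h]

include E in
theorem exists_unit_mul_primeOf {π : EisRing} (hπ : Prime π) :
    ∃ u : Eis3, u.norm = 1 ∧
      EisRing.pair π = Eis3.mul u (EisRing.pair (E.primeOf (E.placeOf π hπ))) := by
  obtain ⟨u, hu⟩ := (E.prime_primeOf _).associated_of_dvd hπ
    ((E.mem_iff _ π).mp (E.mem_placeOf hπ))
  refine ⟨EisRing.pair (u : EisRing), EisRing.isUnit_iff.mp u.isUnit, ?_⟩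
  rw [← EisRing.pair_mul, mul_comm, hu]

theorem dvd_level_iff {π : EisRing} (hπ : Prime π) {L : ℕ}
    (hL : ∀ v, v ∈ N.T ↔ ((L : ℕ) : 𝓞 K) ∈ v.asIdeal) :
    Eis3.dvd (EisRing.pair π) ((L : ℤ), 0) ↔ E.placeOf π hπ ∈ N.T := by
  rw [hL, ← EisRing.pair_natCast, EisRing.pair_dvd, ← map_natCast E.e]
  show _ ↔ _ ∈ Ideal.span {E.e π}
  rw [Ideal.mem_span_singleton, map_dvd_iff]

include E in
theorem lowerCoef_unit {u π : Eis3} (hu : u.norm = 1) (hπ : π.toC ≠ 0) (x : Eis3) :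
    lowerCoef (Eis3.mul u π) N.coefF x = lowerCoef π N.coefF x := by
  have huπ : (Eis3.mul u π).toC ≠ 0 := by
    rw [Eis3.toC_mul]
    refine mul_ne_zero (fun h => ?_) hπ
    rw [Eis3.toC_eq_zero] at h
    rw [h] at hu
    exact absurd hu (by decide)
  by_cases hd : Eis3.dvd π x
  · obtain ⟨z, rfl⟩ := hd
    rw [lowerCoef_mul hπ, show Eis3.mul π z = Eis3.mul (Eis3.mul u π) (Eis3.mul (Eis3.bar u) z) by
      rw [Eis3.mul_comm u π, Eis3.mul_assoc, ← Eis3.mul_assoc u, Eis3.exists_inv_of_norm_one hu,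
        Eis3.one_mul], lowerCoef_mul huπ, N.unit_relation E (by rw [Eis3.norm_bar]; exact hu)]
  · rw [lowerCoef_of_not_dvd _ hd, lowerCoef_of_not_dvd]
    rintro ⟨z, rfl⟩
    exact hd ⟨Eis3.mul u z, by rw [← Eis3.mul_assoc, Eis3.mul_comm π u]⟩

include E in
/-- The coefficients of a prepared form satisfy `HeckeCoeffs` at a level with the same primes. -/
theorem heckeCoeffs {L : ℕ} (hL : ∀ v, v ∈ N.T ↔ ((L : ℕ) : 𝓞 K) ∈ v.asIdeal) :
    HeckeCoeffs N.coefF (fun π => Eis3.dvd π ((L : ℤ), 0)) (N.primeEig E) where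
  zero := (N.isExpansion_F E).zero_apply
  unit _ x hu := N.unit_relation E hu x
  level π hπ hb x := by
    obtain ⟨π, rfl⟩ := EisRing.pair_surjective π
    have hπ' := EisRing.isPrimeElt_iff.mp hπ
    obtain ⟨u, hu, he⟩ := exists_unit_mul_primeOf E hπ'
    have hv := (N.dvd_level_iff E hπ' hL).mp hb
    rw [he, Eis3.mul_assoc, N.unit_relation E hu, N.level_relation E hv]
  abs_le π := by
    unfold primeEig
    split_ifs
    · exact N.abs_le _
    · norm_num
  good π hπ hb x := by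
    obtain ⟨π, rfl⟩ := EisRing.pair_surjective π
    have hπ' := EisRing.isPrimeElt_iff.mp hπ
    obtain ⟨u, hu, he⟩ := exists_unit_mul_primeOf E hπ'
    have hv : E.placeOf _ hπ' ∉ N.T := fun h => hb ((N.dvd_level_iff E hπ' hL).mpr h)
    rw [N.primeEig_of E hπ]
    show (N.a (E.placeOf π hπ') : ℂ) * _ = _
    rw [he, Eis3.mul_assoc,
      N.unit_relation E hu, N.lowerCoef_unit E hu (E.toC_primeOf_ne_zero _)]
    exact N.hecke_relation E hv x

theorem not_mem_T_of_good {B : Finset ℕ} (hB : ∀ q : ℕ, q ∈ B ↔ q.Prime ∧ q ≠ 3 ∧ IsBadPrime ρ q)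
    (hK : ∀ σ : Γℚ, σ ∈ K.fixingSubgroup ↔ χ σ = 1) (E : EisField K) {τ : Γℚ} (hτ : χ τ ≠ 1)
    {p : ℕ} (hp : p.Prime) (h3 : p ≠ 3) (hpB : p ∉ B) {v : FPlace K}
    (hv : (p : 𝓞 K) ∈ v.asIdeal) : v ∉ N.T := fun h =>
  (N.mem_T v).mp h ((isGoodPlace_iff ρ hK E hτ hp h3 hv).mpr fun hbad =>
    hpB ((hB p).mpr ⟨hp, h3, hbad⟩))

include E in
theorem exists_toComplex_of_isKElement {g : GL (Fin 2) ℂ}
    (hg : ∀ i j, IsKElement ((g : Matrix (Fin 2) (Fin 2) ℂ) i j)) :
    ∃ γ : GL (Fin 2) K, toComplex E.place γ = g := by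
  choose x m hm hgx using hg
  set M : Matrix (Fin 2) (Fin 2) K := Matrix.of fun i j => E.toK (x i j) / (m i j : K) with hM
  have hMC : M.map E.place.embedding = (g : Matrix (Fin 2) (Fin 2) ℂ) := Matrix.ext fun i j => by
    rw [Matrix.map_apply, hM, Matrix.of_apply, map_div₀, E.embedding_toK, map_natCast, hgx]
  have hne : M.det ≠ 0 := fun h => by
    apply g.det_ne_zero
    rw [← hMC, ← RingHom.mapMatrix_apply, ← RingHom.map_det, h, map_zero]
  exact ⟨Matrix.GeneralLinearGroup.mkOfDetNeZero M hne, Units.ext hMC⟩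

end PreparedForm

/-- The datum of a prepared form of level `L`, a multiple of its classical function; `B` contains
the rational primes other than `3` below the ramified places. -/
theorem exists_datum_of_preparedForm (hd : ∀ σ : Γℚ, Matrix.GeneralLinearGroup.det (ρ σ) = χ σ)
    (hK : ∀ σ : Γℚ, σ ∈ K.fixingSubgroup ↔ χ σ = 1) (E : EisField K) {τ : Γℚ} (hτ : χ τ ≠ 1)
    (N : PreparedForm ρ K) {L : ℕ} (hLT : ∀ v, v ∈ N.T ↔ ((L : ℕ) : 𝓞 K) ∈ v.asIdeal)
    (hLv : ∀ v ∈ N.T, v.valuation K (L : K) ≤ WithZero.exp (-((2 * N.m v : ℕ) : ℤ)))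
    (B : Finset ℕ) (hB : ∀ (p : ℕ) (v : FPlace K), p.Prime → p ≠ 3 → p ∉ B →
      (p : 𝓞 K) ∈ v.asIdeal → v ∉ N.T) :
    ∃ d : BianchiDatum ρ L, ∃ c : ℂ, c ≠ 0 ∧ d.F = fun p => c * N.F p := by
  have := E.isTotallyComplex
  obtain ⟨hc1, C, hC, hI⟩ := (N.heckeCoeffs E hLT).exists_int (N.exists_coef_ne E)
  set k := N.coefF (1, 0) with hk
  have hsplit : ∀ (π : EisRing) (hπ : Prime π) (p : ℕ), p.Prime → p ≠ 3 → p ∉ B →
      (p : 𝓞 K) ∈ (E.placeOf π hπ).asIdeal →
      E.placeOf π hπ ∉ N.T ∧ C (EisRing.pair π) = N.a (E.placeOf π hπ) := by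
    intro π hπ p hp h3 hpB hmem
    have hv := hB p _ hp h3 hpB hmem
    have hπ' := EisRing.isPrimeElt_iff.mpr hπ
    refine ⟨hv, ?_⟩
    rw [hI.at_prime _ hπ' fun h => hv ((N.dvd_level_iff E hπ hLT).mp h),
      N.primeEig_of E hπ']
    rfl
  refine ⟨
    { F := fun p => k⁻¹ * N.F p
      c := C
      continuous := continuous_const.mul N.continuous_F
      invariant := fun g hg p => by rw [N.F_invariant_of_le E hLv g hg p]
      expansion := fun p => ?_
      decay := fun g hg A => ?_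
      eigen := fun kf hkf hkf' p => ?_
      c_zero := hI.zero
      c_one := hI.one
      c_unit := hI.unit
      c_level := hI.level
      c_mul := hI.mul
      c_rec := hI.recur
      c_prime_mul := hI.prime_mul
      c_bound := hI.bound
      S := insert 3 B
      c_split := fun p hp hpS h1 π hπ A hA σ hσ => ?_
      c_inert := fun p hp hpS h2 A hA σ hσ => ?_ }, k⁻¹, inv_ne_zero hc1, rfl⟩
  · have h := ((N.isExpansion_F E).sum p).mul_left k⁻¹
    convert! h using 1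
    funext x
    rw [mul_assoc (C x : ℂ), ← whittaker_nuOf, hC x]
    field_simp
  · obtain ⟨γ, rfl⟩ := PreparedForm.exists_toComplex_of_isKElement E hg
    obtain ⟨D, hD⟩ := N.decay_F E γ A
    refine ⟨‖k⁻¹‖ * D, fun p hp => ?_⟩
    rw [norm_mul, mul_div_assoc]
    exact mul_le_mul_of_nonneg_left (hD p hp) (norm_nonneg _)
  · show (∫ q, kf (H3.coshDist p q) * (k⁻¹ * N.F q) ∂H3.vol) = sphZero kf * (k⁻¹ * N.F p)
    rw [mul_left_comm (sphZero kf), ← N.eigen_F E kf hkf hkf' p, ← integral_const_mul]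
    exact integral_congr_ae (Filter.Eventually.of_forall fun q => mul_left_comm _ _ _)
  · rw [Finset.mem_insert, not_or] at hpS
    obtain ⟨hπp, he⟩ : Prime (⟨π.1, π.2⟩ : EisRing) ∧ EisRing.pair ⟨π.1, π.2⟩ = π :=
      ⟨EisRing.prime_of_norm_prime (show Nat.Prime π.norm by rw [hπ]; exact hp), rfl⟩
    have hmem : (p : 𝓞 K) ∈ (E.placeOf _ hπp).asIdeal := by
      have := Ideal.mul_mem_right (E.e (star ⟨π.1, π.2⟩)) _ (E.mem_placeOf hπp)
      rwa [← map_mul, EisRing.mul_star_eq, he, hπ, map_natCast] at this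
    obtain ⟨hv, hCe⟩ := hsplit _ hπp p hp hpS.1 hpS.2 hmem
    rw [he] at hCe
    refine trace_of_liesOver ρ hK E hτ hp h1 hmem (fun A' hA' σ' hσ' hF => ?_) hA hσ
    rw [hCe]
    refine N.trace _ hv A' hA' σ' hσ' ?_
    show A'.IsFrobeniusAt σ' (Ideal.absNorm (Ideal.span {E.e ⟨π.1, π.2⟩}))
    rwa [E.absNorm_span, he, hπ]
  · rw [Finset.mem_insert, not_or] at hpS
    have hπp := EisRing.prime_natCast_of_inert hp h2
    have hmem : (p : 𝓞 K) ∈ (E.placeOf _ hπp).asIdeal := by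
      rw [← map_natCast E.e]; exact E.mem_placeOf hπp
    obtain ⟨hv, hCe⟩ := hsplit _ hπp p hp hpS.1 hpS.2 hmem
    rw [EisRing.pair_natCast] at hCe
    refine inert_trace ρ hd hK E hp h2 hmem (fun A' hA' σ' hσ' hF h4 => ?_) hA hσ
    rw [hCe]
    refine (N.trace _ hv A' hA' σ' hσ' ?_).2.1 h4
    show A'.IsFrobeniusAt σ' (Ideal.absNorm (Ideal.span {E.e (p : EisRing)}))
    rwa [E.absNorm_span, EisRing.norm_pair_natCast]

/-- The datum of a form with exponent one at the tame places, of level `N.levelN B`. -/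
theorem exists_datum_of_newForm (hd : ∀ σ : Γℚ, Matrix.GeneralLinearGroup.det (ρ σ) = χ σ)
    (hK : ∀ σ : Γℚ, σ ∈ K.fixingSubgroup ↔ χ σ = 1) (E : EisField K) {τ : Γℚ} (hτ : χ τ ≠ 1)
    (N : NewForm ρ K) {B : Finset ℕ} (hB : ∀ q : ℕ, q ∈ B ↔ q.Prime ∧ q ≠ 3 ∧ IsBadPrime ρ q) :
    ∃ d : BianchiDatum ρ (N.levelN B), ∃ c : ℂ, c ≠ 0 ∧ d.F = fun p => c * N.F p :=
  exists_datum_of_preparedForm hd hK E hτ N.toPreparedForm (N.mem_T_iff E hB hK hτ)
    (fun _ hv => N.valuation_levelN_le E hB hK hτ hv) B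
    fun _ _ hp h3 hpB hv => N.not_mem_T_of_good hB hK E hτ hp h3 hpB hv

end Fermat.Agent.ResidualThree.BianchiForm
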