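import Fermat.Agent.ResidualThree.BianchiForm.Classical
import Fermat.Agent.ResidualThree.BianchiForm.NewForm

/-!
# Residue systems in `ℤ[ω]` and the neighbours in the tree

A uniformiser and a residue system at each place of `ℚ(√-3)`, and the spherical eigenvalue
equation rewritten as the classical sum over the residues and the remaining neighbour.
-/

noncomputable section

open IsDedekindDomain NumberField
open scoped WithZero

namespace Fermat.Agent.ResidualThree.BianchiForm

open Fermat.Agent.ResidualThree.Tree (diagGL stepGL Vert)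

local notation "Qbar" => AlgebraicClosure ℚ

variable {K : IntermediateField ℚ Qbar} [NumberField K] (E : EisField K)

/-- An Eisenstein integer in `K`. -/
def EisField.toK (x : Eis3) : K := ((E.e ⟨x.1, x.2⟩ : 𝓞 K) : K)

theorem EisField.toK_pair (r : EisRing) : E.toK (EisRing.pair r) = ((E.e r : 𝓞 K) : K) := rfl

theorem EisField.embedding_toK (w : InfinitePlace K) (x : Eis3) :
    w.embedding (E.toK x) = x.toC := by rw [EisField.toK, E.embedding_e, EisRing.emb_apply]; rfl

theorem EisField.valuation_toK_le_one (v : FPlace K) (x : Eis3) : v.valuation K (E.toK x) ≤ 1 :=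
  v.valuation_le_one _

/-- A uniformiser at `v`. -/
def EisField.unif (v : FPlace K) : (v.adicCompletion K)ˣ :=
  Units.mk0 (algebraMap K (v.adicCompletion K) ((E.e (E.primeOf v) : 𝓞 K) : K)) (by
    simpa using (E.prime_primeOf v).ne_zero)

theorem EisField.coe_unif (v : FPlace K) : (E.unif v : v.adicCompletion K) =
    algebraMap K (v.adicCompletion K) (E.toK (EisRing.pair (E.primeOf v))) := rfl

theorem EisField.valv_unif (v : FPlace K) :
    valv v (E.unif v : v.adicCompletion K) = WithZero.exp (-1 : ℤ) := by
  rw [E.coe_unif, valv_algebraMap, E.toK_pair, E.valuation_primeOf]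

theorem valv_lt_one_of_residue_eq {F : Type} [Field F] [NumberField F] {v : FPlace F}
    {z z' : (valv v).valuationSubring}
    (h : IsLocalRing.residue _ z = IsLocalRing.residue _ z') :
    valv v ((z : v.adicCompletion F) - (z' : v.adicCompletion F)) < 1 := by
  rw [← sub_eq_zero, ← map_sub, residue_valv_eq_zero_iff] at h
  exact h

open Classical in
/-- A residue system `R` at `v`, giving representatives of `p⁻¹/O` and the upper triangular
neighbours in the Hecke equation at `v`. -/
theorem EisField.exists_residues (v : FPlace K) :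
    ∃ R : Finset Eis3, IsResidues (EisRing.pair (E.primeOf v)) R ∧
      IsPolarReps (R.image fun r => algebraMap K (v.adicCompletion K)
        (E.toK r / E.toK (EisRing.pair (E.primeOf v)))) ∧
      ∀ {φ : Gf K → Hyp K → ℂ}, IsSphericalAt v φ → ∀ {a : ℂ}, HasEigenvalue v a φ →
        ∀ (y : Gf K) (p : Hyp K),
          ∑ r ∈ R, φ (y * single v (stepGL (E.unif v) (algebraMap K _ (E.toK r)))) p +
            φ (y * single v (diagGL 1 (E.unif v))) p =
          Tree.csqrtN (Ideal.absNorm v.asIdeal) * a * φ y p := by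
  classical
  set k := IsLocalRing.ResidueField (valv v).valuationSubring
  have : Finite k := (isLocalVal_valv v).finite_residue
  have := Fintype.ofFinite k
  set π := E.primeOf v with hπdef
  set rep : k → Eis3 := fun c => EisRing.pair (E.e.symm (toResidue_surjective v c).choose) with hrep
  have hrep1 : ∀ c, toResidue v (E.e ⟨(rep c).1, (rep c).2⟩) = c := fun c => by
    show toResidue v (E.e (E.e.symm _)) = c
    rw [RingEquiv.apply_symm_apply]
    exact (toResidue_surjective v c).choose_spec
  have hdvd : ∀ x y : Eis3, Eis3.dvd (EisRing.pair π) (x - y) ↔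
      toResidue v (E.e ⟨x.1, x.2⟩) = toResidue v (E.e ⟨y.1, y.2⟩) := fun x y => by
    rw [← sub_eq_zero (a := toResidue v _), ← map_sub, ← RingHom.mem_ker, ker_toResidue, ← map_sub,
      E.mem_iff, ← EisRing.pair_dvd]
    rfl
  have hinj : Function.Injective rep := fun a b h => by rw [← hrep1 a, h, hrep1]
  have hres : ∀ x : Eis3, ∀ c, Eis3.dvd (EisRing.pair π) (x - rep c) ↔
      toResidue v (E.e ⟨x.1, x.2⟩) = c := fun x c => by rw [hdvd, hrep1]
  refine ⟨Finset.univ.image rep, ⟨fun x => ?_, ?_⟩, ⟨?_, ?_⟩, ?_⟩
  · refine ⟨rep (toResidue v (E.e ⟨x.1, x.2⟩)),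
      ⟨Finset.mem_image_of_mem _ (Finset.mem_univ _), (hres x _).mpr rfl⟩, ?_⟩
    rintro r ⟨hr, hd⟩
    obtain ⟨c, -, rfl⟩ := Finset.mem_image.mp hr
    rw [(hres x c).mp hd]
  · rw [Finset.card_image_of_injective _ hinj, Finset.card_univ, ← Nat.card_eq_fintype_card,
      (isLocalVal_valv v).card_residue, E.absNorm_eq, ← Complex.normSq_eq_norm_sq, Eis3.normSq_toC]
  · intro b hb
    obtain ⟨r, -, rfl⟩ := Finset.mem_image.mp hb
    rw [map_div₀, map_div₀, valv_algebraMap, valv_algebraMap, E.toK_pair, E.valuation_primeOf,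
      div_eq_mul_inv, ← WithZero.exp_neg, neg_neg]
    exact mul_le_of_le_one_left' (E.valuation_toK_le_one v r)
  · intro b hb
    have hu : valv v ((E.unif v : v.adicCompletion K) * b) ≤ 1 := by
      rw [map_mul, E.valv_unif]
      exact (mul_le_mul_right hb _).trans (by rw [← WithZero.exp_add]; simp)
    set z : (valv v).valuationSubring := ⟨_, hu⟩
    set c := IsLocalRing.residue _ z with hc
    have key : ∀ x : Eis3,
        valv v (b - algebraMap K (v.adicCompletion K) (E.toK x / E.toK (EisRing.pair π))) ≤ 1 ↔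
          toResidue v (E.e ⟨x.1, x.2⟩) = c := fun x => by
      have e : b - algebraMap K (v.adicCompletion K) (E.toK x / E.toK (EisRing.pair π)) =
          ((E.unif v : v.adicCompletion K) * b - algebraMap K (v.adicCompletion K) (E.toK x)) /
            (E.unif v : v.adicCompletion K) := by
        rw [map_div₀, hπdef, ← E.coe_unif, sub_div, mul_div_cancel_left₀ _ (E.unif v).ne_zero]
      have hval : valv v (E.unif v : v.adicCompletion K) = WithZero.exp (-1 : ℤ) := E.valv_unif v
      rw [e, map_div₀, hval, div_le_one₀ WithZero.exp_pos, ← Tree.lt_one_iff_le_exp, hc, eq_comm,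
        ← sub_eq_zero, toResidue, RingHom.comp_apply, ← map_sub, residue_valv_eq_zero_iff]
      rfl
    refine ⟨algebraMap K _ (E.toK (rep c) / E.toK (EisRing.pair π)),
      ⟨Finset.mem_image_of_mem _ (Finset.mem_image_of_mem _ (Finset.mem_univ _)),
        (key _).mpr (hrep1 c)⟩, ?_⟩
    rintro r ⟨hr, hd⟩
    obtain ⟨x, hx, rfl⟩ := Finset.mem_image.mp hr
    obtain ⟨c', -, rfl⟩ := Finset.mem_image.mp hx
    rw [← (key _).mp hd, hrep1]
  · intro φ hs a ha y p
    have hsum := sum_nbhd_vertFun hs ha (baseVert v)
    rw [vertFun_base hs] at hsum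
    have h1 := congrFun (congrFun hsum y) p
    simp only [Finset.sum_apply, Pi.smul_apply, smul_eq_mul] at h1
    rw [← h1, Finset.sum_image fun a _ b _ h => hinj h]
    have hϖ := E.valv_unif v
    rw [show ∑ u ∈ (placeTree v).nbhd (baseVert v), vertFun v φ u y p =
        ∑ o : Option k, vertFun v φ (Tree.nbMap (valv v) (E.unif v) o) y p by
      refine Finset.sum_bij' (fun u hu => (Tree.nbEquiv hϖ).symm ⟨u, (placeTree v).mem_nbhd.1 hu⟩)
        (fun o _ => Tree.nbMap (valv v) (E.unif v) o) (fun u _ => Finset.mem_univ _)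
        (fun o _ => (placeTree v).mem_nbhd.2 (Tree.vdist_base_nb hϖ o))
        (fun u _ => congrArg Subtype.val ((Tree.nbEquiv hϖ).apply_symm_apply _))
        (fun o _ => (Tree.nbEquiv hϖ).symm_apply_apply o) fun u hu => ?_
      rw [show Tree.nbMap (valv v) (E.unif v)
        ((Tree.nbEquiv hϖ).symm ⟨u, (placeTree v).mem_nbhd.1 hu⟩) = u
        from congrArg Subtype.val ((Tree.nbEquiv hϖ).apply_symm_apply _)]]
    rw [Fintype.sum_option, add_comm]
    congr 1
    · rw [Tree.nbMap, vertFun_mk hs]; rfl
    · refine Finset.sum_congr rfl fun c _ => ?_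
      have hz : valv v (algebraMap K (v.adicCompletion K) (E.toK (rep c))) ≤ 1 := by
        rw [valv_algebraMap]; exact E.valuation_toK_le_one v _
      rw [Tree.nbMap, (Tree.stepGL_eq_iff hϖ).mpr ?_, vertFun_mk hs]
      · rfl
      · refine valv_lt_one_of_residue_eq (z := ⟨_, hz⟩) ?_
        rw [(IsLocalRing.residue_surjective c).choose_spec]
        exact hrep1 c

end Fermat.Agent.ResidualThree.BianchiForm
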