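import Fermat.Agent.ResidualThree.BianchiForm.TwistPolar

/-!
# A tame vector yields a nonzero twist

At a place with tame fixed vector whose chosen operator image is nonzero, some Iwahori eigen
component has nonzero twist to level `p²`, unless all unipotents fix it, which is excluded for
cuspidal forms (`exists_twist_step`).  The proof separates trivial and nontrivial characters.
-/

noncomputable section

open IsDedekindDomain NumberField
open scoped WithZero Classical

namespace Fermat.Agent.ResidualThree.BianchiForm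

open Fermat.Agent.ResidualThree.Tree (intGL diagGL)

variable {F : Type} [Field F] [NumberField F] {v : FPlace F}
  {ϖ : (v.adicCompletion F)ˣ} {χ : MulChar (ResM v 1) ℂ} {y : Gf F → Hyp F → ℂ}

theorem IsIwEigen.lowUnip_mem (hy : IsIwEigen χ y) {c : v.adicCompletion F} (hc : valv v c < 1) :
    lowUnip v c ∈ fixer v y := by
  have hg : IsIwahori (lowUnip v c) := ⟨isIntGL_lowUnip hc.le, by simpa [coe_lowUnip] using hc⟩
  have hr : HasRatio (lowUnip v c) 1 := by
    show valv v (_ - ((1 : (ResM v 1)ˣ) : ResM v 1).out * _) < 1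
    rw [Units.val_one, show (1 : ResM v 1) = resMk (m := 1) (1 : v.adicCompletion F) (by simp) from
      (map_one (Ideal.Quotient.mk (pmIdeal v 1))).symm, Valuation.map_sub_swap]
    simpa [coe_lowUnip] using valv_out_sub_lt (1 : v.adicCompletion F) (by simp)
  refine mem_fixer.mpr ?_
  rw [← trAt_apply, hy.eigen _ hg 1 hr, Units.val_one, map_one, one_smul]

theorem IsIwEigen.unip_mem_of_polar (hϖ : valv v (ϖ : v.adicCompletion F) = WithZero.exp (-1 : ℤ))
    (hy : IsIwEigen χ y) (hp : ∀ a, polarTr ϖ a y = y) {z : v.adicCompletion F}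
    (hz : valv v z ≤ WithZero.exp (1 : ℤ)) : unipHom (v.adicCompletion F) z ∈ fixer v y := by
  have h1 : valv v (z * (ϖ : v.adicCompletion F)) ≤ 1 := by
    rw [map_mul, hϖ]
    exact (mul_le_mul_left hz _).trans (by rw [← WithZero.exp_add]; simp)
  have h := hp (resMk (z * (ϖ : v.adicCompletion F)) h1)
  rw [polarTr_resMk hϖ hy, mul_assoc, Units.mul_inv, mul_one] at h
  exact mem_fixer.mpr h

/-- The element `(0, t/ϖ; -ϖ/t, 0)` fixes `y`. -/
theorem weyl_mem_fixer (hϖ : valv v (ϖ : v.adicCompletion F) = WithZero.exp (-1 : ℤ))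
    (hy : IsIwEigen χ y) (hp : ∀ a, polarTr ϖ a y = y) {t : (v.adicCompletion F)ˣ}
    (ht : valv v (t : v.adicCompletion F) = 1) :
    unipHom (v.adicCompletion F) ((t : v.adicCompletion F) * (ϖ : v.adicCompletion F)⁻¹) *
      lowUnip v (-((ϖ : v.adicCompletion F) * (t : v.adicCompletion F)⁻¹)) *
      unipHom (v.adicCompletion F) ((t : v.adicCompletion F) * (ϖ : v.adicCompletion F)⁻¹) ∈
        fixer v y := by
  have h1 : valv v ((t : v.adicCompletion F) * (ϖ : v.adicCompletion F)⁻¹) ≤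
      WithZero.exp (1 : ℤ) := by
    rw [map_mul, map_inv₀, ht, hϖ, one_mul, ← WithZero.exp_neg, neg_neg]
  refine mul_mem (mul_mem (hy.unip_mem_of_polar hϖ hp h1) (hy.lowUnip_mem ?_))
    (hy.unip_mem_of_polar hϖ hp h1)
  rw [Valuation.map_neg, map_mul, map_inv₀, ht, inv_one, mul_one, hϖ, ← WithZero.exp_zero,
    WithZero.exp_lt_exp]
  norm_num

/-- A nontrivial character of `3`-power order excludes vectors fixed by `n(p⁻¹)`. -/
theorem IsIwEigen.eq_zero_of_polar (hϖ : valv v (ϖ : v.adicCompletion F) = WithZero.exp (-1 : ℤ))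
    (hy : IsIwEigen χ y) (hp : ∀ a, polarTr ϖ a y = y) (hχ : χ ≠ 1) {k : ℕ}
    (hk : ∀ u : (ResM v 1)ˣ, χ (u : ResM v 1) ^ 3 ^ k = 1) : y = 0 := by
  by_contra hy0
  refine hχ (MulChar.ext fun u => ?_)
  rw [MulChar.one_apply_coe]
  set t := unitLift le_rfl u with htdef
  have ht : valv v (t : v.adicCompletion F) = 1 := valv_unitLift le_rfl _
  have h1 := weyl_mem_fixer hϖ hy hp ht
  have h2 := weyl_mem_fixer hϖ hy hp (t := -1) (by simp)
  have e : unipHom (v.adicCompletion F) ((t : v.adicCompletion F) * (ϖ : v.adicCompletion F)⁻¹) *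
      lowUnip v (-((ϖ : v.adicCompletion F) * (t : v.adicCompletion F)⁻¹)) *
      unipHom (v.adicCompletion F) ((t : v.adicCompletion F) * (ϖ : v.adicCompletion F)⁻¹) *
      (unipHom (v.adicCompletion F)
          (((-1 : (v.adicCompletion F)ˣ) : v.adicCompletion F) * (ϖ : v.adicCompletion F)⁻¹) *
        lowUnip v (-((ϖ : v.adicCompletion F) *
          ((-1 : (v.adicCompletion F)ˣ) : v.adicCompletion F)⁻¹)) *
        unipHom (v.adicCompletion F)
          (((-1 : (v.adicCompletion F)ˣ) : v.adicCompletion F) * (ϖ : v.adicCompletion F)⁻¹)) =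
      diagGL t t⁻¹ := by
    refine Units.ext ?_
    rw [Units.val_mul, Units.val_mul, Units.val_mul, Units.val_mul, Units.val_mul, coe_unipHom,
      coe_lowUnip, coe_unipHom, coe_lowUnip, Tree.coe_diagGL]
    have ht0 := t.ne_zero
    have hϖ0 := ϖ.ne_zero
    simp only [Matrix.mul_fin_two, Units.val_neg, Units.val_one, Units.val_inv_eq_inv_val, inv_neg,
      inv_one]
    refine Matrix.ext fun i j => ?_
    fin_cases i <;> fin_cases j <;> simp <;> field_simp <;> ring
  have hD : diagGL t t⁻¹ ∈ fixer v y := e ▸ mul_mem h1 h2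
  have hti : valv v ((t⁻¹ : (v.adicCompletion F)ˣ) : v.adicCompletion F) = 1 := by
    rw [Units.val_inv_eq_inv_val, map_inv₀, ht, inv_one]
  have hiw : IsIwahori (diagGL t t⁻¹) := ⟨isIntGL_diagGL ht hti, by simp⟩
  have hr : HasRatio (diagGL t t⁻¹) (u * u) := by
    show valv v _ < 1
    simp only [Tree.coe_diagGL, Matrix.of_apply, Matrix.cons_val', Matrix.cons_val_zero,
      Matrix.cons_val_one, Matrix.cons_val_fin_one]
    set o := ((((u * u : (ResM v 1)ˣ)) : ResM v 1).out : v.adicCompletion F)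
    have htt : valv v ((t : v.adicCompletion F) * t) ≤ 1 := by rw [map_mul, ht, one_mul]
    have h : valv v (o - (t : v.adicCompletion F) * t) < 1 := by
      rw [← resMk_eq_iff (ha := ((u * u : (ResM v 1)ˣ) : ResM v 1).out.2) (hb := htt),
        resMk_mul ht.le ht.le]
      simp only [htdef, coe_unitLift, resMk_out, Units.val_mul]
    rw [show (t : v.adicCompletion F) - o * ((t⁻¹ : (v.adicCompletion F)ˣ) : v.adicCompletion F) =
      -((o - (t : v.adicCompletion F) * t) * ((t⁻¹ : (v.adicCompletion F)ˣ) : v.adicCompletion F))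
      by rw [sub_mul, mul_assoc (t : v.adicCompletion F), Units.mul_inv, mul_one]; ring,
      Valuation.map_neg, map_mul, hti, mul_one]
    exact h
  have h3 : (χ ((u * u : (ResM v 1)ˣ) : ResM v 1) - 1) • y = 0 := by
    rw [sub_smul, ← hy.eigen _ hiw _ hr, trAt_eq_of_mem hD, one_smul, sub_self]
  have hsq := sub_eq_zero.mp ((smul_eq_zero.mp h3).resolve_right hy0)
  rw [Units.val_mul, map_mul, ← pow_two] at hsq
  obtain ⟨s, hs⟩ := (Odd.pow (by decide) : Odd (3 ^ k))
  have h4 := hk u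
  rwa [hs, pow_succ, pow_mul, hsq, one_pow, one_mul] at h4

/-- `GL₂(O)` is generated by unipotents and diagonal units. -/
theorem intGL_le_of_gen {H : Subgroup (GLv v)}
    (h1 : ∀ z, valv v z ≤ 1 → unipHom (v.adicCompletion F) z ∈ H)
    (h2 : ∀ c, valv v c ≤ 1 → lowUnip v c ∈ H)
    (h3 : ∀ a d : (v.adicCompletion F)ˣ, valv v (a : v.adicCompletion F) = 1 →
      valv v (d : v.adicCompletion F) = 1 → diagGL a d ∈ H) :
    intGL (valv v) ≤ H := by
  have key : ∀ g ∈ intGL (valv v),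
      valv v ((g : Matrix (Fin 2) (Fin 2) (v.adicCompletion F)) 0 0) = 1 → g ∈ H := by
    intro g hg ha
    set M := (g : Matrix (Fin 2) (Fin 2) (v.adicCompletion F)) with hM
    have ha0 : M 0 0 ≠ 0 := fun h => by simp [h] at ha
    set A : (v.adicCompletion F)ˣ := Units.mk0 (M 0 0) ha0
    set D : (v.adicCompletion F)ˣ := Units.mk0 (M.det / M 0 0)
      (div_ne_zero g.det_ne_zero ha0)
    have e : g = lowUnip v (M 1 0 / M 0 0) * diagGL A D *
        unipHom (v.adicCompletion F) (M 0 1 / M 0 0) := by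
      refine Units.ext ?_
      rw [Units.val_mul, Units.val_mul, coe_lowUnip, Tree.coe_diagGL, coe_unipHom, ← hM,
        Matrix.mul_fin_two, Matrix.mul_fin_two, Matrix.eta_fin_two M]
      simp only [A, D, Units.val_mk0, Matrix.det_fin_two]
      refine Matrix.ext fun i j => ?_
      fin_cases i <;> fin_cases j <;> simp <;> field_simp
      ring
    rw [e]
    refine mul_mem (mul_mem (h2 _ ?_) (h3 A D ha ?_)) (h1 _ ?_)
    · rw [map_div₀, ha, div_one]; exact hg.1 1 0
    · rw [Units.val_mk0, map_div₀, ha, div_one, hM]; exact hg.2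
    · rw [map_div₀, ha, div_one]; exact hg.1 0 1
  intro g hg
  rcases eq_or_ne (valv v ((g : Matrix (Fin 2) (Fin 2) (v.adicCompletion F)) 0 0)) 1 with ha | ha
  · exact key g hg ha
  set M := (g : Matrix (Fin 2) (Fin 2) (v.adicCompletion F)) with hM
  have ha' : valv v (M 0 0) < 1 := lt_of_le_of_ne (hg.1 0 0) ha
  have hc : valv v (M 1 0) = 1 := by
    refine le_antisymm (hg.1 1 0) (le_of_not_gt fun hlt => ?_)
    exact ha (IsIwahori.valv_diag (g := g) ⟨hg, hlt⟩).1
  have h := key (unipHom (v.adicCompletion F) 1 * g)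
    (mul_mem (isIntGL_unipHom v (map_one _).le) hg) (by
      rw [Units.val_mul, coe_unipHom, ← hM, Matrix.eta_fin_two M, Matrix.mul_fin_two]
      simp only [Matrix.of_apply, Matrix.cons_val', Matrix.cons_val_zero,
        Matrix.cons_val_fin_one, one_mul]
      rw [(valv v).map_add_eq_of_lt_right (by rwa [hc]), hc])
  simpa using mul_mem (inv_mem (h1 1 (map_one _).le)) h

theorem torus_conj_eq (g : GLv v) :
    (((torusGL ϖ)⁻¹ * g * torusGL ϖ : GLv v) : Matrix (Fin 2) (Fin 2) (v.adicCompletion F)) =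
      !![(g : Matrix (Fin 2) (Fin 2) (v.adicCompletion F)) 0 0,
        (ϖ : v.adicCompletion F)⁻¹ * (g : Matrix (Fin 2) (Fin 2) (v.adicCompletion F)) 0 1;
        (g : Matrix (Fin 2) (Fin 2) (v.adicCompletion F)) 1 0 * (ϖ : v.adicCompletion F),
        (g : Matrix (Fin 2) (Fin 2) (v.adicCompletion F)) 1 1] := by
  rw [show (torusGL ϖ)⁻¹ = torusGL ϖ⁻¹ from inv_eq_of_mul_eq_one_left (by
      rw [← torusGL_mul, inv_mul_cancel, torusGL_one]),
    Units.val_mul, Units.val_mul, coe_torusGL, coe_torusGL,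
    Matrix.eta_fin_two (g : Matrix (Fin 2) (Fin 2) (v.adicCompletion F)), Matrix.mul_fin_two,
    Matrix.mul_fin_two, Units.val_inv_eq_inv_val]
  have h0 := ϖ.ne_zero
  refine Matrix.ext fun i j => ?_
  fin_cases i <;> fin_cases j <;> simp
  field_simp

/-- An Iwahori fixed vector fixed by `n(p⁻¹)` is spherical after translation. -/
theorem intGL_le_fixer_torus (hϖ : valv v (ϖ : v.adicCompletion F) = WithZero.exp (-1 : ℤ))
    (hy : IsIwEigen (1 : MulChar (ResM v 1) ℂ) y) (hp : ∀ a, polarTr ϖ a y = y) :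
    intGL (valv v) ≤ fixer v (trAt (torusGL ϖ) y) := by
  refine intGL_le_of_gen (fun z hz => mem_fixer_rightTr.mpr ?_)
    (fun c hc => mem_fixer_rightTr.mpr ?_) fun a d ha hd => mem_fixer_rightTr.mpr ?_
  · rw [show (torusGL ϖ)⁻¹ * unipHom (v.adicCompletion F) z * torusGL ϖ =
      unipHom (v.adicCompletion F) ((ϖ : v.adicCompletion F)⁻¹ * z) from
      Units.ext (by rw [torus_conj_eq]; simp [coe_unipHom])]
    refine hy.unip_mem_of_polar hϖ hp ?_
    rw [map_mul, map_inv₀, hϖ, ← WithZero.exp_neg, neg_neg]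
    exact mul_le_of_le_one_right' hz
  · rw [show (torusGL ϖ)⁻¹ * lowUnip v c * torusGL ϖ = lowUnip v (c * (ϖ : v.adicCompletion F)) from
      Units.ext (by rw [torus_conj_eq]; simp [coe_lowUnip])]
    refine hy.lowUnip_mem ?_
    rw [map_mul, hϖ]
    exact lt_of_le_of_lt (mul_le_of_le_one_left' hc) (exp_neg_lt_one le_rfl)
  · rw [show (torusGL ϖ)⁻¹ * diagGL a d * torusGL ϖ = diagGL a d from
      Units.ext (by rw [torus_conj_eq]; simp [Tree.coe_diagGL])]
    have hiw : IsIwahori (diagGL a d) := ⟨isIntGL_diagGL ha hd, by simp⟩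
    obtain ⟨r, hr⟩ := hiw.exists_ratio
    refine mem_fixer.mpr ?_
    rw [← trAt_apply, hy.eigen _ hiw r hr, MulChar.one_apply_coe, one_smul]

/-- A spherical vector fixed by `n(p⁻¹)` is fixed by every conjugate of every unipotent. -/
theorem unip_all_of_spherical (hϖ : valv v (ϖ : v.adicCompletion F) = WithZero.exp (-1 : ℤ))
    {χ' : MulChar (ResM v 1) ℂ} (hy : IsIwEigen χ' y) (hp : ∀ a, polarTr ϖ a y = y)
    (hK : intGL (valv v) ≤ fixer v y) :
    ∀ k ∈ intGL (valv v), ∀ z, k⁻¹ * unipHom (v.adicCompletion F) z * k ∈ fixer v y := by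
  set D : GLv v := diagGL ϖ⁻¹ ϖ with hDdef
  have hD : D ∈ fixer v y := by
    have h1 := weyl_mem_fixer hϖ hy hp (t := 1) (by simp)
    have hu : ∀ z : v.adicCompletion F, valv v z ≤ 1 → unipHom (v.adicCompletion F) z ∈ fixer v y :=
      fun z hz => hK (isIntGL_unipHom v hz)
    have hl : lowUnip v (1 : v.adicCompletion F) ∈ fixer v y := hK (isIntGL_lowUnip (map_one _).le)
    have h2 : unipHom (v.adicCompletion F) (-1 : v.adicCompletion F) * lowUnip v 1 *
        unipHom (v.adicCompletion F) (-1) ∈ fixer v y :=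
      mul_mem (mul_mem (hu _ (by simp)) hl) (hu _ (by simp))
    have e : unipHom (v.adicCompletion F)
          (((1 : (v.adicCompletion F)ˣ) : v.adicCompletion F) * (ϖ : v.adicCompletion F)⁻¹) *
        lowUnip v (-((ϖ : v.adicCompletion F) *
          ((1 : (v.adicCompletion F)ˣ) : v.adicCompletion F)⁻¹)) *
        unipHom (v.adicCompletion F)
          (((1 : (v.adicCompletion F)ˣ) : v.adicCompletion F) * (ϖ : v.adicCompletion F)⁻¹) *
        (unipHom (v.adicCompletion F) (-1 : v.adicCompletion F) * lowUnip v 1 *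
          unipHom (v.adicCompletion F) (-1)) = D := by
      refine Units.ext ?_
      rw [Units.val_mul, Units.val_mul, Units.val_mul, Units.val_mul, Units.val_mul, coe_unipHom,
        coe_lowUnip, coe_unipHom, coe_lowUnip, hDdef, Tree.coe_diagGL]
      have hϖ0 := ϖ.ne_zero
      simp only [Matrix.mul_fin_two, Units.val_one, Units.val_inv_eq_inv_val, inv_one]
      refine Matrix.ext fun i j => ?_
      fin_cases i <;> fin_cases j <;> simp
    exact e ▸ mul_mem h1 h2
  have hn : ∀ (j : ℕ) (z : v.adicCompletion F), valv v z ≤ WithZero.exp ((2 * j : ℕ) : ℤ) →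
      unipHom (v.adicCompletion F) z ∈ fixer v y := by
    intro j
    induction j with
    | zero => intro z hz; exact hK (isIntGL_unipHom v (by simpa using hz))
    | succ j ih =>
      intro z hz
      have hz' : valv v (z * ((ϖ : v.adicCompletion F) * ϖ)) ≤ WithZero.exp ((2 * j : ℕ) : ℤ) := by
        rw [map_mul, map_mul, hϖ]
        refine (mul_le_mul_left hz _).trans ?_
        rw [← WithZero.exp_add, ← WithZero.exp_add, WithZero.exp_le_exp]
        push_cast; omega
      have e : D * unipHom (v.adicCompletion F) (z * ((ϖ : v.adicCompletion F) * ϖ)) * D⁻¹ =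
          unipHom (v.adicCompletion F) z := by
        rw [mul_inv_eq_iff_eq_mul]
        refine Units.ext ?_
        rw [Units.val_mul, Units.val_mul, hDdef, Tree.coe_diagGL, coe_unipHom, coe_unipHom]
        have hϖ0 := ϖ.ne_zero
        simp only [Matrix.mul_fin_two, Units.val_inv_eq_inv_val]
        refine Matrix.ext fun i k => ?_
        fin_cases i <;> fin_cases k <;> simp
        field_simp
      exact e ▸ mul_mem (mul_mem hD (ih _ hz')) (inv_mem hD)
  intro k hk z
  refine mul_mem (mul_mem (inv_mem (hK hk)) (hn (WithZero.log (valv v z)).toNat z ?_)) (hK hk)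
  rcases eq_or_ne (valv v z) 0 with h0 | h0
  · rw [h0]; exact zero_le
  · conv_lhs => rw [← WithZero.exp_log h0]
    rw [WithZero.exp_le_exp]
    have := Int.self_le_toNat (WithZero.log (valv v z))
    push_cast
    omega

theorem IsIwEigen.map {R : (Gf F → Hyp F → ℂ) →ₗ[ℂ] (Gf F → Hyp F → ℂ)}
    (hR : ∀ (g : GLv v) x, R (trAt g x) = trAt g (R x)) (hy : IsIwEigen χ y) :
    IsIwEigen χ (R y) :=
  ⟨fun g hg => mem_fixer.mpr (by rw [← trAt_apply, ← hR, trAt_eq_of_mem (hy.center hg)]),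
    fun g hg r hr => by rw [← hR, hy.eigen g hg r hr, map_smul]⟩

theorem coe_swapGL :
    ((Tree.swapGL : GLv v) : Matrix (Fin 2) (Fin 2) (v.adicCompletion F)) = !![0, 1; 1, 0] := rfl

/-- The element `(0, 1; ϖ, 0)` preserves the Iwahori fixed vectors. -/
theorem IsIwEigen.swap_torus (hy : IsIwEigen (1 : MulChar (ResM v 1) ℂ) y)
    (hϖ : valv v (ϖ : v.adicCompletion F) = WithZero.exp (-1 : ℤ)) :
    IsIwEigen (1 : MulChar (ResM v 1) ℂ) (trAt (Tree.swapGL * torusGL ϖ) y) := by
  set w : GLv v := Tree.swapGL * torusGL ϖ with hw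
  refine ⟨fun g hg => mem_fixer_rightTr.mpr ?_, fun g hg r hr => ?_⟩
  · rw [mul_assoc, ← Subgroup.mem_center_iff.1 hg, inv_mul_cancel_left]
    exact hy.center hg
  rw [MulChar.one_apply_coe, one_smul, ← trAt_mul]
  refine trAt_eq_of_inv_mul_mem ?_
  set M := (g : Matrix (Fin 2) (Fin 2) (v.adicCompletion F)) with hM
  have h0 := ϖ.ne_zero
  have e : ((w⁻¹ * (g * w) : GLv v) : Matrix (Fin 2) (Fin 2) (v.adicCompletion F)) =
      !![M 1 1, (ϖ : v.adicCompletion F)⁻¹ * M 1 0;
        M 0 1 * (ϖ : v.adicCompletion F), M 0 0] := by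
    rw [hw, mul_inv_rev, show (torusGL ϖ)⁻¹ = torusGL ϖ⁻¹ from inv_eq_of_mul_eq_one_left (by
      rw [← torusGL_mul, inv_mul_cancel, torusGL_one]),
      show (Tree.swapGL : GLv v)⁻¹ = Tree.swapGL from
        inv_eq_of_mul_eq_one_left (Units.ext (by
          rw [Units.val_mul, coe_swapGL, Matrix.mul_fin_two, Units.val_one,
            Matrix.one_fin_two]; simp))]
    rw [Units.val_mul, Units.val_mul, Units.val_mul, Units.val_mul, coe_torusGL, coe_torusGL,
      coe_swapGL, ← hM, Matrix.eta_fin_two M, Units.val_inv_eq_inv_val]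
    simp only [Matrix.mul_fin_two]
    refine Matrix.ext fun i j => ?_
    fin_cases i <;> fin_cases j <;> simp
    field_simp
  have hc : valv v ((ϖ : v.adicCompletion F)⁻¹ * M 1 0) ≤ 1 := by
    rw [map_mul, map_inv₀, hϖ, ← WithZero.exp_neg, neg_neg]
    refine (mul_le_mul_right (Tree.lt_one_iff_le_exp.mp hg.2) _).trans ?_
    rw [← WithZero.exp_add]; simp
  have hb : valv v (M 0 1 * (ϖ : v.adicCompletion F)) < 1 := by
    rw [map_mul, hϖ]
    exact lt_of_le_of_lt (mul_le_of_le_one_left' (hg.1.1 0 1)) (exp_neg_lt_one le_rfl)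
  have hj : IsIwahori (w⁻¹ * (g * w)) := by
    refine ⟨⟨fun i k => ?_, ?_⟩, ?_⟩
    · rw [e]
      fin_cases i <;> fin_cases k <;> simp only [Fin.zero_eta, Fin.mk_one, Matrix.of_apply,
        Matrix.cons_val', Matrix.cons_val_zero, Matrix.cons_val_one, Matrix.cons_val_fin_one]
      exacts [hg.1.1 1 1, hc, hb.le, hg.1.1 0 0]
    · show valv v ((w⁻¹ * (g * w) : GLv v) : Matrix (Fin 2) (Fin 2) (v.adicCompletion F)).det = 1
      rw [e, Matrix.det_fin_two_of, ← hg.1.2, Matrix.det_fin_two]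
      congr 1
      field_simp
      rw [hM]; ring
    · rw [e]; simpa using hb
  obtain ⟨r', hr'⟩ := hj.exists_ratio
  refine mem_fixer.mpr ?_
  rw [← trAt_apply, hy.eigen _ hj r' hr', MulChar.one_apply_coe, one_smul]

/-- A tame vector `G` with `R G ≠ 0` gives an Iwahori eigenvector, of a character `χ` of
three-power order, whose twist by `χ` has nonzero image under `R`. -/
theorem exists_twist_step [Fintype (ResM v 1)]
    (hϖ : valv v (ϖ : v.adicCompletion F) = WithZero.exp (-1 : ℤ))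
    {V : Submodule ℂ (Gf F → Hyp F → ℂ)} (hV : ∀ (g : GLv v), ∀ x ∈ V, trAt g x ∈ V)
    {R : (Gf F → Hyp F → ℂ) →ₗ[ℂ] (Gf F → Hyp F → ℂ)}
    (hR : ∀ (g : GLv v) x, R (trAt g x) = trAt g (R x))
    (hcusp : ∀ x ∈ V, (∀ k ∈ intGL (valv v), ∀ z,
      k⁻¹ * unipHom (v.adicCompletion F) z * k ∈ fixer v (R x)) → R x = 0)
    {G : Gf F → Hyp F → ℂ} (hG : G ∈ V) (hfix : tameSubgroup v ≤ fixer v G) (hne : R G ≠ 0) :
    ∃ (χ : MulChar (ResM v 1) ℂ) (G' : Gf F → Hyp F → ℂ), G' ∈ V ∧ IsIwEigen χ G' ∧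
      (∃ k : ℕ, ∀ u : (ResM v 1)ˣ, χ (u : ResM v 1) ^ 3 ^ k = 1) ∧
      polarVec ϖ (twistWeight χ) (R G') ≠ 0 := by
  classical
  have hfixR : tameSubgroup v ≤ fixer v (R G) := fun g hg =>
    mem_fixer.mpr (by rw [← trAt_apply, ← hR, trAt_eq_of_mem (hfix hg)])
  have hcomp : ∀ χ : MulChar (ResM v 1) ℂ, R (chiComp χ G) = chiComp χ (R G) := fun χ => by
    simp only [chiComp_apply, map_sum, map_smul, dOp, hR]
  have hcompV : ∀ χ : MulChar (ResM v 1) ℂ, chiComp χ G ∈ V := fun χ => by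
    rw [chiComp_apply]
    exact sum_mem fun u _ => V.smul_mem _ (hV _ _ hG)
  by_cases H : ∃ χ : MulChar (ResM v 1) ℂ, χ ≠ 1 ∧ chiComp χ (R G) ≠ 0
  · obtain ⟨χ, hχ, hy0⟩ := H
    obtain ⟨k, hk⟩ := exists_three_pow_of_chiComp_ne hfixR hy0
    refine ⟨χ, chiComp χ G, hcompV χ, isIwEigen_chiComp χ hfix, ⟨k, hk⟩, fun h => hy0 ?_⟩
    rw [hcomp] at h
    exact (isIwEigen_chiComp χ hfixR).eq_zero_of_polar hϖ
      (polarTr_eq_of_polarVec_eq_zero hϖ (isIwEigen_chiComp χ hfixR) h) hχ hk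
  push Not at H
  have := Fintype.ofFinite (MulChar (ResM v 1) ℂ)
  have hψ0 : chiComp (1 : MulChar (ResM v 1) ℂ) (R G) ≠ 0 := by
    intro h0
    have hs := sum_chiComp hfixR
    rw [Finset.sum_eq_zero fun χ _ => by
      by_cases hχ : χ = 1
      · rw [hχ]; exact h0
      · exact H χ hχ] at hs
    exact hne ((smul_eq_zero.mp hs.symm).resolve_left
      (Nat.cast_ne_zero.mpr Fintype.card_ne_zero))
  have h1 : ∀ u : (ResM v 1)ˣ, (1 : MulChar (ResM v 1) ℂ) (u : ResM v 1) ^ 3 ^ 0 = 1 := fun u => by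
    simp
  set ψ := chiComp (1 : MulChar (ResM v 1) ℂ) G with hψdef
  have hψ : IsIwEigen (1 : MulChar (ResM v 1) ℂ) ψ := isIwEigen_chiComp 1 hfix
  by_cases hp : polarVec ϖ (twistWeight (1 : MulChar (ResM v 1) ℂ)) (R ψ) = 0
  swap
  · exact ⟨1, ψ, hcompV 1, hψ, ⟨0, h1⟩, hp⟩
  set y' := trAt (torusGL ϖ) (R ψ) with hy'
  have hK : intGL (valv v) ≤ fixer v y' :=
    intGL_le_fixer_torus hϖ (hψ.map hR) (polarTr_eq_of_polarVec_eq_zero hϖ (hψ.map hR) hp)
  set G' := trAt (Tree.swapGL * torusGL ϖ) ψ with hG'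
  have he : R G' = y' := by
    rw [hG', hR, trAt_mul, ← hy']
    exact trAt_eq_of_mem (hK (Tree.swapGL_mem))
  refine ⟨1, G', hV _ _ (hcompV 1), hψ.swap_torus hϖ, ⟨0, h1⟩, fun h => ?_⟩
  have hG'R := (hψ.swap_torus hϖ).map hR
  have hz := hcusp G' (hV _ _ (hcompV 1)) (by
    refine unip_all_of_spherical hϖ hG'R (polarTr_eq_of_polarVec_eq_zero hϖ hG'R h) ?_
    rw [he]; exact hK)
  rw [he, hy'] at hz
  refine hψ0 ?_
  rw [← hcomp, ← trAt_one (v := v) (R ψ), ← inv_mul_cancel (torusGL ϖ), trAt_mul, hz, map_zero]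

end Fermat.Agent.ResidualThree.BianchiForm
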