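import Fermat.Agent.ResidualThree.BianchiForm.Expansion
import Fermat.Agent.ResidualThree.Interfaces
import Fermat.Agent.ResidualThree.ThetaLift.Eis

/-!
# The datum as a twist of a form of tame level

For a datum of level `3^e D²` with `D` prime to three, `TameTwist` records a form `G` of level
`3^e D` with a character of three-power order in the diagonal, such that the datum is a combination
of the translates of `G` by `b / D`.
-/

noncomputable section

open MeasureTheory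
open scoped ComplexConjugate

namespace Fermat.Agent.ResidualThree

local notation "Γℚ" => (AlgebraicClosure ℚ ≃ₐ[ℚ] AlgebraicClosure ℚ)

/-- A presentation of the datum as a twist of tame level. -/
structure TameTwist {ρ : Γℚ →* GL (Fin 2) (ZMod 3)} {n₀ : ℕ} (d : BianchiDatum ρ n₀) where
  /-- the conductor of the twist -/
  D : ℕ
  squarefree_D : Squarefree D
  not_three : ¬ 3 ∣ D
  level : ∃ e : ℕ, n₀ = 3 ^ e * D ^ 2
  /-- the character -/
  chi : Eis3 → ℂ
  chi_mul : ∀ x y, chi (Eis3.mul x y) = chi x * chi y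
  chi_periodic : ∀ x y, chi (x + Eis3.mul ((D : ℤ), 0) y) = chi x
  chi_ne_zero_iff : ∀ x, chi x ≠ 0 ↔ Nat.Coprime x.norm D
  chi_root : ∀ x, chi x ≠ 0 → ∃ k : ℕ, chi x ^ 3 ^ k = 1
  /-- the form of tame level -/
  G : H3 → ℂ
  continuous : Continuous G
  decay : ∀ g : GL (Fin 2) ℂ, (∀ i j, IsKElement ((g : Matrix (Fin 2) (Fin 2) ℂ) i j)) → ∀ A : ℕ,
    ∃ C : ℝ, ∀ p : H3, 1 ≤ p.y → ‖G (g • p)‖ ≤ C / p.y ^ A
  eigen : ∀ k : ℝ → ℂ, Continuous k → HasCompactSupport k → ∀ p,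
    (∫ q, k (H3.coshDist p q) * G q ∂H3.vol) = sphZero k * G p
  invariant : ∀ (g : GL (Fin 2) ℂ) (e : Fin 2 → Fin 2 → Eis3),
    (∀ i j, (g : Matrix (Fin 2) (Fin 2) ℂ) i j = (e i j).toC) →
    ‖(g : Matrix (Fin 2) (Fin 2) ℂ).det‖ = 1 → Eis3.dvd (((n₀ / D : ℕ) : ℤ), 0) (e 1 0) →
    ∀ p, G (g • p) = chi (e 0 0) * conj (chi (e 1 1)) * G p
  relation : ∃ (s : Finset Eis3) (w : Eis3 → ℂ),
    ∀ p, d.F p = ∑ b ∈ s, w b * G (BianchiForm.shiftH (b.toC / (D : ℂ)) p)

end Fermat.Agent.ResidualThree
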