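import Fermat.Agent.ResidualThree.BianchiForm.NewForm
import Fermat.Agent.ResidualThree.BianchiForm.Residues
import Fermat.Agent.ResidualThree.BianchiForm.TwistCases

/-!
# The prepared form as a twist of a form of tame level

Running the local step at every tame place produces `TwistVec`: a form of tame level with
Iwahori characters of three-power order whose image under a combination of polar translations is
a prepared form with the eigenvalues of `ρ` (`exists_twistVec`).
-/

noncomputable section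

open IsDedekindDomain NumberField
open scoped WithZero Classical

namespace Fermat.Agent.ResidualThree.BianchiForm

open Fermat.Agent.ResidualThree.Tree (intGL)

local notation "Qbar" => AlgebraicClosure ℚ
local notation "Γℚ" => (AlgebraicClosure ℚ ≃ₐ[ℚ] AlgebraicClosure ℚ)
local notation "χ" => WeierstrassCurve.modThreeCyclotomicChar

variable {F : Type} [Field F] [NumberField F]

/-- Right translation, as an endomorphism. -/
def rightEnd (g : Gf F) : Module.End ℂ (Gf F → Hyp F → ℂ) where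
  toFun := rightTr g
  map_add' _ _ := rfl
  map_smul' _ _ := rfl

theorem rightEnd_apply (g : Gf F) (φ : Gf F → Hyp F → ℂ) : rightEnd g φ = rightTr g φ := rfl

/-- Combinations of translations by unipotents with denominators at most one at the places of
`P`. -/
def polarOps (P : Finset (FPlace F)) : Submodule ℂ (Module.End ℂ (Gf F → Hyp F → ℂ)) :=
  Submodule.span ℂ {L | ∃ (y : Gf F) (z : ∀ w : FPlace F, w.adicCompletion F), L = rightEnd y ∧
    (∀ w, (y : ∀ w, GLv w) w = unipHom (w.adicCompletion F) (z w)) ∧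
    (∀ w, valv w (z w) ≤ WithZero.exp (1 : ℤ)) ∧ ∀ w ∉ P, z w = 0}

theorem id_mem_polarOps (P : Finset (FPlace F)) :
    (LinearMap.id : Module.End ℂ (Gf F → Hyp F → ℂ)) ∈ polarOps P :=
  Submodule.subset_span ⟨1, 0, LinearMap.ext fun φ => (rightTr_one φ).symm,
    fun w => (unipHom_zero (R := w.adicCompletion F)).symm, fun w => by simp, fun _ _ => rfl⟩

variable {P : Finset (FPlace F)} {R : Module.End ℂ (Gf F → Hyp F → ℂ)}

theorem polarOps_trAt (hR : R ∈ polarOps P) {v : FPlace F} (hv : v ∉ P) (g : GLv v)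
    (x : Gf F → Hyp F → ℂ) : R (trAt g x) = trAt g (R x) := by
  induction hR using Submodule.span_induction with
  | mem L hL =>
    obtain ⟨y, z, rfl, hy, -, hz⟩ := hL
    have hyv : (y : ∀ w, GLv w) v = 1 := by rw [hy, hz v hv, unipHom_zero]
    rw [rightEnd_apply, rightEnd_apply, trAt_apply, trAt_apply, ← rightTr_mul,
      (commute_single hyv g).eq, rightTr_mul]
  | zero => simp
  | add L L' _ _ h h' => simp [h, h']
  | smul c L _ h => simp [h]

theorem isEigenForm_polarOps [IsTotallyComplex F] {S : Set (FPlace F)} {a : FPlace F → ℂ}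
    (hP : ↑P ⊆ S)
    (hR : R ∈ polarOps P) {x : Gf F → Hyp F → ℂ} (hx : IsEigenForm S a x) :
    IsEigenForm S a (R x) := by
  induction hR using Submodule.span_induction with
  | mem L hL =>
    obtain ⟨y, z, rfl, hy, -, hz⟩ := hL
    refine hx.rightTr fun w hw => ?_
    rw [hy, hz w fun h => hw (hP h), unipHom_zero]
  | zero => simpa using isEigenForm_zero
  | add L L' _ _ h h' => exact h.add h'
  | smul c L _ h => exact h.smul c

theorem polarVec_comp_mem (hR : R ∈ polarOps P) {v : FPlace F} [Fintype (ResM v 1)] (hv : v ∉ P)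
    {ϖ : (v.adicCompletion F)ˣ} (hϖ : valv v (ϖ : v.adicCompletion F) = WithZero.exp (-1 : ℤ))
    (w : ResM v 1 → ℂ) : polarVec ϖ w ∘ₗ R ∈ polarOps (insert v P) := by
  induction hR using Submodule.span_induction with
  | mem L hL =>
    obtain ⟨y, z, rfl, hy, hzb, hz⟩ := hL
    rw [show polarVec ϖ w ∘ₗ rightEnd y = ∑ b, w b • (polarTr ϖ b ∘ₗ rightEnd y) from
      LinearMap.ext fun x => by simp [polarVec_apply, LinearMap.sum_apply]]
    refine sum_mem fun b _ => Submodule.smul_mem _ _ (Submodule.subset_span ?_)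
    set t : v.adicCompletion F :=
      (b.out : v.adicCompletion F) * ((ϖ⁻¹ : (v.adicCompletion F)ˣ) : v.adicCompletion F)
    refine ⟨single v (unipHom (v.adicCompletion F) t) * y, Function.update z v t, ?_, fun u => ?_,
      fun u => ?_, fun u hu => ?_⟩
    · exact LinearMap.ext fun x => (rightTr_mul _ _ x).symm
    · show ((single v _ : Gf F) : ∀ w, GLv w) u * (y : ∀ w, GLv w) u = _
      by_cases h : u = v
      · subst h
        rw [single_apply_same, Function.update_self, hy, hz u hv, unipHom_zero, mul_one]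
      · rw [single_apply_ne h, one_mul, Function.update_of_ne h, hy]
    · by_cases h : u = v
      · subst h
        rw [Function.update_self, map_mul, valv_inv_unif hϖ]
        exact mul_le_of_le_one_left' b.out.2
      · rw [Function.update_of_ne h]; exact hzb u
    · rw [Finset.mem_insert, not_or] at hu
      rw [Function.update_of_ne hu.1]; exact hz u hu.2
  | zero => simp
  | add L L' _ _ h h' => rw [LinearMap.comp_add]; exact add_mem h h'
  | smul c L _ h => rw [LinearMap.comp_smul]; exact Submodule.smul_mem _ _ h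

theorem polarVec_trAt_comm {v u : FPlace F} [Fintype (ResM v 1)] (h : u ≠ v)
    (ϖ : (v.adicCompletion F)ˣ) (w : ResM v 1 → ℂ) (g : GLv u) (x : Gf F → Hyp F → ℂ) :
    polarVec ϖ w (trAt g x) = trAt g (polarVec ϖ w x) := by
  simp only [polarVec_apply, map_sum, map_smul]
  refine Finset.sum_congr rfl fun b _ => ?_
  congr 1
  show trAt _ (trAt g x) = trAt g (trAt _ x)
  rw [trAt_apply, trAt_apply, trAt_apply, trAt_apply, ← rightTr_mul, ← rightTr_mul,
    (commute_single (single_apply_ne h.symm g) _).eq]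

variable {K : IntermediateField ℚ Qbar} [NumberField K] [IsTotallyComplex K] (E : EisField K)

omit [IsTotallyComplex K] in
theorem IsNewAt.map {v : FPlace K} {k : ℕ} {ψ : Gf K → Hyp K → ℂ} (h : IsNewAt v k ψ)
    {L : Module.End ℂ (Gf K → Hyp K → ℂ)} (hL : ∀ (g : GLv v) x, L (trAt g x) = trAt g (L x)) :
    IsNewAt v k (L ψ) where
  fixed g hg := mem_fixer.mpr (by rw [← trAt_apply, ← hL, trAt_eq_of_mem (h.fixed hg)])
  polar R hR := by rw [← map_zero L, ← h.polar R hR, map_sum]; simp only [hL]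

/-- Forms of tame level at the places of `Q` with characters at the places of `P`. -/
def twistForms (Q P : Set (FPlace K)) (η : ∀ v : FPlace K, MulChar (ResM v 1) ℂ) :
    Submodule ℂ (Gf K → Hyp K → ℂ) where
  carrier := {x | (∀ w ∈ Q, tameSubgroup w ≤ fixer w x) ∧ ∀ w ∈ P, IsIwEigen (η w) x}
  add_mem' {x y} hx hy := by
    refine ⟨fun w hw h hh z => ?_, fun w hw => ⟨fun h hh z => ?_, fun g hg r hr => ?_⟩⟩
    · simp only [Pi.add_apply]; rw [hx.1 w hw hh z, hy.1 w hw hh z]
    · simp only [Pi.add_apply]; rw [(hx.2 w hw).center hh z, (hy.2 w hw).center hh z]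
    · rw [map_add, (hx.2 w hw).eigen g hg r hr, (hy.2 w hw).eigen g hg r hr, smul_add]
  zero_mem' := ⟨fun w _ h _ z => rfl, fun w _ => ⟨fun h _ z => rfl, fun g _ r _ => by simp⟩⟩
  smul_mem' c x hx :=
    ⟨fun w hw => (hx.1 w hw).trans (fixer_smul x c), fun w hw => (hx.2 w hw).smul c⟩

omit [IsTotallyComplex K] in
theorem twistForms_trAt {Q P : Set (FPlace K)} {η : ∀ v : FPlace K, MulChar (ResM v 1) ℂ}
    {v : FPlace K} (hQ : v ∉ Q) (hP : v ∉ P) (g : GLv v) {x : Gf K → Hyp K → ℂ}
    (hx : x ∈ twistForms Q P η) : trAt g x ∈ twistForms Q P η :=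
  ⟨fun w hw => (hx.1 w hw).trans (fixer_le_rightTr_of_ne (fun h : w = v => hQ (h ▸ hw)) x g),
    fun w hw => (hx.2 w hw).rightTr_of_ne (fun h : w = v => hP (h ▸ hw)) g⟩

include E in
/-- Twisting at the places of `P`, one at a time: a tame-level form with Iwahori characters whose
image under a polar operator is nonzero and new there. -/
theorem exists_twistOperator {S : Set (FPlace K)} {a : FPlace K → ℂ} (T3 T' : Finset (FPlace K))
    (hT' : ↑T' ⊆ S) (hdisj : Disjoint T3 T') (m : FPlace K → ℕ)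
    {ψ : Gf K → Hyp K → ℂ} (hψ : ψ ∈ condForms S a ∅ T3 m) (hψ0 : ψ ≠ 0)
    (hfix : ∀ v ∈ T', tameSubgroup v ≤ fixer v ψ) (P : Finset (FPlace K)) (hP : P ⊆ T') :
    ∃ (η : ∀ v : FPlace K, MulChar (ResM v 1) ℂ) (R : Module.End ℂ (Gf K → Hyp K → ℂ))
      (G : Gf K → Hyp K → ℂ), R ∈ polarOps P ∧ G ∈ condForms S a ∅ T3 m ∧
      G ∈ twistForms ((T' : Set (FPlace K)) \ P) P η ∧ R G ≠ 0 ∧
      (∀ x, (∀ w ∈ P, IsIwEigen (η w) x) → ∀ v ∈ P, IsNewAt v 1 (R x)) ∧
      ∀ v ∈ P, ∃ k : ℕ, ∀ u : (ResM v 1)ˣ, η v (u : ResM v 1) ^ 3 ^ k = 1 := by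
  induction P using Finset.induction_on with
  | empty =>
    exact ⟨fun _ => 1, LinearMap.id, ψ, id_mem_polarOps _, hψ,
      ⟨fun w hw => hfix w hw.1, fun w hw => by simp at hw⟩, hψ0, fun x _ v hv => by simp at hv,
      fun v hv => by simp at hv⟩
  | insert v P hvP ih =>
    obtain ⟨η, R, G, hR, hG, hGt, hne, hnew, hroot⟩ :=
      ih fun w hw => hP (Finset.mem_insert_of_mem hw)
    have hvT : v ∈ T' := hP (Finset.mem_insert_self v P)
    have hv3 : v ∉ T3 := Finset.disjoint_right.mp hdisj hvT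
    have := finite_resM v 1
    have := Fintype.ofFinite (ResM v 1)
    have hϖ := E.valv_unif v
    set ϖ := E.unif v
    set Q : Set (FPlace K) := (T' : Set (FPlace K)) \ ↑(insert v P)
    have hG' : G ∈ condForms S a ∅ (T3 : Set (FPlace K)) m ⊓ twistForms Q (P : Set (FPlace K)) η :=
      ⟨hG, fun w hw => hGt.1 w ⟨hw.1, fun h => hw.2 (Finset.mem_insert_of_mem h)⟩, hGt.2⟩
    have hcomm := fun (g : GLv v) x => polarOps_trAt hR hvP g x
    have hPS : ↑P ⊆ S := fun w hw => hT' (hP (Finset.mem_insert_of_mem hw))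
    have hVst : ∀ (g : GLv v),
      ∀ x ∈ condForms S a ∅ (T3 : Set (FPlace K)) m ⊓ twistForms Q (P : Set (FPlace K)) η,
        trAt g x ∈ condForms S a ∅ (T3 : Set (FPlace K)) m ⊓ twistForms Q (P : Set (FPlace K)) η :=
          fun g x hx =>
      ⟨condForms_trAt (hT' hvT) (Set.notMem_empty v) (Finset.mem_coe.not.mpr hv3) g hx.1,
        twistForms_trAt (fun h => h.2 (Finset.mem_insert_self v P))
          (Finset.mem_coe.not.mpr hvP) g hx.2⟩
    have hcusp : ∀ x ∈ condForms S a ∅ (T3 : Set (FPlace K)) m ⊓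
        twistForms Q (P : Set (FPlace K)) η, (∀ k ∈ intGL (valv v), ∀ z,
        k⁻¹ * unipHom (v.adicCompletion K) z * k ∈ fixer v (R x)) → R x = 0 := fun x hx hfix' => by
      have he := isEigenForm_polarOps hPS hR (show x ∈ condForms S a ∅ (T3 : Set (FPlace K)) m from
        hx.1).1
      obtain ⟨U, hU, -⟩ := he.exists_level
      exact eq_zero_of_unip_fixed E hU he.cuspidal hfix'
    have hfixv : tameSubgroup v ≤ fixer v G := hGt.1 v ⟨hvT, Finset.mem_coe.not.mpr hvP⟩
    obtain ⟨χv, G', hG'V, hIw, hk, hne'⟩ :=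
      exists_twist_step (R := R) (G := G) hϖ hVst hcomm hcusp hG' hfixv hne
    refine ⟨Function.update η v χv, polarVec ϖ (twistWeight χv) ∘ₗ R, G',
      polarVec_comp_mem hR hvP hϖ _, hG'V.1, ⟨hG'V.2.1, fun w hw => ?_⟩, hne', fun x hx w hw => ?_,
      fun w hw => ?_⟩
    · rcases Finset.mem_insert.mp hw with rfl | hwP
      · rw [Function.update_self]; exact hIw
      · rw [Function.update_of_ne (fun h : w = v => hvP (h ▸ hwP))]; exact hG'V.2.2 w hwP
    · rcases Finset.mem_insert.mp hw with rfl | hwP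
      · have hxv := (hx w (Finset.mem_insert_self w P)).map hcomm
        rw [Function.update_self] at hxv
        exact ⟨gammaSub_le_polarVec hϖ hxv (twistWeight_mul χv),
          fun S hS => polar_polarVec hϖ hxv (sum_twistWeight χv) S hS⟩
      · have hwv : w ≠ v := fun h => hvP (h ▸ hwP)
        refine (hnew x (fun u hu => ?_) w hwP).map (polarVec_trAt_comm hwv ϖ _)
        have hu' := hx u (Finset.mem_insert_of_mem hu)
        rwa [Function.update_of_ne (fun h : u = v => hvP (h ▸ hu))] at hu'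
    · rcases Finset.mem_insert.mp hw with rfl | hwP
      · rw [Function.update_self]; exact hk
      · rw [Function.update_of_ne (fun h : w = v => hvP (h ▸ hwP))]; exact hroot w hwP

open Classical in
/-- The tame places of a prepared form. -/
def NewForm.tamePlaces {ρ : Γℚ →* GL (Fin 2) (ZMod 3)} (N : NewForm ρ K) : Finset (FPlace K) :=
  N.T.filter fun v => (3 : 𝓞 K) ∉ v.asIdeal

/-- A prepared form which is a twist of a form `G` of tame level. -/
structure TwistVec (ρ : Γℚ →* GL (Fin 2) (ZMod 3)) (K : IntermediateField ℚ Qbar)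
    [NumberField K] where
  /-- the prepared form -/
  N : NewForm ρ K
  /-- the characters at the tame places -/
  η : ∀ v : FPlace K, MulChar (ResM v 1) ℂ
  /-- the form of tame level -/
  G : Gf K → Hyp K → ℂ
  /-- the twisting operator -/
  op : Module.End ℂ (Gf K → Hyp K → ℂ)
  op_mem : op ∈ polarOps N.tamePlaces
  op_G : op G = N.φ
  isEigen : IsEigenForm (N.T : Set (FPlace K)) (fun v => (N.a v : ℂ)) G
  eigen_tame : ∀ v ∈ N.tamePlaces, IsIwEigen (η v) G
  root : ∀ v ∈ N.tamePlaces, ∃ k : ℕ, ∀ u : (ResM v 1)ˣ, η v (u : ResM v 1) ^ 3 ^ k = 1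
  fixed_three : ∀ v ∈ N.T, (3 : 𝓞 K) ∈ v.asIdeal → gammaSub v (2 * N.m v) ≤ fixer v G

include E in
/-- A form with the eigenvalues of `ρ` yields a twist vector, in particular a `NewForm`. -/
theorem exists_twistVec {ρ : Γℚ →* GL (Fin 2) (ZMod 3)} (hρ : Continuous ρ) {τ : Γℚ} (hτ : χ τ ≠ 1)
    (hK : ∀ σ : Γℚ, σ ∈ K.fixingSubgroup ↔ χ σ = 1) {U : Level K}
    {φ : Gf K → Hyp K → ℂ} (hφ : IsKForm ρ K U φ) :
    Nonempty (TwistVec ρ K) := by
  classical
  obtain ⟨T, a, hT, ha, haT, hψ⟩ :=
    exists_eigenData hρ hτ hK E hφ.automorphic hφ.cuspidal hφ.spectral hφ.bounded hφ.good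
  have hJ : ∀ v, U.J v ≤ fixer v φ := fun v j hj x => hφ.automorphic.right x _ fun w => by
    by_cases hw : w = v
    · subst hw; rwa [single_apply_same]
    · rw [single_apply_ne hw]; exact one_mem _
  set T3 := T.filter fun v => (3 : 𝓞 K) ∈ v.asIdeal
  set T' := T.filter fun v => (3 : 𝓞 K) ∉ v.asIdeal
  have htm : ∀ v ∈ T', tameSubgroup v ≤ fixer v φ := by
    intro v hv
    have h3 := (Finset.mem_filter.mp hv).2
    obtain ⟨q, hq, hqv⟩ := E.exists_prime_mem v
    obtain ⟨A₀, hA₀⟩ := Gal.exists_liesOverPrime hq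
    obtain ⟨A, hAv, hAq⟩ : ∃ A, LiesOverPlace A v ∧ A.LiesOverPrime q := by
      rcases exists_liesOverPlace E hτ v hq hqv hA₀ with h | h
      · exact ⟨A₀, h, hA₀⟩
      · exact ⟨_, h, Gal.liesOverPrime_smul τ hA₀⟩
    refine (hφ.level_tame v A hAv fun h => h3 ?_).trans (hJ v)
    rw [Gal.liesOverPrime_unique hq Nat.prime_three hAq h] at hqv
    exact_mod_cast hqv
  have hm : ∀ v, ∃ n, 1 ≤ n ∧ ((3 : 𝓞 K) ∉ v.asIdeal → n = 1) ∧
      (v ∈ T3 → congSubgroup v n ≤ fixer v φ) := by
    intro v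
    by_cases h3 : (3 : 𝓞 K) ∈ v.asIdeal
    · obtain ⟨n, hn⟩ := U.exists_cong v
      exact ⟨max n 1, le_max_right _ _, fun h => absurd h3 h, fun _ =>
        ((congSubgroup_antitone v (le_max_left _ _)).trans hn).trans (hJ v)⟩
    · exact ⟨1, le_rfl, fun _ => rfl, fun h => absurd (Finset.mem_filter.mp h).2 h3⟩
  choose m₀ hm₁ hm₂ hm₃ using hm
  obtain ⟨x, p, hxp⟩ := hφ.nonzero
  let W : Submodule ℂ (Gf K → Hyp K → ℂ) := twistForms (T' : Set (FPlace K)) ∅ fun _ => 1
  obtain ⟨ψ, hψ3, hψW, hψ0⟩ := exists_allNew E T3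
    (Finset.coe_subset.mpr (Finset.filter_subset _ T)) m₀ (fun v _ => hm₁ v)
    hψ (fun h => hxp (by simp [h])) hm₃ (W := W)
    (fun v hv g y hy => twistForms_trAt (fun h : v ∈ (T' : Set (FPlace K)) =>
      (Finset.mem_filter.mp (Finset.mem_coe.mp h)).2 (Finset.mem_filter.mp hv).2)
      (Set.notMem_empty v) g hy)
    ⟨htm, fun w hw => hw.elim⟩ T3 subset_rfl
  have hψc : ψ ∈ condForms (T : Set (FPlace K)) (fun v => (a v : ℂ)) ∅ T3 m₀ :=
    ⟨hψ3.1, fun w hw => hw.elim, hψ3.2.2⟩
  obtain ⟨η, R, G, hR, hG, hGt, hne, hnew, hroot⟩ := exists_twistOperator E T3 T'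
    (Finset.coe_subset.mpr (Finset.filter_subset _ T))
    (Finset.disjoint_filter_filter_not T T fun v => (3 : 𝓞 K) ∈ v.asIdeal) m₀ hψc hψ0 hψW.1 T'
    subset_rfl
  let N : NewForm ρ K :=
    { T := T, mem_T := hT, m := m₀
      one_le := fun v _ => hm₁ v
      tame := fun v _ h3 => hm₂ v h3
      a := a, abs_le := ha, trace := haT, φ := R G
      isEigen := isEigenForm_polarOps (Finset.coe_subset.mpr (Finset.filter_subset _ T)) hR hG.1
      isNew := fun v hv => by
        by_cases h3 : (3 : 𝓞 K) ∈ v.asIdeal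
        · exact (hG.2.2 v (Finset.mem_filter.mpr ⟨hv, h3⟩)).map
            (polarOps_trAt hR fun h => (Finset.mem_filter.mp h).2 h3)
        · rw [hm₂ v h3]
          exact hnew G hGt.2 v (Finset.mem_filter.mpr ⟨hv, h3⟩)
      nonzero := hne }
  exact ⟨{ N := N, η := η, G := G, op := R, op_mem := hR, op_G := rfl, isEigen := hG.1
           eigen_tame := hGt.2, root := hroot
           fixed_three := fun v hv h3 => (hG.2.2 v (Finset.mem_filter.mpr ⟨hv, h3⟩)).fixed }⟩

end Fermat.Agent.ResidualThree.BianchiForm
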