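import Fermat.Agent.ResidualThree.BianchiForm.Hecke
import Fermat.Agent.ResidualThree.BianchiForm.TwistStatement
import Fermat.Agent.ResidualThree.BianchiForm.TwistVector

/-!
# The character of `ℤ[ω]/D` of a twist vector

The product over the tame places of the local characters of a twist vector, read on `ℤ[ω]`: it is
multiplicative, periodic modulo `D`, supported on the elements prime to `D`, and of three-power
order.
-/

noncomputable section

open IsDedekindDomain NumberField
open scoped WithZero ComplexConjugate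

namespace Fermat.Agent.ResidualThree.BianchiForm

local notation "Qbar" => AlgebraicClosure ℚ
local notation "Γℚ" => (AlgebraicClosure ℚ ≃ₐ[ℚ] AlgebraicClosure ℚ)
local notation "χ" => WeierstrassCurve.modThreeCyclotomicChar

variable {K : IntermediateField ℚ Qbar} [NumberField K]

namespace EisField

variable (E : EisField K)

theorem toK_mul (x y : Eis3) : E.toK (Eis3.mul x y) = E.toK x * E.toK y := by
  apply E.place.embedding.injective
  rw [map_mul, E.embedding_toK, E.embedding_toK, E.embedding_toK, Eis3.toC_mul]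

theorem toK_add (x y : Eis3) : E.toK (x + y) = E.toK x + E.toK y := by
  apply E.place.embedding.injective
  rw [map_add, E.embedding_toK, E.embedding_toK, E.embedding_toK, Eis3.toC_add]

theorem toK_intCast (n : ℤ) : E.toK (n, 0) = (n : K) := by
  apply E.place.embedding.injective
  rw [map_intCast, E.embedding_toK, Eis3.toC_intCast]

theorem toK_symm (a : 𝓞 K) : E.toK (EisRing.pair (E.e.symm a)) = (a : K) := by
  rw [E.toK_pair, RingEquiv.apply_symm_apply]

theorem valv_toK_le (v : FPlace K) (x : Eis3) :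
    valv v (algebraMap K (v.adicCompletion K) (E.toK x)) ≤ 1 := by
  rw [valv_algebraMap]; exact E.valuation_toK_le_one v x

/-- The residue of an Eisenstein integer. -/
def resE (v : FPlace K) (x : Eis3) : ResM v 1 :=
  resMk (algebraMap K (v.adicCompletion K) (E.toK x)) (E.valv_toK_le v x)

theorem resMk_congr {F : Type} [Field F] [NumberField F] {v : FPlace F} {a b : v.adicCompletion F}
    (ha : valv v a ≤ 1) (h : a = b) : resMk (m := 1) a ha = resMk b (h ▸ ha) := by subst h; rfl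

theorem resE_mul (v : FPlace K) (x y : Eis3) :
    E.resE v (Eis3.mul x y) = E.resE v x * E.resE v y := by
  refine (resMk_congr _ (by rw [E.toK_mul, map_mul])).trans (resMk_mul _ _ _)

theorem resE_add (v : FPlace K) (x y : Eis3) : E.resE v (x + y) = E.resE v x + E.resE v y := by
  refine (resMk_congr _ (by rw [E.toK_add, map_add])).trans (resMk_add _ _ _)

theorem resE_one (v : FPlace K) : E.resE v (1, 0) = 1 :=
  (resMk_congr (b := (1 : v.adicCompletion K)) _ (by
    rw [E.toK_intCast, Int.cast_one, map_one])).trans (map_one (Ideal.Quotient.mk (pmIdeal v 1)))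

theorem resE_eq_zero_iff (v : FPlace K) (x : Eis3) :
    E.resE v x = 0 ↔ E.e ⟨x.1, x.2⟩ ∈ v.asIdeal := by
  rw [← v.valuation_lt_one_iff_mem (K := K)]
  show _ ↔ v.valuation K (E.toK x) < 1
  rw [← valv_algebraMap, ← map_zero (Ideal.Quotient.mk (pmIdeal v 1))]
  refine Iff.trans (resMk_eq_iff (b := (0 : v.adicCompletion K)) (hb := by simp)) ?_
  rw [sub_zero]

end EisField

theorem eis_natCast_dvd {M : ℕ} {x : Eis3} (h : Eis3.dvd ((M : ℤ), 0) (x - (1, 0))) :
    Nat.ModEq M x.norm 1 := by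
  obtain ⟨z, hz⟩ := h
  simp only [Eis3.mul, zero_mul, sub_zero, add_zero, Prod.ext_iff, Prod.fst_sub, Prod.snd_sub] at hz
  rw [← Int.natCast_modEq_iff, Eis3.norm_cast_eq, Nat.cast_one,
    Int.modEq_iff_dvd, show x.1 = 1 + (M : ℤ) * z.1 by linarith,
    show x.2 = (M : ℤ) * z.2 by linarith]
  exact ⟨-(2 * z.1 + (M : ℤ) * z.1 ^ 2 - z.2 - (M : ℤ) * z.1 * z.2 + (M : ℤ) * z.2 ^ 2), by ring⟩

theorem conj_eq_inv_of_pow {z : ℂ} {k : ℕ} (h : z ^ 3 ^ k = 1) : conj z = z⁻¹ := by
  rw [Complex.inv_def, Complex.normSq_eq_norm_sq,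
    Complex.norm_eq_one_of_pow_eq_one h (pow_ne_zero _ (by norm_num))]
  simp

variable {ρ : Γℚ →* GL (Fin 2) (ZMod 3)}

namespace TwistVec

variable (TV : TwistVec ρ K) (E : EisField K)

/-- The character of the twist on `ℤ[ω]`: the product over the tame places of the inverses of the
local characters. -/
def chi (x : Eis3) : ℂ := ∏ v ∈ TV.N.tamePlaces, (TV.η v)⁻¹ (E.resE v x)

theorem chi_mul (x y : Eis3) : TV.chi E (Eis3.mul x y) = TV.chi E x * TV.chi E y := by
  simp only [chi, E.resE_mul, map_mul, Finset.prod_mul_distrib]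

theorem chi_one : TV.chi E (1, 0) = 1 := by
  simp only [chi, E.resE_one, map_one, Finset.prod_const_one]

variable {B : Finset ℕ} (hB : ∀ q : ℕ, q ∈ B ↔ q.Prime ∧ q ≠ 3 ∧ IsBadPrime ρ q)

theorem levelN_eq (N : NewForm ρ K) (B : Finset ℕ) :
    N.levelN B = 3 ^ N.threeExp * (∏ q ∈ B, q) ^ 2 := by
  rw [NewForm.levelN, Finset.prod_pow]

include hB in
theorem squarefree_prod : Squarefree (∏ q ∈ B, q) := by
  rw [Nat.squarefree_iff_prime_squarefree]
  intro q hq h
  have hqB : q ∈ B := by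
    obtain ⟨p, hp, hd⟩ := (hq.prime.dvd_finsetProd_iff _).mp (dvd_trans (dvd_mul_left q q) h)
    rwa [(Nat.prime_dvd_prime_iff_eq hq ((hB p).mp hp).1).mp hd]
  rw [← Finset.mul_prod_erase B (fun p => p) hqB] at h
  obtain ⟨p, hp, hd⟩ :=
    (hq.prime.dvd_finsetProd_iff _).mp ((mul_dvd_mul_iff_left hq.ne_zero).mp h)
  exact Finset.ne_of_mem_erase hp
    ((Nat.prime_dvd_prime_iff_eq hq ((hB p).mp (Finset.mem_of_mem_erase hp)).1).mp hd).symm

include hB in
theorem not_three_dvd_prod : ¬ 3 ∣ ∏ q ∈ B, q := fun h => by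
  obtain ⟨p, hp, hd⟩ := (Nat.prime_three.prime.dvd_finsetProd_iff _).mp h
  exact ((hB p).mp hp).2.1
    ((Nat.prime_dvd_prime_iff_eq Nat.prime_three ((hB p).mp hp).1).mp hd).symm

include hB E in
theorem mem_tamePlaces_iff (hK : ∀ σ : Γℚ, σ ∈ K.fixingSubgroup ↔ χ σ = 1) {τ : Γℚ}
    (hτ : χ τ ≠ 1) (v : FPlace K) :
    v ∈ TV.N.tamePlaces ↔ ((∏ q ∈ B, q : ℕ) : 𝓞 K) ∈ v.asIdeal := by
  classical
  rw [NewForm.tamePlaces, Finset.mem_filter, TV.N.mem_T_iff E hB hK hτ, levelN_eq, Nat.cast_mul,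
    Nat.cast_pow, Nat.cast_pow]
  constructor
  · rintro ⟨h, h3⟩
    rcases v.isPrime.mem_or_mem h with h | h
    · exact absurd (by exact_mod_cast v.isPrime.mem_of_pow_mem _ h) h3
    · exact v.isPrime.mem_of_pow_mem _ h
  · intro h
    refine ⟨Ideal.mul_mem_left _ _ (Ideal.pow_mem_of_mem _ h 2 two_pos), fun h3 => ?_⟩
    obtain ⟨a, b, hab⟩ := Int.isCoprime_iff_gcd_eq_one.mpr
      (show Int.gcd ((∏ q ∈ B, q : ℕ) : ℤ) (3 : ℕ) = 1 by
        rw [Int.gcd_natCast_natCast]
        exact ((Nat.prime_three.coprime_iff_not_dvd).mpr (not_three_dvd_prod hB)).symm)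
    refine v.isPrime.ne_top ((Ideal.eq_top_iff_one _).mpr ?_)
    rw [show (1 : 𝓞 K) = (a : 𝓞 K) * ((∏ q ∈ B, q : ℕ) : 𝓞 K) + (b : 𝓞 K) * 3 by
      have := congrArg (Int.cast (R := 𝓞 K)) hab
      push_cast at this ⊢
      exact this.symm]
    exact add_mem (Ideal.mul_mem_left _ _ h) (Ideal.mul_mem_left _ _ h3)

variable (hK : ∀ σ : Γℚ, σ ∈ K.fixingSubgroup ↔ χ σ = 1) {τ : Γℚ} (hτ : χ τ ≠ 1)

include hB hK hτ in
theorem chi_periodic (x y : Eis3) :
    TV.chi E (x + Eis3.mul (((∏ q ∈ B, q : ℕ) : ℤ), 0) y) = TV.chi E x := by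
  refine Finset.prod_congr rfl fun v hv => ?_
  have h0 : E.resE v (((∏ q ∈ B, q : ℕ) : ℤ), 0) = 0 := by
    rw [E.resE_eq_zero_iff, show (⟨_, _⟩ : EisRing) = ((∏ q ∈ B, q : ℕ) : EisRing) from
      EisRing.pair_injective (EisRing.pair_natCast _).symm, map_natCast]
    exact (TV.mem_tamePlaces_iff E hB hK hτ v).mp hv
  rw [E.resE_add, E.resE_mul, h0, zero_mul, add_zero]

include hB hK hτ in
theorem chi_ne_zero_iff (x : Eis3) :
    TV.chi E x ≠ 0 ↔ Nat.Coprime x.norm (∏ q ∈ B, q) := by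
  set D : ℕ := ∏ q ∈ B, q with hD
  constructor
  · intro h
    by_cases htop : Ideal.span {E.e ⟨x.1, x.2⟩, ((D : ℕ) : 𝓞 K)} = ⊤
    · obtain ⟨a, b, hab⟩ := Ideal.mem_span_pair.mp ((Ideal.eq_top_iff_one _).mp htop)
      set a' := EisRing.pair (E.e.symm a)
      set b' := EisRing.pair (E.e.symm b)
      have hd : Eis3.dvd ((D : ℤ), 0) (Eis3.mul x a' - (1, 0)) := by
        refine ⟨-b', ?_⟩
        apply Eis3.toC_injective
        have := congrArg (fun t : 𝓞 K => E.place.embedding (t : K)) hab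
        simp only [map_add, map_mul, map_natCast, map_one] at this
        have ha : a'.toC = E.place.embedding (algebraMap (𝓞 K) K a) := by
          rw [← E.embedding_toK E.place, E.toK_symm]
        have hb : b'.toC = E.place.embedding (algebraMap (𝓞 K) K b) := by
          rw [← E.embedding_toK E.place, E.toK_symm]
        have hxx : x.toC = E.place.embedding (algebraMap (𝓞 K) K (E.e ⟨x.1, x.2⟩)) :=
          (E.embedding_toK E.place x).symm
        rw [Eis3.toC_mul, Eis3.toC_sub, Eis3.toC_neg, Eis3.toC_mul, Eis3.toC_intCast, Eis3.toC_one,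
          ha, hb, hxx]
        push_cast
        linear_combination -this
      have h1 := eis_natCast_dvd hd
      rw [Eis3.norm_mul] at h1
      exact (Nat.coprime_iff_gcd_eq_one.mpr (by
        have := h1.gcd_eq; rwa [Nat.gcd_one_left] at this)).coprime_mul_right
    · obtain ⟨M, hM, hle⟩ := Ideal.exists_le_maximal _ htop
      have hDM : (D : 𝓞 K) ∈ M := hle (Ideal.subset_span (by simp))
      have hbot : M ≠ ⊥ := by
        rintro rfl
        have hpos : D ≠ 0 := (Finset.prod_pos fun q hq => ((hB q).mp hq).1.pos).ne'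
        exact hpos (by exact_mod_cast (Ideal.mem_bot.mp hDM))
      set v : FPlace K := ⟨M, hM.isPrime, hbot⟩
      refine absurd (Finset.prod_eq_zero ((TV.mem_tamePlaces_iff E hB hK hτ v).mpr hDM) ?_) h
      rw [(E.resE_eq_zero_iff v x).mpr (hle (Ideal.subset_span (by simp))), MulChar.map_zero]
  · intro h
    refine Finset.prod_ne_zero_iff.mpr fun v hv h0 => ?_
    have hx : E.resE v x = 0 := by
      by_contra hne
      exact ((isUnit_resM hne).map (TV.η v)⁻¹).ne_zero h0
    rw [E.resE_eq_zero_iff] at hx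
    obtain ⟨a, b, hab⟩ := Int.isCoprime_iff_gcd_eq_one.mpr
      (show Int.gcd (x.norm : ℤ) (D : ℕ) = 1 by rw [Int.gcd_natCast_natCast]; exact h)
    have hn : (x.norm : 𝓞 K) ∈ v.asIdeal := by
      rw [← map_natCast E.e,
        show ((x.norm : ℕ) : EisRing) = ⟨x.1, x.2⟩ * star ⟨x.1, x.2⟩ from
          (EisRing.mul_star_eq ⟨x.1, x.2⟩).symm, map_mul]
      exact Ideal.mul_mem_right _ _ hx
    refine v.isPrime.ne_top ((Ideal.eq_top_iff_one _).mpr ?_)
    rw [show (1 : 𝓞 K) = (a : 𝓞 K) * (x.norm : 𝓞 K) + (b : 𝓞 K) * (D : 𝓞 K) by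
      have := congrArg (Int.cast (R := 𝓞 K)) hab
      push_cast at this ⊢
      exact this.symm]
    exact add_mem (Ideal.mul_mem_left _ _ hn)
      (Ideal.mul_mem_left _ _ ((TV.mem_tamePlaces_iff E hB hK hτ v).mp hv))

theorem chi_root (x : Eis3) (h : TV.chi E x ≠ 0) : ∃ k : ℕ, TV.chi E x ^ 3 ^ k = 1 := by
  classical
  have hex : ∀ v : FPlace K, ∃ k : ℕ,
      v ∈ TV.N.tamePlaces → (TV.η v)⁻¹ (E.resE v x) ^ 3 ^ k = 1 := fun v => by
    by_cases hv : v ∈ TV.N.tamePlaces
    · obtain ⟨k, hk⟩ := TV.root v hv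
      refine ⟨k, fun _ => ?_⟩
      obtain ⟨u, hu⟩ := isUnit_resM (show E.resE v x ≠ 0 from fun h0 =>
        Finset.prod_ne_zero_iff.mp h v hv (by rw [h0, MulChar.map_zero]))
      rw [← hu, MulChar.inv_apply, Ring.inverse_unit]
      exact hk u⁻¹
    · exact ⟨0, fun h => absurd h hv⟩
  choose k hk using hex
  refine ⟨∑ v ∈ TV.N.tamePlaces, k v, ?_⟩
  rw [chi, ← Finset.prod_pow]
  refine Finset.prod_eq_one fun v hv => ?_
  rw [← Finset.add_sum_erase _ _ hv, pow_add, pow_mul, hk v hv, one_pow]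

end TwistVec

end Fermat.Agent.ResidualThree.BianchiForm
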