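import Mathlib.NumberTheory.MulChar.Duality
import Fermat.Agent.ResidualThree.Automorphic.Tame
import Fermat.Agent.ResidualThree.BianchiForm.NewVector

/-!
# Vectors with a character of the Iwahori group and their twists to level `p²`

Residues modulo `p`, the Iwahori elements and the ratio of their diagonal, and the decomposition
of a vector of tame level into eigencomponents for the characters of `(O/p)ˣ`; nonzero components
have characters of three-power order.
-/

noncomputable section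

open IsDedekindDomain NumberField
open scoped WithZero Classical

namespace Fermat.Agent.ResidualThree.BianchiForm

open Fermat.Agent.ResidualThree.Tree (intGL diagGL)

variable {F : Type} [Field F] [NumberField F] {v : FPlace F}

/-! ### The residue ring `O/p` -/

variable (v) in
theorem pmIdeal_one_eq : pmIdeal v 1 = IsLocalRing.maximalIdeal (Ov v) := by
  refine Ideal.ext fun z => ?_
  show valv v (z : v.adicCompletion F) ≤ WithZero.exp (-((1 : ℕ) : ℤ)) ↔ _
  rw [Valuation.mem_maximalIdeal_iff, Tree.lt_one_iff_le_exp, Nat.cast_one]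

theorem isUnit_resM {a : ResM v 1} (ha : a ≠ 0) : IsUnit a := by
  have hmax : (pmIdeal v 1).IsMaximal := by rw [pmIdeal_one_eq]; infer_instance
  obtain ⟨b, hb⟩ :=
    ((Ideal.Quotient.maximal_ideal_iff_isField_quotient _).mp hmax).mul_inv_cancel ha
  exact IsUnit.of_mul_eq_one b hb

instance nontrivial_resM : Nontrivial (ResM v 1) :=
  Ideal.Quotient.nontrivial_iff.mpr
    (by rw [pmIdeal_one_eq]; exact Ideal.IsPrime.ne_top inferInstance)

variable (v) in
theorem card_resM : Nat.card (ResM v 1) = Ideal.absNorm v.asIdeal := by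
  rw [← (isLocalVal_valv v).card_residue]
  exact Nat.card_congr (Ideal.quotEquivOfEq (pmIdeal_one_eq v)).toEquiv

theorem resM_unit_pow (u : (ResM v 1)ˣ) : u ^ (Ideal.absNorm v.asIdeal - 1) = 1 := by
  classical
  have := finite_resM v 1
  have := Fintype.ofFinite (ResM v 1)
  let e : (ResM v 1)ˣ ≃ {a : ResM v 1 // a ≠ 0} :=
    Equiv.ofBijective (fun u => ⟨(u : ResM v 1), u.ne_zero⟩)
      ⟨fun a b h => Units.ext (congrArg Subtype.val h),
        fun a => ⟨(isUnit_resM a.2).unit, Subtype.ext rfl⟩⟩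
  have h : Nat.card (ResM v 1)ˣ = Nat.card (ResM v 1) - 1 := by
    rw [Nat.card_congr e, Nat.card_eq_fintype_card, Nat.card_eq_fintype_card,
      Fintype.card_subtype_compl, Fintype.card_subtype_eq]
  rw [← card_resM, ← h]
  exact pow_card_eq_one'

theorem resMk_eq_iff {a b : v.adicCompletion F} {ha : valv v a ≤ 1} {hb : valv v b ≤ 1} :
    resMk (m := 1) a ha = resMk b hb ↔ valv v (a - b) < 1 := by
  refine mk_eq_iff.trans ?_
  rw [Tree.lt_one_iff_le_exp, Nat.cast_one]

theorem valv_out_sub_lt (z : v.adicCompletion F) (hz : valv v z ≤ 1) :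
    valv v (((resMk (m := 1) z hz).out : v.adicCompletion F) - z) < 1 :=
  (out_resMk_sub z hz).trans_lt (exp_neg_lt_one le_rfl)

theorem resMk_out (a : ResM v 1) : resMk (m := 1) (a.out : v.adicCompletion F) a.out.2 = a :=
  Ideal.Quotient.mk_out a

theorem resMk_mul {a b : v.adicCompletion F} (ha : valv v a ≤ 1) (hb : valv v b ≤ 1)
    (hab : valv v (a * b) ≤ 1) :
    resMk (m := 1) (a * b) hab = resMk a ha * resMk b hb := by
  rw [resMk, resMk, resMk, ← map_mul]; rfl

theorem resMk_add {a b : v.adicCompletion F} (ha : valv v a ≤ 1) (hb : valv v b ≤ 1)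
    (hab : valv v (a + b) ≤ 1) :
    resMk (m := 1) (a + b) hab = resMk a ha + resMk b hb := by
  rw [resMk, resMk, resMk, ← map_add]; rfl

/-! ### Vectors with a character of the Iwahori group -/

/-- Integral and upper triangular modulo `p`. -/
def IsIwahori (g : GLv v) : Prop :=
  IsIntGL (valv v) g ∧
    valv v ((g : Matrix (Fin 2) (Fin 2) (v.adicCompletion F)) 1 0) < 1

/-- The ratio of the diagonal entries modulo `p`. -/
def HasRatio (g : GLv v) (r : (ResM v 1)ˣ) : Prop :=
  valv v ((g : Matrix (Fin 2) (Fin 2) (v.adicCompletion F)) 0 0 -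
    ((r : ResM v 1).out : v.adicCompletion F) *
      (g : Matrix (Fin 2) (Fin 2) (v.adicCompletion F)) 1 1) < 1

theorem IsIwahori.valv_diag {g : GLv v} (hg : IsIwahori g) :
    valv v ((g : Matrix (Fin 2) (Fin 2) (v.adicCompletion F)) 0 0) = 1 ∧
      valv v ((g : Matrix (Fin 2) (Fin 2) (v.adicCompletion F)) 1 1) = 1 := by
  obtain ⟨hint, h10⟩ := hg
  set M := (g : Matrix (Fin 2) (Fin 2) (v.adicCompletion F))
  have hbc : valv v (M 0 1 * M 1 0) < 1 := by
    rw [map_mul]; exact lt_of_le_of_lt (mul_le_of_le_one_left' (hint.1 0 1)) h10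
  have had : valv v (M 0 0 * M 1 1) = 1 := by
    have hdet := hint.2
    rw [Matrix.det_fin_two] at hdet
    calc valv v (M 0 0 * M 1 1)
        = valv v ((M 0 0 * M 1 1 - M 0 1 * M 1 0) + M 0 1 * M 1 0) := by rw [sub_add_cancel]
      _ = 1 := by rw [(valv v).map_add_eq_of_lt_left (by rwa [hdet]), hdet]
  exact ⟨le_antisymm (hint.1 0 0) (by
    rw [← had, map_mul]; exact mul_le_of_le_one_right' (hint.1 1 1)),
    le_antisymm (hint.1 1 1) (by
    rw [← had, map_mul]; exact mul_le_of_le_one_left' (hint.1 0 0))⟩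

theorem exists_unit_class {a : v.adicCompletion F} (ha : valv v a = 1) :
    ∃ u : (ResM v 1)ˣ, valv v (a - ((u : ResM v 1).out : v.adicCompletion F)) < 1 := by
  have hne : resMk (m := 1) a ha.le ≠ 0 := by
    intro h
    have h0 : resMk (m := 1) a ha.le = resMk (0 : v.adicCompletion F) (by simp) :=
      h.trans (map_zero (Ideal.Quotient.mk (pmIdeal v 1))).symm
    rw [resMk_eq_iff, sub_zero, ha] at h0
    exact lt_irrefl _ h0
  refine ⟨(isUnit_resM hne).unit, ?_⟩
  rw [IsUnit.unit_spec, Valuation.map_sub_swap]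
  exact valv_out_sub_lt a ha.le

theorem IsIwahori.exists_ratio {g : GLv v} (hg : IsIwahori g) : ∃ r, HasRatio g r := by
  obtain ⟨h0, h1⟩ := hg.valv_diag
  set M := (g : Matrix (Fin 2) (Fin 2) (v.adicCompletion F))
  have hq : valv v (M 0 0 / M 1 1) = 1 := by rw [map_div₀, h0, h1, div_one]
  obtain ⟨r, hr⟩ := exists_unit_class hq
  refine ⟨r, ?_⟩
  have hne : M 1 1 ≠ 0 := fun h => by simp [h] at h1
  show valv v (M 0 0 - ((r : ResM v 1).out : v.adicCompletion F) * M 1 1) < 1
  rw [show M 0 0 - ((r : ResM v 1).out : v.adicCompletion F) * M 1 1 =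
    (M 0 0 / M 1 1 - ((r : ResM v 1).out : v.adicCompletion F)) * M 1 1 by
      rw [sub_mul, div_mul_cancel₀ _ hne], map_mul, h1, mul_one]
  exact hr

theorem valv_pow_sub_lt {x y : v.adicCompletion F} (hx : valv v x ≤ 1) (hy : valv v y ≤ 1)
    (h : valv v (x - y) < 1) (n : ℕ) : valv v (x ^ n - y ^ n) < 1 := by
  have e : x ^ n - y ^ n = (∑ i ∈ Finset.range n, x ^ i * y ^ (n - 1 - i)) * (x - y) :=
    (geom_sum₂_mul x y n).symm
  rw [e, map_mul]
  refine lt_of_le_of_lt (mul_le_of_le_one_left' ?_) h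
  refine Valuation.map_sum_le _ fun i _ => ?_
  rw [map_mul, map_pow, map_pow]
  exact mul_le_one' (pow_le_one' hx _) (pow_le_one' hy _)

theorem mem_tameSubgroup {g : GLv v} (hg : IsIwahori g)
    (h : valv v ((g : Matrix (Fin 2) (Fin 2) (v.adicCompletion F)) 0 0 ^ primeToThreeOrder v -
      (g : Matrix (Fin 2) (Fin 2) (v.adicCompletion F)) 1 1 ^ primeToThreeOrder v) < 1) :
    g ∈ tameSubgroup v :=
  Subgroup.subset_closure (Or.inl ⟨hg.1, hg.2, h⟩)

theorem mem_tameSubgroup_of_diag {g : GLv v} (hg : IsIwahori g)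
    (h : valv v ((g : Matrix (Fin 2) (Fin 2) (v.adicCompletion F)) 0 0 -
      (g : Matrix (Fin 2) (Fin 2) (v.adicCompletion F)) 1 1) < 1) :
    g ∈ tameSubgroup v :=
  mem_tameSubgroup hg (valv_pow_sub_lt (hg.1.1 0 0) (hg.1.1 1 1) h _)

variable {x y : Gf F → Hyp F → ℂ}

theorem congSubgroup_le_fixer_of_tame (hx : tameSubgroup v ≤ fixer v x) :
    congSubgroup v 1 ≤ fixer v x :=
  (congSubgroup_one_le_tame v).trans hx

/-- The Iwahori group permutes the torus translates. -/
theorem iwahori_dOp (hx : tameSubgroup v ≤ fixer v x) {g : GLv v} (hg : IsIwahori g)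
    {r : (ResM v 1)ˣ} (hr : HasRatio g r) (u : (ResM v 1)ˣ) :
    trAt g (dOp le_rfl u x) = dOp le_rfl (r * u) x := by
  rw [dOp, dOp, ← trAt_mul]
  refine trAt_eq_of_inv_mul_mem (hx ?_)
  set A := unitLift le_rfl (r * u) with hA
  set U := unitLift le_rfl u with hU
  have hAv : valv v (A : v.adicCompletion F) = 1 := valv_unitLift le_rfl _
  have hUv : valv v (U : v.adicCompletion F) = 1 := valv_unitLift le_rfl _
  obtain ⟨h0, h1⟩ := hg.valv_diag
  set M := (g : Matrix (Fin 2) (Fin 2) (v.adicCompletion F)) with hM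
  have hinv : (torusGL A)⁻¹ = torusGL A⁻¹ :=
    inv_eq_of_mul_eq_one_left (by rw [← torusGL_mul, inv_mul_cancel, torusGL_one])
  have e : ((((torusGL A)⁻¹ * (g * torusGL U)) : GLv v) :
      Matrix (Fin 2) (Fin 2) (v.adicCompletion F)) =
      !![(A : v.adicCompletion F)⁻¹ * M 0 0 * U, (A : v.adicCompletion F)⁻¹ * M 0 1;
        M 1 0 * U, M 1 1] := by
    rw [hinv, Units.val_mul, Units.val_mul, coe_torusGL, coe_torusGL, ← hM,
      Units.val_inv_eq_inv_val,
      Matrix.eta_fin_two M, Matrix.mul_fin_two, Matrix.mul_fin_two]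
    ext i j
    fin_cases i <;> fin_cases j <;> simp [mul_assoc]
  have hint : IsIntGL (valv v) ((torusGL A)⁻¹ * (g * torusGL U)) :=
    mul_mem (inv_mem (torusGL_mem_intGL hAv)) (mul_mem hg.1 (torusGL_mem_intGL hUv))
  refine mem_tameSubgroup_of_diag ⟨hint, ?_⟩ ?_
  · rw [e]; simpa [map_mul, hUv] using hg.2
  · rw [e]
    simp only [Matrix.of_apply, Matrix.cons_val', Matrix.cons_val_zero, Matrix.cons_val_one,
      Matrix.cons_val_fin_one]
    set R := ((r : ResM v 1).out : v.adicCompletion F) with hR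
    have hRv : valv v R ≤ 1 := (r : ResM v 1).out.2
    have hA' : valv v ((A : v.adicCompletion F) - R * U) < 1 := by
      have hu1 : valv v (R * U) ≤ 1 := by rw [map_mul, hUv, mul_one]; exact hRv
      rw [← resMk_eq_iff (ha := hAv.le) (hb := hu1), resMk_mul hRv hUv.le]
      simp only [hA, hU, hR, coe_unitLift, resMk_out, Units.val_mul]
    have hne : (A : v.adicCompletion F) ≠ 0 := A.ne_zero
    rw [show (A : v.adicCompletion F)⁻¹ * M 0 0 * U - M 1 1 = (A : v.adicCompletion F)⁻¹ *
        ((M 0 0 - R * M 1 1) * U - ((A : v.adicCompletion F) - R * U) * M 1 1) by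
      field_simp; ring, map_mul, map_inv₀, hAv, inv_one, one_mul]
    refine (valv v).map_sub_lt ?_ ?_
    · rw [map_mul, hUv, mul_one]; exact hr
    · rw [map_mul, h1, mul_one]; exact hA'

/-- `y` transforms by `χ` of the ratio under the Iwahori group. -/
structure IsIwEigen (χ : MulChar (ResM v 1) ℂ) (y : Gf F → Hyp F → ℂ) : Prop where
  center : Subgroup.center (GLv v) ≤ fixer v y
  eigen : ∀ g : GLv v, IsIwahori g → ∀ r, HasRatio g r → trAt g y = χ (r : ResM v 1) • y

/-- The component of a character. -/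
def chiComp [Fintype (ResM v 1)] (χ : MulChar (ResM v 1) ℂ) :
    (Gf F → Hyp F → ℂ) →ₗ[ℂ] (Gf F → Hyp F → ℂ) :=
  ∑ u : (ResM v 1)ˣ, χ ((u⁻¹ : (ResM v 1)ˣ) : ResM v 1) • dOp le_rfl u

theorem chiComp_apply [Fintype (ResM v 1)] (χ : MulChar (ResM v 1) ℂ) (x : Gf F → Hyp F → ℂ) :
    chiComp χ x = ∑ u : (ResM v 1)ˣ, χ ((u⁻¹ : (ResM v 1)ˣ) : ResM v 1) • dOp le_rfl u x := by
  simp [chiComp, LinearMap.sum_apply]

theorem isIwEigen_chiComp [Fintype (ResM v 1)] (χ : MulChar (ResM v 1) ℂ)
    (hx : tameSubgroup v ≤ fixer v x) : IsIwEigen χ (chiComp χ x) where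
  center := by
    intro c hc
    rw [chiComp_apply]
    exact fixer_sum _ _ fun u _ => fixer_smul _ _
      (dOp_fixed le_rfl (congSubgroup_le_fixer_of_tame hx) u (center_le_congSubgroup 1 hc))
  eigen g hg r hr := by
    rw [chiComp_apply, map_sum, Finset.smul_sum]
    refine Fintype.sum_equiv (Equiv.mulLeft r) _ _ fun u => ?_
    rw [map_smul, iwahori_dOp hx hg hr, Equiv.coe_mulLeft, smul_smul, ← map_mul, ← Units.val_mul,
      mul_inv_rev, mul_comm u⁻¹, mul_inv_cancel_left]

theorem IsIwEigen.smul {χ : MulChar (ResM v 1) ℂ} (h : IsIwEigen χ y) (c : ℂ) :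
    IsIwEigen χ (c • y) :=
  ⟨h.center.trans (fixer_smul y c), fun g hg r hr => by
    rw [map_smul, h.eigen g hg r hr, smul_comm]⟩

theorem IsIwEigen.rightTr_of_ne {χ : MulChar (ResM v 1) ℂ} (h : IsIwEigen χ y) {w : FPlace F}
    (hw : v ≠ w) (g : GLv w) : IsIwEigen χ (trAt g y) := by
  refine ⟨h.center.trans (fixer_le_rightTr_of_ne hw y g), fun j hj r hr => ?_⟩
  rw [trAt_apply, trAt_apply, ← rightTr_mul, (commute_single (single_apply_ne hw.symm j) g).eq,
    rightTr_mul, ← trAt_apply, ← trAt_apply, h.eigen j hj r hr, map_smul, trAt_apply]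

theorem IsIwEigen.trAt_unip {χ : MulChar (ResM v 1) ℂ} (h : IsIwEigen χ y) {z : v.adicCompletion F}
    (hz : valv v z ≤ 1) : trAt (unipHom (v.adicCompletion F) z) y = y := by
  have hg : IsIwahori (unipHom (v.adicCompletion F) z) :=
    ⟨isIntGL_unipHom v hz, by simp [coe_unipHom]⟩
  have hr : HasRatio (unipHom (v.adicCompletion F) z) 1 := by
    show valv v (_ - ((1 : (ResM v 1)ˣ) : ResM v 1).out * _) < 1
    rw [Units.val_one, show (1 : ResM v 1) = resMk (m := 1) (1 : v.adicCompletion F) (by simp) from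
      (map_one (Ideal.Quotient.mk (pmIdeal v 1))).symm, Valuation.map_sub_swap]
    simpa [coe_unipHom] using valv_out_sub_lt (1 : v.adicCompletion F) (by simp)
  rw [h.eigen _ hg 1 hr, Units.val_one, map_one, one_smul]

theorem apply_pow_eq_one_of_chiComp_ne [Fintype (ResM v 1)] {χ : MulChar (ResM v 1) ℂ}
    (hx : tameSubgroup v ≤ fixer v x) (hne : chiComp χ x ≠ 0) {u : (ResM v 1)ˣ}
    (hu : u ^ primeToThreeOrder v = 1) : χ (u : ResM v 1) = 1 := by
  classical
  set U := unitLift le_rfl u with hU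
  have hUv : valv v (U : v.adicCompletion F) = 1 := valv_unitLift le_rfl _
  have hiw : IsIwahori (torusGL U) := ⟨torusGL_mem_intGL hUv, by simp [coe_torusGL]⟩
  have hmem : torusGL U ∈ tameSubgroup v := by
    refine mem_tameSubgroup hiw ?_
    simp only [coe_torusGL, Matrix.of_apply, Matrix.cons_val', Matrix.cons_val_zero,
      Matrix.cons_val_one, Matrix.cons_val_fin_one, one_pow]
    have hp : valv v ((U : v.adicCompletion F) ^ primeToThreeOrder v) ≤ 1 := by
      rw [map_pow, hUv, one_pow]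
    rw [← resMk_eq_iff (ha := hp) (hb := (map_one (valv v)).le)]
    show Ideal.Quotient.mk _ _ = Ideal.Quotient.mk _ 1
    rw [map_one, show (⟨(U : v.adicCompletion F) ^ primeToThreeOrder v, hp⟩ : Ov v) =
      (u : ResM v 1).out ^ primeToThreeOrder v from Subtype.ext (by simp [hU, coe_unitLift]),
      map_pow, Ideal.Quotient.mk_out, ← Units.val_pow_eq_pow_val, hu, Units.val_one]
  have hfix : dOp le_rfl u x = x := trAt_eq_of_mem (hx hmem)
  have hr : HasRatio (torusGL U) u := by
    show valv v _ < 1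
    simp [coe_torusGL, hU, coe_unitLift]
  have h1 := (isIwEigen_chiComp χ hx).eigen _ hiw u hr
  have h2 : trAt (torusGL U) (chiComp χ x) = chiComp χ x := by
    rw [chiComp_apply, map_sum]
    refine Finset.sum_congr rfl fun s _ => ?_
    rw [map_smul, iwahori_dOp hx hiw hr, mul_comm u s]
    congr 1
    have hs : IsIwahori (torusGL (unitLift le_rfl s)) :=
      ⟨torusGL_mem_intGL (valv_unitLift le_rfl _), by simp [coe_torusGL]⟩
    have hsr : HasRatio (torusGL (unitLift le_rfl s)) s := by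
      show valv v _ < 1
      simp [coe_torusGL, coe_unitLift]
    rw [← iwahori_dOp hx hs hsr u, hfix]
    rfl
  have h3 : (χ (u : ResM v 1) - 1) • chiComp χ x = 0 := by
    rw [sub_smul, ← h1, h2, one_smul, sub_self]
  exact sub_eq_zero.mp ((smul_eq_zero.mp h3).resolve_right hne)

theorem exists_three_pow_of_chiComp_ne [Fintype (ResM v 1)] {χ : MulChar (ResM v 1) ℂ}
    (hx : tameSubgroup v ≤ fixer v x) (hne : chiComp χ x ≠ 0) :
    ∃ k : ℕ, ∀ u : (ResM v 1)ˣ, χ (u : ResM v 1) ^ 3 ^ k = 1 := by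
  refine ⟨(Ideal.absNorm v.asIdeal - 1).factorization 3, fun u => ?_⟩
  rw [← map_pow, ← Units.val_pow_eq_pow_val]
  refine apply_pow_eq_one_of_chiComp_ne hx hne ?_
  rw [← pow_mul, primeToThreeOrder, Nat.mul_div_cancel' (Nat.ordProj_dvd _ _)]
  exact resM_unit_pow u

theorem sum_chiComp [Fintype (ResM v 1)] [Fintype (MulChar (ResM v 1) ℂ)]
    (hx : tameSubgroup v ≤ fixer v x) :
    ∑ χ : MulChar (ResM v 1) ℂ, chiComp χ x = (Fintype.card (MulChar (ResM v 1) ℂ) : ℂ) • x := by
  have h : ∀ u : (ResM v 1)ˣ, ∑ χ : MulChar (ResM v 1) ℂ, χ (u : ResM v 1) =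
      if u = 1 then (Fintype.card (MulChar (ResM v 1) ℂ) : ℂ) else 0 := by
    intro u
    split_ifs with hu
    · simp [hu]
    · obtain ⟨η, hη⟩ := MulChar.exists_apply_ne_one_of_hasEnoughRootsOfUnity (ResM v 1) ℂ
        (a := (u : ResM v 1)) (fun h => hu (Units.ext h))
      have e : η (u : ResM v 1) * ∑ χ : MulChar (ResM v 1) ℂ, χ (u : ResM v 1) =
          ∑ χ : MulChar (ResM v 1) ℂ, χ (u : ResM v 1) := by
        rw [Finset.mul_sum]
        exact Fintype.sum_equiv (Equiv.mulLeft η) _ _ fun χ => rfl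
      exact (mul_eq_zero.mp (show (η (u : ResM v 1) - 1) * _ = 0 by
        rw [sub_mul, e, one_mul, sub_self])).resolve_left (sub_ne_zero.mpr hη)
  simp only [chiComp_apply]
  rw [Finset.sum_comm]
  simp only [← Finset.sum_smul, h, inv_eq_one, ite_smul, zero_smul, Finset.sum_ite_eq',
    Finset.mem_univ, if_true]
  congr 1
  refine trAt_eq_of_mem (congSubgroup_le_fixer_of_tame hx (mem_congSubgroup le_rfl fun i j => ?_))
  have h0 := out_resMk_sub (v := v) (m := 1) 1 (by simp)
  have e : resMk (v := v) (m := 1) 1 (by simp) = 1 := map_one (Ideal.Quotient.mk _)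
  rw [e] at h0
  fin_cases i <;> fin_cases j <;>
    simp [coe_torusGL, coe_unitLift, -WithZero.exp_neg]
  exact_mod_cast h0

end Fermat.Agent.ResidualThree.BianchiForm
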