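import Fermat.Agent.ResidualThree.BianchiForm.Main
import Fermat.Agent.ResidualThree.BianchiForm.TwistChar

/-!
# The datum as a twist of tame level

The classical function of the tame-level form of a twist vector, with its periodicity, eigen and
invariance properties; together with the datum of the prepared form this gives
`exists_tameTwist`, used in `SquarefreeLevel` to remove the squares from the level, and in
particular `kFormToDatum`.
-/

noncomputable section

open IsDedekindDomain NumberField MeasureTheory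
open scoped WithZero ComplexConjugate

namespace Fermat.Agent.ResidualThree.BianchiForm

open Fermat.Agent.ResidualThree.Tree (intGL)

local notation "Qbar" => AlgebraicClosure ℚ
local notation "Γℚ" => (AlgebraicClosure ℚ ≃ₐ[ℚ] AlgebraicClosure ℚ)
local notation "χ" => WeierstrassCurve.modThreeCyclotomicChar

variable {K : IntermediateField ℚ Qbar} [NumberField K] {ρ : Γℚ →* GL (Fin 2) (ZMod 3)}

namespace TwistVec

variable (TV : TwistVec ρ K) (E : EisField K)

/-- The classical function of the form of tame level. -/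
def G₁ (p : H3) : ℂ := TV.G 1 (constP p)

theorem apply_mul {x j : Gf K} {c : FPlace K → ℂ}
    (hc : ∀ v ∈ TV.N.tamePlaces, trAt ((j : ∀ v, GLv v) v) TV.G = c v • TV.G)
    (hj : ∀ v, v ∉ TV.N.tamePlaces →
      (j : ∀ v, GLv v) v ∈ maxSubgroup v ∧ (v ∈ TV.N.T →
        (j : ∀ v, GLv v) v ∈ gammaSub v (2 * TV.N.m v)))
    (p : Hyp K) :
    TV.G (x * j) p = (∏ v ∈ TV.N.tamePlaces, c v) * TV.G x p := by
  classical
  obtain ⟨U, hU, hJ⟩ := TV.isEigen.exists_level
  suffices ∀ P : Finset (FPlace K), P ⊆ TV.N.tamePlaces → ∀ j : Gf K,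
      (∀ v ∈ P, trAt ((j : ∀ v, GLv v) v) TV.G = c v • TV.G) →
      (∀ v ∈ TV.N.T, v ∉ P → (j : ∀ v, GLv v) v ∈ fixer v TV.G) →
      (∀ v ∉ TV.N.T, (j : ∀ v, GLv v) v ∈ U.J v) →
      TV.G (x * j) p = (∏ v ∈ P, c v) * TV.G x p by
    refine this _ subset_rfl j hc (fun v hv hvP => ?_) fun v hv => ?_
    · have h3 : (3 : 𝓞 K) ∈ v.asIdeal := by
        by_contra h3
        exact hvP (Finset.mem_filter.mpr ⟨hv, h3⟩)
      exact TV.fixed_three v hv h3 ((hj v hvP).2 hv)
    · rw [hJ v (Finset.mem_coe.not.mpr hv)]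
      exact (hj v fun h => hv (Finset.mem_filter.mp h).1).1
  intro P
  induction P using Finset.induction_on with
  | empty =>
    intro _ j _ hf hJ'
    rw [Finset.prod_empty, one_mul,
      apply_mul_eq_of_forall_mem hU TV.N.T x j (fun v hv => hf v hv (Finset.notMem_empty v)) hJ']
  | insert v P hvP ih =>
    intro hP j hc hf hJ'
    set g := (j : ∀ v, GLv v) v with hg
    set j' : Gf K := j * (single v g)⁻¹ with hj'def
    have hj' : ∀ w, (j' : ∀ v, GLv v) w = if w = v then 1 else (j : ∀ v, GLv v) w := fun w => by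
      show (j : ∀ v, GLv v) w * (((single v g : Gf K) : ∀ v, GLv v) w)⁻¹ = _
      by_cases h : w = v
      · subst h; rw [if_pos rfl, single_apply_same, mul_inv_cancel]
      · rw [if_neg h, single_apply_ne h, inv_one, mul_one]
    rw [show x * j = x * j' * single v g by rw [hj'def, mul_assoc, inv_mul_cancel_right]]
    have h1 := congrFun (congrFun (hc v (Finset.mem_insert_self v P)) (x * j')) p
    refine h1.trans ?_
    rw [Pi.smul_apply, Pi.smul_apply, smul_eq_mul,
      ih (fun w hw => hP (Finset.mem_insert_of_mem hw)) j',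
      Finset.prod_insert hvP, mul_assoc]
    · intro w hw
      rw [hj', if_neg (fun h : w = v => hvP (h ▸ hw))]
      exact hc w (Finset.mem_insert_of_mem hw)
    · intro w hw hwP
      rw [hj']
      split_ifs with h
      · exact one_mem _
      · exact hf w hw fun h' => (Finset.mem_insert.mp h').elim h hwP
    · intro w hw
      rw [hj']
      split_ifs with h
      · exact one_mem _
      · exact hJ' w hw

/-- Right translation by integral unipotents. -/
theorem apply_mul_unip {x j : Gf K} (z : ∀ v : FPlace K, v.adicCompletion K)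
    (hj : ∀ v, (j : ∀ v, GLv v) v = unipHom (v.adicCompletion K) (z v))
    (hz : ∀ v, valv v (z v) ≤ 1) (p : Hyp K) : TV.G (x * j) p = TV.G x p := by
  rw [TV.apply_mul (c := fun _ => 1) (fun v hv => ?_) (fun v hv => ?_), Finset.prod_const_one,
    one_mul]
  · rw [hj, one_smul]; exact (TV.eigen_tame v hv).trAt_unip (hz v)
  · rw [hj]
    exact ⟨intGL_le_maxSubgroup v (isIntGL_unipHom v (hz v)), fun _ =>
      mem_gammaSub (isIntGL_unipHom v (hz v)) (by simp [coe_unipHom])⟩

include E in
theorem G₁_smul (γ : GL (Fin 2) K) (p : H3) :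
    TV.G₁ (toComplex E.place γ • p) = TV.G (diag K γ⁻¹) (constP p) := by
  obtain ⟨U, hU, -⟩ := TV.isEigen.exists_level
  exact (apply_diag_inv E hU γ p).symm

include E in
/-- The classical function of the tame-level form is a periodic eigenfunction without constant
term. -/
theorem isPeriodicEigen_G₁ : IsPeriodicEigen TV.G₁ := by
  refine isPeriodicEigen_classical E TV.isEigen fun b q => ?_
  rw [E.eq_constP q, show (fun w : InfinitePlace K => ((1 : ℕ) : ℂ) * w.embedding (b : K)) =
    fun _ => E.place.embedding (b : K) by funext w; rw [E.unique w]; simp, ← constP_shiftH]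
  show TV.G₁ (shiftH _ _) = TV.G₁ _
  rw [shiftH_eq_smul, ← toComplex_unipHom, TV.G₁_smul E, ← one_mul (diag K (unipHom K (b : K))⁻¹)]
  refine TV.apply_mul_unip (fun v => algebraMap K _ (-(b : K))) (fun v => ?_) (fun v => ?_) _
  · show toLocal v (unipHom K (b : K))⁻¹ = _
    rw [show (unipHom K (b : K))⁻¹ = unipHom K (-(b : K)) from
      inv_eq_of_mul_eq_one_left (by rw [← unipHom_add, neg_add_cancel, unipHom_zero]),
      toLocal_unipHom]
  · rw [valv_algebraMap, Valuation.map_neg]; exact v.valuation_le_one _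

variable {B : Finset ℕ} (hB : ∀ q : ℕ, q ∈ B ↔ q.Prime ∧ q ≠ 3 ∧ IsBadPrime ρ q)
  (hK : ∀ σ : Γℚ, σ ∈ K.fixingSubgroup ↔ χ σ = 1) {τ : Γℚ} (hτ : χ τ ≠ 1)

include hB in
theorem levelN_div (N : NewForm ρ K) :
    N.levelN B / (∏ q ∈ B, q) = 3 ^ N.threeExp * ∏ q ∈ B, q := by
  rw [levelN_eq, sq, ← mul_assoc,
    Nat.mul_div_cancel _ (Finset.prod_pos fun q hq => ((hB q).mp hq).1.pos)]

include hB hK hτ E in
/-- `G₁` transforms under `Γ₀(3^e D)` by the character of the diagonal. -/
theorem G₁_invariant (g : GL (Fin 2) ℂ) (e : Fin 2 → Fin 2 → Eis3)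
    (he : ∀ i j, (g : Matrix (Fin 2) (Fin 2) ℂ) i j = (e i j).toC)
    (hdet : ‖(g : Matrix (Fin 2) (Fin 2) ℂ).det‖ = 1)
    (hdvd : Eis3.dvd (((TV.N.levelN B / (∏ q ∈ B, q) : ℕ) : ℤ), 0) (e 1 0)) (p : H3) :
    TV.G₁ (g • p) = TV.chi E (e 0 0) * conj (TV.chi E (e 1 1)) * TV.G₁ p := by
  classical
  obtain ⟨γ, rfl, hγe, hval⟩ := E.exists_gamma he hdet
  obtain ⟨z, hz⟩ := hdvd
  have hint : ∀ v, IsIntGL (valv v) (toLocal v γ) := fun v => by
    refine ⟨fun i j => by rw [valv_toLocal_apply, hγe]; exact E.valuation_toK_le_one v _, ?_⟩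
    show valv v ((RingHom.mapMatrix (algebraMap K (v.adicCompletion K)))
      (γ : Matrix (Fin 2) (Fin 2) K)).det = 1
    rw [← RingHom.map_det, valv_algebraMap, hval]
  have h10 : ∀ v : FPlace K, valv v
      ((toLocal v γ : Matrix (Fin 2) (Fin 2) (v.adicCompletion K)) 1 0) ≤
        v.valuation K ((3 ^ TV.N.threeExp : ℕ) : K) * v.valuation K ((∏ q ∈ B, q : ℕ) : K) := by
    intro v
    rw [valv_toLocal_apply, hγe, ← hz, E.toK_mul, E.toK_intCast, Int.cast_natCast,
      levelN_div hB TV.N, Nat.cast_mul, map_mul, map_mul]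
    exact mul_le_of_le_one_right' (E.valuation_toK_le_one v z)
  have hle : ∀ (v : FPlace K) (n : ℕ), v.valuation K (n : K) ≤ 1 := fun v n => by
    rw [← map_natCast (algebraMap (𝓞 K) K)]; exact v.valuation_le_one _
  have hiw : ∀ v ∈ TV.N.tamePlaces, IsIwahori (toLocal v γ) := fun v hv => by
    refine ⟨hint v, lt_of_le_of_lt ((h10 v).trans (mul_le_of_le_one_left' (hle v _))) ?_⟩
    rw [← map_natCast (algebraMap (𝓞 K) K), v.valuation_lt_one_iff_mem]
    exact (TV.mem_tamePlaces_iff E hB hK hτ v).mp hv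
  have hfac : ∀ v ∈ TV.N.tamePlaces, trAt ((toLocal v γ)⁻¹) TV.G =
      ((TV.η v)⁻¹ (E.resE v (e 0 0)) * conj ((TV.η v)⁻¹ (E.resE v (e 1 1)))) • TV.G := by
    intro v hv
    obtain ⟨r, hr⟩ := (hiw v hv).exists_ratio
    obtain ⟨h0, h1⟩ := (hiw v hv).valv_diag
    have hy := (TV.eigen_tame v hv).eigen _ (hiw v hv) r hr
    have hent : ∀ i j, (toLocal v γ : Matrix (Fin 2) (Fin 2) (v.adicCompletion K)) i j =
        algebraMap K (v.adicCompletion K) (E.toK (e i j)) := fun i j => by
      simp [toLocal, hγe]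
    have hrd : valv v (((r : ResM v 1).out : v.adicCompletion K) *
        algebraMap K (v.adicCompletion K) (E.toK (e 1 1))) ≤ 1 := by
      rw [map_mul]; exact mul_le_one' (r : ResM v 1).out.2 (E.valv_toK_le v _)
    have hres : E.resE v (e 0 0) = (r : ResM v 1) * E.resE v (e 1 1) := by
      refine (resMk_eq_iff (hb := hrd)).mpr ?_ |>.trans ?_
      · rw [← hent, ← hent]; exact hr
      · rw [resMk_mul (r : ResM v 1).out.2 (E.valv_toK_le v _), resMk_out]; rfl
    have hd : E.resE v (e 1 1) ≠ 0 := by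
      intro h
      rw [E.resE_eq_zero_iff, ← v.valuation_lt_one_iff_mem (K := K), ← valv_algebraMap] at h
      rw [hent] at h1
      exact absurd h (not_lt.mpr h1.ge)
    obtain ⟨ud, hud⟩ := isUnit_resM hd
    obtain ⟨k, hk⟩ := TV.root v hv
    have hne : ∀ u : (ResM v 1)ˣ, TV.η v (u : ResM v 1) ≠ 0 := fun u h0 => by
      have := hk u
      rw [h0, zero_pow (pow_ne_zero _ (by norm_num))] at this
      exact zero_ne_one this
    have hinv : ∀ u : (ResM v 1)ˣ, (TV.η v)⁻¹ (u : ResM v 1) = (TV.η v (u : ResM v 1))⁻¹ :=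
      fun u => by rw [MulChar.inv_apply_eq_inv, Ring.inverse_eq_inv]
    have hc : (TV.η v)⁻¹ (E.resE v (e 0 0)) * conj ((TV.η v)⁻¹ (E.resE v (e 1 1))) =
        (TV.η v (r : ResM v 1))⁻¹ := by
      rw [hres, map_mul, ← hud, hinv, hinv, map_inv₀, conj_eq_inv_of_pow (hk ud), inv_inv,
        mul_assoc,
        inv_mul_cancel₀ (hne ud), mul_one]
    rw [hc]
    have h2 := congrArg (trAt (toLocal v γ)⁻¹) hy
    rw [← trAt_mul, inv_mul_cancel, trAt_one, map_smul] at h2
    conv_rhs => rw [h2]
    rw [smul_smul, inv_mul_cancel₀ (hne r), one_smul]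
  rw [TV.G₁_smul E, ← one_mul (diag K γ⁻¹)]
  rw [TV.apply_mul (c := fun v => (TV.η v)⁻¹ (E.resE v (e 0 0)) *
    conj ((TV.η v)⁻¹ (E.resE v (e 1 1)))) (fun v hv => ?_) (fun v hv => ?_),
    Finset.prod_mul_distrib, chi, chi, map_prod]
  · rfl
  · show trAt (toLocal v γ⁻¹) TV.G = _
    rw [map_inv]; exact hfac v hv
  · show toLocal v γ⁻¹ ∈ _ ∧ (_ → toLocal v γ⁻¹ ∈ _)
    rw [map_inv]
    refine ⟨inv_mem (intGL_le_maxSubgroup v (hint v)), fun hvT =>
      inv_mem (mem_gammaSub (hint v) ?_)⟩
    have h3 : (3 : 𝓞 K) ∈ v.asIdeal := by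
      by_contra h3
      exact hv (Finset.mem_filter.mpr ⟨hvT, h3⟩)
    refine ((h10 v).trans (mul_le_of_le_one_right' (hle v _))).trans
      ((valuation_natCast_le_exp (q := 3) (by exact_mod_cast h3)).trans ?_)
    rw [WithZero.exp_le_exp]
    have := Finset.single_le_sum (f := fun w => 2 * TV.N.m w) (fun w _ => Nat.zero_le _)
      (Finset.mem_filter.mpr ⟨hvT, h3⟩ : v ∈ TV.N.T.filter (fun v => (3 : 𝓞 K) ∈ v.asIdeal))
    simp only [NewForm.threeExp]
    omega

include hB hK hτ E in
/-- A polar operator applied to the tame-level form gives a combination of the translates of `G₁`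
by `b / D`, for `D` the product of the bad primes. -/
theorem mem_span_shifts {R : Module.End ℂ (Gf K → Hyp K → ℂ)}
    (hR : R ∈ polarOps TV.N.tamePlaces) :
    (fun p => R TV.G 1 (constP p)) ∈ Submodule.span ℂ (Set.range fun b : Eis3 =>
      fun p => TV.G₁ (shiftH (b.toC / ((∏ q ∈ B, q : ℕ) : ℂ)) p)) := by
  classical
  induction hR using Submodule.span_induction with
  | mem L hL =>
    obtain ⟨y, z, rfl, hy, hzb, hz⟩ := hL
    set D : ℕ := ∏ q ∈ B, q with hD
    have hD0 : (D : K) ≠ 0 :=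
      Nat.cast_ne_zero.mpr (Finset.prod_pos fun q hq => ((hB q).mp hq).1.pos).ne'
    have hDv : ∀ v : FPlace K, v.valuation K (D : K) ≠ 0 := fun v =>
      (Valuation.ne_zero_iff _).mpr hD0
    obtain ⟨a, ha⟩ := exists_integer_congr TV.N.tamePlaces
      (fun v => -((D : v.adicCompletion K) * z v))
      (fun v hv => by
        rw [Valuation.map_neg, map_mul, ← map_natCast (algebraMap K (v.adicCompletion K)),
          valv_algebraMap]
        have hlt : v.valuation K (D : K) < 1 := by
          rw [← map_natCast (algebraMap (𝓞 K) K), v.valuation_lt_one_iff_mem]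
          exact (TV.mem_tamePlaces_iff E hB hK hτ v).mp hv
        refine (mul_le_mul' (Tree.lt_one_iff_le_exp.mp hlt) (hzb v)).trans ?_
        rw [← WithZero.exp_add]; simp)
      fun v => (-WithZero.log (v.valuation K (D : K))).toNat
    set t : K := (a : K) / (D : K) with ht
    have hint : ∀ v, valv v (algebraMap K (v.adicCompletion K) t + z v) ≤ 1 := by
      intro v
      by_cases hv : v ∈ TV.N.tamePlaces
      · have h := ha v hv
        have e : algebraMap K (v.adicCompletion K) t + z v =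
            (algebraMap K (v.adicCompletion K) (a : K) - -((D : v.adicCompletion K) * z v)) /
              algebraMap K (v.adicCompletion K) (D : K) := by
          have hne : (D : v.adicCompletion K) ≠ 0 := by
            rw [← map_natCast (algebraMap K (v.adicCompletion K))]
            exact (map_ne_zero _).mpr hD0
          rw [ht, map_div₀, map_natCast]
          field_simp
          ring
        rw [e, map_div₀, valv_algebraMap, div_le_one₀ (zero_lt_iff.mpr (hDv v))]
        refine h.trans ?_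
        conv_rhs => rw [← WithZero.exp_log (hDv v)]
        rw [WithZero.exp_le_exp]
        have := Int.self_le_toNat (-WithZero.log (v.valuation K (D : K)))
        omega
      · rw [hz v hv, add_zero, valv_algebraMap, ht, map_div₀]
        have h1 : v.valuation K (D : K) = 1 := by
          rw [← map_natCast (algebraMap (𝓞 K) K)]
          refine le_antisymm (v.valuation_le_one _) (le_of_not_gt fun hlt => hv ?_)
          exact (TV.mem_tamePlaces_iff E hB hK hτ v).mpr ((v.valuation_lt_one_iff_mem _).mp hlt)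
        rw [h1, div_one]
        exact v.valuation_le_one _
    refine Submodule.subset_span ⟨EisRing.pair (E.e.symm a), funext fun p => ?_⟩
    show TV.G₁ _ = TV.G (1 * y) (constP p)
    have het : E.place.embedding t = (EisRing.pair (E.e.symm a)).toC / ((D : ℕ) : ℂ) := by
      rw [ht, map_div₀, map_natCast, ← E.embedding_toK E.place, E.toK_symm]
    rw [← het, shiftH_eq_smul, ← toComplex_unipHom, TV.G₁_smul E, one_mul,
      show y = diag K (unipHom K t)⁻¹ *
        ((diag K (unipHom K t)⁻¹)⁻¹ * y) by rw [mul_inv_cancel_left]]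
    refine (TV.apply_mul_unip (fun v => algebraMap K _ t + z v) (fun v => ?_) hint _).symm
    show (toLocal v (unipHom K t)⁻¹)⁻¹ * (y : ∀ v, GLv v) v = _
    rw [map_inv, inv_inv, toLocal_unipHom, hy, ← unipHom_add]
  | zero => exact Submodule.zero_mem _
  | add L L' _ _ h h' => exact Submodule.add_mem _ h h'
  | smul c L _ h => exact Submodule.smul_mem _ c h

end TwistVec

/-- A form over `ℚ(√-3)` with the eigenvalues of `ρ` gives a datum of cube-free level away from
three which is a twist of tame level. -/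
theorem exists_tameTwist (ρ : Γℚ →* GL (Fin 2) (ZMod 3)) (hc : Continuous ρ)
    (hs : Function.Surjective ρ)
    (hd : ∀ σ : Γℚ, Matrix.GeneralLinearGroup.det (ρ σ) = χ σ)
    (K : IntermediateField ℚ Qbar) [NumberField K]
    (hK : ∀ σ : Γℚ, σ ∈ K.fixingSubgroup ↔ χ σ = 1)
    (U : Level K) (φ : Gf K → Hyp K → ℂ) (hφ : IsKForm ρ K U φ) :
    ∃ n₀ : ℕ, 0 < n₀ ∧ (∀ q : ℕ, q.Prime → q ≠ 3 → ¬ q ^ 3 ∣ n₀) ∧
      (IsUnramifiedThreeOverK ρ → ¬ 3 ∣ n₀) ∧
      ∃ d : BianchiDatum ρ n₀, Nonempty (TameTwist d) := by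
  obtain ⟨E⟩ := exists_eisField K hK
  have := E.isTotallyComplex
  obtain ⟨τ, hτ⟩ := exists_chi_ne_one hs hd
  obtain ⟨TV⟩ := exists_twistVec E hc hτ hK hφ
  obtain ⟨B, hB⟩ := exists_badFinset ρ hc
  obtain ⟨d, c, -, hdF⟩ := exists_datum_of_newForm hd hK E hτ TV.N hB
  refine ⟨TV.N.levelN B, TV.N.levelN_pos hB, TV.N.levelN_cubeFree hB,
    TV.N.levelN_not_three E hB hK, d, ?_⟩
  have hper := TV.isPeriodicEigen_G₁ E
  have hrel : d.F ∈ Submodule.span ℂ (Set.range fun b : Eis3 =>
      fun p => TV.G₁ (shiftH (b.toC / ((∏ q ∈ B, q : ℕ) : ℂ)) p)) := by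
    rw [hdF, show (fun p => c * TV.N.F p) = c • fun p => TV.op TV.G 1 (constP p) by
      rw [TV.op_G]; rfl]
    exact Submodule.smul_mem _ c (TV.mem_span_shifts E hB hK hτ TV.op_mem)
  obtain ⟨w, hw⟩ := Finsupp.mem_span_range_iff_exists_finsupp.mp hrel
  exact ⟨{
    D := ∏ q ∈ B, q
    squarefree_D := TwistVec.squarefree_prod hB
    not_three := TwistVec.not_three_dvd_prod hB
    level := ⟨_, TwistVec.levelN_eq TV.N B⟩
    chi := TV.chi E
    chi_mul := TV.chi_mul E
    chi_periodic := TV.chi_periodic E hB hK hτ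
    chi_ne_zero_iff := TV.chi_ne_zero_iff E hB hK hτ
    chi_root := TV.chi_root E
    G := TV.G₁
    continuous := hper.continuous
    decay := fun g hg A => by
      obtain ⟨γ, rfl⟩ := PreparedForm.exists_toComplex_of_isKElement E hg
      exact decay_classical E TV.isEigen γ A
    eigen := fun k hk hk' p => hper.eigen k ⟨hk, hk'⟩ p
    invariant := fun g e he hdet hdvd p => TV.G₁_invariant E hB hK hτ g e he hdet hdvd p
    relation := ⟨w.support, w, fun p => by
      rw [← hw, Finsupp.sum, Finset.sum_apply]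
      rfl⟩ }⟩

/-- A form over `ℚ(√-3)` with the eigenvalues of `ρ` gives a `BianchiDatum`: `KFormToDatum`. -/
theorem kFormToDatum : KFormToDatum := fun ρ hc hs hd _ K _ hK U φ hφ =>
  let ⟨n₀, h0, h1, h2, d, _⟩ := exists_tameTwist ρ hc hs hd K hK U φ hφ
  ⟨n₀, h0, h1, h2, ⟨d⟩⟩

/-- Under `CubicTransfer`, `ρ` has a datum of cube-free level away from three which is a twist of
tame level. -/
theorem exists_datum_tameTwist (h₁ : CubicTransfer) (ρ : Γℚ →* GL (Fin 2) (ZMod 3))
    (hc : Continuous ρ) (hs : Function.Surjective ρ)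
    (hd : ∀ σ : Γℚ, Matrix.GeneralLinearGroup.det (ρ σ) = χ σ) (hu : IsUnipotentAwayThree ρ) :
    ∃ n₀ : ℕ, 0 < n₀ ∧ (∀ q : ℕ, q.Prime → q ≠ 3 → ¬ q ^ 3 ∣ n₀) ∧
      (IsUnramifiedThreeOverK ρ → ¬ 3 ∣ n₀) ∧
      ∃ d : BianchiDatum ρ n₀, Nonempty (TameTwist d) := by
  obtain ⟨K, _, hK⟩ := exists_cycloField hc hd
  obtain ⟨U, φ, hφ⟩ := h₁ ρ hc hs hd hu K hK
  exact exists_tameTwist ρ hc hs hd K hK U φ hφ

end Fermat.Agent.ResidualThree.BianchiForm
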