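import Fermat.Agent.ResidualThree.BianchiForm.TwistLocal

/-!
# Twisting an Iwahori eigenvector up to level `p²`

Translations by `p⁻¹/O` combined with the weights of a character give vectors of level
`Γ₀(p²)` killed by the polar average (`gammaSub_le_polarVec`, `polar_polarVec`), and we describe
when such a combination vanishes.
-/

noncomputable section

open IsDedekindDomain NumberField
open scoped WithZero Classical

namespace Fermat.Agent.ResidualThree.BianchiForm

open Fermat.Agent.ResidualThree.Tree (intGL diagGL)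

variable {F : Type} [Field F] [NumberField F] {v : FPlace F}

variable (v) in
/-- The lower unipotent element `(1, 0; c, 1)`. -/
def lowUnip (c : v.adicCompletion F) : GLv v where
  val := !![1, 0; c, 1]
  inv := !![1, 0; -c, 1]
  val_inv := by ext i j; fin_cases i <;> fin_cases j <;> simp [Matrix.mul_apply, Fin.sum_univ_two]
  inv_val := by ext i j; fin_cases i <;> fin_cases j <;> simp [Matrix.mul_apply, Fin.sum_univ_two]

theorem coe_lowUnip (c : v.adicCompletion F) :
    (lowUnip v c : Matrix (Fin 2) (Fin 2) (v.adicCompletion F)) = !![1, 0; c, 1] := rfl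

theorem isIntGL_lowUnip {c : v.adicCompletion F} (hc : valv v c ≤ 1) :
    IsIntGL (valv v) (lowUnip v c) := by
  refine ⟨fun i j => ?_, by simp [coe_lowUnip, Matrix.det_fin_two]⟩
  fin_cases i <;> fin_cases j <;> simp [coe_lowUnip, hc]

/-- The translation by `a / ϖ`. -/
def polarTr (ϖ : (v.adicCompletion F)ˣ) (a : ResM v 1) :
    (Gf F → Hyp F → ℂ) →ₗ[ℂ] (Gf F → Hyp F → ℂ) :=
  trAt (unipHom (v.adicCompletion F)
    ((a.out : v.adicCompletion F) * ((ϖ⁻¹ : (v.adicCompletion F)ˣ) : v.adicCompletion F)))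

/-- The combination of the translates by `a / ϖ` with weights `w a`. -/
def polarVec [Fintype (ResM v 1)] (ϖ : (v.adicCompletion F)ˣ) (w : ResM v 1 → ℂ) :
    (Gf F → Hyp F → ℂ) →ₗ[ℂ] (Gf F → Hyp F → ℂ) :=
  ∑ a, w a • polarTr ϖ a

theorem polarVec_apply [Fintype (ResM v 1)] (ϖ : (v.adicCompletion F)ˣ) (w : ResM v 1 → ℂ)
    (y : Gf F → Hyp F → ℂ) : polarVec ϖ w y = ∑ a, w a • polarTr ϖ a y := by
  simp [polarVec, LinearMap.sum_apply]

variable {ϖ : (v.adicCompletion F)ˣ} {χ : MulChar (ResM v 1) ℂ} {y : Gf F → Hyp F → ℂ}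

theorem valv_inv_unif (hϖ : valv v (ϖ : v.adicCompletion F) = WithZero.exp (-1 : ℤ)) :
    valv v ((ϖ⁻¹ : (v.adicCompletion F)ˣ) : v.adicCompletion F) = WithZero.exp (1 : ℤ) := by
  rw [Units.val_inv_eq_inv_val, map_inv₀, hϖ, ← WithZero.exp_neg, neg_neg]

theorem valv_mul_inv_le (hϖ : valv v (ϖ : v.adicCompletion F) = WithZero.exp (-1 : ℤ))
    {z : v.adicCompletion F} (hz : valv v z < 1) :
    valv v (z * ((ϖ⁻¹ : (v.adicCompletion F)ˣ) : v.adicCompletion F)) ≤ 1 := by
  rw [map_mul, valv_inv_unif hϖ]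
  refine (mul_le_mul_left (Tree.lt_one_iff_le_exp.mp hz) _).trans ?_
  rw [← WithZero.exp_add]; simp

theorem trAt_polar_eq (hϖ : valv v (ϖ : v.adicCompletion F) = WithZero.exp (-1 : ℤ))
    (hy : IsIwEigen χ y) {z z' : v.adicCompletion F} (h : valv v (z - z') < 1) :
    trAt (unipHom (v.adicCompletion F)
        (z * ((ϖ⁻¹ : (v.adicCompletion F)ˣ) : v.adicCompletion F))) y =
      trAt (unipHom (v.adicCompletion F)
        (z' * ((ϖ⁻¹ : (v.adicCompletion F)ˣ) : v.adicCompletion F))) y := by
  conv_lhs => rw [show z * ((ϖ⁻¹ : (v.adicCompletion F)ˣ) : v.adicCompletion F) =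
    z' * ((ϖ⁻¹ : (v.adicCompletion F)ˣ) : v.adicCompletion F) +
      (z - z') * ((ϖ⁻¹ : (v.adicCompletion F)ˣ) : v.adicCompletion F) by ring]
  rw [unipHom_add, trAt_mul, hy.trAt_unip (valv_mul_inv_le hϖ h)]

theorem polarTr_resMk (hϖ : valv v (ϖ : v.adicCompletion F) = WithZero.exp (-1 : ℤ))
    (hy : IsIwEigen χ y) (z : v.adicCompletion F) (hz : valv v z ≤ 1) :
    polarTr ϖ (resMk z hz) y = trAt (unipHom (v.adicCompletion F)
      (z * ((ϖ⁻¹ : (v.adicCompletion F)ˣ) : v.adicCompletion F))) y :=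
  trAt_polar_eq hϖ hy (valv_out_sub_lt z hz)

theorem polarTr_add (hϖ : valv v (ϖ : v.adicCompletion F) = WithZero.exp (-1 : ℤ))
    (hy : IsIwEigen χ y) (a b : ResM v 1) :
    polarTr ϖ a (polarTr ϖ b y) = polarTr ϖ (a + b) y := by
  have hs : valv v ((a.out : v.adicCompletion F) + (b.out : v.adicCompletion F)) ≤ 1 :=
    (valv v).map_add_le a.out.2 b.out.2
  have e : resMk (m := 1) _ hs = a + b := by
    rw [resMk_add a.out.2 b.out.2, resMk_out, resMk_out]
  rw [← e, polarTr_resMk hϖ hy _ hs, add_mul, unipHom_add, trAt_mul]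
  rfl

theorem polarTr_zero (hϖ : valv v (ϖ : v.adicCompletion F) = WithZero.exp (-1 : ℤ))
    (hy : IsIwEigen χ y) : polarTr ϖ 0 y = y := by
  have e : resMk (v := v) (m := 1) 0 (by simp) = 0 := map_zero (Ideal.Quotient.mk _)
  rw [← e, polarTr_resMk hϖ hy, zero_mul, unipHom_zero, trAt_one]

/-- The weight of the twist by `χ`: `χ` itself, or `δ₀ - 1/q` for the trivial character, so that
the weights sum to zero. -/
def twistWeight [Fintype (ResM v 1)] (χ : MulChar (ResM v 1) ℂ) (a : ResM v 1) : ℂ :=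
  if χ = 1 then (if a = 0 then 1 else 0) - (Fintype.card (ResM v 1) : ℂ)⁻¹ else χ a

theorem sum_twistWeight [Fintype (ResM v 1)] (χ : MulChar (ResM v 1) ℂ) :
    ∑ a, twistWeight χ a = 0 := by
  by_cases h : χ = 1
  · simp only [twistWeight, if_pos h, Finset.sum_sub_distrib, Finset.sum_ite_eq', Finset.mem_univ,
      if_true, Finset.sum_const, Finset.card_univ, nsmul_eq_mul]
    rw [mul_inv_cancel₀ (Nat.cast_ne_zero.mpr Fintype.card_ne_zero), sub_self]
  · simp only [twistWeight, if_neg h]
    exact MulChar.sum_eq_zero_of_ne_one h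

theorem twistWeight_mul [Fintype (ResM v 1)] (χ : MulChar (ResM v 1) ℂ) (r : (ResM v 1)ˣ)
    (a : ResM v 1) : twistWeight χ (a * ((r⁻¹ : (ResM v 1)ˣ) : ResM v 1)) * χ (r : ResM v 1) =
      twistWeight χ a := by
  by_cases h : χ = 1
  · simp [twistWeight, h, Units.mul_left_eq_zero]
  · simp only [twistWeight, if_neg h]
    rw [← map_mul, mul_assoc, ← Units.val_mul, inv_mul_cancel, Units.val_one, mul_one]

/-- The twisted vector has level `p²`. -/
theorem gammaSub_le_polarVec [Fintype (ResM v 1)]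
    (hϖ : valv v (ϖ : v.adicCompletion F) = WithZero.exp (-1 : ℤ)) (hy : IsIwEigen χ y)
    {w : ResM v 1 → ℂ}
    (hw : ∀ (r : (ResM v 1)ˣ) a, w (a * ((r⁻¹ : (ResM v 1)ˣ) : ResM v 1)) * χ (r : ResM v 1) =
      w a) :
    gammaSub v 2 ≤ fixer v (polarVec ϖ w y) := by
  refine (Subgroup.closure_le _).2 ?_
  rintro g (⟨hg, h2⟩ | hg)
  swap
  · rw [polarVec_apply]
    exact fixer_sum _ _ fun a _ => fixer_smul _ _ (mem_fixer_rightTr.mpr (by
      rw [mul_assoc, ← Subgroup.mem_center_iff.1 hg, inv_mul_cancel_left]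
      exact hy.center hg))
  have h2' : WithZero.exp (-((2 : ℕ) : ℤ)) < (1 : ℤᵐ⁰) := exp_neg_lt_one (by norm_num)
  have hiw : IsIwahori g := ⟨hg, h2.trans_lt h2'⟩
  obtain ⟨r, hr⟩ := hiw.exists_ratio
  refine mem_fixer.mpr ?_
  rw [← trAt_apply, polarVec_apply, map_sum]
  refine (Fintype.sum_equiv (Units.mulRight (r⁻¹)) (fun a => w a • polarTr ϖ a y)
    (fun a => trAt g (w a • polarTr ϖ a y)) fun a => ?_).symm
  show _ = trAt g (w (a * ((r⁻¹ : (ResM v 1)ˣ) : ResM v 1)) •
    polarTr ϖ (a * ((r⁻¹ : (ResM v 1)ˣ) : ResM v 1)) y)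
  set a' : ResM v 1 := a * ((r⁻¹ : (ResM v 1)ˣ) : ResM v 1) with ha'
  set π : v.adicCompletion F := ((ϖ⁻¹ : (v.adicCompletion F)ˣ) : v.adicCompletion F) with hπdef
  set M := (g : Matrix (Fin 2) (Fin 2) (v.adicCompletion F)) with hM
  set z : v.adicCompletion F := (a.out : v.adicCompletion F) * π
  set z' : v.adicCompletion F := (a'.out : v.adicCompletion F) * π
  set j : GLv v := (unipHom (v.adicCompletion F) z)⁻¹ * g * unipHom (v.adicCompletion F) z'
  have e : (j : Matrix (Fin 2) (Fin 2) (v.adicCompletion F)) =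
      !![M 0 0 - z * M 1 0, (M 0 0 - z * M 1 0) * z' + (M 0 1 - z * M 1 1);
        M 1 0, M 1 0 * z' + M 1 1] := by
    show ((unipHom (v.adicCompletion F) z)⁻¹ * g * unipHom (v.adicCompletion F) z' : GLv v).val = _
    rw [show (unipHom (v.adicCompletion F) z)⁻¹ = unipHom (v.adicCompletion F) (-z) from
      inv_eq_of_mul_eq_one_left (by rw [← unipHom_add, neg_add_cancel, unipHom_zero]),
      Units.val_mul, Units.val_mul, coe_unipHom, coe_unipHom, ← hM, Matrix.eta_fin_two M,
      Matrix.mul_fin_two, Matrix.mul_fin_two]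
    refine Matrix.ext fun i k => ?_
    fin_cases i <;> fin_cases k <;> simp <;> ring
  have hπv : valv v π = WithZero.exp (1 : ℤ) := valv_inv_unif hϖ
  have hcγ : ∀ b : ResM v 1, valv v ((b.out : v.adicCompletion F) * π * M 1 0) < 1 := by
    intro b
    rw [map_mul, map_mul, hπv]
    refine lt_of_le_of_lt
      (mul_le_mul' (mul_le_of_le_one_left' b.out.2) h2) ?_
    rw [← WithZero.exp_add, ← WithZero.exp_zero, WithZero.exp_lt_exp]
    norm_num
  have hz10 : valv v (z * M 1 0) < 1 := hcγ a
  have hz10' : valv v (M 1 0 * z') < 1 := by rw [mul_comm]; exact hcγ a'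
  obtain ⟨hα, hδ⟩ := hiw.valv_diag
  set R := ((r : ResM v 1).out : v.adicCompletion F)
  have hR : valv v R ≤ 1 := (r : ResM v 1).out.2
  have hcross : valv v ((a'.out : v.adicCompletion F) * M 0 0 -
      (a.out : v.adicCompletion F) * M 1 1) < 1 := by
    have hu : valv v ((a'.out : v.adicCompletion F) * R) ≤ 1 := by
      rw [map_mul]; exact mul_le_one' a'.out.2 hR
    have h1 : valv v ((a'.out : v.adicCompletion F) * R - (a.out : v.adicCompletion F)) < 1 := by
      rw [← resMk_eq_iff (ha := hu) (hb := a.out.2), resMk_mul a'.out.2 hR]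
      simp only [resMk_out, R, ha']
      rw [mul_assoc, ← Units.val_mul, inv_mul_cancel, Units.val_one, mul_one]
    rw [show (a'.out : v.adicCompletion F) * M 0 0 - (a.out : v.adicCompletion F) * M 1 1 =
      (a'.out : v.adicCompletion F) * (M 0 0 - R * M 1 1) +
        ((a'.out : v.adicCompletion F) * R - (a.out : v.adicCompletion F)) * M 1 1 by ring]
    refine (valv v).map_add_lt ?_ ?_
    · rw [map_mul]; exact lt_of_le_of_lt (mul_le_of_le_one_left' a'.out.2) hr
    · rw [map_mul, hδ, mul_one]; exact h1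
  have hj : IsIwahori j := by
    refine ⟨⟨fun i k => ?_, ?_⟩, ?_⟩
    · rw [e]
      fin_cases i <;> fin_cases k <;>
        simp only [Fin.zero_eta, Fin.mk_one, Matrix.of_apply, Matrix.cons_val',
          Matrix.cons_val_zero,
          Matrix.cons_val_one, Matrix.cons_val_fin_one]
      · exact (valv v).map_sub_le (hg.1 0 0) hz10.le
      · rw [show (M 0 0 - z * M 1 0) * z' + (M 0 1 - z * M 1 1) =
          M 0 1 + ((a'.out : v.adicCompletion F) * M 0 0 - (a.out : v.adicCompletion F) * M 1 1) *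
            π -
            z * z' * M 1 0 by simp only [z, z']; ring]
        refine (valv v).map_sub_le ((valv v).map_add_le (hg.1 0 1) (valv_mul_inv_le hϖ hcross)) ?_
        rw [show z * z' * M 1 0 = ((a.out : v.adicCompletion F) * (a'.out : v.adicCompletion F)) *
          (π * π * M 1 0) by simp only [z, z']; ring, map_mul]
        refine mul_le_one' ?_ ?_
        · rw [map_mul]; exact mul_le_one' a.out.2 a'.out.2
        · rw [map_mul, map_mul, hπv]
          refine (mul_le_mul_right h2 _).trans ?_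
          rw [← WithZero.exp_add, ← WithZero.exp_add, ← WithZero.exp_zero, WithZero.exp_le_exp]
          norm_num
      · exact hg.1 1 0
      · exact (valv v).map_add_le hz10'.le (hg.1 1 1)
    · show valv v (j : Matrix (Fin 2) (Fin 2) (v.adicCompletion F)).det = 1
      show valv v ((unipHom (v.adicCompletion F) z)⁻¹ * g *
        unipHom (v.adicCompletion F) z' : GLv v).val.det = 1
      rw [Units.val_mul, Units.val_mul, Matrix.det_mul, Matrix.det_mul, map_mul, map_mul, hg.2]
      simp [Matrix.det_fin_two, unipHom]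
    · rw [e]; simpa using hiw.2
  have hjr : HasRatio j r := by
    show valv v _ < 1
    rw [e]
    simp only [Matrix.of_apply, Matrix.cons_val', Matrix.cons_val_zero, Matrix.cons_val_one,
      Matrix.cons_val_fin_one]
    rw [show M 0 0 - z * M 1 0 - R * (M 1 0 * z' + M 1 1) =
      (M 0 0 - R * M 1 1) - (z * M 1 0 + R * (M 1 0 * z')) by ring]
    refine (valv v).map_sub_lt hr ((valv v).map_add_lt hz10 ?_)
    rw [map_mul]; exact lt_of_le_of_lt (mul_le_of_le_one_left' hR) hz10'
  have key : trAt g (polarTr ϖ a' y) = χ (r : ResM v 1) • polarTr ϖ a y := by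
    show trAt g (trAt (unipHom (v.adicCompletion F) z') y) =
      χ (r : ResM v 1) • trAt (unipHom (v.adicCompletion F) z) y
    rw [← map_smul, ← hy.eigen j hj r hjr, ← trAt_mul, ← trAt_mul]
    congr 1
    simp [j, mul_assoc]
  rw [map_smul, key, smul_smul, hw]

theorem sum_polarTr_of_isPolarReps [Fintype (ResM v 1)]
    (hϖ : valv v (ϖ : v.adicCompletion F) = WithZero.exp (-1 : ℤ)) (hy : IsIwEigen χ y)
    {R : Finset (v.adicCompletion F)} (hR : IsPolarReps R) :
    ∑ b ∈ R, trAt (unipHom (v.adicCompletion F) b) y = ∑ a, polarTr ϖ a y := by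
  have hπv := valv_inv_unif hϖ
  have hb1 : ∀ b, valv v b ≤ WithZero.exp (1 : ℤ) → valv v (b * (ϖ : v.adicCompletion F)) ≤ 1 :=
    fun b hb => by
      rw [map_mul, hϖ]
      exact (mul_le_mul_left hb _).trans (by rw [← WithZero.exp_add]; simp)
  choose rep hrep huniq using hR.2
  have hout : ∀ a : ResM v 1, valv v ((a.out : v.adicCompletion F) *
      ((ϖ⁻¹ : (v.adicCompletion F)ˣ) : v.adicCompletion F)) ≤ WithZero.exp (1 : ℤ) := fun a => by
    rw [map_mul, hπv]; exact mul_le_of_le_one_left' a.out.2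
  refine Finset.sum_bij' (fun b hb => resMk (b * (ϖ : v.adicCompletion F)) (hb1 b (hR.1 b hb)))
    (fun a _ => rep _ (hout a)) (fun b _ => Finset.mem_univ _) (fun a _ => (hrep _ _).1)
    (fun b hb => ?_) (fun a _ => ?_) (fun b hb => ?_)
  · refine (huniq _ _ b ⟨hb, ?_⟩).symm
    rw [show ((resMk (b * (ϖ : v.adicCompletion F)) (hb1 b (hR.1 b hb))).out : v.adicCompletion F) *
        ((ϖ⁻¹ : (v.adicCompletion F)ˣ) : v.adicCompletion F) - b =
      (((resMk (b * (ϖ : v.adicCompletion F)) (hb1 b (hR.1 b hb))).out : v.adicCompletion F) -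
        b * (ϖ : v.adicCompletion F)) * ((ϖ⁻¹ : (v.adicCompletion F)ˣ) : v.adicCompletion F) by
      rw [sub_mul, mul_assoc b, Units.mul_inv, mul_one]]
    exact valv_mul_inv_le hϖ (valv_out_sub_lt _ _)
  · refine Eq.trans ?_ (resMk_out a)
    refine resMk_eq_iff.mpr ?_
    set r := rep _ (hout a) with hr
    have h1 : valv v ((a.out : v.adicCompletion F) *
        ((ϖ⁻¹ : (v.adicCompletion F)ˣ) : v.adicCompletion F) - r) ≤ 1 := (hrep _ _).2
    rw [show r * (ϖ : v.adicCompletion F) - (a.out : v.adicCompletion F) =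
      -((a.out : v.adicCompletion F) * ((ϖ⁻¹ : (v.adicCompletion F)ˣ) : v.adicCompletion F) - r) *
        (ϖ : v.adicCompletion F) by
      rw [neg_mul, sub_mul, mul_assoc, Units.inv_mul, mul_one, neg_sub], map_mul,
      Valuation.map_neg, hϖ]
    refine lt_of_le_of_lt (mul_le_of_le_one_left' h1) ?_
    rw [← WithZero.exp_zero, WithZero.exp_lt_exp]; norm_num
  · rw [polarTr_resMk hϖ hy, mul_assoc, Units.mul_inv, mul_one]

/-- The twisted vector is killed by the averages over `p⁻¹/O`. -/
theorem polar_polarVec [Fintype (ResM v 1)]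
    (hϖ : valv v (ϖ : v.adicCompletion F) = WithZero.exp (-1 : ℤ)) (hy : IsIwEigen χ y)
    {w : ResM v 1 → ℂ} (hw : ∑ a, w a = 0) (R : Finset (v.adicCompletion F)) (hR : IsPolarReps R) :
    ∑ b ∈ R, trAt (unipHom (v.adicCompletion F) b) (polarVec ϖ w y) = 0 := by
  have h : ∀ a, ∑ b ∈ R, trAt (unipHom (v.adicCompletion F) b) (polarTr ϖ a y) =
      ∑ c, polarTr ϖ c y := by
    intro a
    simp only [polarTr, ← trAt_mul, ← unipHom_add]
    simp only [add_comm _ ((a.out : v.adicCompletion F) * _), unipHom_add, trAt_mul]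
    rw [← map_sum, sum_polarTr_of_isPolarReps hϖ hy hR, map_sum]
    exact Fintype.sum_equiv (Equiv.addLeft a) _ _ fun c => polarTr_add hϖ hy a c
  simp only [polarVec_apply, map_sum, map_smul]
  rw [Finset.sum_comm]
  simp only [← Finset.smul_sum, h, ← Finset.sum_smul, hw, zero_smul]

/-- If the twist vanishes then the vector is fixed by `n(p⁻¹)`. -/
theorem polarTr_eq_of_polarVec_eq_zero [Fintype (ResM v 1)]
    (hϖ : valv v (ϖ : v.adicCompletion F) = WithZero.exp (-1 : ℤ)) (hy : IsIwEigen χ y)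
    (h : polarVec ϖ (twistWeight χ) y = 0) (a : ResM v 1) : polarTr ϖ a y = y := by
  set S := ∑ b, polarTr ϖ b y
  have hS : polarTr ϖ a S = S := by
    simp only [S, map_sum]
    exact Fintype.sum_equiv (Equiv.addLeft a) _ _ fun c => polarTr_add hϖ hy a c
  have hq : (Fintype.card (ResM v 1) : ℂ) ≠ 0 := Nat.cast_ne_zero.mpr Fintype.card_ne_zero
  suffices hy' : (Fintype.card (ResM v 1) : ℂ) • y = S by
    refine smul_right_injective _ hq ?_
    show _ • polarTr ϖ a y = _ • y
    rw [← map_smul, hy', hS]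
  by_cases hχ : χ = 1
  · simp only [polarVec_apply, twistWeight, if_pos hχ, sub_smul, ite_smul, one_smul, zero_smul,
      Finset.sum_sub_distrib, Finset.sum_ite_eq', Finset.mem_univ, if_true, polarTr_zero hϖ hy,
      ← Finset.smul_sum] at h
    rw [sub_eq_zero] at h
    conv_lhs => rw [h]
    rw [smul_smul, mul_inv_cancel₀ hq, one_smul]
  · -- multiply by the conjugate weight
    have hc : ∀ c, ∑ b, χ b • polarTr ϖ (b - c) y = 0 := by
      intro c
      have h' := congrArg (polarTr ϖ (-c)) h
      rw [map_zero, polarVec_apply, map_sum] at h'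
      simpa only [twistWeight, if_neg hχ, map_smul, polarTr_add hϖ hy, neg_add_eq_sub] using h'
    have hk : ∀ b : ResM v 1, ∑ c, χ (Ring.inverse c) * χ (b + c) =
        (if b = 0 then (Fintype.card (ResM v 1) : ℂ) else 0) - 1 := by
      intro b
      have hne0 : ∀ c : ResM v 1, c ∈ Finset.univ.erase (0 : ResM v 1) → IsUnit c := fun c hc =>
        isUnit_resM (Finset.ne_of_mem_erase hc)
      rw [← Finset.add_sum_erase _ _ (Finset.mem_univ (0 : ResM v 1)), Ring.inverse_zero,
        MulChar.map_zero, zero_mul, zero_add]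
      simp only [← map_mul]
      by_cases hb : b = 0
      · rw [if_pos hb, Finset.sum_congr rfl fun c hc => by
          rw [hb, zero_add, Ring.inverse_mul_cancel _ (hne0 c hc), map_one], Finset.sum_const,
          Finset.card_erase_of_mem (Finset.mem_univ _), Finset.card_univ, nsmul_one,
          Nat.cast_sub Fintype.card_pos, Nat.cast_one]
      · obtain ⟨β, hβ⟩ := isUnit_resM hb
        rw [if_neg hb, zero_sub, show (-1 : ℂ) = ∑ t ∈ Finset.univ.erase (1 : ResM v 1), χ t by
          rw [Finset.sum_erase_eq_sub (Finset.mem_univ _), MulChar.sum_eq_zero_of_ne_one hχ,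
            map_one,
            zero_sub]]
        have e : ∀ c, c ∈ Finset.univ.erase (0 : ResM v 1) →
            Ring.inverse c * (b + c) = Ring.inverse c * b + 1 := fun c hc => by
          rw [mul_add, Ring.inverse_mul_cancel _ (hne0 c hc)]
        refine Finset.sum_bij' (fun c _ => Ring.inverse c * (b + c))
          (fun t _ => b * Ring.inverse (t - 1)) (fun c hc => ?_) (fun t ht => ?_) (fun c hc => ?_)
          (fun t ht => ?_) (fun _ _ => rfl)
        · refine Finset.mem_erase.mpr ⟨?_, Finset.mem_univ _⟩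
          rw [e c hc, Ne, add_eq_right]
          intro h0
          exact hb (by
            rw [← Ring.mul_inverse_cancel_left c b (hne0 c hc), h0, mul_zero])
        · refine Finset.mem_erase.mpr ⟨?_, Finset.mem_univ _⟩
          intro h0
          have hu := isUnit_resM (sub_ne_zero.mpr (Finset.ne_of_mem_erase ht))
          exact hb (by
            calc b = b * Ring.inverse (t - 1) * (t - 1) := by
                  rw [mul_assoc, Ring.inverse_mul_cancel _ hu, mul_one]
              _ = 0 := by rw [h0, zero_mul])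
        · rw [e c hc, add_sub_cancel_right]
          obtain ⟨u, rfl⟩ := hne0 c hc
          subst hβ
          rw [Ring.inverse_unit, ← Units.val_mul, Ring.inverse_unit, ← Units.val_mul, mul_inv_rev,
            inv_inv, mul_inv_cancel_left]
        · obtain ⟨s, hs⟩ := isUnit_resM (sub_ne_zero.mpr (Finset.ne_of_mem_erase ht))
          subst hβ
          have hu' : IsUnit ((β : ResM v 1) * Ring.inverse (t - 1)) := by
            rw [← hs, Ring.inverse_unit, ← Units.val_mul]; exact Units.isUnit _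
          show Ring.inverse _ * ((β : ResM v 1) + (β : ResM v 1) * Ring.inverse (t - 1)) = t
          rw [mul_add, Ring.inverse_mul_cancel _ hu', ← hs, Ring.inverse_unit, ← Units.val_mul,
            Ring.inverse_unit, ← Units.val_mul, mul_inv_rev, inv_inv, mul_assoc, inv_mul_cancel,
            mul_one, hs, sub_add_cancel]
    have h2 : ∑ b, (∑ c, χ (Ring.inverse c) * χ (b + c)) • polarTr ϖ b y = 0 := by
      simp only [Finset.sum_smul]
      rw [Finset.sum_comm]
      refine Finset.sum_eq_zero fun c _ => ?_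
      rw [← smul_zero (χ (Ring.inverse c)), ← hc c, Finset.smul_sum]
      refine Fintype.sum_equiv (Equiv.addRight c) _ _ fun b => ?_
      rw [Equiv.coe_addRight, smul_smul, add_sub_cancel_right]
    simp only [hk, sub_smul, one_smul, Finset.sum_sub_distrib, ite_smul, zero_smul,
      Finset.sum_ite_eq', Finset.mem_univ, if_true, polarTr_zero hϖ hy] at h2
    exact sub_eq_zero.mp h2

end Fermat.Agent.ResidualThree.BianchiForm
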